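import Fermat.Agent.S18.DimRed
import Fermat.Agent.S18.Gauss

/-!
# S33, piece INT: Gauss-integral functions which are integral over `K[x]` have `t`-expansions in `A((t))`

`f ∈ V` (Gauss valuation ring) only means `f = Y₁ / Y₂`, `Y_i ∈ A((t))`, `Ȳ₂ ≠ 0`.  A rank one valuation ring is completely
integrally closed, hence so is `A((t))`:  if `c ≠ 0` and `c e^n ∈ A((t))` for all `n` then `e ∈ A((t))`.
-/

set_option autoImplicit false

namespace Fermat.Agent.S33

open Polynomial IntermediateField ModularCurve HahnSeries Fermat.Agent.S18 Fermat.Agent.S24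
  Fermat.Agent.S28

section Abs

variable {K : Type*} [Field K] (A : ValuationSubring K)

/-- the subring `A((t))` of `K((t))`. -/
noncomputable def intSub : Subring (LaurentSeries K) := (coeffMap A.subtype).range

/-- a series with coefficients in `A`, as a series over `A`. -/
noncomputable def liftA (f : LaurentSeries K) (h : ∀ m, f.coeff m ∈ A) : LaurentSeries A where
  coeff m := ⟨f.coeff m, h m⟩
  isPWO_support' := f.isPWO_support.mono fun m hm => by
    rw [Function.mem_support] at hm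
    rw [HahnSeries.mem_support]
    intro h0
    exact hm (Subtype.ext h0)

theorem coeffMap_liftA (f : LaurentSeries K) (h : ∀ m, f.coeff m ∈ A) :
    coeffMap A.subtype (liftA A f h) = f := by
  ext m
  rfl

variable {A}

theorem mem_intSub_iff {f : LaurentSeries K} : f ∈ intSub A ↔ ∀ m, f.coeff m ∈ A := by
  constructor
  · rintro ⟨Y, rfl⟩ m
    rw [coeffMap_coeff]
    exact (Y.coeff m).2
  · intro h
    exact ⟨liftA A f h, coeffMap_liftA A f h⟩

theorem coeffMap_mem_intSub (Y : LaurentSeries A) : coeffMap A.subtype Y ∈ intSub A := ⟨Y, rfl⟩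

theorem C_mem_intSub {a : K} (ha : a ∈ A) : (HahnSeries.C a : LaurentSeries K) ∈ intSub A :=
  ⟨HahnSeries.C ⟨a, ha⟩, by rw [coeffMap_C]; rfl⟩

theorem leadingCoeff_pow' (x : LaurentSeries K) (n : ℕ) :
    (x ^ n).leadingCoeff = x.leadingCoeff ^ n := by
  induction n with
  | zero => simp
  | succ k ih => rw [pow_succ, HahnSeries.leadingCoeff_mul, ih, pow_succ]

/-- **`A((t))` is completely integrally closed** (`A` of rank one). -/
theorem ai_coeff_mem (arch : ∀ c ∈ A, c⁻¹ ∉ A → ∀ d : K, d ≠ 0 → ∃ n : ℕ, c ^ n * d⁻¹ ∈ A)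
    {c e : LaurentSeries K} (hc : c ≠ 0) (h : ∀ n : ℕ, c * e ^ n ∈ intSub A) : e ∈ intSub A := by
  classical
  rw [mem_intSub_iff]
  by_contra hcon
  rw [not_forall] at hcon
  -- the least bad index
  obtain ⟨m, hm, hmin⟩ : ∃ m : ℤ, e.coeff m ∉ A ∧ ∀ z : ℤ, e.coeff z ∉ A → m ≤ z := by
    refine Int.exists_least_of_bdd (P := fun z => e.coeff z ∉ A) ⟨e.order, fun z hz => ?_⟩ hcon
    by_contra hlt
    rw [not_le] at hlt
    exact hz (by rw [coeff_eq_zero_of_lt_order hlt]; exact zero_mem A)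
  -- the tail
  let e' : LaurentSeries K := HahnSeries.ofSuppBddBelow (fun n => if n < m then 0 else e.coeff n)
    ⟨m, fun n hn => by
      by_contra hlt
      rw [not_le] at hlt
      exact hn (if_pos hlt)⟩
  have he'c : ∀ n, e'.coeff n = if n < m then 0 else e.coeff n := fun _ => rfl
  have hP : e - e' ∈ intSub A := by
    rw [mem_intSub_iff]
    intro n
    rw [HahnSeries.coeff_sub, he'c]
    split_ifs with hn
    · rw [sub_zero]
      by_contra hbad
      exact absurd (hmin n hbad) (not_le.mpr hn)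
    · rw [sub_self]; exact zero_mem A
  have hm0 : e.coeff m ≠ 0 := fun h0 => hm (by rw [h0]; exact zero_mem A)
  have he'm : e'.coeff m = e.coeff m := by rw [he'c, if_neg (lt_irrefl m)]
  have he'0 : e' ≠ 0 := by
    intro h0
    rw [h0, HahnSeries.coeff_zero] at he'm
    exact hm0 he'm.symm
  have hord : e'.order = m := by
    apply le_antisymm
    · exact order_le_of_coeff_ne_zero (by rw [he'm]; exact hm0)
    · by_contra hlt
      rw [not_le] at hlt
      have h1 : e'.coeff e'.order = 0 := by rw [he'c, if_pos hlt]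
      exact he'0 (coeff_order_eq_zero.mp h1)
  have hlead : e'.leadingCoeff = e.coeff m := by rw [leadingCoeff_eq, hord, he'm]
  -- `c e'^n ∈ A((t))`
  have hall : ∀ n : ℕ, c * e' ^ n ∈ intSub A := by
    intro n
    have h1 : e' = e + -(e - e') := by ring
    rw [h1, add_pow, Finset.mul_sum]
    refine sum_mem fun j _ => ?_
    have h2 : c * (e ^ j * (-(e - e')) ^ (n - j) * ((n.choose j : ℕ) : LaurentSeries K)) =
        c * e ^ j * (-(e - e')) ^ (n - j) * ((n.choose j : ℕ) : LaurentSeries K) := by ring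
    rw [h2]
    exact mul_mem (mul_mem (h j) (pow_mem (neg_mem hP) _)) (natCast_mem _ _)
  have hd : ∀ n : ℕ, c.leadingCoeff * e.coeff m ^ n ∈ A := by
    intro n
    have h1 := mem_intSub_iff.mp (hall n) (c * e' ^ n).order
    rwa [← leadingCoeff_eq, HahnSeries.leadingCoeff_mul, leadingCoeff_pow', hlead] at h1
  have hd0 : c.leadingCoeff ≠ 0 := leadingCoeff_ne_zero.mpr hc
  have hinv : (e.coeff m)⁻¹ ∈ A := (A.mem_or_inv_mem _).resolve_left hm
  obtain ⟨n, hn⟩ := arch (e.coeff m)⁻¹ hinv (by rwa [inv_inv]) (c.leadingCoeff * (e.coeff m)⁻¹)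
    (mul_ne_zero hd0 (inv_ne_zero hm0))
  apply hm
  have h3 := mul_mem hn (hd n)
  have h4 : (e.coeff m)⁻¹ ^ n * (c.leadingCoeff * (e.coeff m)⁻¹)⁻¹ *
      (c.leadingCoeff * e.coeff m ^ n) = e.coeff m := by
    rw [inv_pow, mul_inv, inv_inv]
    have hpn : e.coeff m ^ n ≠ 0 := pow_ne_zero _ hm0
    field_simp
  rwa [h4] at h3

/-- series without terms of degree `< w`. -/
def geSub (K : Type*) [Field K] (w : ℤ) : AddSubgroup (LaurentSeries K) where
  carrier := {f | ∀ m < w, f.coeff m = 0}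
  add_mem' := fun {f g} hf hg m hm => by rw [HahnSeries.coeff_add, hf m hm, hg m hm, add_zero]
  zero_mem' := fun _ _ => rfl
  neg_mem' := fun {f} hf m hm => by rw [HahnSeries.coeff_neg, hf m hm, neg_zero]

theorem mem_geSub {w : ℤ} {f : LaurentSeries K} : f ∈ geSub K w ↔ ∀ m < w, f.coeff m = 0 := Iff.rfl

theorem mul_mem_geSub {v w : ℤ} {f g : LaurentSeries K} (hf : f ∈ geSub K v) (hg : g ∈ geSub K w) :
    f * g ∈ geSub K (v + w) := by
  intro m hm
  rw [HahnSeries.coeff_mul]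
  refine Finset.sum_eq_zero fun ij hij => ?_
  rw [Finset.mem_antidiagonal] at hij
  by_cases h1 : ij.1 < v
  · rw [hf _ h1, zero_mul]
  · have h2 : ij.2 < w := by have := hij.2.2; omega
    rw [hg _ h2, mul_zero]

theorem one_mem_geSub : (1 : LaurentSeries K) ∈ geSub K 0 := by
  intro m hm
  rw [HahnSeries.coeff_one, if_neg hm.ne]

theorem pow_mem_geSub {f : LaurentSeries K} (hf : f ∈ geSub K 0) (n : ℕ) : f ^ n ∈ geSub K 0 := by
  induction n with
  | zero => rw [pow_zero]; exact one_mem_geSub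
  | succ k ih =>
    rw [pow_succ]
    have := mul_mem_geSub ih hf
    rwa [add_zero] at this

theorem C_mem_geSub (a : K) : (HahnSeries.C a : LaurentSeries K) ∈ geSub K 0 := by
  intro m hm
  rw [HahnSeries.C_apply, HahnSeries.coeff_single_of_ne hm.ne]

/-- `K[[t]]` is completely integrally closed in `K((t))`. -/
theorem ai_ge {c e : LaurentSeries K} (hc : c ≠ 0) {w : ℤ} (h : ∀ n : ℕ, c * e ^ n ∈ geSub K w) :
    e ∈ geSub K 0 := by
  by_cases he : e = 0
  · rw [he]; exact zero_mem _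
  have hord : 0 ≤ e.order := by
    by_contra hlt
    rw [not_le] at hlt
    -- choose `n` with `order c + n order e < w`
    obtain ⟨n, hn⟩ : ∃ n : ℕ, c.order + n * e.order < w := by
      refine ⟨(c.order - w).toNat + 1, ?_⟩
      have h1 : (c.order - w) ≤ ((c.order - w).toNat : ℤ) := Int.self_le_toNat _
      push_cast
      nlinarith
    have h1 : (c * e ^ n).order = c.order + n * e.order := by
      rw [HahnSeries.order_mul hc (pow_ne_zero _ he), HahnSeries.order_pow, nsmul_eq_mul]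
    have h2 := h n (c * e ^ n).order (by rw [h1]; exact hn)
    exact mul_ne_zero hc (pow_ne_zero _ he) (coeff_order_eq_zero.mp h2)
  intro m hm
  exact coeff_eq_zero_of_lt_order (lt_of_lt_of_le hm hord)

/-- a series without negative terms is a power series. -/
theorem exists_powerSeries_of_mem_geSub {f : LaurentSeries K} (hf : f ∈ geSub K 0) :
    HahnSeries.ofPowerSeries ℤ K (PowerSeries.mk fun n => f.coeff n) = f := by
  ext m
  have h1 := PowerSeries.coeff_coe (PowerSeries.mk fun n : ℕ => f.coeff n) m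
  refine Eq.trans h1 ?_
  split_ifs with hm
  · exact (hf m hm).symm
  · rw [PowerSeries.coeff_mk]
    congr 1
    omega

theorem aeval_mem_intSub {y : LaurentSeries K} (hy : y ∈ intSub A) {p : K[X]}
    (hp : ∀ n, p.coeff n ∈ A) : aeval y p ∈ intSub A := by
  rw [aeval_eq_sum_range]
  refine sum_mem fun i _ => ?_
  rw [Algebra.smul_def, Fermat.Agent.S28.algebraMap_eq_C]
  exact mul_mem (C_mem_intSub (hp i)) (pow_mem hy i)

theorem aeval_mem_geSub {y : LaurentSeries K} (hy : y ∈ geSub K 0) (p : K[X]) :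
    aeval y p ∈ geSub K 0 := by
  rw [aeval_eq_sum_range]
  refine sum_mem fun i _ => ?_
  rw [Algebra.smul_def, Fermat.Agent.S28.algebraMap_eq_C]
  have := mul_mem_geSub (C_mem_geSub (p.coeff i)) (pow_mem_geSub hy i)
  rwa [add_zero] at this

end Abs

section Gauss

variable {A : ValuationSubring Kb}

theorem coeffMap_subtype_ne_zero {Y : LaurentSeries A}
    (h0 : coeffMap (IsLocalRing.residue A) Y ≠ 0) : coeffMap A.subtype Y ≠ 0 := by
  intro h
  apply h0
  have : Y = 0 := by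
    apply coeffMap_injective A.subtype A.subtype_injective
    rw [h, map_zero]
  rw [this, map_zero]

/-- `f ∈ V`, `f^n ∈ A((t))` ⟹ `f ∈ A((t))`. -/
theorem int_of_pow (arch : ∀ c ∈ A, c⁻¹ ∉ A → ∀ d : Kb, d ≠ 0 → ∃ n : ℕ, c ^ n * d⁻¹ ∈ A)
    {f : LaurentSeries Kb} (hf : gsMem A f) {n : ℕ} (hn : 0 < n) (hfn : f ^ n ∈ intSub A) :
    f ∈ intSub A := by
  obtain ⟨Y₁, Y₂, h0, h⟩ := hf
  refine ai_coeff_mem arch (c := coeffMap A.subtype Y₂ ^ (n - 1))
    (pow_ne_zero _ (coeffMap_subtype_ne_zero h0)) fun N => ?_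
  have hN : f ^ N = (f ^ n) ^ (N / n) * f ^ (N % n) := by
    rw [← pow_mul, ← _root_.pow_add, Nat.div_add_mod]
  have hr : N % n ≤ n - 1 := by have := Nat.mod_lt N hn; omega
  have h1 : coeffMap A.subtype Y₂ ^ (n - 1) =
      coeffMap A.subtype Y₂ ^ (n - 1 - N % n) * coeffMap A.subtype Y₂ ^ (N % n) := by
    rw [← _root_.pow_add]; congr 1; omega
  have h2 : coeffMap A.subtype Y₂ ^ (n - 1) * f ^ N = (f ^ n) ^ (N / n) *
      (coeffMap A.subtype Y₂ ^ (n - 1 - N % n) * (f * coeffMap A.subtype Y₂) ^ (N % n)) := by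
    rw [hN, h1, mul_pow]; ring
  rw [h2, h]
  exact mul_mem (pow_mem hfn _)
    (mul_mem (pow_mem (coeffMap_mem_intSub _) _) (pow_mem (coeffMap_mem_intSub _) _))

variable {N : ℕ} (S : RedSetting Kb (FN N) (kA A) (modularFunctionFieldFullC (kA A) N))

theorem coe_aeval_FN (x : FN N) (p : Kb[X]) :
    ((aeval x p : FN N) : LaurentSeries Kb) = aeval (x : LaurentSeries Kb) p :=
  (Polynomial.aeval_algHom_apply (FN N).val x p).symm

/-- the key relation: `c h^n = ∑ p_{n,i}(x) W_i`, `p_{n,i} ∈ A[X]`, `W_i ∈ A((t))`. -/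
theorem int_key (hS : IsGauss A N S) {x : FN N} (hx : S.Coord x) {h : FN N} (hV : h ∈ S.V)
    (hint : h ∈ intRing Kb x) :
    ∃ (q : Kb[X]) (D : LaurentSeries Kb) (W : Fin (Module.finrank Kb⟮x⟯ (FN N)) → LaurentSeries Kb),
      (∀ n, q.coeff n ∈ A) ∧ q ≠ 0 ∧ D ∈ intSub A ∧ D ≠ 0 ∧ (∀ i, W i ∈ intSub A) ∧
      ∀ n : ℕ, ∃ p : Fin (Module.finrank Kb⟮x⟯ (FN N)) → Kb[X], (∀ i m, (p i).coeff m ∈ A) ∧
        aeval (x : LaurentSeries Kb) q * D * (h : LaurentSeries Kb) ^ n =
          ∑ i, aeval (x : LaurentSeries Kb) (p i) * W i := by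
  classical
  obtain ⟨e, he, hind⟩ := S.exists_frame hx
  have hint' : IsIntegral (polyRing Kb x) h := hint
  obtain ⟨G, hG⟩ := hint'.fg_adjoin_singleton
  obtain ⟨q, hqA, hq0, hq⟩ := S.exists_common_denom hx e he hind G
  have hall : ∀ y ∈ Submodule.span (polyRing Kb x) (G : Set (FN N)),
      ∃ p : Fin (Module.finrank Kb⟮x⟯ (FN N)) → Kb[X],
        aeval x q * y = ∑ i, aeval x (p i) * e i := by
    intro y hy
    induction hy using Submodule.span_induction with
    | mem y hy => exact hq y hy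
    | zero => exact ⟨0, by simp⟩
    | add y z _ _ hy hz =>
      obtain ⟨p, hp⟩ := hy
      obtain ⟨p', hp'⟩ := hz
      exact ⟨p + p', by simp [mul_add, hp, hp', add_mul, Finset.sum_add_distrib]⟩
    | smul r y _ hy =>
      obtain ⟨p, hp⟩ := hy
      obtain ⟨r', hr'⟩ : ∃ r' : Kb[X], aeval x r' = (r : FN N) := by
        exact mem_polyRing_iff.mp r.2
      refine ⟨fun i => r' * p i, ?_⟩
      rw [RedSetting.sum_aeval_C_mul, ← hp, hr']
      change aeval x q * ((r : FN N) * y) = _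
      ring
  have hpow : ∀ n : ℕ, ∃ p : Fin (Module.finrank Kb⟮x⟯ (FN N)) → Kb[X],
      aeval x q * h ^ n = ∑ i, aeval x (p i) * e i := fun n => hall _ (by
    rw [hG, Subalgebra.mem_toSubmodule]
    exact pow_mem (Algebra.self_mem_adjoin_singleton _ _) n)
  choose Y₁ Y₂ hY0 hY using fun i => (hS.mem_iff (e i)).mp (he i)
  have hSA : ∀ c : Kb, c ∈ S.A ↔ c ∈ A := fun c => by rw [hS.hA]
  refine ⟨q, ∏ i, coeffMap A.subtype (Y₂ i),
    fun i => coeffMap A.subtype (Y₁ i) * ∏ j ∈ Finset.univ.erase i, coeffMap A.subtype (Y₂ j),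
    fun n => (hSA _).mp (hqA n), ?_, prod_mem fun i _ => coeffMap_mem_intSub _,
    Finset.prod_ne_zero_iff.mpr fun i _ => coeffMap_subtype_ne_zero (hY0 i),
    fun i => mul_mem (coeffMap_mem_intSub _) (prod_mem fun j _ => coeffMap_mem_intSub _), ?_⟩
  · rintro rfl
    apply hq0
    ext n
    rw [S.coeff_rp, Polynomial.coeff_zero, Polynomial.coeff_zero, S.rc_zero]
  · intro n
    obtain ⟨p, hp⟩ := hpow n
    have hmem : ∑ i, aeval x (p i) * e i ∈ S.V := by
      rw [← hp]
      exact mul_mem (S.aeval_mem hx.mem hqA) (pow_mem hV n)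
    have hpA := S.coeff_mem_of_sum_mem hx.mem e he hind p hmem
    refine ⟨p, fun i m => (hSA _).mp (hpA i m), ?_⟩
    have hp' := congrArg (fun z : FN N => (z : LaurentSeries Kb)) hp
    simp only [MulMemClass.coe_mul, SubmonoidClass.coe_pow, AddSubmonoidClass.coe_finsetSum,
      coe_aeval_FN] at hp'
    have h1 : aeval (x : LaurentSeries Kb) q * (∏ i, coeffMap A.subtype (Y₂ i)) *
        (h : LaurentSeries Kb) ^ n = (aeval (x : LaurentSeries Kb) q * (h : LaurentSeries Kb) ^ n) *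
        ∏ i, coeffMap A.subtype (Y₂ i) := by ring
    rw [h1, hp', Finset.sum_mul]
    refine Finset.sum_congr rfl fun i _ => ?_
    rw [← Finset.mul_prod_erase Finset.univ _ (Finset.mem_univ i)]
    show _ = aeval (x : LaurentSeries Kb) (p i) * (coeffMap A.subtype (Y₁ i) *
      ∏ j ∈ Finset.univ.erase i, coeffMap A.subtype (Y₂ j))
    rw [← hY i]
    ring

theorem int_c_ne_zero {x : FN N} (hx : S.Coord x) {q : Kb[X]} (hq : q ≠ 0) :
    aeval (x : LaurentSeries Kb) q ≠ 0 := by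
  have htr : Transcendental Kb x := S.transcendental_of_rd hx.mem hx.trans
  intro h0
  rw [← coe_aeval_FN] at h0
  have h1 : aeval x q = 0 := Subtype.ext h0
  exact hq (transcendental_iff.mp htr q h1)

/-- **INT.** `h ∈ V` integral over `K[x]`, `x ∈ A((t))` ⟹ `h ∈ A((t))`. -/
theorem int_of_mem_intRing
    (arch : ∀ c ∈ A, c⁻¹ ∉ A → ∀ d : Kb, d ≠ 0 → ∃ n : ℕ, c ^ n * d⁻¹ ∈ A)
    (hS : IsGauss A N S) {x : FN N} (hx : S.Coord x) (hX : (x : LaurentSeries Kb) ∈ intSub A)
    {h : FN N} (hV : h ∈ S.V) (hint : h ∈ intRing Kb x) : (h : LaurentSeries Kb) ∈ intSub A := by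
  obtain ⟨q, D, W, hqA, hq0, hD, hD0, hW, hrel⟩ := int_key S hS hx hV hint
  refine ai_coeff_mem arch (mul_ne_zero (int_c_ne_zero S hx hq0) hD0) fun n => ?_
  obtain ⟨p, hpA, hp⟩ := hrel n
  rw [hp]
  exact sum_mem fun i _ => mul_mem (aeval_mem_intSub hX (hpA i)) (hW i)

/-- `h` integral over `K[x]`, `x ∈ K[[t]]` ⟹ `h ∈ K[[t]]`. -/
theorem ge_of_mem_intRing (hS : IsGauss A N S) {x : FN N} (hx : S.Coord x)
    (hX : (x : LaurentSeries Kb) ∈ geSub Kb 0)
    {h : FN N} (hV : h ∈ S.V) (hint : h ∈ intRing Kb x) : (h : LaurentSeries Kb) ∈ geSub Kb 0 := by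
  classical
  obtain ⟨q, D, W, hqA, hq0, hD, hD0, hW, hrel⟩ := int_key S hS hx hV hint
  obtain ⟨w', hw⟩ := (Finset.univ.image fun i => -(W i).order).exists_le
  obtain ⟨w, rfl⟩ : ∃ w, w' = -w := ⟨-w', (neg_neg _).symm⟩
  have hWw : ∀ i, W i ∈ geSub Kb w := fun i m hm =>
    coeff_eq_zero_of_lt_order (lt_of_lt_of_le hm
      (neg_le_neg_iff.mp (hw _ (Finset.mem_image_of_mem _ (Finset.mem_univ i)))))
  refine ai_ge (w := w) (mul_ne_zero (int_c_ne_zero S hx hq0) hD0) fun n => ?_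
  obtain ⟨p, hpA, hp⟩ := hrel n
  rw [hp]
  refine sum_mem fun i _ => ?_
  have := mul_mem_geSub (aeval_mem_geSub hX (p i)) (hWw i)
  rwa [zero_add] at this

/-- the reduction of an element of `V ∩ A((t))` is the coefficientwise reduction. -/
theorem rd_of_mem_intSub (hS : IsGauss A N S) {h : FN N} (H : LaurentSeries A)
    (hH : (h : LaurentSeries Kb) = coeffMap A.subtype H) :
    h ∈ S.V ∧ ((S.rd h : modularFunctionFieldFullC (kA A) N) : LaurentSeries (kA A)) =
      coeffMap (IsLocalRing.residue A) H := by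
  have hY2 : coeffMap (IsLocalRing.residue A) (1 : LaurentSeries A) ≠ 0 := by
    rw [map_one]; exact one_ne_zero
  have hY : (h : LaurentSeries Kb) * coeffMap A.subtype (1 : LaurentSeries A)
      = coeffMap A.subtype H := by rw [map_one, mul_one, hH]
  refine ⟨(hS.mem_iff h).2 ⟨_, 1, hY2, hY⟩, ?_⟩
  have := hS.rd_mul h _ 1 hY2 hY
  rwa [map_one, mul_one] at this

/-- **INT**, packaged for `LaurentSeries A`. -/
theorem int_main
    (arch : ∀ c ∈ A, c⁻¹ ∉ A → ∀ d : Kb, d ≠ 0 → ∃ n : ℕ, c ^ n * d⁻¹ ∈ A)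
    (hS : IsGauss A N S) {x : FN N} (hx : S.Coord x) (hX : (x : LaurentSeries Kb) ∈ intSub A)
    {h : FN N} (hV : h ∈ S.V) (hint : h ∈ intRing Kb x) :
    ∃ H : LaurentSeries A, (h : LaurentSeries Kb) = coeffMap A.subtype H ∧
      ((S.rd h : modularFunctionFieldFullC (kA A) N) : LaurentSeries (kA A)) =
        coeffMap (IsLocalRing.residue A) H := by
  obtain ⟨H, hH⟩ := int_of_mem_intRing S arch hS hx hX hV hint
  exact ⟨H, hH.symm, (rd_of_mem_intSub S hS H hH.symm).2⟩

/-- **INT**, packaged for power series (the shape of `L3.tpLocal`). -/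
theorem int_powerSeries
    (arch : ∀ c ∈ A, c⁻¹ ∉ A → ∀ d : Kb, d ≠ 0 → ∃ n : ℕ, c ^ n * d⁻¹ ∈ A)
    (hS : IsGauss A N S) {x : FN N} (hx : S.Coord x) (hX : (x : LaurentSeries Kb) ∈ intSub A)
    (hX0 : (x : LaurentSeries Kb) ∈ geSub Kb 0)
    {h : FN N} (hV : h ∈ S.V) (hint : h ∈ intRing Kb x) :
    ∃ H : PowerSeries Kb, (h : LaurentSeries Kb) = HahnSeries.ofPowerSeries ℤ Kb H ∧
      ∃ hA : ∀ n, PowerSeries.coeff n H ∈ A,
      (∀ n : ℕ, ((S.rd h : modularFunctionFieldFullC (kA A) N) : LaurentSeries (kA A)).coeff n =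
        IsLocalRing.residue A ⟨PowerSeries.coeff n H, hA n⟩) ∧
      ∀ m : ℤ, m < 0 →
        ((S.rd h : modularFunctionFieldFullC (kA A) N) : LaurentSeries (kA A)).coeff m = 0 := by
  obtain ⟨H, hH, hrd⟩ := int_main S arch hS hx hX hV hint
  have hge := ge_of_mem_intRing S hS hx hX0 hV hint
  refine ⟨PowerSeries.mk fun n => (h : LaurentSeries Kb).coeff n,
    (exists_powerSeries_of_mem_geSub hge).symm, fun n => ?_, fun n => ?_, fun m hm => ?_⟩
  · rw [PowerSeries.coeff_mk, hH, coeffMap_coeff]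
    exact (H.coeff n).2
  · rw [hrd, coeffMap_coeff]
    congr 1
    apply Subtype.ext
    show A.subtype (H.coeff n) = PowerSeries.coeff n (PowerSeries.mk fun n => (h : LaurentSeries Kb).coeff n)
    rw [PowerSeries.coeff_mk, hH, coeffMap_coeff]
  · rw [hrd, coeffMap_coeff]
    have h1 : H.coeff m = 0 := by
      apply A.subtype_injective
      rw [← coeffMap_coeff, ← hH, hge m hm, map_zero]
    rw [h1, map_zero]

end Gauss

end Fermat.Agent.S33
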