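import Fermat.Agent.S33.F1Of
import Fermat.Agent.S33.Int

/-!
# S33, piece F1: `fixM` (official statement)
-/

set_option autoImplicit false

namespace Fermat.Agent.S33

open ModularCurve AlgebraicCurve HahnSeries Fermat.Agent.S24 Fermat.Agent.S28 Fermat.Agent.S18
  Fermat.Agent.GR Fermat.Agent.S34 Fermat.Agent.S35

/-- `t₂⁻¹ = t · (unit of ℤ[[t]])`. -/
theorem F1_t2_inv (N : ℕ) (hN : 2 ∣ N) : ∃ W : LaurentSeries ℤ, (∀ m < 0, W.coeff m = 0) ∧
    (((t2 N hN)⁻¹ : FN N) : LaurentSeries Kb) = coeffMap (Int.castRingHom Kb) W := by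
  obtain ⟨U, hU, hUe⟩ := tZ2_eq
  refine ⟨HahnSeries.single (1 : ℤ) 1 * HahnSeries.ofPowerSeries ℤ ℤ (U.invOfUnit 1), ?_, ?_⟩
  · intro m hm
    have h1 : m = (m - 1) + 1 := by ring
    rw [h1, HahnSeries.coeff_single_mul_add, one_mul]
    have h2 := PowerSeries.coeff_coe (U.invOfUnit 1) (m - 1)
    refine Eq.trans h2 ?_
    rw [if_pos (by omega)]
  · have hmul : tZ2 * (HahnSeries.single (1 : ℤ) 1 * HahnSeries.ofPowerSeries ℤ ℤ (U.invOfUnit 1)) = 1 := by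
      rw [hUe, mul_mul_mul_comm, HahnSeries.single_mul_single, ← map_mul,
        PowerSeries.mul_invOfUnit U 1 (by rw [hU]; rfl), map_one]
      norm_num
    have h2 : ((t2 N hN : FN N) : LaurentSeries Kb) *
        coeffMap (Int.castRingHom Kb)
          (HahnSeries.single (1 : ℤ) 1 * HahnSeries.ofPowerSeries ℤ ℤ (U.invOfUnit 1)) = 1 := by
      show coeffMap (Int.castRingHom Kb) tZ2 * _ = 1
      rw [← map_mul, hmul, map_one]
    show ((t2 N hN : FN N) : LaurentSeries Kb)⁻¹ = _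
    exact inv_eq_of_mul_eq_one_right h2

theorem F1_reg_of {A : ValuationSubring Kb} {M : ℕ} {e : FN M}
    (h1 : (e : LaurentSeries Kb) ∈ intSub A) (h2 : (e : LaurentSeries Kb) ∈ geSub Kb 0) : F1_Reg A e := by
  rw [mem_intSub_iff] at h1
  refine ⟨PowerSeries.mk fun n : ℕ => ⟨(e : LaurentSeries Kb).coeff n, h1 n⟩, ?_⟩
  ext m
  rw [coeffMap_coeff]
  have h3 := PowerSeries.coeff_coe
    (PowerSeries.mk fun n : ℕ => (⟨(e : LaurentSeries Kb).coeff n, h1 n⟩ : A)) m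
  have h4 : (HahnSeries.ofPowerSeries ℤ A
      (PowerSeries.mk fun n : ℕ => (⟨(e : LaurentSeries Kb).coeff n, h1 n⟩ : A))).coeff m =
      if m < 0 then 0 else PowerSeries.coeff m.natAbs
        (PowerSeries.mk fun n : ℕ => (⟨(e : LaurentSeries Kb).coeff n, h1 n⟩ : A)) := h3
  rw [h4]
  split_ifs with hm
  · rw [map_zero]; exact h2 m hm
  · rw [PowerSeries.coeff_mk]
    show _ = (e : LaurentSeries Kb).coeff (m.natAbs : ℤ)
    rw [Int.natAbs_of_nonneg (not_lt.1 hm)]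

/-- **INT_chart.** -/
theorem F1_chart {p N : ℕ} [NeZero N] (hp : p.Prime) (hp2 : p ≠ 2) (h4 : 4 ∣ N) (hpN : ¬ p ∣ N)
    {A : ValuationSubring Kb} (hA : A.LiesOverPrime p) (hN : (N : kA A) ≠ 0) (e : FN N)
    (he : e ∈ intRing Kb (t2 N (Dvd.dvd.trans (by norm_num) h4))⁻¹)
    (heV : e ∈ (gaussSetting A N hN).V) : F1_Reg A e := by
  have hS := isGauss_gaussSetting A N hN
  obtain ⟨hc, -, -⟩ := instA_odd A hp hA hp2 N h4 hpN (gaussSetting A N hN) hS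
  obtain ⟨W, hW0, hW⟩ := F1_t2_inv N (Dvd.dvd.trans (by norm_num) h4)
  have hX : (((t2 N (Dvd.dvd.trans (by norm_num) h4))⁻¹ : FN N) : LaurentSeries Kb) ∈ intSub A := by
    rw [mem_intSub_iff, hW]
    intro m
    rw [coeffMap_coeff]
    exact intCast_mem A _
  have hX0 : (((t2 N (Dvd.dvd.trans (by norm_num) h4))⁻¹ : FN N) : LaurentSeries Kb) ∈ geSub Kb 0 := by
    rw [hW]
    intro m hm
    rw [coeffMap_coeff, hW0 m hm, map_zero]
  exact F1_reg_of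
    (int_of_mem_intRing (gaussSetting A N hN) (arch_of_liesOver A hp hA) hS hc.inv hX heV he)
    (ge_of_mem_intRing (gaussSetting A N hN) hS hc.inv hX0 heV he)

/-- **F1** (official statement). -/
theorem fixM {p M₁ : ℕ} [NeZero p] [NeZero M₁] (hp : p.Prime) (hp2 : p ≠ 2) (h4 : 4 ∣ M₁)
    (hpM₁ : ¬ p ∣ M₁) {A : ValuationSubring Kb} (hA : A.LiesOverPrime p) {τ₀ : GQ}
    (hτ₀ : IsTau0 A p τ₀) {ζ : Kbˣ} (hζ : IsPrimitiveRoot ζ p) (y : FN M₁) (hy0 : y ≠ 0)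
    (hy : ∃ v : FN M₁, v ≠ 0 ∧ Red A ((y * v ^ p : FN M₁) : LaurentSeries Kb) 1)
    (hfix : ∃ v : FN M₁, galF M₁ τ₀ y = y * v ^ p) (hfin : TpFin p M₁ ζ y) :
    ∃ v : FN M₁, y = v ^ p := by
  have hN : (M₁ : kA A) ≠ 0 := fun h => hpM₁ ((hh_natCast_eq_zero_iff A hp hA M₁).1 h)
  exact fixM_of hp hp2 h4 hpM₁ hA hN (F1_chart hp hp2 h4 hpM₁ hA hN) hτ₀ hζ y hy0 hy hfix hfin

end Fermat.Agent.S33
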