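import Mathlib
import Fermat.Agent.S34.CoreDim2

/-!
# S33, piece A1 (CoreP): the first half of `S34.core_dim2`, valid for EVERY exponent `m > 0`
(in particular `m = p =` the residue characteristic).

If `u ≡ 1` and `u` is not a constant times an `m`-th power, then for every large `n` there are
`u₁ ∈ X_u(0,n) ∩ R`, `u₂ ∈ X_u(n,0) ∩ R` with `rd u₁ = rd u₂ = 1`, `u₁ - u₂ = c ψ`, `c ∈ 𝔪_A`, `c ≠ 0`,
`ψ ∈ R`, `rd ψ ∉ L̄(0,n) + L̄(n,0)`.
-/

set_option autoImplicit false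

namespace Fermat.Agent.S33

open Polynomial IntermediateField Fermat.Agent.S24 Fermat.Agent.S18 Fermat.Agent.S18.CoreDim Module
open Fermat.Agent.S34

variable {K F k E : Type*} [Field K] [Field F] [Algebra K F] [Field k] [CommRing E] [Algebra k E]

/-- The hypotheses of `S34.core_dim2` which do not involve `u`. -/
structure CoreHyp (S : RedCore K F k E) (x : F) (Lb : ℕ → ℕ → Submodule k E) : Prop where
  one_mem : ∀ a b, (1 : E) ∈ Lb a b
  inf_le : ∀ n, Lb 0 n ⊓ Lb n 0 ≤ Lb 0 0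
  sat : ∀ (n N : ℕ) (a1 a2 : E), a1 ∈ Lb 0 N → a2 ∈ Lb N 0 → a1 + a2 ∈ Lb n n →
      a1 ∈ Lb 0 n ∧ a2 ∈ Lb n 0
  hredL : ∀ (a b : ℕ) (f : F), f ∈ Lsp K x a b → f ∈ S.R → S.rd f ∈ Lb a b
  dimRed : ∀ W : Submodule K F, FiniteDimensional K W → finrank k (S.redSub W) = finrank K W
  const : ∀ h ∈ Lsp K x 0 0, ∃ c : K, h = algebraMap K F c
  constb : ∀ h ∈ Lb 0 0, ∃ c : k, h = algebraMap k E c
  fin : ∀ a b, FiniteDimensional K (Lsp K x a b)
  finb : ∀ a b, FiniteDimensional k (Lb a b)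
  good : ∃ n₀, ∀ n, n₀ ≤ n → finrank k (Lb 0 n) ≤ finrank K (Lsp K x 0 n) ∧
        finrank k (Lb n 0) ≤ finrank K (Lsp K x n 0)

/-- The hypotheses of `S34.core_dim2` on `u` (without `(m : k) ≠ 0`). -/
structure CoreHypU (S : RedCore K F k E) (x : F) (Lb : ℕ → ℕ → Submodule k E) (m : ℕ) (hm : 0 < m)
    (u : F) : Prop where
  u0 : u ≠ 0
  uR : u ∈ S.R
  u1 : S.rd u = 1
  hredX : ∀ (a b : ℕ) (f : F), f ∈ Xsp K x u m hm a b → f ∈ S.R → S.rd f ∈ Lb a b
  riem : ∃ n₁, ∀ n, n₁ ≤ n → finrank K (Lsp K x 0 n) ≤ finrank K (Xsp K x u m hm 0 n) ∧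
        finrank K (Lsp K x n 0) ≤ finrank K (Xsp K x u m hm n 0)

/-- The output of CoreP. -/
structure CoreOut (S : RedCore K F k E) (x : F) (Lb : ℕ → ℕ → Submodule k E) (m : ℕ) (hm : 0 < m)
    (u : F) (n : ℕ) (c : K) (u1 u2 ps : F) : Prop where
  cA : c ∈ S.A
  c0 : c ≠ 0
  cinv : c⁻¹ ∉ S.A
  u1X : u1 ∈ Xsp K x u m hm 0 n
  u2X : u2 ∈ Xsp K x u m hm n 0
  u1R : u1 ∈ S.R
  u2R : u2 ∈ S.R
  rd1 : S.rd u1 = 1
  rd2 : S.rd u2 = 1
  psR : ps ∈ S.R
  psX : ps ∈ Xsp K x u m hm 0 n ⊔ Xsp K x u m hm n 0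
  diff : u1 - u2 = algebraMap K F c * ps
  psn : S.rd ps ∉ Lb 0 n ⊔ Lb n 0
  psnn : S.rd ps ∈ Lb n n
  finX1 : FiniteDimensional K (Xsp K x u m hm 0 n)
  finX2 : FiniteDimensional K (Xsp K x u m hm n 0)
  red1 : S.redSub (Xsp K x u m hm 0 n) = Lb 0 n
  red2 : S.redSub (Xsp K x u m hm n 0) = Lb n 0
  inf : Xsp K x u m hm 0 n ⊓ Xsp K x u m hm n 0 = ⊥
  redL1 : S.redSub (Lsp K x 0 (m * n)) = Lb 0 (m * n)
  redL2 : S.redSub (Lsp K x (m * n) 0) = Lb (m * n) 0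
  redW : S.redSub (Lsp K x 0 (m * n) ⊔ Lsp K x (m * n) 0) = Lb 0 (m * n) ⊔ Lb (m * n) 0

/-- **A1 (CoreP).** -/
theorem coreP [Nontrivial E] (S : RedCore K F k E) {x : F} {Lb : ℕ → ℕ → Submodule k E}
    (H : CoreHyp S x Lb) {m : ℕ} (hm : 0 < m) {u : F} (HU : CoreHypU S x Lb m hm u)
    (hcon : ∀ h : F, h ≠ 0 → ∀ c : K, u * h ^ m ≠ algebraMap K F c) :
    ∃ N₀ : ℕ, ∀ n, N₀ ≤ n → ∃ (c : K) (u1 u2 ps : F), CoreOut S x Lb m hm u n c u1 u2 ps := by
  classical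
  obtain ⟨one_mem, inf_le, sat, hredL, dimRed, const, constb, fin, finb, good⟩ := H
  obtain ⟨hu, huV, hu1, hredX, riem⟩ := HU
  obtain ⟨n₀, hn₀⟩ := good
  obtain ⟨n₁, hn₁⟩ := riem
  refine ⟨max n₀ n₁, fun n hn => ?_⟩
  have hnn0 : n₀ ≤ n := le_trans (le_max_left _ _) hn
  have hnn1 : n₁ ≤ n := le_trans (le_max_right _ _) hn
  have hmn0 : n₀ ≤ m * n := le_trans hnn0 (Nat.le_mul_of_pos_left n hm)
  set V1 := Xsp K x u m hm 0 n with hV1
  set V2 := Xsp K x u m hm n 0 with hV2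
  have fV1 : FiniteDimensional K V1 := by
    have := fin (m * 0) (m * n)
    exact Xsp_finite hu
  have fV2 : FiniteDimensional K V2 := by
    have := fin (m * n) (m * 0)
    exact Xsp_finite hu
  -- `V1 ⊓ V2 = ⊥`
  have hinf : V1 ⊓ V2 = ⊥ := by
    rw [Submodule.eq_bot_iff]
    rintro f ⟨h1, h2⟩
    by_contra hf
    have h1' := (mem_Xsp.1 h1).1
    have h2' := (mem_Xsp.1 h2).2
    rw [Nat.mul_zero] at h1' h2'
    obtain ⟨c, hc⟩ := const _ (mem_Lsp.2 ⟨h1', h2'⟩)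
    exact hcon f hf c hc
  -- reductions of `V1`, `V2`
  have hR1le : S.redSub V1 ≤ Lb 0 n := by
    rintro _ ⟨f, hf, hfV, rfl⟩
    exact hredX _ _ _ hf hfV
  have hR2le : S.redSub V2 ≤ Lb n 0 := by
    rintro _ ⟨f, hf, hfV, rfl⟩
    exact hredX _ _ _ hf hfV
  have hR1 : S.redSub V1 = Lb 0 n := by
    have := finb 0 n
    apply Submodule.eq_of_le_of_finrank_le hR1le
    rw [dimRed V1 fV1]
    exact le_trans (hn₀ n hnn0).1 (hn₁ n hnn1).1
  have hR2 : S.redSub V2 = Lb n 0 := by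
    have := finb n 0
    apply Submodule.eq_of_le_of_finrank_le hR2le
    rw [dimRed V2 fV2]
    exact le_trans (hn₀ n hnn0).2 (hn₁ n hnn1).2
  have d1 : finrank k (Lb 0 n) = finrank K V1 := by rw [← hR1, dimRed V1 fV1]
  have d2 : finrank k (Lb n 0) = finrank K V2 := by rw [← hR2, dimRed V2 fV2]
  -- reductions of `L(0,mn)`, `L(mn,0)`
  have hB1 : S.redSub (Lsp K x 0 (m * n)) = Lb 0 (m * n) := by
    have := finb 0 (m * n)
    apply Submodule.eq_of_le_of_finrank_le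
    · rintro _ ⟨f, hf, hfV, rfl⟩
      exact hredL _ _ _ hf hfV
    · rw [dimRed _ (fin _ _)]
      exact (hn₀ _ hmn0).1
  have hB2 : S.redSub (Lsp K x (m * n) 0) = Lb (m * n) 0 := by
    have := finb (m * n) 0
    apply Submodule.eq_of_le_of_finrank_le
    · rintro _ ⟨f, hf, hfV, rfl⟩
      exact hredL _ _ _ hf hfV
    · rw [dimRed _ (fin _ _)]
      exact (hn₀ _ hmn0).2
  have b1 : finrank k (Lb 0 (m * n)) = finrank K (Lsp K x 0 (m * n)) := by
    rw [← hB1, dimRed _ (fin _ _)]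
  have b2 : finrank k (Lb (m * n) 0) = finrank K (Lsp K x (m * n) 0) := by
    rw [← hB2, dimRed _ (fin _ _)]
  -- the element `p`
  have hlt : finrank k ↥(Lb 0 n ⊔ Lb n 0) < finrank k ↥(S.redSub (V1 ⊔ V2)) := by
    rw [dimRed (V1 ⊔ V2) inferInstance]
    have e1 := Submodule.finrank_sup_add_finrank_inf_eq V1 V2
    rw [hinf, finrank_bot, add_zero] at e1
    have := finb 0 n
    have := finb n 0
    have e2 := Submodule.finrank_sup_add_finrank_inf_eq (Lb 0 n) (Lb n 0)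
    have e3 : 0 < finrank k ↥(Lb 0 n ⊓ Lb n 0) := by
      apply finrank_pos_iff_exists_ne_zero.2
      refine ⟨⟨1, one_mem _ _, one_mem _ _⟩, ?_⟩
      intro h
      exact one_ne_zero (congrArg Subtype.val h)
    omega
  have hnle : ¬ S.redSub (V1 ⊔ V2) ≤ Lb 0 n ⊔ Lb n 0 := by
    intro hle
    have := finb 0 n
    have := finb n 0
    exact absurd (Submodule.finrank_mono hle) (not_le.2 hlt)
  obtain ⟨pb, hpb, hpb'⟩ := SetLike.not_le_iff_exists.1 hnle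
  obtain ⟨p, hp, hpV, rfl⟩ := hpb
  have hpnn : S.rd p ∈ Lb n n :=
    hredX _ _ _ (sup_le (Xsp_mono (Nat.zero_le _) le_rfl) (Xsp_mono le_rfl (Nat.zero_le _)) hp) hpV
  obtain ⟨p1, hp1, p2, hp2, rfl⟩ := Submodule.mem_sup.1 hp
  have hp1V : p1 ∉ S.R := by
    intro h1
    have h2 : p2 ∈ S.R := by
      have := sub_mem hpV h1
      simpa using this
    apply hpb'
    rw [S.rd_add h1 h2]
    exact Submodule.add_mem_sup (hR1le ⟨p1, hp1, h1, rfl⟩) (hR2le ⟨p2, hp2, h2, rfl⟩)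
  have hp10 : p1 ≠ 0 := by
    rintro rfl
    exact hp1V (zero_mem _)
  obtain ⟨c, hc0, hcV, hy1ne⟩ := S.exists_scale hp10
  set C := algebraMap K F c with hC
  have hC0 : C ≠ 0 := by
    rw [hC]
    exact (_root_.map_ne_zero _).2 hc0
  obtain ⟨hcA, hcres⟩ := S.scale_small hp1V hc0 hcV
  have hCV : C ∈ S.R := S.map_mem _ hcA
  have hCrd : S.rd C = 0 := by
    rw [hC, S.rd_algebraMap hcA, hcres, map_zero]
  have hCp : S.rd (C * (p1 + p2)) = 0 := by rw [S.rd_mul hCV hpV, hCrd, zero_mul]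
  have hy2V : C * p2 ∈ S.R := by
    have := sub_mem (mul_mem hCV hpV) hcV
    have e : C * (p1 + p2) - C * p1 = C * p2 := by ring
    rwa [e] at this
  have hy2 : S.rd (C * p2) = - S.rd (C * p1) := by
    have e : C * p2 = C * (p1 + p2) - C * p1 := by ring
    rw [e, S.rd_sub (mul_mem hCV hpV) hcV, hCp, zero_sub]
  have hy1mem : C * p1 ∈ V1 := by
    have := V1.smul_mem c hp1
    rwa [Algebra.smul_def] at this
  have hy2mem : C * p2 ∈ V2 := by
    have := V2.smul_mem c hp2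
    rwa [Algebra.smul_def] at this
  have hy1R1 : S.rd (C * p1) ∈ Lb 0 n := hR1le ⟨_, hy1mem, hcV, rfl⟩
  have hy1R2 : S.rd (C * p1) ∈ Lb n 0 := by
    have : S.rd (C * p2) ∈ Lb n 0 := hR2le ⟨_, hy2mem, hy2V, rfl⟩
    rw [hy2] at this
    simpa using neg_mem this
  obtain ⟨e, he⟩ := constb _ (inf_le n ⟨hy1R1, hy1R2⟩)
  have he0 : e ≠ 0 := by
    rintro rfl
    rw [map_zero] at he
    exact hy1ne he
  obtain ⟨a, ha⟩ := S.resA_surj e⁻¹
  set Aa := algebraMap K F (a : K) with hAa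
  have hAaV : Aa ∈ S.R := S.map_mem _ a.2
  have hAard : S.rd Aa = algebraMap k E e⁻¹ := by
    rw [hAa, S.rd_algebraMap a.2]
    exact congrArg _ ha
  have ha0 : (a : K) ≠ 0 := by
    intro h0
    have : a = 0 := Subtype.ext h0
    rw [this, map_zero] at ha
    exact inv_ne_zero he0 ha.symm
  have hAa0 : Aa ≠ 0 := by
    rw [hAa]
    exact (_root_.map_ne_zero _).2 ha0
  set u1 := Aa * (C * p1) with hu1def
  set u2 := -(Aa * (C * p2)) with hu2def
  have hu1V : u1 ∈ S.R := mul_mem hAaV hcV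
  have hu2V : u2 ∈ S.R := neg_mem (mul_mem hAaV hy2V)
  have hee : algebraMap k E e⁻¹ * algebraMap k E e = 1 := by
    rw [← map_mul, inv_mul_cancel₀ he0, map_one]
  have hu1rd : S.rd u1 = 1 := by
    rw [hu1def, S.rd_mul hAaV hcV, hAard, he, hee]
  have hu2rd : S.rd u2 = 1 := by
    rw [hu2def, S.rd_neg (mul_mem hAaV hy2V), S.rd_mul hAaV hy2V, hAard, hy2, he, mul_neg, neg_neg,
      hee]
  have hu1mem : u1 ∈ V1 := by
    have := V1.smul_mem (a : K) hy1mem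
    rwa [Algebra.smul_def] at this
  have hu2mem : u2 ∈ V2 := by
    have := V2.smul_mem (a : K) hy2mem
    rw [Algebra.smul_def] at this
    exact neg_mem this
  set W := Lsp K x 0 (m * n) ⊔ Lsp K x (m * n) 0 with hW
  -- the reduction of `W`
  have hWeq : S.redSub W = Lb 0 (m * n) ⊔ Lb (m * n) 0 := by
    have hle : Lb 0 (m * n) ⊔ Lb (m * n) 0 ≤ S.redSub W :=
      sup_le (hB1 ▸ S.redSub_mono le_sup_left) (hB2 ▸ S.redSub_mono le_sup_right)
    have := finb (m * n) (m * n)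
    have := finb 0 (m * n)
    have := finb (m * n) 0
    have := fin 0 (m * n)
    have := fin (m * n) 0
    have hfinW : FiniteDimensional k (S.redSub W) := by
      apply Submodule.finiteDimensional_of_le (S₂ := Lb (m * n) (m * n))
      rintro _ ⟨f, hf, hfV, rfl⟩
      exact hredL _ _ _
        (sup_le (Lsp_mono (Nat.zero_le _) le_rfl) (Lsp_mono le_rfl (Nat.zero_le _)) hf) hfV
    refine (Submodule.eq_of_le_of_finrank_le hle ?_).symm
    rw [dimRed W inferInstance]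
    have e4 := Submodule.finrank_sup_add_finrank_inf_eq (Lsp K x 0 (m * n)) (Lsp K x (m * n) 0)
    rw [← hW] at e4
    have e5 := Submodule.finrank_sup_add_finrank_inf_eq (Lb 0 (m * n)) (Lb (m * n) 0)
    have e6 : 0 < finrank K ↥(Lsp K x 0 (m * n) ⊓ Lsp K x (m * n) 0) := by
      apply finrank_pos_iff_exists_ne_zero.2
      refine ⟨⟨1, one_mem_Lsp _ _ _, one_mem_Lsp _ _ _⟩, ?_⟩
      intro h
      exact one_ne_zero (congrArg Subtype.val h)
    have e7 : finrank k ↥(Lb 0 (m * n) ⊓ Lb (m * n) 0) ≤ 1 := by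
      have hle1 : Lb 0 (m * n) ⊓ Lb (m * n) 0 ≤ Submodule.span k {(1 : E)} := by
        intro f hf
        obtain ⟨c', hc'⟩ := constb f (inf_le _ hf)
        rw [Submodule.mem_span_singleton]
        exact ⟨c', by rw [hc', Algebra.smul_def, mul_one]⟩
      calc finrank k ↥(Lb 0 (m * n) ⊓ Lb (m * n) 0)
          ≤ finrank k ↥(Submodule.span k {(1 : E)}) := Submodule.finrank_mono hle1
        _ = 1 := finrank_span_singleton one_ne_zero
    omega
  have hacA : (a : K) * c ∈ S.A := S.A.mul_mem _ _ a.2 hcA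
  have hcinv : c⁻¹ ∉ S.A := by
    intro h
    apply hp1V
    have := mul_mem (S.map_mem _ h) hcV
    rwa [← mul_assoc, hC, ← map_mul, inv_mul_cancel₀ hc0, map_one, one_mul] at this
  refine ⟨(a : K) * c, u1, u2, p1 + p2, hacA, mul_ne_zero ha0 hc0, ?_, hu1mem, hu2mem, hu1V, hu2V,
    hu1rd, hu2rd, hpV, hp, ?_, hpb', hpnn, fV1, fV2, hR1, hR2, hinf, hB1, hB2, hWeq⟩
  · intro h
    apply hcinv
    have := S.A.mul_mem _ _ a.2 h
    rwa [mul_inv, ← mul_assoc, mul_inv_cancel₀ ha0, one_mul] at this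
  · rw [hu1def, hu2def, map_mul]; ring

end Fermat.Agent.S33
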