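import Fermat.Agent.GR.TowerAsm
import Fermat.Agent.S33.A1

/-!
# S33: the interfaces (definitions only, no sorry)

* `TorData 𝔗 P` : what the modular side (PROV) gives to the consumer (CONS) at a prime `P ∣ p`.
* `Triv`, `IsExact` : vocabulary of the abstract block A2 - A4.
* `TpFin` : the `T_p`-orbit of a Kummer class of level `M` (`p ∤ M`) is finite.
-/

set_option autoImplicit false

namespace Fermat.Agent.S33

open Fermat.Agent.GR Fermat.Agent.S24 Fermat.Agent.S34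

/-- what PROV provides at `P ∣ p`. -/
structure TorData {p N : ℕ} [NeZero N] (𝔗 : Tower p N) (P : ValuationSubring Qb) where
  L : ∀ n, AddSubgroup (𝔗.A n)
  L_dec : ∀ n (σ : GQ), σ ∈ P.decompositionSubgroup ℚ → ∀ x ∈ L n, 𝔗.act n σ x ∈ L n
  L_in : ∀ n (τ : GQ), τ ∈ P.inertiaSubgroupIn ℚ → ∀ x : 𝔗.A n, 𝔗.act n τ x - x ∈ L n
  τ₀ : GQ
  τ₀_mem : τ₀ ∈ P.inertiaSubgroupIn ℚ
  τ₀_ne : ∀ ζ : Qb, ζ ^ p = 1 → ζ ≠ 1 → τ₀ ζ ≠ ζ
  fix : ∀ n, ∀ x ∈ L n, 𝔗.act n τ₀ x = x → x = 0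

section abs

variable {K F k E : Type*} [Field K] [Field F] [Algebra K F] [Field k] [CommRing E] [Algebra k E]

/-- `u` is a `p`-th power up to a constant. -/
def Triv (K : Type*) {F : Type*} [Field K] [Field F] [Algebra K F] (u : F) (p : ℕ) : Prop :=
  ∃ h : F, h ≠ 0 ∧ ∃ c : K, u * h ^ p = algebraMap K F c

/-- `1 + b e` is an exact representative: `|p|^p < |b|^(p-1)` (i.e. `|λ|^p < |b|`), `|b| < 1`, `e` integral,
`rd e` not a `p`-th power in the residue ring. -/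
structure IsExact (S : RedCore K F k E) (p : ℕ) (b : K) (e : F) : Prop where
  lt_one : S.A.valuation b < 1
  gt : S.A.valuation (p : K) ^ p < S.A.valuation b ^ (p - 1)
  mem : e ∈ S.R
  not_pow : ∀ r : E, S.rd e ≠ r ^ p

end abs

/-- the `T_p`-orbit of the class of `y` in `F_M^× / p` consists of classes with `p ∣ div` and is finite. -/
def TpFin (p M : ℕ) [NeZero p] (ζ : Kbˣ) (y : FN M) : Prop :=
  ∃ s : ℕ → FN M, s 0 = y ∧ (∀ i, s i ≠ 0) ∧ (∀ i, DvdOrd M p (s i)) ∧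
    (∀ i, ∃ v : FN M, ((s (i + 1) : FN M) : LaurentSeries Kb) =
      Mop ζ p ((s i : FN M) : LaurentSeries Kb) * (v : LaurentSeries Kb) ^ p) ∧
    ∃ i j, i < j ∧ ∃ v : FN M, s j = s i * v ^ p

end Fermat.Agent.S33
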