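import Fermat.Agent.S33.A4
import Fermat.Agent.S33.Defs

/-!
# S33, piece A4b: the lemmas of `A4.lean` in the vocabulary of `Defs.lean` (`IsExact`, no `lam`)
-/

set_option autoImplicit false

namespace Fermat.Agent.S33

open Fermat.Agent.S34

variable {K F k E : Type*} [Field K] [Field F] [Algebra K F] [Field k] [CommRing E] [Algebra k E]
variable (S : RedCore K F k E)

/-- `|lam|^p < |b|  ↔  |p|^p < |b|^(p-1)` when `|lam|^(p-1) = |p|`. -/
theorem A4b_lam_iff {p : ℕ} (hp : p.Prime) {lam b : K}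
    (hlam : S.A.valuation lam ^ (p - 1) = S.A.valuation (p : K)) :
    S.A.valuation lam ^ p < S.A.valuation b ↔
      S.A.valuation (p : K) ^ p < S.A.valuation b ^ (p - 1) := by
  have h1 : p - 1 ≠ 0 := Nat.sub_ne_zero_of_lt hp.one_lt
  rw [← hlam, ← pow_mul, mul_comm, pow_mul]
  exact (pow_lt_pow_iff_left₀ zero_le zero_le h1).symm

theorem A4b_exists_lam [IsAlgClosed K] {p : ℕ} (hp : p.Prime) :
    ∃ lam : K, S.A.valuation lam ^ (p - 1) = S.A.valuation (p : K) := by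
  obtain ⟨lam, hlam⟩ := IsAlgClosed.exists_pow_nat_eq (p : K) (Nat.sub_pos_of_lt hp.one_lt)
  exact ⟨lam, by rw [← map_pow, hlam]⟩

theorem A4b_root [IsAlgClosed K] {p : ℕ} (hp : p.Prime) (a : K) : ∃ α : K, α ^ p = a :=
  IsAlgClosed.exists_pow_nat_eq a hp.pos

/-- an exact representative is not a `p`-th power up to a constant. -/
theorem IsExact.ne_mul_pow [IsAlgClosed K] {p : ℕ} (hp : p.Prime) [CharP k p] [IsReduced E]
    (hkp : ∀ c : k, ∃ d : k, d ^ p = c) {b : K} {e : F} (H : IsExact S p b e) (a : K) (f : F) :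
    1 + algebraMap K F b * e ≠ algebraMap K F a * f ^ p := by
  intro h
  obtain ⟨lam, hlam⟩ := A4b_exists_lam S hp
  obtain ⟨r, hr⟩ := P2b S p hp hkp (A4b_root hp) hlam ((A4b_lam_iff S hp hlam).2 H.gt) H.lt_one H.mem h
  exact H.not_pow r hr

/-- an exact representative is not `Triv`. -/
theorem IsExact.not_triv [IsAlgClosed K] {p : ℕ} (hp : p.Prime) [CharP k p] [IsReduced E]
    (hkp : ∀ c : k, ∃ d : k, d ^ p = c) {b : K} {e : F} (H : IsExact S p b e) :
    ¬ Triv K (1 + algebraMap K F b * e) p := by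
  rintro ⟨h, h0, c, hc⟩
  apply H.ne_mul_pow S hp hkp c h⁻¹
  rw [← hc, inv_pow, mul_assoc, mul_inv_cancel₀ (pow_ne_zero p h0), mul_one]

/-- the level of an exact representative is the largest one in its class. -/
theorem IsExact.level_le [IsAlgClosed K] {p : ℕ} (hp : p.Prime) [CharP k p] [IsReduced E]
    (hkp : ∀ c : k, ∃ d : k, d ^ p = c) {b₁ b₂ : K} {e₁ e₂ : F} (H : IsExact S p b₁ e₁)
    (he₂ : e₂ ∈ S.R) {a : K} {f : F}
    (h : 1 + algebraMap K F b₁ * e₁ = (1 + algebraMap K F b₂ * e₂) * (algebraMap K F a * f ^ p)) :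
    S.A.valuation b₁ ≤ S.A.valuation b₂ := by
  obtain ⟨lam, hlam⟩ := A4b_exists_lam S hp
  exact Fermat.Agent.S33.level_le S p hp hkp (A4b_root hp) hlam ((A4b_lam_iff S hp hlam).2 H.gt) H.lt_one
    H.mem he₂ (fun ⟨r, hr⟩ => H.not_pow r hr) h

/-- two exact representatives of one class have the same level. -/
theorem IsExact.level_eq [IsAlgClosed K] {p : ℕ} (hp : p.Prime) [CharP k p] [IsReduced E] [Nontrivial E]
    (hkp : ∀ c : k, ∃ d : k, d ^ p = c) {b₁ b₂ : K} {e₁ e₂ : F} (H₁ : IsExact S p b₁ e₁)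
    (H₂ : IsExact S p b₂ e₂) {a : K} {f : F}
    (h : 1 + algebraMap K F b₁ * e₁ = (1 + algebraMap K F b₂ * e₂) * (algebraMap K F a * f ^ p)) :
    S.A.valuation b₁ = S.A.valuation b₂ := by
  obtain ⟨lam, hlam⟩ := A4b_exists_lam S hp
  exact Fermat.Agent.S33.level_eq S p hp hkp (A4b_root hp) hlam ((A4b_lam_iff S hp hlam).2 H₁.gt) H₁.lt_one
    ((A4b_lam_iff S hp hlam).2 H₂.gt) H₂.lt_one H₁.mem H₂.mem (fun ⟨r, hr⟩ => H₁.not_pow r hr)
    (fun ⟨r, hr⟩ => H₂.not_pow r hr) h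

/-- if the leading term is a `p`-th power the level can be improved. -/
theorem A4b_improve [IsAlgClosed K] {p : ℕ} (hp : p.Prime) [Nontrivial E] {b : K}
    (hb1 : S.A.valuation b < 1) (hgt : S.A.valuation (p : K) ^ p < S.A.valuation b ^ (p - 1))
    {h g : F} (hh : h ∈ S.R) (hg : g ∈ S.R) (hrd : S.rd h = S.rd g ^ p) :
    ∃ (f : F) (b' : K) (y : F), f ∈ S.R ∧ S.rd f = 1 ∧ f ≠ 0 ∧ y ∈ S.R ∧
      S.A.valuation b' < S.A.valuation b ∧
      (1 + algebraMap K F b * h) * f ^ p = 1 + algebraMap K F b' * y := by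
  obtain ⟨lam, hlam⟩ := A4b_exists_lam S hp
  exact P2a S p hp (A4b_root hp) hlam ((A4b_lam_iff S hp hlam).2 hgt) hb1 hh hg hrd

/-- **the form used in F1**: if `1 + b₁ e₁` is exact and lies in the class of `1 + b h` with `rd h` a `p`-th power
(of a reduction), then `|b₁| < |b|`. -/
theorem IsExact.level_lt [IsAlgClosed K] {p : ℕ} (hp : p.Prime) [CharP k p] [IsReduced E] [Nontrivial E]
    (hkp : ∀ c : k, ∃ d : k, d ^ p = c) {b₁ b : K} {e₁ h g : F} (H : IsExact S p b₁ e₁)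
    (hb1 : S.A.valuation b < 1) (hgt : S.A.valuation (p : K) ^ p < S.A.valuation b ^ (p - 1))
    (hh : h ∈ S.R) (hg : g ∈ S.R) (hrd : S.rd h = S.rd g ^ p) {a : K} {f : F}
    (heq : 1 + algebraMap K F b₁ * e₁ = (1 + algebraMap K F b * h) * (algebraMap K F a * f ^ p)) :
    S.A.valuation b₁ < S.A.valuation b := by
  obtain ⟨f', b', y, -, -, hf'0, hyR, hlt, hy⟩ := A4b_improve S hp hb1 hgt hh hg hrd
  refine lt_of_le_of_lt (H.level_le S hp hkp hyR (a := a) (f := f * f'⁻¹) ?_) hlt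
  rw [← hy, heq, mul_pow, inv_pow]
  have : f' ^ p ≠ 0 := pow_ne_zero p hf'0
  field_simp

end Fermat.Agent.S33
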