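import Mathlib
import Fermat.Agent.S34.ToricKL
import Fermat.Agent.S33.A1

/-!
# S33, piece A5 (RootP): `p`-th roots in the charts of a `NodalZ`, `p` = the residue characteristic

* `A5_chart_root` : `r ^ p ∈ chart x → r ∈ chart x`;
* `A5_hroot`      : `r ^ p ∈ L̄(pa, pb) → r ∈ L̄(a, b)`;
* `A5_hredX`      : the hypothesis `hredX` of `core_dim2` / `CoreHypU` for `m = p`;
* `A5_coreHyp`, `A5_coreHypU` : the packages `CoreHyp`, `CoreHypU` of A1 for `S.core`, `S.Lbar x`.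
-/

set_option autoImplicit false

namespace Fermat.Agent.S33

open Polynomial IntermediateField Fermat.Agent.S24 Fermat.Agent.S18 Fermat.Agent.S18.CoreDim Module
open Fermat.Agent.S34 AlgebraicCurve

variable {K F k R : Type*} [Field K] [Field F] [Algebra K F] [Field k] [CommRing R] [Algebra k R]

/-- a polynomial in an element of the chart lies in the chart. -/
theorem A5_aeval_mem_chart (S : NSetting K F k R) {y : F} {g : R} (hg : g ∈ S.chart y) (P : k[X]) :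
    aeval g P ∈ S.chart y := by
  rw [← S.mem_core_redAlg] at hg ⊢
  have := Subalgebra.aeval_coe (S.core.redAlg (chartAlg K y)) ⟨g, hg⟩ P
  rw [this]
  exact Subtype.coe_prop _

/-- **the chart `x̄ ≠ ∞` of a `NodalZ` is closed under `p`-th roots.** -/
theorem A5_chart_root [IsAlgClosed k] {p : ℕ} [hp : Fact p.Prime] [CharP k p]
    {S : NSetting K F k R} {x : F} (Z : NodalZ S x) {r : R} (h : r ^ p ∈ S.chart x) :
    r ∈ S.chart x := by
  classical
  have hgC : r ^ p ∈ Z.C0 := Z.chart_le _ h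
  have hrC : r ∈ Z.C0 := Z.root0 r p hp.out.pos hgC
  choose ρ hρ using fun a : k => IsAlgClosed.exists_pow_nat_eq a hp.out.pos
  set vals : Finset k := Z.Ξ.image (fun ξ => ξ ⟨r ^ p, hgC⟩) with hvals
  set P : k[X] := Lagrange.interpolate vals id ρ with hP
  have hr'B : aeval (r ^ p) P ∈ S.chart x := A5_aeval_mem_chart S h P
  have hr'C : aeval (r ^ p) P ∈ Z.C0 := Z.chart_le _ hr'B
  have hdC : r - aeval (r ^ p) P ∈ Z.C0 := sub_mem hrC hr'C
  have hξ : ∀ ξ ∈ Z.Ξ, ξ ⟨r - aeval (r ^ p) P, hdC⟩ = 0 := by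
    intro ξ hξ
    have e1 : (⟨r - aeval (r ^ p) P, hdC⟩ : Z.C0) =
        ⟨r, hrC⟩ - aeval (⟨r ^ p, hgC⟩ : Z.C0) P := by
      apply Subtype.ext
      show r - aeval (r ^ p) P = r - ((aeval (⟨r ^ p, hgC⟩ : Z.C0) P : Z.C0) : R)
      rw [← Subalgebra.aeval_coe]
    have e2 : ξ (aeval (⟨r ^ p, hgC⟩ : Z.C0) P) = eval (ξ ⟨r ^ p, hgC⟩) P := by
      rw [← Polynomial.aeval_algHom_apply, Polynomial.coe_aeval_eq_eval]
    have e3 : eval (ξ ⟨r ^ p, hgC⟩) P = ρ (ξ ⟨r ^ p, hgC⟩) := by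
      have hmem : ξ ⟨r ^ p, hgC⟩ ∈ vals := Finset.mem_image_of_mem _ hξ
      exact Lagrange.eval_interpolate_at_node (s := vals) (v := id) ρ
        (Function.injective_id.injOn) hmem
    have e4 : ξ ⟨r ^ p, hgC⟩ = ξ ⟨r, hrC⟩ ^ p := by
      rw [← map_pow]; rfl
    have e5 : ρ (ξ ⟨r ^ p, hgC⟩) = ξ ⟨r, hrC⟩ := by
      apply frobenius_inj k p
      show ρ (ξ ⟨r ^ p, hgC⟩) ^ p = ξ ⟨r, hrC⟩ ^ p
      rw [hρ, e4]
    rw [e1, map_sub, e2, e3, e5, sub_self]
  have := add_mem (Z.nod ⟨_, hdC⟩ hξ) hr'B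
  simpa using this

/-- **hroot.** -/
theorem A5_hroot [IsAlgClosed k] {p : ℕ} [hp : Fact p.Prime] [CharP k p]
    {S : NSetting K F k R} {x : F} (Z : NodalZ S x) (a b : ℕ) {r : R}
    (h : r ^ p ∈ S.Lbar x (p * a) (p * b)) : r ∈ S.Lbar x a b := by
  rw [S.mem_Lbar] at h ⊢
  refine ⟨A5_chart_root Z ?_, Z.rootInf _ p hp.out.pos ?_⟩
  · rw [mul_pow, ← pow_mul, mul_comm a p]; exact h.1
  · rw [mul_pow, ← pow_mul, mul_comm b p]; exact h.2

/-- **hredX** for `m = p`. -/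
theorem A5_hredX [IsAlgClosed k] {p : ℕ} [hp : Fact p.Prime] [CharP k p]
    {S : NSetting K F k R} {x : F} (hx : S.Coord x) (Z : NodalZ S x) {u : F} (huV : u ∈ S.V)
    (hu1 : S.rd u = 1) (a b : ℕ) (f : F) (hf : f ∈ Xsp K x u p hp.out.pos a b) (hfV : f ∈ S.V) :
    S.rd f ∈ S.Lbar x a b := by
  apply A5_hroot Z
  have h1 : u * f ^ p ∈ S.V := mul_mem huV (pow_mem hfV p)
  have h2 := S.core.rd_mem_Lbar hx.mem hx.inv_mem (p * a) (p * b) (u * f ^ p) (mem_Xsp.1 hf) h1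
  rw [S.core_Lbar, S.core_rd, S.rd_mul huV (pow_mem hfV p), hu1, one_mul, S.rd_pow hfV] at h2
  exact h2

/-- the package `CoreHyp` of A1 for a good coordinate of an `NSetting`. -/
theorem A5_coreHyp [IsAlgClosed K] [CharZero K] [IsAlgClosed k] [IsReduced R]
    (S : NSetting K F k R) {x : F} (hx : S.Coord x)
    (arch : ∀ c : K, c ∈ S.A → c⁻¹ ∉ S.A → ∀ c0 : K, c0 ≠ 0 → ∃ n : ℕ, c ^ n * c0⁻¹ ∈ S.A) :
    CoreHyp S.core x (S.Lbar x) := by
  obtain ⟨dimRed, finb, good, constb⟩ := S.inputs hx arch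
  have hxV := hx.mem
  have hxi := hx.inv_mem
  have hxt := hx.transK
  have := hx.fin
  have finK := finK_of (K := K) hxt
  have hL : S.core.Lbar x = S.Lbar x := by
    funext a b; exact S.core_Lbar x a b
  refine ⟨?_, ?_, ?_, ?_, dimRed, fun h hh => const_of_mem_Lsp (finK 0 0) hh, constb, finK, finb,
    good⟩
  · intro a b
    rw [← S.core_Lbar]
    exact one_mem_LB (S.core.rd_self_mem hxV) (S.core.rd_self_mem hxi) a b
  · intro n
    rw [← S.core_Lbar, ← S.core_Lbar, ← S.core_Lbar]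
    exact LB_inf_le n
  · intro n N a1 a2
    rw [← S.core_Lbar, ← S.core_Lbar, ← S.core_Lbar, ← S.core_Lbar, ← S.core_Lbar]
    exact LB_sat (S.core.rd_self_mem hxV) (S.core.rd_self_mem hxi) n N a1 a2
  · intro a b f hf hfR
    rw [← S.core_Lbar]
    exact S.core.rd_mem_Lbar hxV hxi a b f hf hfR

/-- the package `CoreHypU` of A1 for `m = p`, `u ≡ 1`, `p ∣ div u`, in a `NodalZ`. -/
theorem A5_coreHypU [IsAlgClosed K] [CharZero K] [IsAlgClosed k] {p : ℕ} [hp : Fact p.Prime]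
    [CharP k p] (hFF : IsFF K F) {S : NSetting K F k R} {x : F} (hx : S.Coord x) (Z : NodalZ S x)
    {u : F} (huV : u ∈ S.V) (hu1 : S.rd u = 1) (hord : ∀ P : Place K F, (p : ℤ) ∣ P.ord u) :
    CoreHypU S.core x (S.Lbar x) p hp.out.pos u := by
  have hnt := S.nontrivial
  have := hx.fin
  have hu0 : u ≠ 0 := by
    rintro rfl
    rw [S.rd_zero] at hu1
    exact zero_ne_one hu1
  exact ⟨hu0, huV, hu1, fun a b f hf hfR => A5_hredX hx Z huV hu1 a b f hf hfR,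
    riem_of hFF hx.transK hu0 hp.out.pos hord⟩

end Fermat.Agent.S33
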