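import Mathlib
import Fermat.Agent.S18.KL
import Fermat.Agent.S34.ToricKL
import Fermat.Agent.S33.A1

/-!
# S33, piece A5G: the packages `CoreHyp`, `CoreHypU` of A1 in the GOOD reduction setting (`S18.RedSetting`)

* `A5G_core S`    : the `RedCore` of a `RedSetting` (`R := S.V`, `E := Fb`);
* `A5G_coreHyp`   : `CoreHyp (A5G_core S) x (Lsp k (S.rd x))`;
* `A5G_coreHypU`  : `CoreHypU (A5G_core S) x (Lsp k (S.rd x)) m hm u` for EVERY `m > 0`.
-/

set_option autoImplicit false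

namespace Fermat.Agent.S33

open Polynomial IntermediateField Fermat.Agent.S24 Fermat.Agent.S18 Fermat.Agent.S18.CoreDim Module
open Fermat.Agent.S34 AlgebraicCurve

variable {K F k Fb : Type*} [Field K] [Field F] [Algebra K F] [Field k] [Field Fb] [Algebra k Fb]

/-- the `RedCore` underlying a `RedSetting`. -/
def A5G_core (S : RedSetting K F k Fb) : RedCore K F k Fb where
  A := S.A
  R := S.V.toSubring
  resA := S.resA
  red := S.red
  resA_surj := S.resA_surj
  map_mem := S.map_mem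
  compat := S.compat
  scale := by
    intro f hf
    obtain ⟨c, hc, h1, h2⟩ := S.scale f hf
    refine ⟨c, hc, h1, ?_⟩
    have h0 : algebraMap K F c * f ≠ 0 := mul_ne_zero ((_root_.map_ne_zero _).2 hc) hf
    have := rd_ne_zero_of_inv_mem S h1 h2 h0
    rwa [CoreDim.rd_of_mem S h1] at this

@[simp] theorem A5G_core_A (S : RedSetting K F k Fb) : (A5G_core S).A = S.A := rfl

theorem A5G_mem_R (S : RedSetting K F k Fb) {f : F} : f ∈ (A5G_core S).R ↔ f ∈ S.V := Iff.rfl

theorem A5G_rd (S : RedSetting K F k Fb) (f : F) : (A5G_core S).rd f = S.rd f := by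
  by_cases h : f ∈ S.V
  · rw [CoreDim.rd_of_mem S h, (A5G_core S).rd_of_mem h]; rfl
  · have h' : f ∉ (A5G_core S).R := h
    rw [RedSetting.rd, dif_neg h, RedCore.rd, dif_neg h']

theorem A5G_redSub (S : RedSetting K F k Fb) (W : Submodule K F) :
    (A5G_core S).redSub W = CoreDim.redSub S W := by
  ext y
  constructor
  · rintro ⟨w, hw, hwV, rfl⟩
    exact ⟨w, hw, hwV, (A5G_rd S w).symm⟩
  · rintro ⟨w, hw, hwV, rfl⟩
    exact ⟨w, hw, hwV, A5G_rd S w⟩

/-- **hroot** in the good reduction setting (any exponent). -/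
theorem A5G_hroot {xb r : Fb} {a b n : ℕ} (hn : 0 < n) (h : r ^ n ∈ Lsp k xb (n * a) (n * b)) :
    r ∈ Lsp k xb a b := Lsp_root hn h

/-- the package `CoreHyp` of A1 for a good coordinate of a `RedSetting` with normal reduction. -/
theorem A5G_coreHyp [IsAlgClosed K] [CharZero K] [IsAlgClosed k]
    (S : RedSetting K F k Fb) {x : F} (hx : S.Coord x) (h0 : S.NormalRed x)
    (hI : S.NormalRed x⁻¹) : CoreHyp (A5G_core S) x (Lsp k (S.rd x)) := by
  have hxi : S.Coord x⁻¹ := hx.inv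
  have hrdi : S.rd x⁻¹ = (S.rd x)⁻¹ := hx.rd_inv
  have hx0 : S.rd x ≠ 0 := fun h => by
    have := hx.trans
    rw [h] at this
    exact this isAlgebraic_zero
  obtain ⟨N₀, hN₀⟩ := S.finrank_Lsp_eq hx h0 hI
  have fin : ∀ a b, FiniteDimensional K (Lsp K x a b) := by
    intro a b
    have := (hN₀ (a + N₀) b (by omega)).1
    exact Submodule.finiteDimensional_of_le (Lsp_mono (Nat.le_add_right a N₀) le_rfl)
  have finb : ∀ a b, FiniteDimensional k (Lsp k (S.rd x) a b) := by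
    intro a b
    have := (hN₀ (a + N₀) b (by omega)).2.1
    exact Submodule.finiteDimensional_of_le (Lsp_mono (Nat.le_add_right a N₀) le_rfl)
  refine ⟨fun a b => one_mem_Lsp _ a b, ?_, ?_, ?_, ?_, fun h hh => const_of_mem_Lsp (fin 0 0) hh,
    fun h hh => const_of_mem_Lsp (finb 0 0) hh, fin, finb,
    ⟨N₀, fun n hn => ⟨(hN₀ 0 n (by omega)).2.2.le, (hN₀ n 0 (by omega)).2.2.le⟩⟩⟩
  · rintro n f ⟨h1, h2⟩
    exact ⟨h1.1, h2.2⟩
  · intro n N a1 a2 h1 h2 h
    refine ⟨⟨h1.1, ?_⟩, ⟨?_, h2.2⟩⟩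
    · have e : (S.rd x)⁻¹ ^ n * a1 =
          (S.rd x)⁻¹ ^ n * (a1 + a2) - (S.rd x)⁻¹ ^ n * ((S.rd x)⁻¹ ^ 0 * a2) := by ring
      rw [e]
      exact sub_mem h.2 (mul_mem (pow_mem (self_mem_intRing _) n) h2.2)
    · have e : (S.rd x) ^ n * a2 =
          (S.rd x) ^ n * (a1 + a2) - (S.rd x) ^ n * ((S.rd x) ^ 0 * a1) := by ring
      rw [e]
      exact sub_mem h.1 (mul_mem (pow_mem (self_mem_intRing _) n) h1.1)
  · intro a b f hf hfR
    rw [A5G_rd]
    exact rd_mem_Lsp S hx.mem hx0 (fun h hh hV => S.rd_mem_intRing hx hV hh)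
      (fun h hh hV => by
        have := S.rd_mem_intRing hxi hV hh
        rwa [hrdi] at this) hf hfR
  · intro W hW
    rw [A5G_redSub]
    exact finrank_redSub S hx W hW

/-- the package `CoreHypU` of A1 for any `m > 0`, `u ≡ 1`, `m ∣ div u`, good reduction. -/
theorem A5G_coreHypU [IsAlgClosed K] [CharZero K] (hFF : IsFF K F)
    (S : RedSetting K F k Fb) {x : F} (hx : S.Coord x) {m : ℕ} (hm : 0 < m)
    {u : F} (huV : u ∈ S.V) (hu1 : S.rd u = 1) (hord : ∀ P : Place K F, (m : ℤ) ∣ P.ord u) :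
    CoreHypU (A5G_core S) x (Lsp k (S.rd x)) m hm u := by
  have hxi : S.Coord x⁻¹ := hx.inv
  have hrdi : S.rd x⁻¹ = (S.rd x)⁻¹ := hx.rd_inv
  have hx0 : S.rd x ≠ 0 := fun h => by
    have := hx.trans
    rw [h] at this
    exact this isAlgebraic_zero
  have hxt : Transcendental K x := S.transcendental_of_rd hx.mem hx.trans
  have := hx.fin
  have hu0 : u ≠ 0 := by
    rintro rfl
    rw [CoreDim.rd_zero S] at hu1
    exact zero_ne_one hu1
  refine ⟨hu0, huV, by rw [A5G_rd]; exact hu1, ?_, riem_of hFF hxt hu0 hm hord⟩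
  intro a b f hf hfR
  rw [A5G_rd]
  exact rd_mem_of_Xsp S hx.mem hx0 (fun h hh hV => S.rd_mem_intRing hx hV hh)
    (fun h hh hV => by
      have := S.rd_mem_intRing hxi hV hh
      rwa [hrdi] at this) huV hu1 hf hfR

end Fermat.Agent.S33
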