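import Mathlib
import Fermat.Agent.S34.ZC

/-!
# S33, piece A3 (Inv): a semilinear symmetry of the obstruction datum fixes the residue of `c`

Abstract setting `RedCore S (K F k E)`.  `V1, V2` are two finite dimensional subspaces of `F` with
`V1 ⊓ V2 = ⊥` whose reductions meet in the constants; `u1 ∈ V1 ∩ R`, `u2 ∈ V2 ∩ R`, `rd u1 = rd u2 = 1`,
`u1 - u2 = c ps`, `rd ps ∉ red V1 ⊔ red V2` (the output of `A1`).

* `A3_proj`: `(V1 ⊕ V2) ∩ R = (V1 ∩ R) + (V2 ∩ R) + A ps`, in the form `c pr₁((V1 ⊕ V2) ∩ R) ⊆ R`.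
* `A3_inv`: if `Th : F → F` is additive, `τ`-semilinear, preserves `V1`, `V2`, `R` and commutes with `rd`,
  then the residue of `τ c / c` is `1`.
-/

set_option autoImplicit false

namespace Fermat.Agent.S33

open Fermat.Agent.S34 Module

section
variable {K F k E : Type*} [Field K] [Field F] [Algebra K F] [Field k] [CommRing E] [Algebra k E]
variable (S : RedCore K F k E)

theorem A3_proj (V1 V2 : Submodule K F) [FiniteDimensional K V1]
    [FiniteDimensional K V2]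
    (fin1 : FiniteDimensional k (S.redSub V1)) (fin2 : FiniteDimensional k (S.redSub V2))
    (hd1 : finrank K V1 ≤ finrank k (S.redSub V1)) (hd2 : finrank K V2 ≤ finrank k (S.redSub V2))
    (hinf : V1 ⊓ V2 = ⊥)
    (hone : ∀ r ∈ S.redSub V1 ⊓ S.redSub V2, ∃ e : k, r = algebraMap k E e)
    {c : K} (hc0 : c ≠ 0) (hcA : c ∈ S.A)
    {u1 u2 ps : F} (hu1 : u1 ∈ V1) (hu2 : u2 ∈ V2) (hu1R : u1 ∈ S.R) (hpsR : ps ∈ S.R)
    (hdiff : u1 - u2 = algebraMap K F c * ps)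
    (hps : S.rd ps ∉ S.redSub V1 ⊔ S.redSub V2)
    {y1 y2 : F} (hy1 : y1 ∈ V1) (hy2 : y2 ∈ V2) (hy : y1 + y2 ∈ S.R) :
    algebraMap K F c * y1 ∈ S.R := by
  classical
  set L1 := S.redSub V1 with hL1
  set L2 := S.redSub V2 with hL2
  set C := algebraMap K F c with hC
  have hC0 : C ≠ 0 := (_root_.map_ne_zero _).2 hc0
  have hCR : C ∈ S.R := S.map_mem _ hcA
  set d := finrank k ↥(L1 ⊔ L2) with hd
  let b : Basis (Fin d) k ↥(L1 ⊔ L2) := finBasis k ↥(L1 ⊔ L2)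
  have hdec : ∀ j : Fin d, ∃ f1 f2 : F, f1 ∈ V1 ∧ f1 ∈ S.R ∧ f2 ∈ V2 ∧ f2 ∈ S.R ∧
      S.rd f1 + S.rd f2 = (b j : E) := by
    intro j
    obtain ⟨r1, hr1, r2, hr2, hsum⟩ := Submodule.mem_sup.1 (b j).2
    obtain ⟨f1, hf1, hf1R, rfl⟩ := hr1
    obtain ⟨f2, hf2, hf2R, rfl⟩ := hr2
    exact ⟨f1, f2, hf1, hf1R, hf2, hf2R, hsum⟩
  choose f1 f2 hf1 hf1R hf2 hf2R hsum using hdec
  -- decomposition of `ps`
  have hpsdec : ps = C⁻¹ * u1 + -(C⁻¹ * u2) := by
    have : C⁻¹ * (u1 - u2) = ps := by rw [hdiff, ← mul_assoc, inv_mul_cancel₀ hC0, one_mul]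
    rw [← this]; ring
  have hq1 : C⁻¹ * u1 ∈ V1 := by
    have := V1.smul_mem c⁻¹ hu1
    rwa [Algebra.smul_def, map_inv₀] at this
  have hq2 : -(C⁻¹ * u2) ∈ V2 := by
    have := V2.smul_mem c⁻¹ hu2
    rw [Algebra.smul_def, map_inv₀] at this
    exact neg_mem this
  let p : Option (Fin d) → F := fun o => Option.casesOn' o ps (fun j => f1 j + f2 j)
  let p1 : Option (Fin d) → F := fun o => Option.casesOn' o (C⁻¹ * u1) f1
  let p2 : Option (Fin d) → F := fun o => Option.casesOn' o (-(C⁻¹ * u2)) f2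
  have hp12 : ∀ o, p o = p1 o + p2 o := by
    rintro (_ | j)
    · exact hpsdec
    · rfl
  have hp1 : ∀ o, p1 o ∈ V1 := by
    rintro (_ | j)
    · exact hq1
    · exact hf1 j
  have hp2 : ∀ o, p2 o ∈ V2 := by
    rintro (_ | j)
    · exact hq2
    · exact hf2 j
  have hCp1 : ∀ o, C * p1 o ∈ S.R := by
    rintro (_ | j)
    · show C * (C⁻¹ * u1) ∈ S.R
      rw [← mul_assoc, mul_inv_cancel₀ hC0, one_mul]
      exact hu1R
    · exact mul_mem hCR (hf1R j)
  have hpW : ∀ o, p o ∈ V1 ⊔ V2 := fun o => by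
    rw [hp12]
    exact Submodule.add_mem_sup (hp1 o) (hp2 o)
  have hpR : ∀ o, p o ∈ S.R := by
    rintro (_ | j)
    · exact hpsR
    · exact add_mem (hf1R j) (hf2R j)
  have hrd : (fun o => S.rd (p o)) =
      fun o => Option.casesOn' o (S.rd ps) (fun j => ((b j : ↥(L1 ⊔ L2)) : E)) := by
    funext o
    rcases o with _ | j
    · rfl
    · show S.rd (f1 j + f2 j) = _
      rw [S.rd_add (hf1R j) (hf2R j)]
      exact hsum j
  have hbind : LinearIndependent k (fun j => ((b j : ↥(L1 ⊔ L2)) : E)) := by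
    have := b.linearIndependent.map' (L1 ⊔ L2).subtype (Submodule.ker_subtype _)
    exact this
  have hbspan : Submodule.span k (Set.range (fun j => ((b j : ↥(L1 ⊔ L2)) : E))) = L1 ⊔ L2 := by
    have h1 : Set.range (fun j => ((b j : ↥(L1 ⊔ L2)) : E)) = (L1 ⊔ L2).subtype '' Set.range b := by
      rw [← Set.range_comp]; rfl
    rw [h1, Submodule.span_image, b.span_eq, Submodule.map_top, Submodule.range_subtype]
  have hind : LinearIndependent k (fun o => S.rd (p o)) := by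
    rw [hrd, linearIndependent_option']
    exact ⟨hbind, by rw [hbspan]; exact hps⟩
  have hcard : finrank K ↥(V1 ⊔ V2) ≤ Fintype.card (Option (Fin d)) := by
    rw [Fintype.card_option, Fintype.card_fin]
    have e1 := Submodule.finrank_sup_add_finrank_inf_eq V1 V2
    rw [hinf, finrank_bot, add_zero] at e1
    have e2 := Submodule.finrank_sup_add_finrank_inf_eq L1 L2
    have e3 : finrank k ↥(L1 ⊓ L2) ≤ 1 := by
      have hle1 : L1 ⊓ L2 ≤ Submodule.span k {(1 : E)} := by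
        intro f hf
        obtain ⟨c', hc'⟩ := hone f hf
        rw [Submodule.mem_span_singleton]
        exact ⟨c', by rw [hc', Algebra.smul_def, mul_one]⟩
      calc finrank k ↥(L1 ⊓ L2)
          ≤ finrank k ↥(Submodule.span k {(1 : E)}) := Submodule.finrank_mono hle1
        _ ≤ 1 := by
          have := finrank_span_le_card (R := k) ({(1 : E)} : Set E)
          simpa using this
    omega
  obtain ⟨α, hαA, hα⟩ := S.exists_coeff (V1 ⊔ V2) hpW hpR hind hcard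
    (Submodule.add_mem_sup hy1 hy2) hy
  -- the first component
  have hz1 : ∑ o, algebraMap K F (α o) * p1 o ∈ V1 := by
    refine sum_mem fun o _ => ?_
    have := V1.smul_mem (α o) (hp1 o)
    rwa [Algebra.smul_def] at this
  have hz2 : ∑ o, algebraMap K F (α o) * p2 o ∈ V2 := by
    refine sum_mem fun o _ => ?_
    have := V2.smul_mem (α o) (hp2 o)
    rwa [Algebra.smul_def] at this
  have hsplit : y1 + y2 = ∑ o, algebraMap K F (α o) * p1 o + ∑ o, algebraMap K F (α o) * p2 o := by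
    rw [hα, ← Finset.sum_add_distrib]
    refine Finset.sum_congr rfl fun o _ => ?_
    rw [hp12, mul_add]
  have hy1eq : y1 = ∑ o, algebraMap K F (α o) * p1 o := by
    have hmem : y1 - ∑ o, algebraMap K F (α o) * p1 o ∈ V1 ⊓ V2 := by
      refine ⟨sub_mem hy1 hz1, ?_⟩
      have : y1 - ∑ o, algebraMap K F (α o) * p1 o = ∑ o, algebraMap K F (α o) * p2 o - y2 := by
        linear_combination hsplit
      rw [this]
      exact sub_mem hz2 hy2
    rw [hinf, Submodule.mem_bot] at hmem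
    exact sub_eq_zero.1 hmem
  rw [hy1eq, Finset.mul_sum]
  refine sum_mem fun o _ => ?_
  have : C * (algebraMap K F (α o) * p1 o) = algebraMap K F (α o) * (C * p1 o) := by ring
  rw [this]
  exact mul_mem (S.map_mem _ (hαA o)) (hCp1 o)

/-- **A3 (Inv).** -/
theorem A3_inv [Nontrivial E] (V1 V2 : Submodule K F) [FiniteDimensional K V1]
    [FiniteDimensional K V2]
    (fin1 : FiniteDimensional k (S.redSub V1)) (fin2 : FiniteDimensional k (S.redSub V2))
    (hd1 : finrank K V1 ≤ finrank k (S.redSub V1)) (hd2 : finrank K V2 ≤ finrank k (S.redSub V2))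
    (hinf : V1 ⊓ V2 = ⊥)
    (hone : ∀ r ∈ S.redSub V1 ⊓ S.redSub V2, ∃ e : k, r = algebraMap k E e)
    {c : K} (hc0 : c ≠ 0) (hcA : c ∈ S.A)
    {u1 u2 ps : F} (hu1 : u1 ∈ V1) (hu2 : u2 ∈ V2) (hu1R : u1 ∈ S.R)
    (hu1rd : S.rd u1 = 1) (hpsR : ps ∈ S.R)
    (hdiff : u1 - u2 = algebraMap K F c * ps)
    (hps : S.rd ps ∉ S.redSub V1 ⊔ S.redSub V2)
    (τ : K →+* K) (hτc : τ c / c ∈ S.A)
    (Th : F →+ F)
    (hsemi : ∀ (a : K) (f : F), Th (algebraMap K F a * f) = algebraMap K F (τ a) * Th f)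
    (hTh1 : ∀ f ∈ V1, Th f ∈ V1) (hTh2 : ∀ f ∈ V2, Th f ∈ V2)
    (hThR : ∀ f ∈ S.R, Th f ∈ S.R ∧ S.rd (Th f) = S.rd f) :
    S.resA ⟨τ c / c, hτc⟩ = 1 := by
  classical
  by_contra hθ
  set θ := S.resA ⟨τ c / c, hτc⟩ with hθdef
  set C := algebraMap K F c with hC
  have hC0 : C ≠ 0 := (_root_.map_ne_zero _).2 hc0
  obtain ⟨κ, hκ⟩ := S.resA_surj (θ - 1)
  set Kp := algebraMap K F (κ : K) with hKp
  have hKpR : Kp ∈ S.R := S.map_mem _ κ.2
  have hKprd : S.rd Kp = algebraMap k E (θ - 1) := by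
    rw [hKp, S.rd_algebraMap κ.2]
    exact congrArg _ hκ
  set Tt := algebraMap K F (τ c / c) with hTt
  have hTtR : Tt ∈ S.R := S.map_mem _ hτc
  have hTtrd : S.rd Tt = algebraMap k E θ := by
    rw [hTt, S.rd_algebraMap hτc]
  -- the elements `b_i`
  set b1 := Th u1 - u1 - Kp * u1 with hb1
  set b2 := Th u2 - u2 - Kp * u2 with hb2
  have hb1V : b1 ∈ V1 := by
    refine sub_mem (sub_mem (hTh1 _ hu1) hu1) ?_
    have := V1.smul_mem (κ : K) hu1
    rwa [Algebra.smul_def] at this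
  have hb2V : b2 ∈ V2 := by
    refine sub_mem (sub_mem (hTh2 _ hu2) hu2) ?_
    have := V2.smul_mem (κ : K) hu2
    rwa [Algebra.smul_def] at this
  have hb1R : b1 ∈ S.R := sub_mem (sub_mem (hThR _ hu1R).1 hu1R) (mul_mem hKpR hu1R)
  have hb1rd : S.rd b1 = - algebraMap k E (θ - 1) := by
    rw [hb1, S.rd_sub (sub_mem (hThR _ hu1R).1 hu1R) (mul_mem hKpR hu1R),
      S.rd_sub (hThR _ hu1R).1 hu1R, (hThR _ hu1R).2, sub_self, S.rd_mul hKpR hu1R, hKprd, hu1rd,
      mul_one, zero_sub]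
  have hθ1 : θ - 1 ≠ 0 := sub_ne_zero.2 hθ
  have hb1rd0 : S.rd b1 ≠ 0 := by
    rw [hb1rd, neg_ne_zero]
    exact (_root_.map_ne_zero_iff _ (algebraMap k E).injective).2 hθ1
  -- the element `z = θ~ Th ps - ps - κ ps`
  set z := Tt * Th ps - ps - Kp * ps with hz
  have hzR : z ∈ S.R :=
    sub_mem (sub_mem (mul_mem hTtR (hThR _ hpsR).1) hpsR) (mul_mem hKpR hpsR)
  have hzrd : S.rd z = 0 := by
    rw [hz, S.rd_sub (sub_mem (mul_mem hTtR (hThR _ hpsR).1) hpsR) (mul_mem hKpR hpsR),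
      S.rd_sub (mul_mem hTtR (hThR _ hpsR).1) hpsR, S.rd_mul hTtR (hThR _ hpsR).1, (hThR _ hpsR).2,
      S.rd_mul hKpR hpsR, hKprd, hTtrd, map_sub, map_one]
    ring
  have hbz : b1 - b2 = C * z := by
    have h1 : Th u1 - Th u2 = algebraMap K F (τ c) * Th ps := by
      rw [← map_sub, hdiff, hsemi]
    have h2 : algebraMap K F (τ c) = C * Tt := by
      rw [hC, hTt, ← map_mul, mul_div_cancel₀ _ hc0]
    rw [hb1, hb2, hz]
    have h3 : Th u1 - u1 - Kp * u1 - (Th u2 - u2 - Kp * u2) =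
        (Th u1 - Th u2) - (u1 - u2) - Kp * (u1 - u2) := by ring
    rw [h3, h1, hdiff, h2]
    ring
  by_cases hz0 : z = 0
  · -- `b1 = b2 ∈ V1 ⊓ V2 = ⊥`
    rw [hz0, mul_zero, sub_eq_zero] at hbz
    have : b1 ∈ V1 ⊓ V2 := ⟨hb1V, hbz ▸ hb2V⟩
    rw [hinf, Submodule.mem_bot] at this
    apply hb1rd0
    rw [this, S.rd_zero]
  · obtain ⟨c2, hc20, hc2A, hc2inv, g, hgR, hzg⟩ := S.exists_of_rd_eq_zero hzR hzrd hz0
    set C2 := algebraMap K F c2 with hC2
    have hC20 : C2 ≠ 0 := (_root_.map_ne_zero _).2 hc20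
    -- `g = y1 + y2`, `y1 = b1 / (c c2)`, `y2 = - b2 / (c c2)`
    have hy1 : (C * C2)⁻¹ * b1 ∈ V1 := by
      have := V1.smul_mem (c * c2)⁻¹ hb1V
      rwa [Algebra.smul_def, map_inv₀, map_mul] at this
    have hy2 : -((C * C2)⁻¹ * b2) ∈ V2 := by
      have := V2.smul_mem (c * c2)⁻¹ hb2V
      rw [Algebra.smul_def, map_inv₀, map_mul] at this
      exact neg_mem this
    have hg : (C * C2)⁻¹ * b1 + -((C * C2)⁻¹ * b2) = g := by
      have : (C * C2)⁻¹ * b1 + -((C * C2)⁻¹ * b2) = (C * C2)⁻¹ * (b1 - b2) := by ring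
      rw [this, hbz, hzg]
      field_simp
    have hkey := A3_proj S V1 V2 fin1 fin2 hd1 hd2 hinf hone hc0 hcA hu1 hu2 hu1R hpsR hdiff hps
      hy1 hy2 (hg ▸ hgR)
    have hkey' : C2⁻¹ * b1 ∈ S.R := by
      have : C * ((C * C2)⁻¹ * b1) = C2⁻¹ * b1 := by
        field_simp
      rwa [this] at hkey
    apply hb1rd0
    have : b1 = C2 * (C2⁻¹ * b1) := by
      rw [← mul_assoc, mul_inv_cancel₀ hC20, one_mul]
    rw [this, S.rd_mul (S.map_mem _ hc2A) hkey', hC2, S.rd_algebraMap hc2A,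
      S.resA_eq_zero hc2A hc2inv, map_zero, zero_mul]

end

end Fermat.Agent.S33
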