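import Mathlib
import Fermat.Agent.S34.CoreDim2

/-!
# S33, piece A4 (PthPow): `p`-th powers close to `1` in a `RedCore` of residue characteristic `p`

`lam` is any element with `|lam|^(p-1) = |p|`.  For `|lam|^p < |b| < 1`:
* `P2b`     : `1 + b y = a f^p`, `y ∈ R`  ⟹  `rd y` is a `p`-th power in `E`;
* `P2a`     : `rd h = (rd g)^p`  ⟹  `(1 + b h) f^p = 1 + b' y` with `|b'| < |b|`;
* `level_le`: an exact representative has the largest possible level;
* `level_eq`: two exact representatives of one class have the same level.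
-/

set_option autoImplicit false

namespace Fermat.Agent.S33

open Fermat.Agent.S34

variable {K F k E : Type*} [Field K] [Field F] [Algebra K F] [Field k] [CommRing E] [Algebra k E]
variable (S : RedCore K F k E)

namespace A4

theorem resA_zero_of_lt {c : K} (hc : S.A.valuation c < 1) :
    ∃ hcA : c ∈ S.A, S.resA ⟨c, hcA⟩ = 0 := by
  have hcA : c ∈ S.A := (S.A.valuation_le_one_iff c).1 hc.le
  refine ⟨hcA, ?_⟩
  by_cases h0 : c = 0
  · subst h0; exact map_zero S.resA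
  · apply S.resA_eq_zero hcA
    intro hinv
    have h1 := (S.A.valuation_le_one_iff c⁻¹).2 hinv
    rw [map_inv₀] at h1
    have h2 : S.A.valuation c ≠ 0 := (Valuation.ne_zero_iff _).2 h0
    have h3 : 1 ≤ S.A.valuation c := (inv_le_one₀ (zero_lt_iff.2 h2)).1 h1
    exact absurd hc (not_lt.2 h3)

/-- a small scalar times an element of `R` lies in `R` and reduces to `0`. -/
theorem small_mul {c : K} (hc : S.A.valuation c < 1) {w : F} (hw : w ∈ S.R) :
    algebraMap K F c * w ∈ S.R ∧ S.rd (algebraMap K F c * w) = 0 := by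
  obtain ⟨hcA, h0⟩ := resA_zero_of_lt S hc
  refine ⟨mul_mem (S.map_mem c hcA) hw, ?_⟩
  rw [S.rd_mul (S.map_mem c hcA) hw, S.rd_algebraMap hcA, h0, map_zero, zero_mul]

theorem int_mul {c : K} (hc : S.A.valuation c ≤ 1) {w : F} (hw : w ∈ S.R) :
    algebraMap K F c * w ∈ S.R :=
  mul_mem (S.map_mem c ((S.A.valuation_le_one_iff c).1 hc)) hw

/-- an element of `R` with zero reduction is a small scalar times an element with nonzero reduction. -/
theorem exists_small_factor {G : F} (hG : G ∈ S.R) (hG0 : G ≠ 0) (hrd : S.rd G = 0) :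
    ∃ (γ : K) (G1 : F), γ ≠ 0 ∧ S.A.valuation γ < 1 ∧ G1 ∈ S.R ∧ S.rd G1 ≠ 0 ∧
      G = algebraMap K F γ * G1 := by
  obtain ⟨c, hc0, hcR, hcrd⟩ := S.exists_scale hG0
  refine ⟨c⁻¹, algebraMap K F c * G, inv_ne_zero hc0, ?_, hcR, hcrd, ?_⟩
  · by_contra hlt
    rw [not_lt, map_inv₀] at hlt
    have h2 : S.A.valuation c ≠ 0 := (Valuation.ne_zero_iff _).2 hc0
    have h3 : S.A.valuation c ≤ 1 := (one_le_inv₀ (zero_lt_iff.2 h2)).1 hlt
    have hcA : c ∈ S.A := (S.A.valuation_le_one_iff c).1 h3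
    apply hcrd
    rw [S.rd_mul (S.map_mem c hcA) hG, hrd, mul_zero]
  · rw [← mul_assoc, ← map_mul, inv_mul_cancel₀ hc0, map_one, one_mul]

end A4

open A4

/-- `R` is closed under `p`-th roots of elements with nonzero... (here: of elements with reduction `1`). -/
theorem A4.mem_of_pow_mem [IsReduced E] [Nontrivial E] {n : ℕ} (hn : n ≠ 0) {f u : F} (hu : u ∈ S.R)
    (hf0 : f ≠ 0) (h : f ^ n = u) : f ∈ S.R := by
  obtain ⟨c, hc0, hcR, hcrd⟩ := S.exists_scale hf0
  have hge : 1 ≤ S.A.valuation c := by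
    by_contra hlt
    rw [not_le] at hlt
    have h1 : (algebraMap K F c * f) ^ n = algebraMap K F (c ^ n) * u := by
      rw [mul_pow, h, map_pow]
    have h2 : S.A.valuation (c ^ n) < 1 := by
      rw [map_pow]; exact pow_lt_one₀ zero_le hlt hn
    have h3 := (small_mul S h2 hu).2
    rw [← h1, S.rd_pow hcR] at h3
    exact hcrd (IsReduced.eq_zero _ ⟨n, h3⟩)
  have h2 : S.A.valuation c⁻¹ ≤ 1 := by
    rw [map_inv₀]; exact inv_le_one_of_one_le₀ hge
  have := int_mul S h2 hcR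
  rwa [← mul_assoc, ← map_mul, inv_mul_cancel₀ hc0, map_one, one_mul] at this

/-- **P2b.** -/
theorem P2b (p : ℕ) (hp : p.Prime) [CharP k p] [IsReduced E]
    (hkp : ∀ c : k, ∃ d : k, d ^ p = c) (hKp : ∀ a : K, ∃ α : K, α ^ p = a)
    {lam b : K} (hlam : S.A.valuation lam ^ (p - 1) = S.A.valuation (p : K))
    (hb : S.A.valuation lam ^ p < S.A.valuation b) (hb1 : S.A.valuation b < 1)
    {y : F} (hy : y ∈ S.R) {a : K} {f : F}
    (h : 1 + algebraMap K F b * y = algebraMap K F a * f ^ p) :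
    ∃ r : E, S.rd y = r ^ p := by
  rcases subsingleton_or_nontrivial E with hE | hE
  · exact ⟨0, Subsingleton.elim _ _⟩
  set v := S.A.valuation with hv
  have hp0 : p ≠ 0 := hp.ne_zero
  have hb0 : b ≠ 0 := by
    intro h0
    rw [h0, map_zero] at hb
    exact absurd hb (not_lt.2 zero_le)
  have hvb0 : v b ≠ 0 := (Valuation.ne_zero_iff _).2 hb0
  obtain ⟨α, hα⟩ := hKp a
  set f' : F := algebraMap K F α * f with hf'
  have hf'p : f' ^ p = 1 + algebraMap K F b * y := by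
    rw [hf', mul_pow, ← map_pow, hα, h]
  obtain ⟨hbyR, hbyrd⟩ := small_mul S hb1 hy
  have huR : 1 + algebraMap K F b * y ∈ S.R := add_mem (one_mem _) hbyR
  have hurd : S.rd (1 + algebraMap K F b * y) = 1 := by
    rw [S.rd_add (one_mem _) hbyR, hbyrd, S.rd_one, add_zero]
  have hf'0 : f' ≠ 0 := by
    intro h0
    rw [h0, zero_pow hp0] at hf'p
    rw [← hf'p, S.rd_zero] at hurd
    exact zero_ne_one hurd
  have hf'R : f' ∈ S.R := A4.mem_of_pow_mem S hp0 huR hf'0 hf'p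
  have : Fact p.Prime := ⟨hp⟩
  have : CharP E p := charP_of_injective_algebraMap (algebraMap k E).injective p
  have hrdf : S.rd f' = 1 := by
    have h1 : S.rd f' ^ p = 1 := by rw [← S.rd_pow hf'R, hf'p, hurd]
    have h2 : (S.rd f' - 1) ^ p = 0 := by rw [sub_pow_char, h1, one_pow, sub_self]
    have h3 := IsReduced.eq_zero _ (⟨p, h2⟩ : IsNilpotent (S.rd f' - 1))
    exact sub_eq_zero.1 h3
  have hGR : f' - 1 ∈ S.R := sub_mem hf'R (one_mem _)
  have hGrd : S.rd (f' - 1) = 0 := by rw [S.rd_sub hf'R (one_mem _), hrdf, S.rd_one, sub_self]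
  by_cases hG0 : f' - 1 = 0
  · have h1 : f' = 1 := sub_eq_zero.1 hG0
    rw [h1, one_pow] at hf'p
    have h2 : algebraMap K F b * y = 0 := by linear_combination -hf'p
    have h3 : y = 0 := by
      rcases mul_eq_zero.1 h2 with h4 | h4
      · exact absurd ((map_eq_zero _).1 h4) hb0
      · exact h4
    exact ⟨0, by rw [h3, S.rd_zero, zero_pow hp0]⟩
  obtain ⟨γ, G1, hγ0, hγ1, hG1R, hG1rd, hG⟩ := exists_small_factor S hGR hG0 hGrd
  have hXR : algebraMap K F γ * G1 ∈ S.R := (small_mul S hγ1 hG1R).1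
  obtain ⟨r, hr⟩ := exists_add_pow_prime_eq hp (1 : S.R) ⟨algebraMap K F γ * G1, hXR⟩
  have hr' : (1 + algebraMap K F γ * G1) ^ p =
      1 + (algebraMap K F γ * G1) ^ p + (p : F) * (algebraMap K F γ * G1) * (r : F) := by
    have := congrArg (Subtype.val) hr
    simpa using this
  have hf'G : f' = 1 + algebraMap K F γ * G1 := by rw [← hG]; ring
  -- the key identity
  have key : algebraMap K F b * y =
      algebraMap K F (γ ^ p) * G1 ^ p + algebraMap K F ((p : K) * γ) * (G1 * r) := by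
    have h1 : (1 + algebraMap K F γ * G1) ^ p = 1 + algebraMap K F b * y := by rw [← hf'G, hf'p]
    rw [hr'] at h1
    rw [map_pow, map_mul, map_natCast]
    linear_combination -h1
  have hG1pR : G1 ^ p ∈ S.R := pow_mem hG1R p
  have hG1rR : G1 * (r : F) ∈ S.R := mul_mem hG1R r.2
  have hvγ0 : v γ ≠ 0 := (Valuation.ne_zero_iff _).2 hγ0
  have hp1 : p - 1 + 1 = p := Nat.sub_add_cancel hp.one_le
  have hvpγ : v ((p : K) * γ) = v lam ^ (p - 1) * v γ := by rw [map_mul, hlam]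
  have hydiv : ∀ c₁ c₂ : K, c₁ * b = γ ^ p → c₂ * b = (p : K) * γ →
      y = algebraMap K F c₁ * G1 ^ p + algebraMap K F c₂ * (G1 * r) := by
    intro c₁ c₂ h1 h2
    have hbF : algebraMap K F b ≠ 0 := (map_ne_zero _).2 hb0
    apply mul_left_cancel₀ hbF
    rw [key, ← h1, ← h2, map_mul, map_mul]
    ring
  rcases le_or_gt (v γ) (v lam) with hcase | hcase
  · -- both coefficients are smaller than `b`
    have h1 : v (γ ^ p / b) < 1 := by
      rw [map_div₀, map_pow]
      exact (div_lt_one₀ (zero_lt_iff.2 hvb0)).2 (lt_of_le_of_lt (pow_le_pow_left₀ zero_le hcase p) hb)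
    have h2 : v ((p : K) * γ / b) < 1 := by
      rw [map_div₀, hvpγ]
      refine (div_lt_one₀ (zero_lt_iff.2 hvb0)).2 (lt_of_le_of_lt ?_ hb)
      calc v lam ^ (p - 1) * v γ ≤ v lam ^ (p - 1) * v lam := mul_le_mul' le_rfl hcase
        _ = v lam ^ p := by rw [← pow_succ, hp1]
    have hy' := hydiv (γ ^ p / b) ((p : K) * γ / b) (div_mul_cancel₀ _ hb0) (div_mul_cancel₀ _ hb0)
    refine ⟨0, ?_⟩
    rw [hy', S.rd_add (small_mul S h1 hG1pR).1 (small_mul S h2 hG1rR).1, (small_mul S h1 hG1pR).2,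
      (small_mul S h2 hG1rR).2, add_zero, zero_pow hp0]
  · -- `|γ| > |lam|`
    have hγp0 : γ ^ p ≠ 0 := pow_ne_zero p hγ0
    have h3 : v ((p : K) * γ / γ ^ p) < 1 := by
      rw [map_div₀, hvpγ, map_pow]
      refine (div_lt_one₀ (zero_lt_iff.2 (pow_ne_zero p hvγ0))).2 ?_
      calc v lam ^ (p - 1) * v γ < v γ ^ (p - 1) * v γ := by
            refine mul_lt_mul_of_pos_right ?_ (zero_lt_iff.2 hvγ0)
            exact pow_lt_pow_left₀ hcase zero_le (Nat.sub_ne_zero_of_lt hp.one_lt)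
        _ = v γ ^ p := by rw [← pow_succ, hp1]
    set W : F := G1 ^ p + algebraMap K F ((p : K) * γ / γ ^ p) * (G1 * r) with hW
    have hWR : W ∈ S.R := add_mem hG1pR (small_mul S h3 hG1rR).1
    have hWrd : S.rd W = S.rd G1 ^ p := by
      rw [hW, S.rd_add hG1pR (small_mul S h3 hG1rR).1, (small_mul S h3 hG1rR).2, add_zero,
        S.rd_pow hG1R]
    have hWrd0 : S.rd W ≠ 0 := by
      rw [hWrd]
      intro h0
      exact hG1rd (IsReduced.eq_zero _ ⟨p, h0⟩)
    have hbyW : algebraMap K F b * y = algebraMap K F (γ ^ p) * W := by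
      have e : algebraMap K F (γ ^ p) * algebraMap K F ((p : K) * γ / γ ^ p) =
          algebraMap K F ((p : K) * γ) := by rw [← map_mul, mul_div_cancel₀ _ hγp0]
      rw [key, hW, ← e]
      ring
    have hbF : algebraMap K F b ≠ 0 := (map_ne_zero _).2 hb0
    have hyW : y = algebraMap K F (γ ^ p / b) * W := by
      apply mul_left_cancel₀ hbF
      rw [hbyW, ← mul_assoc, ← map_mul, mul_div_cancel₀ _ hb0]
    rcases lt_trichotomy (v (γ ^ p)) (v b) with h4 | h4 | h4
    · have h5 : v (γ ^ p / b) < 1 := by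
        rw [map_div₀]; exact (div_lt_one₀ (zero_lt_iff.2 hvb0)).2 h4
      exact ⟨0, by rw [hyW, (small_mul S h5 hWR).2, zero_pow hp0]⟩
    · have h5 : v (γ ^ p / b) = 1 := by
        rw [map_div₀, h4]; exact div_self hvb0
      have h6 : γ ^ p / b ∈ S.A := (S.A.valuation_le_one_iff _).1 h5.le
      obtain ⟨d, hd⟩ := hkp (S.resA ⟨γ ^ p / b, h6⟩)
      refine ⟨algebraMap k E d * S.rd G1, ?_⟩
      rw [hyW, S.rd_mul (S.map_mem _ h6) hWR, S.rd_algebraMap h6, hWrd, mul_pow, ← map_pow, hd]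
    · exfalso
      have h5 : v (b / γ ^ p) < 1 := by
        rw [map_div₀]
        exact (div_lt_one₀ (zero_lt_iff.2 ((Valuation.ne_zero_iff _).2 hγp0))).2 h4
      have hWy : W = algebraMap K F (b / γ ^ p) * y := by
        have hγF : algebraMap K F (γ ^ p) ≠ 0 := (map_ne_zero _).2 hγp0
        apply mul_left_cancel₀ hγF
        rw [← hbyW, ← mul_assoc, ← map_mul, mul_div_cancel₀ _ hγp0]
      exact hWrd0 (by rw [hWy, (small_mul S h5 hy).2])

namespace A4

theorem div_le {x d : K} (h : S.A.valuation x ≤ S.A.valuation d) :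
    S.A.valuation (x / d) ≤ 1 ∧ x / d * d = x := by
  by_cases hd : d = 0
  · subst hd
    rw [map_zero] at h
    have hx : x = 0 := (Valuation.zero_iff _).1 (le_antisymm h zero_le)
    subst hx
    simp
  · refine ⟨?_, div_mul_cancel₀ _ hd⟩
    rw [map_div₀]
    exact (div_le_one₀ (zero_lt_iff.2 ((Valuation.ne_zero_iff _).2 hd))).2 h

theorem exists_max2 (x y : K) : ∃ d : K, (d = x ∨ d = y) ∧ S.A.valuation x ≤ S.A.valuation d ∧
    S.A.valuation y ≤ S.A.valuation d := by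
  rcases le_total (S.A.valuation x) (S.A.valuation y) with h | h
  · exact ⟨y, Or.inr rfl, h, le_rfl⟩
  · exact ⟨x, Or.inl rfl, le_rfl, h⟩

theorem exists_max3 (x y z : K) : ∃ d : K, (d = x ∨ d = y ∨ d = z) ∧
    S.A.valuation x ≤ S.A.valuation d ∧ S.A.valuation y ≤ S.A.valuation d ∧
    S.A.valuation z ≤ S.A.valuation d := by
  obtain ⟨d, hd, h1, h2⟩ := exists_max2 S x y
  obtain ⟨e, he, h3, h4⟩ := exists_max2 S d z
  refine ⟨e, ?_, h1.trans h3, h2.trans h3, h4⟩
  rcases he with rfl | rfl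
  · rcases hd with h | h
    · exact Or.inl h
    · exact Or.inr (Or.inl h)
  · exact Or.inr (Or.inr rfl)

end A4

/-- **P2a.** -/
theorem P2a (p : ℕ) (hp : p.Prime) [Nontrivial E]
    (hKp : ∀ a : K, ∃ α : K, α ^ p = a)
    {lam b : K} (hlam : S.A.valuation lam ^ (p - 1) = S.A.valuation (p : K))
    (hb : S.A.valuation lam ^ p < S.A.valuation b) (hb1 : S.A.valuation b < 1)
    {h g : F} (hh : h ∈ S.R) (hg : g ∈ S.R) (hrd : S.rd h = S.rd g ^ p) :
    ∃ (f : F) (b' : K) (y : F), f ∈ S.R ∧ S.rd f = 1 ∧ f ≠ 0 ∧ y ∈ S.R ∧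
      S.A.valuation b' < S.A.valuation b ∧
      (1 + algebraMap K F b * h) * f ^ p = 1 + algebraMap K F b' * y := by
  set v := S.A.valuation with hv
  have hp0 : p ≠ 0 := hp.ne_zero
  have hb0 : b ≠ 0 := by
    intro h0
    rw [h0, map_zero] at hb
    exact absurd hb (not_lt.2 zero_le)
  have hvb0 : v b ≠ 0 := (Valuation.ne_zero_iff _).2 hb0
  have hvbpos : 0 < v b := zero_lt_iff.2 hvb0
  have hp1 : p - 1 + 1 = p := Nat.sub_add_cancel hp.one_le
  obtain ⟨β, hβ⟩ := hKp (-b)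
  have hvβp : v β ^ p = v b := by rw [← map_pow, hβ, Valuation.map_neg]
  have hvβ1 : v β < 1 := by
    by_contra hge
    rw [not_lt] at hge
    have : 1 ≤ v β ^ p := one_le_pow₀ hge
    rw [hvβp] at this
    exact absurd hb1 (not_lt.2 this)
  have hlamβ : v lam < v β := by
    rw [← hvβp] at hb
    exact lt_of_pow_lt_pow_left₀ p zero_le hb
  have hvβ0 : 0 < v β := lt_of_le_of_lt zero_le hlamβ
  obtain ⟨hXR, hXrd⟩ := small_mul S hvβ1 hg
  obtain ⟨r, hr⟩ := exists_add_pow_prime_eq hp (1 : S.R) ⟨algebraMap K F β * g, hXR⟩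
  have hr' : (1 + algebraMap K F β * g) ^ p =
      1 + (algebraMap K F β * g) ^ p + (p : F) * (algebraMap K F β * g) * (r : F) := by
    have := congrArg (Subtype.val) hr
    simpa using this
  have hfR : 1 + algebraMap K F β * g ∈ S.R := add_mem (one_mem _) hXR
  have hfrd : S.rd (1 + algebraMap K F β * g) = 1 := by
    rw [S.rd_add (one_mem _) hXR, hXrd, S.rd_one, add_zero]
  have hf0 : 1 + algebraMap K F β * g ≠ 0 := by
    intro h0
    rw [h0, S.rd_zero] at hfrd
    exact zero_ne_one hfrd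
  -- `h - g^p = c'' D1`
  have hDR : h - g ^ p ∈ S.R := sub_mem hh (pow_mem hg p)
  have hDrd : S.rd (h - g ^ p) = 0 := by
    rw [S.rd_sub hh (pow_mem hg p), S.rd_pow hg, hrd, sub_self]
  obtain ⟨c'', D1, hc1, hD1R, hD⟩ : ∃ (c'' : K) (D1 : F), v c'' < 1 ∧ D1 ∈ S.R ∧
      h - g ^ p = algebraMap K F c'' * D1 := by
    by_cases hD0 : h - g ^ p = 0
    · exact ⟨0, 0, by rw [map_zero]; exact zero_lt_one, zero_mem _, by rw [hD0, mul_zero]⟩
    · obtain ⟨γ, G1, -, h1, h2, -, h3⟩ := exists_small_factor S hDR hD0 hDrd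
      exact ⟨γ, G1, h1, h2, h3⟩
  have hδ2 : v ((p : K) * β / b) < 1 := by
    rw [map_div₀, map_mul, ← hlam]
    refine (div_lt_one₀ hvbpos).2 ?_
    calc v lam ^ (p - 1) * v β < v β ^ (p - 1) * v β := by
          refine mul_lt_mul_of_pos_right ?_ hvβ0
          exact pow_lt_pow_left₀ hlamβ zero_le (Nat.sub_ne_zero_of_lt hp.one_lt)
      _ = v b := by rw [← pow_succ, hp1, hvβp]
  obtain ⟨d, hd, h1, h2, h3⟩ := exists_max3 S c'' ((p : K) * β / b) b
  have hd1 : v d < 1 := by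
    rcases hd with rfl | rfl | rfl
    · exact hc1
    · exact hδ2
    · exact hb1
  obtain ⟨hc1', e1⟩ := div_le S h1
  obtain ⟨hc2', e2⟩ := div_le S h2
  obtain ⟨hc3', e3⟩ := div_le S h3
  have hw2 : g * (r : F) + algebraMap K F b * (h * (g * (r : F))) ∈ S.R :=
    add_mem (mul_mem hg r.2) (small_mul S hb1 (mul_mem hh (mul_mem hg r.2))).1
  have hw3 : -(h * g ^ p) ∈ S.R := neg_mem (mul_mem hh (pow_mem hg p))
  refine ⟨1 + algebraMap K F β * g, b * d,
    algebraMap K F (c'' / d) * D1 +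
      algebraMap K F ((p : K) * β / b / d) * (g * (r : F) + algebraMap K F b * (h * (g * (r : F)))) +
      algebraMap K F (b / d) * (-(h * g ^ p)), hfR, hfrd, hf0, ?_, ?_, ?_⟩
  · exact add_mem (add_mem (int_mul S hc1' hD1R) (int_mul S hc2' hw2)) (int_mul S hc3' hw3)
  · rw [map_mul]
    calc v b * v d < v b * 1 := mul_lt_mul_of_pos_left hd1 hvbpos
      _ = v b := mul_one _
  · have E1 : algebraMap K F (c'' / d) * algebraMap K F d = algebraMap K F c'' := by
      rw [← map_mul, e1]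
    have E2 : algebraMap K F ((p : K) * β / b / d) * algebraMap K F d * algebraMap K F b =
        (p : F) * algebraMap K F β := by
      rw [← map_mul, e2, ← map_mul, div_mul_cancel₀ _ hb0, map_mul, map_natCast]
    have E3 : algebraMap K F (b / d) * algebraMap K F d = algebraMap K F b := by
      rw [← map_mul, e3]
    have Eβ : algebraMap K F β ^ p = - algebraMap K F b := by
      rw [← map_pow, hβ, map_neg]
    rw [hr', mul_pow, Eβ, map_mul]
    have hD' : h = g ^ p + algebraMap K F c'' * D1 := by rw [← hD]; ring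
    linear_combination (algebraMap K F b) * hD' - (algebraMap K F b * D1) * E1
      - (g * (r : F) + algebraMap K F b * (h * (g * (r : F)))) * E2
      + (algebraMap K F b * (h * g ^ p)) * E3

/-- an exact representative has the largest level among all representatives of its class. -/
theorem level_le (p : ℕ) (hp : p.Prime) [CharP k p] [IsReduced E]
    (hkp : ∀ c : k, ∃ d : k, d ^ p = c) (hKp : ∀ a : K, ∃ α : K, α ^ p = a)
    {lam b₁ b₂ : K} (hlam : S.A.valuation lam ^ (p - 1) = S.A.valuation (p : K))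
    (hb : S.A.valuation lam ^ p < S.A.valuation b₁) (hb1 : S.A.valuation b₁ < 1)
    {y₁ y₂ : F} (hy₁ : y₁ ∈ S.R) (hy₂ : y₂ ∈ S.R) (hex : ¬ ∃ r : E, S.rd y₁ = r ^ p)
    {a : K} {f : F}
    (h : 1 + algebraMap K F b₁ * y₁ = (1 + algebraMap K F b₂ * y₂) * (algebraMap K F a * f ^ p)) :
    S.A.valuation b₁ ≤ S.A.valuation b₂ := by
  by_contra hlt
  rw [not_le] at hlt
  set v := S.A.valuation with hv
  have hb0 : b₁ ≠ 0 := by
    intro h0
    rw [h0, map_zero] at hb
    exact absurd hb (not_lt.2 zero_le)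
  have hvb0 : 0 < v b₁ := zero_lt_iff.2 ((Valuation.ne_zero_iff _).2 hb0)
  have hb2 : v b₂ < 1 := hlt.trans hb1
  have hp1 : p - 1 + 1 = p := Nat.sub_add_cancel hp.one_le
  obtain ⟨hXR, -⟩ := small_mul S hb2 hy₂
  -- `(1 + X)^(p-1) = 1 + X t`
  obtain ⟨t, ht⟩ : ∃ t : S.R, (1 + (⟨algebraMap K F b₂ * y₂, hXR⟩ : S.R)) ^ (p - 1) =
      1 + ⟨algebraMap K F b₂ * y₂, hXR⟩ * t := by
    obtain ⟨t, ht⟩ := sub_dvd_pow_sub_pow (1 + (⟨algebraMap K F b₂ * y₂, hXR⟩ : S.R)) 1 (p - 1)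
    refine ⟨t, ?_⟩
    rw [one_pow, add_sub_cancel_left] at ht
    rw [← ht]; ring
  have ht' : (1 + algebraMap K F b₂ * y₂) ^ (p - 1) = 1 + algebraMap K F b₂ * y₂ * (t : F) := by
    have := congrArg (Subtype.val) ht
    simpa using this
  have hq : v (b₂ / b₁) < 1 := by
    rw [map_div₀]; exact (div_lt_one₀ hvb0).2 hlt
  have hs1 := small_mul S hq (mul_mem hy₂ t.2)
  have hs2 := small_mul S hb2 (mul_mem hy₁ (mul_mem hy₂ t.2))
  set y' : F := y₁ + algebraMap K F (b₂ / b₁) * (y₂ * (t : F)) +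
    algebraMap K F b₂ * (y₁ * (y₂ * (t : F))) with hy'
  have hy'R : y' ∈ S.R := add_mem (add_mem hy₁ hs1.1) hs2.1
  have hy'rd : S.rd y' = S.rd y₁ := by
    rw [hy', S.rd_add (add_mem hy₁ hs1.1) hs2.1, S.rd_add hy₁ hs1.1, hs1.2, hs2.2, add_zero, add_zero]
  have hmain : 1 + algebraMap K F b₁ * y' =
      algebraMap K F a * (f * (1 + algebraMap K F b₂ * y₂)) ^ p := by
    have E : algebraMap K F b₁ * algebraMap K F (b₂ / b₁) = algebraMap K F b₂ := by
      rw [← map_mul, mul_div_cancel₀ _ hb0]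
    have h2 : (1 + algebraMap K F b₂ * y₂) ^ p =
        (1 + algebraMap K F b₂ * y₂) * (1 + algebraMap K F b₂ * y₂ * (t : F)) := by
      rw [← ht', ← pow_succ', hp1]
    rw [mul_pow, h2, hy']
    linear_combination (1 + algebraMap K F b₂ * y₂ * (t : F)) * h + (y₂ * (t : F)) * E
  obtain ⟨r, hr⟩ := P2b S p hp hkp hKp hlam hb hb1 hy'R hmain
  exact hex ⟨r, by rw [← hy'rd, hr]⟩

/-- **U.** two exact representatives of one class have the same level. -/
theorem level_eq (p : ℕ) (hp : p.Prime) [CharP k p] [IsReduced E] [Nontrivial E]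
    (hkp : ∀ c : k, ∃ d : k, d ^ p = c) (hKp : ∀ a : K, ∃ α : K, α ^ p = a)
    {lam b₁ b₂ : K} (hlam : S.A.valuation lam ^ (p - 1) = S.A.valuation (p : K))
    (hb₁ : S.A.valuation lam ^ p < S.A.valuation b₁) (hb₁' : S.A.valuation b₁ < 1)
    (hb₂ : S.A.valuation lam ^ p < S.A.valuation b₂) (hb₂' : S.A.valuation b₂ < 1)
    {y₁ y₂ : F} (hy₁ : y₁ ∈ S.R) (hy₂ : y₂ ∈ S.R) (hex₁ : ¬ ∃ r : E, S.rd y₁ = r ^ p)
    (hex₂ : ¬ ∃ r : E, S.rd y₂ = r ^ p) {a : K} {f : F}
    (h : 1 + algebraMap K F b₁ * y₁ = (1 + algebraMap K F b₂ * y₂) * (algebraMap K F a * f ^ p)) :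
    S.A.valuation b₁ = S.A.valuation b₂ := by
  refine le_antisymm (level_le S p hp hkp hKp hlam hb₁ hb₁' hy₁ hy₂ hex₁ h) ?_
  have hne : 1 + algebraMap K F b₁ * y₁ ≠ 0 := by
    intro h0
    have h1 := small_mul S hb₁' hy₁
    have h2 : S.rd (1 + algebraMap K F b₁ * y₁) = 1 := by
      rw [S.rd_add (one_mem _) h1.1, h1.2, S.rd_one, add_zero]
    rw [h0, S.rd_zero] at h2
    exact zero_ne_one h2
  have hne2 : algebraMap K F a * f ^ p ≠ 0 := by
    intro h0
    rw [h0, mul_zero] at h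
    exact hne h
  have ha : a ≠ 0 := by
    rintro rfl
    exact hne2 (by rw [map_zero, zero_mul])
  have hf : f ≠ 0 := by
    rintro rfl
    exact hne2 (by rw [zero_pow hp.ne_zero, mul_zero])
  refine level_le S p hp hkp hKp hlam hb₂ hb₂' hy₂ hy₁ hex₂ (a := a⁻¹) (f := f⁻¹) ?_
  rw [h, map_inv₀, inv_pow]
  have haF : algebraMap K F a ≠ 0 := (map_ne_zero _).2 ha
  have hfp : f ^ p ≠ 0 := pow_ne_zero p hf
  field_simp

end Fermat.Agent.S33
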