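import Fermat.Agent.S33.A2
import Fermat.Agent.S33.A3
import Fermat.Agent.S33.A4
import Fermat.Agent.S34.ToricKL

/-!
# S33, piece F2b (abstract): A1 + A2 + A3: a nontrivial class `u ≡ 1`, fixed by a semilinear automorphism `γ` which acts
trivially on the reduction and whose tame character is nontrivial on the elements `c` with `|c|^(p-1) = |p|`, has an
exact representative.
-/

set_option autoImplicit false

namespace Fermat.Agent.S33

open Polynomial IntermediateField Fermat.Agent.S24 Fermat.Agent.S18 Fermat.Agent.S18.CoreDim Module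
open Fermat.Agent.S34

variable {K F k E : Type*} [Field K] [Field F] [Algebra K F] [Field k] [CommRing E] [Algebra k E]

theorem F2b_map_mem_Lsp (γ : F →+* F)
    (hγK : ∀ c : K, ∃ c' : K, γ (algebraMap K F c) = algebraMap K F c') {x : F} (hγx : γ x = x)
    {a b : ℕ} {f : F} (hf : f ∈ Lsp K x a b) : γ f ∈ Lsp K x a b := by
  have hγxi : γ x⁻¹ = x⁻¹ := by rw [map_inv₀, hγx]
  obtain ⟨h1, h2⟩ := mem_Lsp.1 hf
  refine mem_Lsp.2 ⟨?_, ?_⟩
  · have := map_mem_intRing γ hγK hγx h1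
    rwa [map_mul, map_pow, hγx] at this
  · have := map_mem_intRing γ hγK hγxi h2
    rwa [map_mul, map_pow, hγxi] at this

/-- **F2b.** -/
theorem F2b_exact [Nontrivial E] [IsReduced E] (S : RedCore K F k E) {x : F}
    {Lb : ℕ → ℕ → Submodule k E} (H : CoreHyp S x Lb) {p : ℕ} (hpp : p.Prime) [CharP k p]
    (hp : 0 < p) {u : F} (HU : CoreHypU S x Lb p hp u)
    (hroot : ∀ (a b : ℕ) (r : E), r ^ p ∈ Lb (p * a) (p * b) → r ∈ Lb a b)
    (hKroot : ∀ a : K, ∃ α : K, α ^ p = a)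
    (γ : F →+* F) (τ : K →+* K) (hγK : ∀ c : K, γ (algebraMap K F c) = algebraMap K F (τ c))
    (hγx : γ x = x) (hγR : ∀ f ∈ S.R, γ f ∈ S.R ∧ S.rd (γ f) = S.rd f)
    (hτA : ∀ c : K, c ≠ 0 → τ c / c ∈ S.A)
    (hth : ∀ c : K, c ≠ 0 → S.A.valuation (p : K) = S.A.valuation c ^ (p - 1) →
      ∀ h : τ c / c ∈ S.A, S.resA ⟨τ c / c, h⟩ ≠ 1)
    {g : F} (hfix : γ u = u * g ^ p)
    (hcon : ∀ h : F, h ≠ 0 → ∀ c : K, u * h ^ p ≠ algebraMap K F c) :
    ∃ (n : ℕ) (c : K) (h1 h2 e1 e2 : F), c ≠ 0 ∧ S.A.valuation c < 1 ∧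
      S.A.valuation (p : K) < S.A.valuation c ^ (p - 1) ∧ TriOut S x p hp u n c h1 h2 e1 e2 ∧
      ∀ h : τ c / c ∈ S.A, S.resA ⟨τ c / c, h⟩ = 1 := by
  classical
  have := Fact.mk hpp
  have hchar : CharP E p := charP_of_injective_algebraMap (algebraMap k E).injective p
  obtain ⟨N₀, hN₀⟩ := coreP S H hp HU hcon
  obtain ⟨c, u1, u2, ps, O⟩ := hN₀ N₀ le_rfl
  set n := N₀
  -- `g`
  have hu0 := HU.u0
  have hγu := hγR u HU.uR
  have hg0 : g ≠ 0 := by
    rintro rfl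
    rw [zero_pow hp.ne', mul_zero] at hfix
    exact hu0 ((map_eq_zero γ).1 hfix)
  -- `u⁻¹ ∈ R`: use `u1`-free argument: `g ^ p * u = γ u`
  have hgR : g ∈ S.R ∧ S.rd g = 1 := by
    obtain ⟨d, hd0, hdR, hdrd⟩ := S.exists_scale hg0
    -- `(d g)^p u = d^p γ u`
    have e1 : (algebraMap K F d * g) ^ p * u = algebraMap K F (d ^ p) * γ u := by
      rw [hfix, mul_pow, map_pow]; ring
    have hval : S.A.valuation d = 1 := by
      rcases lt_trichotomy (S.A.valuation d) 1 with hlt | heq | hgt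
      · exfalso
        have h2 : S.A.valuation (d ^ p) < 1 := by
          rw [map_pow]; exact pow_lt_one₀ zero_le hlt hp.ne'
        have h3 := (A4.small_mul S h2 hγu.1).2
        rw [← e1, S.rd_mul (pow_mem hdR p) HU.uR, HU.u1, mul_one, S.rd_pow hdR] at h3
        exact hdrd (IsReduced.eq_zero _ ⟨p, h3⟩)
      · exact heq
      · exfalso
        have h2 : S.A.valuation ((d ^ p)⁻¹) < 1 := by
          rw [map_inv₀, map_pow]
          exact inv_lt_one_of_one_lt₀ (one_lt_pow₀ hgt hp.ne')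
        have hdp0 : d ^ p ≠ 0 := pow_ne_zero p hd0
        have e2 : γ u = algebraMap K F ((d ^ p)⁻¹) * ((algebraMap K F d * g) ^ p * u) := by
          rw [e1, ← mul_assoc, ← map_mul, inv_mul_cancel₀ hdp0, map_one, one_mul]
        have h3 := (A4.small_mul S h2 (mul_mem (pow_mem hdR p) HU.uR)).2
        rw [← e2, hγu.2, HU.u1] at h3
        exact one_ne_zero h3
    have hdi : S.A.valuation d⁻¹ ≤ 1 := by rw [map_inv₀, hval, inv_one]
    have hgR : g ∈ S.R := by
      have := A4.int_mul S hdi hdR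
      rwa [← mul_assoc, ← map_mul, inv_mul_cancel₀ hd0, map_one, one_mul] at this
    refine ⟨hgR, ?_⟩
    have h1 : S.rd g ^ p = 1 := by
      have := hγu.2
      rw [hfix, S.rd_mul HU.uR (pow_mem hgR p), HU.u1, one_mul, S.rd_pow hgR] at this
      exact this
    have h2 : (S.rd g - 1) ^ p = 0 := by rw [sub_pow_char, h1, one_pow, sub_self]
    exact sub_eq_zero.1 (IsReduced.eq_zero _ ⟨p, h2⟩)
  obtain ⟨hgR, hg1⟩ := hgR
  -- the semilinear map
  let Th : F →+ F := (AddMonoidHom.mulLeft g).comp γ.toAddMonoidHom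
  have hTh : ∀ f, Th f = g * γ f := fun f => rfl
  have hγK' : ∀ c : K, ∃ c' : K, γ (algebraMap K F c) = algebraMap K F c' := fun c => ⟨τ c, hγK c⟩
  have hThX : ∀ (a b : ℕ) (f : F), f ∈ Xsp K x u p hp a b → Th f ∈ Xsp K x u p hp a b := by
    intro a b f hf
    rw [mem_Xsp] at hf ⊢
    have := F2b_map_mem_Lsp γ hγK' hγx hf
    rw [map_mul, map_pow, hfix] at this
    rw [hTh, mul_pow, ← mul_assoc]
    exact this
  have hres : ∀ h : τ c / c ∈ S.A, S.resA ⟨τ c / c, h⟩ = 1 := by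
    intro h
    have := O.finX1
    have := O.finX2
    refine A3_inv S (Xsp K x u p hp 0 n) (Xsp K x u p hp n 0) ?_ ?_ ?_ ?_ O.inf ?_ O.c0 O.cA O.u1X
      O.u2X O.u1R O.rd1 O.psR O.diff ?_ τ h Th ?_ (hThX 0 n) (hThX n 0) ?_
    · rw [O.red1]; exact H.finb 0 n
    · rw [O.red2]; exact H.finb n 0
    · rw [H.dimRed _ O.finX1]
    · rw [H.dimRed _ O.finX2]
    · intro r hr
      rw [O.red1, O.red2] at hr
      exact H.constb r (H.inf_le n hr)
    · rw [O.red1, O.red2]; exact O.psn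
    · intro a f
      rw [hTh, hTh, map_mul, hγK]; ring
    · intro f hf
      obtain ⟨h1, h2⟩ := hγR f hf
      refine ⟨mul_mem hgR h1, ?_⟩
      rw [hTh, S.rd_mul hgR h1, hg1, one_mul, h2]
  have hc1 : S.A.valuation c < 1 := by
    have h1 : S.A.valuation c ≤ 1 := (S.A.valuation_le_one_iff c).2 O.cA
    refine lt_of_le_of_ne h1 fun h2 => O.cinv ?_
    rw [← S.A.valuation_le_one_iff, map_inv₀, h2, inv_one]
  rcases tri S H hpp hp HU hroot hKroot O with hb | ⟨hlt, h1, h2, e1, e2, T⟩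
  · exact absurd (hres (hτA c O.c0)) (hth c O.c0 hb (hτA c O.c0))
  · exact ⟨n, c, h1, h2, e1, e2, O.c0, hc1, hlt, T, hres⟩

end Fermat.Agent.S33
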