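import Fermat.Agent.S33.Defs
import Fermat.Agent.S35.N1

/-! # S33, modular block: definitions `IsTau0`, `IsTorCls` (no sorry) -/

set_option autoImplicit false

namespace Fermat.Agent.S33

open ModularCurve AlgebraicCurve HahnSeries Fermat.Agent.S24 Fermat.Agent.S28 Fermat.Agent.S18
  Fermat.Agent.GR Fermat.Agent.S34 Fermat.Agent.S35

/-- `τ₀` is an inertia element at `A` which moves `ζ_p`. -/
def IsTau0 (A : ValuationSubring Kb) (p : ℕ) (τ₀ : GQ) : Prop :=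
  τ₀ ∈ A.inertiaSubgroupIn ℚ ∧ ∀ ζ : Kb, ζ ^ p = 1 → ζ ≠ 1 → τ₀ ζ ≠ ζ

/-- the toric classes of level `p M`, measured at the auxiliary level `p M₁`. -/
def IsTorCls {p M : ℕ} (A : ValuationSubring Kb) {M₁ : ℕ} (h : M ∣ M₁)
    (w₁ : FN (p * M₁) ≃ₐ[Kb] FN (p * M₁)) (m : ℕ) (x : KQ (p * M) m) : Prop :=
  ∃ u : FN (p * M), u ≠ 0 ∧ cls m u = x ∧ IsTor A p M₁ m w₁ (inclFN (mul_dvd_mul_left p h) u)

end Fermat.Agent.S33
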