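import Fermat.Agent.S34.Gauss2Gal
import Fermat.Agent.S13.Minkowski
import Fermat.Agent.S37.Frob
import Fermat.Agent.GR.Cyclo
import Fermat.Agent.S33.ModDefs

/-!
# S33, piece G1: an inertia element at `p` moving `ζ_p`, and the tame symbol `th(τ, c)`

`ThEq A τ c r` says that the residue of `τ c / c` is the residue of `r`.
-/

set_option autoImplicit false
set_option linter.unusedSectionVars false
set_option linter.style.haveILetI false

namespace Fermat.Agent.S33

open Fermat.Agent.S24 (Kb)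
open Fermat.Agent.GR (GQ)

/-- `th(τ, c) = r mod 𝔪_A`, written as an inequality of valuations. -/
def ThEq (A : ValuationSubring Kb) (τ : GQ) (c r : Kb) : Prop :=
  A.valuation (τ c - r * c) < A.valuation c

theorem g1_mem_dec {A : ValuationSubring Kb} {τ : GQ} (hτ : τ ∈ A.inertiaSubgroupIn ℚ) :
    τ ∈ A.decompositionSubgroup ℚ := by
  unfold ValuationSubring.inertiaSubgroupIn at hτ
  rw [Subgroup.mem_map] at hτ
  obtain ⟨g, _, rfl⟩ := hτ
  exact g.2

theorem g1_val_map {A : ValuationSubring Kb} {τ : GQ} (hτ : τ ∈ A.inertiaSubgroupIn ℚ) (x : Kb) :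
    A.valuation (τ x) = A.valuation x :=
  S34.g2_valuation_gal A (g1_mem_dec hτ) x

theorem ThEq.ne_zero {A : ValuationSubring Kb} {τ : GQ} {c r : Kb} (h : ThEq A τ c r) : c ≠ 0 := by
  rintro rfl
  unfold ThEq at h
  rw [map_zero (A.valuation)] at h
  exact not_lt_zero h

/-- multiplicativity. -/
theorem ThEq.mul {A : ValuationSubring Kb} {τ : GQ} (hτ : τ ∈ A.inertiaSubgroupIn ℚ)
    {c c' r r' : Kb} (hr : A.valuation r ≤ 1) (h : ThEq A τ c r) (h' : ThEq A τ c' r') :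
    ThEq A τ (c * c') (r * r') := by
  unfold ThEq at *
  have hc0 : 0 < A.valuation c := lt_of_le_of_lt zero_le h
  have hc0' : 0 < A.valuation c' := lt_of_le_of_lt zero_le h'
  have e : τ (c * c') - r * r' * (c * c') = (τ c - r * c) * τ c' + r * c * (τ c' - r' * c') := by
    rw [map_mul]; ring
  rw [e, map_mul (A.valuation) c c']
  apply Valuation.map_add_lt
  · rw [map_mul, g1_val_map hτ]
    exact mul_lt_mul_of_pos_right h hc0'
  · rw [map_mul, map_mul]
    calc A.valuation r * A.valuation c * A.valuation (τ c' - r' * c')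
        ≤ 1 * A.valuation c * A.valuation (τ c' - r' * c') := by gcongr
      _ = A.valuation c * A.valuation (τ c' - r' * c') := by rw [one_mul]
      _ < A.valuation c * A.valuation c' := mul_lt_mul_of_pos_left h' hc0

theorem ThEq.one (A : ValuationSubring Kb) (τ : GQ) : ThEq A τ 1 1 := by
  unfold ThEq
  simp

theorem ThEq.pow {A : ValuationSubring Kb} {τ : GQ} (hτ : τ ∈ A.inertiaSubgroupIn ℚ)
    {c r : Kb} (hr : A.valuation r ≤ 1) (h : ThEq A τ c r) (n : ℕ) :
    ThEq A τ (c ^ n) (r ^ n) := by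
  induction n with
  | zero => simpa using ThEq.one A τ
  | succ n ih =>
    rw [pow_succ, pow_succ]
    exact ThEq.mul hτ (by rw [map_pow]; exact pow_le_one₀ zero_le hr) ih h

/-- units have trivial symbol. -/
theorem ThEq.of_unit {A : ValuationSubring Kb} {τ : GQ} (hτ : τ ∈ A.inertiaSubgroupIn ℚ)
    {e : Kb} (he : A.valuation e = 1) : ThEq A τ e 1 := by
  unfold ThEq
  rw [one_mul, he]
  exact GR.cyc_inertia_spec A hτ e he.le

/-- the symbol depends only on the valuation. -/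
theorem ThEq.of_val_eq {A : ValuationSubring Kb} {τ : GQ} (hτ : τ ∈ A.inertiaSubgroupIn ℚ)
    {c c' r : Kb} (hr : A.valuation r ≤ 1) (h : ThEq A τ c r)
    (hcc : A.valuation c' = A.valuation c) : ThEq A τ c' r := by
  have hc0 := h.ne_zero
  have he : A.valuation (c' / c) = 1 := by
    rw [map_div₀, hcc]
    exact div_self ((A.valuation.ne_zero_iff).mpr hc0)
  have := ThEq.mul hτ hr h (ThEq.of_unit hτ he)
  rwa [mul_one, mul_div_cancel₀ _ hc0] at this

/-- uniqueness of the symbol. -/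
theorem ThEq.unique {A : ValuationSubring Kb} {τ : GQ} {c r r' : Kb} (h : ThEq A τ c r)
    (h' : ThEq A τ c r') : A.valuation (r - r') < 1 := by
  have hc0 : 0 < A.valuation c := lt_of_le_of_lt zero_le h
  unfold ThEq at *
  have e : (r - r') * c = (τ c - r' * c) - (τ c - r * c) := by ring
  have h1 : A.valuation ((r - r') * c) < A.valuation c := by
    rw [e]
    exact Valuation.map_sub_lt _ h' h
  rw [map_mul] at h1
  by_contra hcon
  rw [not_lt] at hcon
  have : A.valuation c ≤ A.valuation (r - r') * A.valuation c := by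
    calc A.valuation c = 1 * A.valuation c := (one_mul _).symm
      _ ≤ _ := by gcongr
  exact absurd h1 (not_lt.mpr this)

/-! ### valuations of `ζ - 1` -/

theorem g1_val_pow_sub_one_le (A : ValuationSubring Kb) {ζ : Kb} (hζ : A.valuation ζ ≤ 1) (i : ℕ) :
    A.valuation (ζ ^ i - 1) ≤ A.valuation (ζ - 1) := by
  rw [← geom_sum_mul ζ i, map_mul]
  have h1 : A.valuation (∑ j ∈ Finset.range i, ζ ^ j) ≤ 1 := by
    apply Valuation.map_sum_le
    intro j _
    rw [map_pow]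
    exact pow_le_one₀ zero_le hζ
  calc _ ≤ 1 * A.valuation (ζ - 1) := by gcongr
    _ = _ := one_mul _

theorem g1_val_prim_eq (A : ValuationSubring Kb) {p : ℕ} (hp : p.Prime) {ζ μ : Kb}
    (hζ : IsPrimitiveRoot ζ p) (hμ : IsPrimitiveRoot μ p) :
    A.valuation (μ - 1) = A.valuation (ζ - 1) := by
  haveI : NeZero p := ⟨hp.ne_zero⟩
  obtain ⟨i, _, hi⟩ := hζ.eq_pow_of_pow_eq_one hμ.pow_eq_one
  obtain ⟨j, _, hj⟩ := hμ.eq_pow_of_pow_eq_one hζ.pow_eq_one
  apply le_antisymm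
  · rw [← hi]
    exact g1_val_pow_sub_one_le A (GR.cyc_val_root A hp.ne_zero hζ.pow_eq_one).le i
  · rw [← hj]
    exact g1_val_pow_sub_one_le A (GR.cyc_val_root A hp.ne_zero hμ.pow_eq_one).le j

/-- `|ζ - 1| ^ (p - 1) = |p|`. -/
theorem g1_val_lam_pow (A : ValuationSubring Kb) {p : ℕ} (hp : p.Prime) {ζ : Kb}
    (hζ : IsPrimitiveRoot ζ p) : A.valuation (ζ - 1) ^ (p - 1) = A.valuation (p : Kb) := by
  haveI : Fact p.Prime := ⟨hp⟩
  haveI : NeZero p := ⟨hp.ne_zero⟩
  have h1 := congrArg (Polynomial.eval 1) (Polynomial.cyclotomic_eq_prod_X_sub_primitiveRoots hζ)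
  rw [Polynomial.eval_one_cyclotomic_prime, Polynomial.eval_prod] at h1
  rw [h1, map_prod]
  have h2 : ∀ μ ∈ primitiveRoots p Kb,
      A.valuation (Polynomial.eval 1 (Polynomial.X - Polynomial.C μ)) = A.valuation (ζ - 1) := by
    intro μ hμ
    rw [mem_primitiveRoots hp.pos] at hμ
    rw [Polynomial.eval_sub, Polynomial.eval_X, Polynomial.eval_C, Valuation.map_sub_swap]
    exact g1_val_prim_eq A hp hζ hμ
  rw [Finset.prod_congr rfl h2, Finset.prod_const, hζ.card_primitiveRoots, Nat.totient_prime hp]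

theorem g1_val_lam_lt_one {A : ValuationSubring Kb} {p : ℕ} (hp : p.Prime)
    (hA : A.LiesOverPrime p) {ζ : Kb} (hζ : IsPrimitiveRoot ζ p) : A.valuation (ζ - 1) < 1 := by
  by_contra hcon
  rw [not_lt] at hcon
  have h1 : A.valuation (p : Kb) < 1 := hA
  rw [← g1_val_lam_pow A hp hζ] at h1
  exact absurd h1 (not_lt.mpr (one_le_pow₀ hcon))

theorem g1_val_int_lt_one_iff {A : ValuationSubring Kb} {p : ℕ} (hp : p.Prime)
    (hA : A.LiesOverPrime p) (n : ℤ) : A.valuation (n : Kb) < 1 ↔ (p : ℤ) ∣ n := by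
  have hpv : A.valuation (p : Kb) < 1 := hA
  constructor
  · intro hn
    by_contra hnd
    have hcop : IsCoprime n (p : ℤ) :=
      ((Nat.prime_iff_prime_int.mp hp).coprime_iff_not_dvd.mpr hnd).symm
    obtain ⟨x, y, hxy⟩ := hcop
    have h5 : (1 : Kb) = (x : Kb) * (n : Kb) + (y : Kb) * (p : Kb) := by exact_mod_cast hxy.symm
    have h6 : A.valuation (1 : Kb) < 1 := by
      rw [h5]
      apply Valuation.map_add_lt
      · rw [map_mul]
        calc _ ≤ 1 * A.valuation (n : Kb) := mul_le_mul_left (GR.cyc_val_int A x) _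
          _ < 1 := by rwa [one_mul]
      · rw [map_mul]
        calc _ ≤ 1 * A.valuation (p : Kb) := mul_le_mul_left (GR.cyc_val_int A y) _
          _ < 1 := by rwa [one_mul]
    rw [map_one] at h6
    exact lt_irrefl _ h6
  · rintro ⟨k, rfl⟩
    push_cast
    rw [map_mul, mul_comm]
    calc _ ≤ 1 * A.valuation (p : Kb) := mul_le_mul_left (GR.cyc_val_int A k) _
      _ < 1 := by rwa [one_mul]

/-- `th(τ, ζ - 1) = a` if `τ ζ = ζ ^ a`. -/
theorem ThEq.lam {A : ValuationSubring Kb} {p : ℕ} (hp : p.Prime) (hA : A.LiesOverPrime p)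
    {ζ : Kb} (hζ : IsPrimitiveRoot ζ p) {τ : GQ} {a : ℕ} (hτ : τ ζ = ζ ^ a) :
    ThEq A τ (ζ - 1) (a : Kb) := by
  unfold ThEq
  have hl0 : ζ - 1 ≠ 0 := sub_ne_zero.mpr (hζ.ne_one hp.one_lt)
  have hl0' : 0 < A.valuation (ζ - 1) := zero_lt_iff.mpr ((A.valuation.ne_zero_iff).mpr hl0)
  have e : τ (ζ - 1) - (a : Kb) * (ζ - 1) = (∑ j ∈ Finset.range a, (ζ ^ j - 1)) * (ζ - 1) := by
    rw [Finset.sum_sub_distrib, Finset.sum_const, Finset.card_range, nsmul_eq_mul, mul_one, sub_mul,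
      geom_sum_mul, map_sub, hτ, map_one]
  rw [e, map_mul]
  have h1 : A.valuation (∑ j ∈ Finset.range a, (ζ ^ j - 1)) < 1 := by
    apply Valuation.map_sum_lt _ one_ne_zero
    intro j _
    exact lt_of_le_of_lt
      (g1_val_pow_sub_one_le A (GR.cyc_val_root A hp.ne_zero hζ.pow_eq_one).le j)
      (g1_val_lam_lt_one hp hA hζ)
  calc _ < 1 * A.valuation (ζ - 1) := mul_lt_mul_of_pos_right h1 hl0'
    _ = _ := one_mul _

/-! ### the contradiction used in F1 / F2 -/

/-- If `τ` (in inertia) moves `ζ_p`, `th(τ, c) = 1` and `|c| ^ ((p - 1) i) = |p| ^ j` with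
`j ≡ 1 mod p - 1`, we have a contradiction. -/
theorem g1_th_false {A : ValuationSubring Kb} {p : ℕ} (hp : p.Prime)
    (hA : A.LiesOverPrime p) {τ : GQ} (hτ : τ ∈ A.inertiaSubgroupIn ℚ) {ζ : Kb}
    (hζ : IsPrimitiveRoot ζ p) (hτζ : τ ζ ≠ ζ) {c : Kb} (h1 : ThEq A τ c 1) {i j : ℕ}
    (hj : j % (p - 1) = 1)
    (h : A.valuation c ^ ((p - 1) * i) = A.valuation (p : Kb) ^ j) : False := by
  haveI : Fact p.Prime := ⟨hp⟩
  haveI : NeZero p := ⟨hp.ne_zero⟩
  have hτp : (τ ζ) ^ p = 1 := by rw [← map_pow, hζ.pow_eq_one, map_one]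
  obtain ⟨a, ha, haζ⟩ := hζ.eq_pow_of_pow_eq_one hτp
  have hl := ThEq.lam hp hA hζ haζ.symm
  have hav : A.valuation (a : Kb) ≤ 1 := by
    have := GR.cyc_val_int A (a : ℤ)
    rwa [Int.cast_natCast] at this
  have hlj := ThEq.pow hτ hav hl j
  have hci := ThEq.pow hτ (le_of_eq (map_one A.valuation)) h1 i
  rw [one_pow] at hci
  have hval : A.valuation ((ζ - 1) ^ j) = A.valuation (c ^ i) := by
    rw [map_pow, map_pow]
    have hp1 : p - 1 ≠ 0 := by have := hp.two_le; omega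
    apply (pow_left_inj₀ zero_le zero_le hp1).mp
    rw [← pow_mul, ← pow_mul, mul_comm i, h, ← g1_val_lam_pow A hp hζ, ← pow_mul, mul_comm j]
  have h2 := ThEq.of_val_eq hτ (le_of_eq (map_one A.valuation)) hci hval
  have h3 := ThEq.unique hlj h2
  have h4 : A.valuation (((a : ℤ) ^ j - 1 : ℤ) : Kb) < 1 := by
    push_cast
    exact h3
  rw [g1_val_int_lt_one_iff hp hA] at h4
  have h5 : ((a : ZMod p)) ^ j = 1 := by
    have := (ZMod.intCast_zmod_eq_zero_iff_dvd _ p).mpr h4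
    push_cast at this
    exact sub_eq_zero.mp this
  have hj' : j = (p - 1) * (j / (p - 1)) + 1 := by
    have := Nat.div_add_mod j (p - 1)
    omega
  have ha0 : (a : ZMod p) ≠ 0 := by
    intro h0
    rw [h0, hj', pow_succ, mul_zero] at h5
    exact zero_ne_one h5
  rw [hj', pow_succ, pow_mul, ZMod.pow_card_sub_one_eq_one ha0, one_pow, one_mul] at h5
  have h6 : a = 1 := by
    have h7 : (a : ZMod p) = ((1 : ℕ) : ZMod p) := by rw [h5, Nat.cast_one]
    rw [ZMod.natCast_eq_natCast_iff'] at h7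
    rwa [Nat.mod_eq_of_lt ha, Nat.mod_eq_of_lt hp.one_lt] at h7
  apply hτζ
  rw [← haζ, h6, pow_one]

/-! ### existence of the inertia element -/

theorem g1_val_aeval_sub_le (A : ValuationSubring Kb) {u v : Kb} (hu : A.valuation u ≤ 1)
    (hv : A.valuation v ≤ 1) (f : Polynomial ℤ) :
    A.valuation (Polynomial.aeval u f - Polynomial.aeval v f) ≤ A.valuation (u - v) := by
  induction f using Polynomial.induction_on' with
  | add f g hf hg =>
    rw [map_add, map_add, add_sub_add_comm]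
    exact Valuation.map_add_le _ hf hg
  | monomial n c =>
    rw [Polynomial.aeval_monomial, Polynomial.aeval_monomial, ← mul_sub, ← geom_sum₂_mul u v n,
      map_mul, map_mul]
    have h1 : A.valuation (algebraMap ℤ Kb c) ≤ 1 := GR.cyc_val_int A c
    have h2 : A.valuation (∑ i ∈ Finset.range n, u ^ i * v ^ (n - 1 - i)) ≤ 1 := by
      apply Valuation.map_sum_le
      intro i _
      rw [map_mul, map_pow, map_pow]
      exact mul_le_one₀ (pow_le_one₀ zero_le hu) zero_le (pow_le_one₀ zero_le hv)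
    calc _ ≤ 1 * (1 * A.valuation (u - v)) := by gcongr
      _ = _ := by rw [one_mul, one_mul]

theorem g1_map_aeval (γ : GQ) (u : Kb) (f : Polynomial ℤ) :
    γ (Polynomial.aeval u f) = Polynomial.aeval (γ u) f := by
  have := Polynomial.aeval_algHom_apply ((γ : Kb →ₐ[ℚ] Kb).restrictScalars ℤ) u f
  exact this.symm

open Fermat.Agent.S54 Fermat.Agent.S13.Minkowski Fermat.Agent.S37 in
attribute [local instance] isAlgClosure_Qbar isAlgebraic_int_Qbar isFractionRing_Zbar in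
/-- **G1.** every power map `ζ ↦ ζ ^ a` (`p ∤ a`) on `μ_p` is induced by an element of the inertia
group of any `A | p`. -/
theorem exists_inertia_zeta_pow {A : ValuationSubring Kb} {p : ℕ} (hp : p.Prime)
    (hA : A.LiesOverPrime p) {ζ : Kb} (hζ : IsPrimitiveRoot ζ p) {a : ℕ} (ha : ¬ p ∣ a) :
    ∃ τ ∈ A.inertiaSubgroupIn ℚ, τ ζ = ζ ^ a := by
  haveI : Fact p.Prime := ⟨hp⟩
  haveI : NeZero p := ⟨hp.ne_zero⟩
  have hcop : Nat.Coprime a p := ((Nat.Prime.coprime_iff_not_dvd hp).mpr ha).symm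
  have hζa : IsPrimitiveRoot (ζ ^ a) p := hζ.pow_of_coprime a hcop
  have hmin : minpoly ℚ ζ = minpoly ℚ (ζ ^ a) := by
    rw [← Polynomial.cyclotomic_eq_minpoly_rat hζ hp.pos,
      ← Polynomial.cyclotomic_eq_minpoly_rat hζa hp.pos]
  obtain ⟨γ, hγ⟩ : ∃ γ : GQ, γ ζ = ζ ^ a := by
    have h1 : IsConjRoot ℚ (ζ ^ a) ζ := hmin.symm
    obtain ⟨σ, hσ⟩ := isConjRoot_iff_exists_algEquiv.mp h1
    exact ⟨σ, hσ⟩
  let K : IntermediateField ℚ Kb := IntermediateField.adjoin ℚ {ζ}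
  have hcyc : IsCyclotomicExtension {p} ℚ K := hζ.intermediateField_adjoin_isCyclotomicExtension ℚ
  have hgal : IsGalois ℚ K := IsCyclotomicExtension.isGalois {p} ℚ K
  let H : Subgroup GQ := K.fixingSubgroup
  have hN : H.Normal := (InfiniteGalois.normal_iff_isGalois K).mpr hgal
  have hfd : FiniteDimensional ℚ K := IsCyclotomicExtension.finiteDimensional {p} ℚ K
  have hcl : IsClosed (H : Set GQ) := IntermediateField.fixingSubgroup_isClosed K
  let _ : TopologicalSpace (integralClosure ℤ (AlgebraicClosure ℚ)) := ⊥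
  have : DiscreteTopology (integralClosure ℤ (AlgebraicClosure ℚ)) := ⟨rfl⟩
  have : ContinuousSMul (AlgebraicClosure ℚ ≃ₐ[ℚ] AlgebraicClosure ℚ)
      (integralClosure ℤ (AlgebraicClosure ℚ)) := by
    rw [continuousSMul_iff_stabilizer_isOpen]
    intro x
    have := stabilizer_isOpen_of_isIntegral (K := ℚ) (L := AlgebraicClosure ℚ)
      (x : AlgebraicClosure ℚ)
    convert this using 1
    ext g
    simp only [SetLike.mem_coe, MulAction.mem_stabilizer_iff]
    constructor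
    · intro h; exact congrArg Subtype.val h
    · intro h; exact Subtype.ext h
  have hζv : A.valuation ζ ≤ 1 := (GR.cyc_val_root A hp.ne_zero hζ.pow_eq_one).le
  have hζK : ζ ∈ K := IntermediateField.mem_adjoin_simple_self ℚ ζ
  obtain ⟨h, hh, hσ⟩ := exists_mul_mem_inertia H hcl (frCentre A) γ (by
    intro x hx
    have hxK : (x : Kb) ∈ K := by
      rw [← InfiniteGalois.fixedField_fixingSubgroup K, IntermediateField.mem_fixedField_iff]
      intro g hg
      exact congrArg Subtype.val (hx g hg)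
    have hint : IsIntegral ℤ (⟨x, hxK⟩ : K) := by
      have h1 : IsIntegral ℤ (algebraMap K Kb ⟨x, hxK⟩) := x.2
      exact (isIntegral_algebraMap_iff (algebraMap K Kb).injective).mp h1
    have hζK' : IsPrimitiveRoot (⟨ζ, hζK⟩ : K) p :=
      IsPrimitiveRoot.of_map_of_injective (f := algebraMap K Kb) (algebraMap K Kb).injective
        (h := hζ)
    have hic := IsCyclotomicExtension.Rat.isIntegralClosure_adjoin_singleton_of_prime hζK'
    obtain ⟨y, hy⟩ := (hic.isIntegral_iff).mp hint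
    have hy2 : (y : K) ∈ (Polynomial.aeval (R := ℤ) (⟨ζ, hζK⟩ : K)).range := by
      rw [← Algebra.adjoin_singleton_eq_range_aeval]
      exact y.2
    obtain ⟨f, hf⟩ := hy2
    have hxf : (x : Kb) = Polynomial.aeval ζ f := by
      have h1 : (⟨x, hxK⟩ : K) = Polynomial.aeval (⟨ζ, hζK⟩ : K) f := by
        rw [← hy]
        exact hf.symm
      have h2 := congrArg (algebraMap K Kb) h1
      rw [← Polynomial.aeval_algebraMap_apply] at h2
      exact h2
    rw [mem_frCentre]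
    change γ (x : Kb) - (x : Kb) ∈ A.nonunits
    rw [hxf, g1_map_aeval, hγ]
    change A.valuation _ < 1
    refine lt_of_le_of_lt (g1_val_aeval_sub_le A (by rw [map_pow]; exact pow_le_one₀ zero_le hζv)
      hζv f) ?_
    have e : ζ ^ a - ζ = (ζ ^ a - 1) - (ζ - 1) := by ring
    rw [e]
    exact Valuation.map_sub_lt _ (lt_of_le_of_lt (g1_val_pow_sub_one_le A hζv a)
      (g1_val_lam_lt_one hp hA hζ)) (g1_val_lam_lt_one hp hA hζ))
  have hin := mem_inertiaSubgroupIn_loc p hp (frCentre A) (fr_natCast_mem hA) (h * γ) hσ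
  rw [← fr_eq_loc hp hA] at hin
  refine ⟨h * γ, hin, ?_⟩
  rw [AlgEquiv.mul_apply, hγ, map_pow]
  congr 1
  exact (IntermediateField.mem_fixingSubgroup_iff K h).mp hh ζ hζK

/-- **G1.** for `p` odd there is `τ₀` in the inertia group of `A | p` moving all nontrivial
`p`-th roots of unity. -/
theorem exists_inertia_moving {A : ValuationSubring Kb} {p : ℕ} (hp : p.Prime) (hp2 : p ≠ 2)
    (hA : A.LiesOverPrime p) :
    ∃ τ ∈ A.inertiaSubgroupIn ℚ, ∀ ζ : Kb, ζ ^ p = 1 → ζ ≠ 1 → τ ζ ≠ ζ := by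
  haveI : NeZero p := ⟨hp.ne_zero⟩
  haveI : NeZero (p : Kb) := ⟨by exact_mod_cast hp.ne_zero⟩
  obtain ⟨ζ0, hζ0⟩ := HasEnoughRootsOfUnity.exists_primitiveRoot Kb p
  have h2 : ¬ p ∣ 2 := by
    intro h
    exact hp2 ((Nat.prime_dvd_prime_iff_eq hp Nat.prime_two).mp h)
  obtain ⟨τ, hτ, hτζ⟩ := exists_inertia_zeta_pow hp hA hζ0 h2
  refine ⟨τ, hτ, fun ζ hζ hζ1 hfix => hζ1 ?_⟩
  obtain ⟨i, _, rfl⟩ := hζ0.eq_pow_of_pow_eq_one hζ
  rw [map_pow, hτζ, ← pow_mul, mul_comm, pow_mul, sq] at hfix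
  have h0 : ζ0 ^ i ≠ 0 := pow_ne_zero _ (hζ0.ne_zero hp.ne_zero)
  exact mul_left_cancel₀ h0 (by rw [hfix, mul_one])

/-- packaged form of `g1_th_false` for a `τ` as in `exists_inertia_moving`. -/
theorem g1_th_false' {A : ValuationSubring Kb} {p : ℕ} (hp : p.Prime)
    (hA : A.LiesOverPrime p) {τ : GQ} (hτ : τ ∈ A.inertiaSubgroupIn ℚ)
    (hmov : ∀ ζ : Kb, ζ ^ p = 1 → ζ ≠ 1 → τ ζ ≠ ζ) {c : Kb}
    (h1 : A.valuation (τ c - c) < A.valuation c) {i j : ℕ} (hj : j % (p - 1) = 1)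
    (h : A.valuation c ^ ((p - 1) * i) = A.valuation (p : Kb) ^ j) : False := by
  haveI : NeZero p := ⟨hp.ne_zero⟩
  haveI : NeZero (p : Kb) := ⟨by exact_mod_cast hp.ne_zero⟩
  obtain ⟨ζ0, hζ0⟩ := HasEnoughRootsOfUnity.exists_primitiveRoot Kb p
  refine g1_th_false hp hA hτ hζ0 (hmov ζ0 hζ0.pow_eq_one (hζ0.ne_one hp.one_lt)) (c := c) ?_ hj h
  unfold ThEq
  rwa [one_mul]

/-- `th(τ₀, c) = 1` excludes `|c| ^ (p - 1) = |p|`. -/
theorem g1_false_of_pow_eq {A : ValuationSubring Kb} {p : ℕ} (hp : p.Prime) (hp2 : p ≠ 2)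
    (hA : A.LiesOverPrime p) {τ : GQ} (hτ : τ ∈ A.inertiaSubgroupIn ℚ)
    (hmov : ∀ ζ : Kb, ζ ^ p = 1 → ζ ≠ 1 → τ ζ ≠ ζ) {c : Kb}
    (h1 : A.valuation (τ c - c) < A.valuation c)
    (h : A.valuation c ^ (p - 1) = A.valuation (p : Kb)) : False := by
  have hp3 : 3 ≤ p := by have := hp.two_le; omega
  refine g1_th_false' hp hA hτ hmov h1 (i := 1) (j := 1) (Nat.mod_eq_of_lt (by omega)) ?_
  rw [mul_one, pow_one, h]

/-- `th(τ₀, b) = 1` excludes `|b| ^ (p ^ 2 - 1) = |p| ^ p`. -/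
theorem g1_false_of_pow_eq_sq {A : ValuationSubring Kb} {p : ℕ} (hp : p.Prime) (hp2 : p ≠ 2)
    (hA : A.LiesOverPrime p) {τ : GQ} (hτ : τ ∈ A.inertiaSubgroupIn ℚ)
    (hmov : ∀ ζ : Kb, ζ ^ p = 1 → ζ ≠ 1 → τ ζ ≠ ζ) {b : Kb}
    (h1 : A.valuation (τ b - b) < A.valuation b)
    (h : A.valuation b ^ (p ^ 2 - 1) = A.valuation (p : Kb) ^ p) : False := by
  have hp3 : 3 ≤ p := by have := hp.two_le; omega
  refine g1_th_false' hp hA hτ hmov h1 (i := p + 1) (j := p) ?_ ?_
  · obtain ⟨k, rfl⟩ : ∃ k, p = k + 3 := ⟨p - 3, by omega⟩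
    have e : k + 3 - 1 = k + 2 := by omega
    rw [e]
    have e2 : k + 3 = 1 + (k + 2) := by omega
    rw [e2, Nat.add_mod_right]
    exact Nat.mod_eq_of_lt (by omega)
  · rw [← h]
    congr 1
    obtain ⟨k, rfl⟩ : ∃ k, p = k + 1 := ⟨p - 1, by omega⟩
    have : (k + 1) ^ 2 = (k + 1 - 1) * (k + 1 + 1) + 1 := by
      rw [Nat.add_sub_cancel]; ring
    omega

/-- the symbol of a `p`-th power (or any power) of `c` with trivial symbol is trivial. -/
theorem g1_th_one_pow {A : ValuationSubring Kb} {τ : GQ} (hτ : τ ∈ A.inertiaSubgroupIn ℚ) {c : Kb}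
    (h1 : A.valuation (τ c - c) < A.valuation c) (n : ℕ) :
    A.valuation (τ (c ^ n) - c ^ n) < A.valuation (c ^ n) := by
  have h : ThEq A τ c 1 := by unfold ThEq; rwa [one_mul]
  have := ThEq.pow hτ (le_of_eq (map_one A.valuation)) h n
  unfold ThEq at this
  rwa [one_pow, one_mul] at this

/-- trivial symbol only depends on the valuation. -/
theorem g1_th_one_of_val_eq {A : ValuationSubring Kb} {τ : GQ} (hτ : τ ∈ A.inertiaSubgroupIn ℚ)
    {c c' : Kb} (h1 : A.valuation (τ c - c) < A.valuation c)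
    (hcc : A.valuation c' = A.valuation c) : A.valuation (τ c' - c') < A.valuation c' := by
  have h : ThEq A τ c 1 := by unfold ThEq; rwa [one_mul]
  have := ThEq.of_val_eq hτ (le_of_eq (map_one A.valuation)) h hcc
  unfold ThEq at this
  rwa [one_mul] at this

/-- **G1**, official form. -/
theorem exists_isTau0 {p : ℕ} (hp : p.Prime) (hp2 : p ≠ 2) (A : ValuationSubring Kb)
    (hA : A.LiesOverPrime p) : ∃ τ₀, IsTau0 A p τ₀ := by
  obtain ⟨τ, h1, h2⟩ := exists_inertia_moving hp hp2 hA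
  exact ⟨τ, h1, h2⟩

/-- `th(τ₀, c) = 1` excludes `|c| ^ (p - 1) = |p|`. -/
theorem IsTau0.false_of_pow_eq {A : ValuationSubring Kb} {p : ℕ} (hp : p.Prime) (hp2 : p ≠ 2)
    (hA : A.LiesOverPrime p) {τ : GQ} (hτ : IsTau0 A p τ) {c : Kb}
    (h1 : A.valuation (τ c - c) < A.valuation c)
    (h : A.valuation c ^ (p - 1) = A.valuation (p : Kb)) : False :=
  g1_false_of_pow_eq hp hp2 hA hτ.1 hτ.2 h1 h

/-- `th(τ₀, b) = 1` excludes `|b| ^ (p ^ 2 - 1) = |p| ^ p`. -/
theorem IsTau0.false_of_pow_eq_sq {A : ValuationSubring Kb} {p : ℕ} (hp : p.Prime) (hp2 : p ≠ 2)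
    (hA : A.LiesOverPrime p) {τ : GQ} (hτ : IsTau0 A p τ) {b : Kb}
    (h1 : A.valuation (τ b - b) < A.valuation b)
    (h : A.valuation b ^ (p ^ 2 - 1) = A.valuation (p : Kb) ^ p) : False :=
  g1_false_of_pow_eq_sq hp hp2 hA hτ.1 hτ.2 h1 h

/-- the form produced by `tpLocal` (L3): `|b| ^ (p p) = |p| ^ p |b|`. -/
theorem IsTau0.false_of_tpLocal {A : ValuationSubring Kb} {p : ℕ} (hp : p.Prime) (hp2 : p ≠ 2)
    (hA : A.LiesOverPrime p) {τ : GQ} (hτ : IsTau0 A p τ) {b : Kb}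
    (h1 : A.valuation (τ b - b) < A.valuation b)
    (h : A.valuation b ^ (p * p) = A.valuation (p : Kb) ^ p * A.valuation b) : False := by
  have hb0 : A.valuation b ≠ 0 := (lt_of_le_of_lt zero_le h1).ne'
  refine hτ.false_of_pow_eq_sq hp hp2 hA h1 ?_
  have hpp : p * p = (p ^ 2 - 1) + 1 := by
    have : 0 < p ^ 2 := pow_pos hp.pos 2
    rw [← sq]; omega
  rw [hpp, pow_succ] at h
  exact mul_right_cancel₀ hb0 h

end Fermat.Agent.S33
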