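import Fermat.Agent.S33.F2a
import Fermat.Agent.S33.F2b
import Fermat.Agent.S33.A4b
import Fermat.Agent.S33.A5
import Fermat.Agent.S33.A5G
import Fermat.Agent.S33.G1
import Fermat.Agent.S33.ModDefs
import Fermat.Agent.S35.CoordF

/-!
# S33, piece F2c: `FixN` at the level `p M` (nodal reduction), from `FixM` at the level `M`
-/

set_option autoImplicit false

namespace Fermat.Agent.S33

open ModularCurve AlgebraicCurve HahnSeries Fermat.Agent.S24 Fermat.Agent.S28 Fermat.Agent.S18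
open Fermat.Agent.GR Fermat.Agent.S34 Fermat.Agent.S35

section

variable {A : ValuationSubring Kb} {p M : ℕ} [NeZero p] [NeZero M] [Fact p.Prime]
  [CharP (kA A) p] {w : FN (p * M) ≃ₐ[Kb] FN (p * M)}

/-- the norm of `1 + b e`. -/
theorem F2c_norm {ζ : Kbˣ} (hζ : IsPrimitiveRoot ζ p) {b : Kb} (hb : A.valuation b < 1)
    {e : FN (p * M)} (he : gsMem A (e : LaurentSeries Kb))
    (hwe : gsMem A ((w e : FN (p * M)) : LaurentSeries Kb)) :
    ∃ Y : LaurentSeries Kb, gsMem A Y ∧ gr A Y = gr A (e : LaurentSeries Kb) ∧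
      N1 w ζ (1 + algebraMap Kb (FN (p * M)) b * e) = 1 + C b * Y := by
  obtain ⟨G, hG, hG0, hGe⟩ := F2a_UU_small hζ hb hwe
  have hbA : b ∈ A := (A.valuation_le_one_iff b).1 hb.le
  have hCb : gsMem A (C b : LaurentSeries Kb) := gsMem_C hbA
  refine ⟨(e : LaurentSeries Kb) + G + C b * (e : LaurentSeries Kb) * G,
    (he.add hG).add ((hCb.mul he).mul hG), ?_, ?_⟩
  · rw [gr_add (he.add hG) ((hCb.mul he).mul hG), gr_add he hG, gr_mul (hCb.mul he) hG, hG0,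
      mul_zero, add_zero, add_zero]
  · have e1 : ((w (1 + algebraMap Kb (FN (p * M)) b * e) : FN (p * M)) : LaurentSeries Kb) =
        1 + C b * ((w e : FN (p * M)) : LaurentSeries Kb) := by
      rw [map_add, map_one, AddMemClass.coe_add, WqSpec.w_C_mul]; rfl
    have e2 : ((1 + algebraMap Kb (FN (p * M)) b * e : FN (p * M)) : LaurentSeries Kb) =
        1 + C b * (e : LaurentSeries Kb) := by
      rw [AddMemClass.coe_add, MulMemClass.coe_mul, gs_coe_algebraMap]; rfl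
    rw [N1, e1, e2, hGe]
    ring

/-- if the norm of `1 + b e` is a `p`-th power (up to a constant), `|lam|^p < |b| < 1`, then the reduction of `e` at
the Gauss valuation is a `p`-th power. -/
theorem F2c_comp (hpM : ¬ p ∣ M) {ζ : Kbˣ} (hζ : IsPrimitiveRoot ζ p) {lam b : Kb}
    (hlam : A.valuation lam ^ (p - 1) = A.valuation (p : Kb))
    (hb : A.valuation lam ^ p < A.valuation b) (hb1 : A.valuation b < 1)
    {e : FN (p * M)} (he : gsMem A (e : LaurentSeries Kb))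
    (hwe : gsMem A ((w e : FN (p * M)) : LaurentSeries Kb)) (f : FN M)
    (h : N1 w ζ (1 + algebraMap Kb (FN (p * M)) b * e) = (f : LaurentSeries Kb) ^ p) :
    ∃ r : modularFunctionFieldFullC (kA A) M,
      gr A (e : LaurentSeries Kb) = (r : LaurentSeries (kA A)) ^ p := by
  have hp : p.Prime := Fact.out
  have := isAlgClosed_kA A
  obtain ⟨Y, hY, hYe, hN⟩ := F2c_norm (w := w) hζ hb1 he hwe
  have hb0 : b ≠ 0 := by
    rintro rfl
    rw [map_zero] at hb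
    exact absurd hb (not_lt.2 zero_le)
  have hCb : (C b : LaurentSeries Kb) * C b⁻¹ = 1 := by
    rw [← map_mul, mul_inv_cancel₀ hb0, map_one]
  have hYF : Y ∈ FN M := by
    have e1 : Y = C b⁻¹ * ((f : LaurentSeries Kb) ^ p - 1) := by
      rw [← h, hN, add_sub_cancel_left, ← mul_assoc, mul_comm (C b⁻¹), hCb, one_mul]
    rw [e1, ← gs_coe_algebraMap (N := M)]
    exact (algebraMap Kb (FN M) b⁻¹ * (f ^ p - 1)).2
  set S := A5G_core (gaussSetting A M (g2_natCast_ne_zero A hpM)) with hS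
  have hyR : (⟨Y, hYF⟩ : FN M) ∈ S.R := hY
  have heq : 1 + algebraMap Kb (FN M) b * (⟨Y, hYF⟩ : FN M) = algebraMap Kb (FN M) 1 * f ^ p := by
    apply Subtype.ext
    rw [map_one, one_mul]
    show (1 : LaurentSeries Kb) + ((algebraMap Kb (FN M) b : FN M) : LaurentSeries Kb) * Y =
      (f : LaurentSeries Kb) ^ p
    rw [gs_coe_algebraMap, ← hN, h]
  obtain ⟨r, hr⟩ := P2b S p hp (fun c => IsAlgClosed.exists_pow_nat_eq c hp.pos)
    (fun a => IsAlgClosed.exists_pow_nat_eq a hp.pos) hlam hb hb1 hyR heq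
  refine ⟨r, ?_⟩
  rw [← hYe]
  have h2 := congrArg (fun t : modularFunctionFieldFullC (kA A) M => (t : LaurentSeries (kA A))) hr
  rw [S.rd_of_mem hyR] at h2
  exact h2

/-- bridge: `th(τ, c) = 1`. -/
theorem F2c_bridge {τ c : Kb} (hc : c ≠ 0) (h : τ / c ∈ A)
    (h1 : IsLocalRing.residue A ⟨τ / c, h⟩ = 1) : A.valuation (τ - c) < A.valuation c := by
  have h2 : IsLocalRing.residue A (⟨τ / c, h⟩ - 1) = 0 := by rw [map_sub, h1, map_one, sub_self]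
  rw [IsLocalRing.residue_eq_zero_iff, A.valuation_lt_one_iff] at h2
  have h3 : τ - c = ((⟨τ / c, h⟩ - 1 : A) : Kb) * c := by
    show τ - c = (τ / c - 1) * c
    field_simp
  rw [h3, map_mul]
  have hvc : 0 < A.valuation c := zero_lt_iff.2 ((Valuation.ne_zero_iff _).2 hc)
  calc A.valuation ((⟨τ / c, h⟩ - 1 : A) : Kb) * A.valuation c < 1 * A.valuation c :=
        mul_lt_mul_of_pos_right h2 hvc
    _ = A.valuation c := one_mul _

/-- **F2, core.** `FixN` when the two norms are trivial. -/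
theorem F2c_core (hp2 : p ≠ 2) (h4 : 4 ∣ M) (hpM : ¬ p ∣ M) (hA : A.LiesOverPrime p) {τ₀ : GQ}
    (hτ₀ : IsTau0 A p τ₀) {ζ : Kbˣ} (hζ : IsPrimitiveRoot ζ p) (hw : S35.IsWq p M w) (z : FN (p * M))
    (hzV : z ∈ (gauss2 A hpM hw.spec).V) (hrd : (gauss2 A hpM hw.spec).rd z = 1)
    (hord : DvdOrd (p * M) p z) (hfix : ∃ g : FN (p * M), galF (p * M) τ₀ z = z * g ^ p)
    (hN : ∃ v : FN M, N1 w ζ z = (v : LaurentSeries Kb) ^ p)
    (hN' : ∃ v : FN M, N1 w ζ (w z) = (v : LaurentSeries Kb) ^ p) :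
    ∃ g : FN (p * M), z = g ^ p := by
  by_contra hno
  have hp : p.Prime := Fact.out
  have := isAlgClosed_kA A
  have : NeZero (p * M) := ⟨mul_ne_zero (NeZero.ne p) (NeZero.ne M)⟩
  set S := gauss2 A hpM hw.spec with hS
  obtain ⟨x, y, Z, hx, hG, -⟩ := coordF_odd hp2 h4 hpM A hA w hw.spec
  have H := A5_coreHyp S hx (arch_of_liesOver A hp hA)
  have HU := A5_coreHypU (isFF_FN (p * M)) hx Z hzV hrd hord
  obtain ⟨g, hg⟩ := hfix
  have hcon : ∀ h : FN (p * M), h ≠ 0 → ∀ c : Kb, z * h ^ p ≠ algebraMap Kb (FN (p * M)) c := by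
    intro h hh c heq
    obtain ⟨d, hd⟩ := IsAlgClosed.exists_pow_nat_eq c hp.pos
    apply hno
    refine ⟨algebraMap Kb (FN (p * M)) d * h⁻¹, ?_⟩
    rw [mul_pow, ← map_pow, hd, ← heq, inv_pow, mul_assoc, mul_inv_cancel₀ (pow_ne_zero _ hh),
      mul_one]
  obtain ⟨γ₀, hγ₀, hγ₀e⟩ := hτ₀.1
  have hτA : ∀ c : Kb, c ≠ 0 → (τ₀ : Kb →+* Kb) c / c ∈ S.core.A := by
    intro c hc
    have := decomp_div_mem γ₀ hc
    rw [← hγ₀e]
    exact this
  have hth : ∀ c : Kb, c ≠ 0 → S.core.A.valuation (p : Kb) = S.core.A.valuation c ^ (p - 1) →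
      ∀ h : (τ₀ : Kb →+* Kb) c / c ∈ S.core.A, S.core.resA ⟨(τ₀ : Kb →+* Kb) c / c, h⟩ ≠ 1 := by
    intro c hc hv h h1
    exact hτ₀.false_of_pow_eq hp hp2 hA (F2c_bridge hc h h1) hv.symm
  obtain ⟨n, c, h1, h2, e1, e2, hc0, hc1, hcp, T, -⟩ := F2b_exact S.core H hp hp.pos HU
    (fun a b r h => A5_hroot Z a b h) (fun a => IsAlgClosed.exists_pow_nat_eq a hp.pos)
    (galF (p * M) τ₀).toRingHom (τ₀ : Kb →+* Kb) (fun c => galF_algebraMap (p * M) τ₀ c) (hG τ₀)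
    (fun f hf => gauss2_inertiaIn A hpM hw.spec hτ₀.1 hf) hτA hth hg hcon
  obtain ⟨lam, hlam'⟩ := A4b_exists_lam S.core hp
  have hlam : A.valuation lam ^ (p - 1) = A.valuation (p : Kb) := hlam'
  have hcp' : A.valuation (p : Kb) < A.valuation c ^ (p - 1) := hcp
  have hc1' : A.valuation c < 1 := hc1
  have hb : A.valuation lam ^ p < A.valuation (c ^ p) := by
    refine (A4b_lam_iff S.core hp hlam').2 ?_
    show A.valuation (p : Kb) ^ p < A.valuation (c ^ p) ^ (p - 1)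
    rw [map_pow, ← pow_mul, mul_comm p (p - 1), pow_mul]
    exact pow_lt_pow_left₀ hcp' zero_le hp.ne_zero
  have hb1 : A.valuation (c ^ p) < 1 := by
    rw [map_pow]; exact pow_lt_one₀ zero_le hc1' hp.ne_zero
  have he1 : e1 ∈ S.V := T.e1R
  obtain ⟨v1, hv1⟩ := hN
  obtain ⟨v2, hv2⟩ := hN'
  have hn1 : N1 w ζ (1 + algebraMap Kb (FN (p * M)) (c ^ p) * e1) =
      ((v1 * ⟨N1 w ζ h1, N1_mem hw hζ hp hpM h1⟩ : FN M) : LaurentSeries Kb) ^ p := by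
    rw [← T.eq1, N1_mul hζ, N1_pow hζ, hv1, ← mul_pow]; rfl
  obtain ⟨r1, hr1⟩ := F2c_comp hpM hζ hlam hb hb1 he1.1 he1.2 _ hn1
  have hn2 : N1 w ζ (1 + algebraMap Kb (FN (p * M)) (c ^ p) * w e1) =
      ((v2 * ⟨N1 w ζ (w h1), N1_mem hw hζ hp hpM (w h1)⟩ : FN M) : LaurentSeries Kb) ^ p := by
    have e : 1 + algebraMap Kb (FN (p * M)) (c ^ p) * w e1 = w z * (w h1) ^ p := by
      rw [← map_pow, ← map_mul, T.eq1, map_add, map_one, map_mul, AlgEquiv.commutes]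
    rw [e, N1_mul hζ, N1_pow hζ, hv2, ← mul_pow]; rfl
  obtain ⟨r2, hr2⟩ := F2c_comp hpM hζ hlam hb hb1 he1.2 (by rw [hw.invol]; exact he1.1) _ hn2
  refine T.np1 (r1, r2) ?_
  rw [S.core_rd]
  exact gauss2_rd_eq A hpM hw.spec he1 _ hr1 hr2

/-- the norm of a class `≡ 1`, fixed by `τ₀`, satisfies the hypotheses of `FixM`. -/
theorem F2c_norm_hyp (hpM : ¬ p ∣ M) {τ₀ : GQ} {ζ : Kbˣ} (hζ : IsPrimitiveRoot ζ p)
    (hw : S35.IsWq p M w) (z : FN (p * M))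
    (hzV : z ∈ (gauss2 A hpM hw.spec).V) (hrd : (gauss2 A hpM hw.spec).rd z = 1)
    (hfix : ∃ g : FN (p * M), galF (p * M) τ₀ z = z * g ^ p) (hmem : N1 w ζ z ∈ FN M) :
    (⟨N1 w ζ z, hmem⟩ : FN M) ≠ 0 ∧
    (∃ v : FN M, v ≠ 0 ∧
      Red A (((⟨N1 w ζ z, hmem⟩ : FN M) * v ^ p : FN M) : LaurentSeries Kb) 1) ∧
    ∃ v : FN M, galF M τ₀ (⟨N1 w ζ z, hmem⟩ : FN M) = (⟨N1 w ζ z, hmem⟩ : FN M) * v ^ p := by
  have hp : p.Prime := Fact.out
  have h1 : gr A (z : LaurentSeries Kb) = 1 := by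
    rw [← gauss2_rd_fst A hpM hw.spec hzV, hrd]; rfl
  have h2 : gr A ((w z : FN (p * M)) : LaurentSeries Kb) = 1 := by
    rw [← gauss2_rd_snd A hpM hw.spec hzV, hrd]; rfl
  have r1 : Red A (z : LaurentSeries Kb) 1 := red_iff.2 ⟨hzV.1, h1, one_ne_zero⟩
  have r2 : Red A ((w z : FN (p * M)) : LaurentSeries Kb) 1 := red_iff.2 ⟨hzV.2, h2, one_ne_zero⟩
  have r3 : Red A (N1 w ζ z) 1 := by
    have := r1.mul (r2.UU hζ)
    rwa [map_one, mul_one] at this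
  have hz0 : z ≠ 0 := by
    rintro rfl
    exact r1.ne_zero rfl
  refine ⟨fun h => N1_ne_zero hζ hz0 (congrArg Subtype.val h), ⟨1, one_ne_zero, ?_⟩, ?_⟩
  · rw [one_pow, mul_one]; exact r3
  · obtain ⟨g, hg⟩ := hfix
    refine ⟨⟨N1 w ζ g, N1_mem hw hζ hp hpM g⟩, Subtype.ext ?_⟩
    rw [coe_galF]
    show coeffMap (τ₀ : Kb →+* Kb) (N1 w ζ z) = N1 w ζ z * (N1 w ζ g) ^ p
    rw [← N1_galF hw hζ, hg, N1_mul hζ, N1_pow hζ]

/-- **F2** (`FixN`), in the shape of the hypothesis `F2` of `C2_fix`, from **F1** (`FixM`). -/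
theorem F2c_fixN (hp : p.Prime) (hp2 : p ≠ 2) (h4 : 4 ∣ M) (hpM : ¬ p ∣ M)
    (hA : A.LiesOverPrime p) {τ₀ : GQ}
    (hτ₀ : IsTau0 A p τ₀) {ζ : Kbˣ} (hζ : IsPrimitiveRoot ζ p) (hw : S35.IsWq p M w)
    (F1 : ∀ y : FN M, y ≠ 0 →
      (∃ v : FN M, v ≠ 0 ∧ Red A ((y * v ^ p : FN M) : LaurentSeries Kb) 1) →
      (∃ v : FN M, galF M τ₀ y = y * v ^ p) → TpFin p M ζ y → ∃ v : FN M, y = v ^ p)
    (z : FN (p * M))
    (hzV : z ∈ (gauss2 A hpM hw.spec).V) (hrd : (gauss2 A hpM hw.spec).rd z = 1)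
    (hord : DvdOrd (p * M) p z) (hfix : ∃ g : FN (p * M), galF (p * M) τ₀ z = z * g ^ p)
    (h1 : TpFin p M ζ ⟨N1 w ζ z, N1_mem hw hζ hp hpM z⟩)
    (h2 : TpFin p M ζ ⟨N1 w ζ (w z), N1_mem hw hζ hp hpM (w z)⟩) :
    ∃ g : FN (p * M), z = g ^ p := by
  obtain ⟨a1, a2, a3⟩ := F2c_norm_hyp hpM hζ hw z hzV hrd hfix (N1_mem hw hζ hp hpM z)
  obtain ⟨hwV, hwrd⟩ := gauss2_w A hpM hw.spec hzV
  have hwrd' : (gauss2 A hpM hw.spec).rd (w z) = 1 := by rw [hwrd, hrd]; rfl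
  have hwfix : ∃ g : FN (p * M), galF (p * M) τ₀ (w z) = w z * g ^ p := by
    obtain ⟨g, hg⟩ := hfix
    exact ⟨w g, by rw [← hw.gal, hg, map_mul, map_pow]⟩
  obtain ⟨b1, b2, b3⟩ := F2c_norm_hyp hpM hζ hw (w z) hwV hwrd' hwfix (N1_mem hw hζ hp hpM (w z))
  obtain ⟨v1, hv1⟩ := F1 _ a1 a2 a3 h1
  obtain ⟨v2, hv2⟩ := F1 _ b1 b2 b3 h2
  exact F2c_core hp2 h4 hpM hA hτ₀ hζ hw z hzV hrd hord hfix
    ⟨v1, congrArg Subtype.val hv1⟩ ⟨v2, congrArg Subtype.val hv2⟩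

end

end Fermat.Agent.S33
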