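import Fermat.Agent.S33.Top
import Fermat.Agent.S33.F2c

/-!
# S33: the statement of S33 from F1 (`fixM`) alone
-/

set_option autoImplicit false
set_option linter.unusedSectionVars false

namespace Fermat.Agent.S33

open ModularCurve AlgebraicCurve HahnSeries Fermat.Agent.S24 Fermat.Agent.S28 Fermat.Agent.S18
  Fermat.Agent.GR Fermat.Agent.S34 Fermat.Agent.S35

variable {p : ℕ} {N : ℕ} [NeZero N] {S : Finset ℕ}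
  {𝒪 : Type} [CommRing 𝒪] [IsDomain 𝒪] [IsDiscreteValuationRing 𝒪]
  [IsAdicComplete (IsLocalRing.maximalIdeal 𝒪) 𝒪]
  {θ : CuspForm.heckeAlgebra N 2 (↑S : Set ℕ) →+* IsLocalRing.ResidueField 𝒪}
  {T : Type} [CommRing T] [IsLocalRing T] [IsNoetherianRing T]
  [IsAdicComplete (IsLocalRing.maximalIdeal T) T] [Algebra 𝒪 T] [IsLocalHom (algebraMap 𝒪 T)]
  [Module.Finite 𝒪 T] [Module.Free 𝒪 T]

/-- the statement of F1 (`fixM`) at the level `M₁`. -/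
def F1Stmt (p M₁ : ℕ) : Prop :=
  ∀ (_ : NeZero p) (_ : NeZero M₁) (A : ValuationSubring Kb) (_ : A.LiesOverPrime p) (τ₀ : GQ)
    (_ : IsTau0 A p τ₀) (ζ : Kbˣ) (_ : IsPrimitiveRoot ζ p) (y : FN M₁), y ≠ 0 →
    (∃ v : FN M₁, v ≠ 0 ∧ Red A ((y * v ^ p : FN M₁) : LaurentSeries Kb) 1) →
    (∃ v : FN M₁, galF M₁ τ₀ y = y * v ^ p) → TpFin p M₁ ζ y → ∃ v : FN M₁, y = v ^ p

theorem F2Stmt_of_F1Stmt {M₁ : ℕ} (hp2 : p ≠ 2) (h4 : 4 ∣ M₁) (h : F1Stmt p M₁) : F2Stmt p M₁ := by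
  intro i1 i2 i3 hp hpM₁ A hA i4 τ₀ hτ₀ w₁ hw₁ ζ hζ z a b c d e f
  exact F2c_fixN hp hp2 h4 hpM₁ hA hτ₀ hζ hw₁ (fun y h0 hy hf ht => h i1 i2 A hA τ₀ hτ₀ ζ hζ y h0 hy hf ht)
    z a b c d e f

/-- **S33 from F1.** -/
theorem ordinary_of_F1 [Finite (IsLocalRing.ResidueField 𝒪)]
    (hF1 : ∀ M₁ : ℕ, 4 ∣ M₁ → ¬ p ∣ M₁ → F1Stmt p M₁)
    (hp : p.Prime) (hp2 : p ≠ 2) (hp𝒪 : (p : 𝒪) ∈ IsLocalRing.maximalIdeal 𝒪)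
    (hN : p ∣ N ∧ ¬ p ^ 2 ∣ N)
    (hNS : ∀ q : ℕ, q.Prime → q ∣ N → q ∈ S)
    (H : CuspForm.HeckeGaloisRepDatum N (↑S : Set ℕ) 𝒪 θ T)
    (hres : (GaloisRepAdic.ofResidualGaloisRep H.ρ.residual).IsOrdinaryAt p) :
    H.ρ.IsOrdinaryAt p := by
  refine ordinary_of_F2 (fun M₁ h4 => ?_) hp hp2 hp𝒪 hN hNS H hres
  intro i1 i2 i3 hp' hpM₁
  exact F2Stmt_of_F1Stmt hp2 h4 (hF1 M₁ h4 hpM₁) i1 i2 i3 hp' hpM₁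

end Fermat.Agent.S33
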