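import Mathlib
import Fermat.Agent.S34.ZC
import Fermat.Agent.S33.A1

/-!
# S33, piece A2 (Tri): the trichotomy `|p|` versus `|c|^(p-1)` for the output of CoreP with `m = p`
-/

set_option autoImplicit false

namespace Fermat.Agent.S33

open Polynomial IntermediateField Fermat.Agent.S24 Fermat.Agent.S18 Fermat.Agent.S18.CoreDim Module
open Fermat.Agent.S34

/-- `(x + y)^p = x^p + y^p + p y (x^(p-1) + y r)`. -/
theorem a2_add_pow_prime {R : Type*} [CommRing R] {p : ℕ} (hp : p.Prime) (x y : R) :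
    ∃ r : R, (x + y) ^ p = x ^ p + y ^ p + (p : R) * y * (x ^ (p - 1) + y * r) := by
  obtain ⟨s, rfl⟩ : ∃ s, p = s + 2 := ⟨p - 2, by have := hp.two_le; omega⟩
  refine ⟨∑ m ∈ Finset.range s, x ^ (m + 1) * y ^ (s - 1 - m) *
    (((s + 2).choose (m + 1) / (s + 2) : ℕ) : R), ?_⟩
  rw [add_pow, Finset.sum_range_succ, Finset.sum_range_succ, Finset.sum_range_succ']
  have h1 : ∀ m ∈ Finset.range s, x ^ (m + 1) * y ^ (s + 2 - (m + 1)) * (((s + 2).choose (m + 1) : ℕ) : R)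
      = ((s + 2 : ℕ) : R) * y * (y * (x ^ (m + 1) * y ^ (s - 1 - m) *
        (((s + 2).choose (m + 1) / (s + 2) : ℕ) : R))) := by
    intro m hm
    have hm' : m < s := Finset.mem_range.1 hm
    have hd : (s + 2) ∣ (s + 2).choose (m + 1) :=
      hp.dvd_choose_self (Nat.succ_ne_zero m) (by omega)
    obtain ⟨d, hd⟩ := hd
    rw [hd, Nat.mul_div_cancel_left d (by omega : 0 < s + 2)]
    have e : s + 2 - (m + 1) = (s - 1 - m) + 2 := by omega
    rw [e]
    push_cast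
    ring
  rw [Finset.sum_congr rfl h1, ← Finset.mul_sum, ← Finset.mul_sum]
  have e1 : (s + 2).choose (s + 1) = s + 2 := by
    rw [show s + 2 = (s + 1) + 1 from rfl, Nat.choose_succ_self_right]
  have e2 : s + 2 - (s + 1) = 1 := by omega
  have e3 : s + 2 - 1 = s + 1 := by omega
  rw [e1, e2, e3, Nat.choose_self, Nat.choose_zero_right, Nat.sub_self, Nat.sub_zero]
  push_cast
  ring

variable {K F k E : Type*} [Field K] [Field F] [Algebra K F] [Field k] [CommRing E] [Algebra k E]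

/-- `W ∩ R = L(0,N) ∩ R + L(N,0) ∩ R` as soon as the reductions add up. -/
theorem a2_dec (S : RedCore K F k E) {x : F} {Lb : ℕ → ℕ → Submodule k E} (H : CoreHyp S x Lb) {N : ℕ}
    (r1 : S.redSub (Lsp K x 0 N) = Lb 0 N) (r2 : S.redSub (Lsp K x N 0) = Lb N 0)
    (rW : S.redSub (Lsp K x 0 N ⊔ Lsp K x N 0) = Lb 0 N ⊔ Lb N 0)
    {h : F} (hW : h ∈ Lsp K x 0 N ⊔ Lsp K x N 0) (hR : h ∈ S.R) : S.Dec x N h := by
  classical
  have := H.fin 0 N
  have := H.fin N 0
  have := H.finb 0 N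
  have := H.finb N 0
  have fW : FiniteDimensional K ↥(Lsp K x 0 N ⊔ Lsp K x N 0) := inferInstance
  have fZ : FiniteDimensional k (S.redSub (Lsp K x 0 N ⊔ Lsp K x N 0)) := by rw [rW]; infer_instance
  have hsurj : ∀ y ∈ S.redSub (Lsp K x 0 N ⊔ Lsp K x N 0), ∃ p ∈ Lsp K x 0 N ⊔ Lsp K x N 0,
      p ∈ S.R ∧ S.rd p = y ∧ S.Dec x N p := by
    intro y hy
    rw [rW] at hy
    obtain ⟨y1, hy1, y2, hy2, rfl⟩ := Submodule.mem_sup.1 hy
    rw [← r1] at hy1
    rw [← r2] at hy2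
    obtain ⟨v1, hv1, hv1R, rfl⟩ := hy1
    obtain ⟨v2, hv2, hv2R, rfl⟩ := hy2
    exact ⟨v1 + v2, Submodule.add_mem_sup hv1 hv2, add_mem hv1R hv2R, S.rd_add hv1R hv2R,
      v1, hv1, v2, hv2, hv1R, hv2R, rfl⟩
  let b := Module.finBasis k (S.redSub (Lsp K x 0 N ⊔ Lsp K x N 0))
  choose p hpW hpR hprd hpD using fun i => hsurj (b i) (b i).2
  have hind : LinearIndependent k (fun i => S.rd (p i)) := by
    have h1 : (fun i => S.rd (p i)) =
        fun i => ((b i : S.redSub (Lsp K x 0 N ⊔ Lsp K x N 0)) : E) := funext hprd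
    rw [h1]
    exact b.linearIndependent.map' (Submodule.subtype _) (Submodule.ker_subtype _)
  obtain ⟨α, hαA, hα⟩ := S.exists_coeff (Lsp K x 0 N ⊔ Lsp K x N 0) hpW hpR hind
    (by rw [Fintype.card_fin, H.dimRed _ fW]) hW hR
  rw [hα]
  apply RedCore.Dec.sum
  intro i _
  exact (hpD i).smul (hαA i)

/-- The output of Tri in case A. -/
structure TriOut (S : RedCore K F k E) (x : F) (p : ℕ) (hp : 0 < p) (u : F) (n : ℕ) (c : K)
    (h1 h2 e1 e2 : F) : Prop where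
  h1X : h1 ∈ Xsp K x u p hp 0 n
  h2X : h2 ∈ Xsp K x u p hp n 0
  h1R : h1 ∈ S.R
  h2R : h2 ∈ S.R
  rdh1 : S.rd h1 = 1
  rdh2 : S.rd h2 = 1
  e1L : e1 ∈ Lsp K x 0 (p * n)
  e2L : e2 ∈ Lsp K x (p * n) 0
  e1R : e1 ∈ S.R
  e2R : e2 ∈ S.R
  eq1 : u * h1 ^ p = 1 + algebraMap K F (c ^ p) * e1
  eq2 : u * h2 ^ p = 1 + algebraMap K F (c ^ p) * e2
  np1 : ∀ r : E, S.rd e1 ≠ r ^ p
  np2 : ∀ r : E, S.rd e2 ≠ r ^ p

theorem a2_res_zero (S : RedCore K F k E) {y : K} (hy : S.A.valuation y < 1) :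
    ∃ h : y ∈ S.A, S.resA ⟨y, h⟩ = 0 := by
  have hA : y ∈ S.A := (S.A.valuation_le_one_iff y).1 hy.le
  refine ⟨hA, ?_⟩
  by_cases h0 : y = 0
  · subst h0
    exact map_zero S.resA
  · apply S.resA_eq_zero hA
    intro hinv
    have h1 : S.A.valuation y⁻¹ ≤ 1 := (S.A.valuation_le_one_iff _).2 hinv
    have h2 : S.A.valuation y * S.A.valuation y⁻¹ = 1 := by
      rw [← map_mul, mul_inv_cancel₀ h0, map_one]
    have h3 : S.A.valuation y * S.A.valuation y⁻¹ < 1 := by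
      calc S.A.valuation y * S.A.valuation y⁻¹ ≤ S.A.valuation y * 1 := by gcongr
        _ < 1 := by rwa [mul_one]
    exact absurd h2 h3.ne

/-- **A2 (Tri).** -/
theorem tri [Nontrivial E] (S : RedCore K F k E) {x : F} {Lb : ℕ → ℕ → Submodule k E}
    (H : CoreHyp S x Lb) {p : ℕ} (hpp : p.Prime) [CharP k p] (hp : 0 < p) {u : F}
    (HU : CoreHypU S x Lb p hp u)
    (hroot : ∀ (a b : ℕ) (r : E), r ^ p ∈ Lb (p * a) (p * b) → r ∈ Lb a b)
    (hKroot : ∀ a : K, ∃ α : K, α ^ p = a)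
    {n : ℕ} {c : K} {u1 u2 ps : F} (O : CoreOut S x Lb p hp u n c u1 u2 ps) :
    S.A.valuation (p : K) = S.A.valuation c ^ (p - 1) ∨
    (S.A.valuation (p : K) < S.A.valuation c ^ (p - 1) ∧
      ∃ h1 h2 e1 e2 : F, TriOut S x p hp u n c h1 h2 e1 e2) := by
  classical
  have := Fact.mk hpp
  have : CharP E p := charP_of_injective_algebraMap (algebraMap k E).injective p
  set C := algebraMap K F c with hC
  have hCR : C ∈ S.R := S.map_mem _ O.cA
  have hCrd : S.rd C = 0 := by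
    rw [hC, S.rd_algebraMap O.cA, S.resA_eq_zero O.cA O.cinv, map_zero]
  have hC0 : C ≠ 0 := (_root_.map_ne_zero _).2 O.c0
  have hvc0 : S.A.valuation c ≠ 0 := (Valuation.ne_zero_iff _).2 O.c0
  obtain ⟨r, hr⟩ := a2_add_pow_prime hpp (⟨u2, O.u2R⟩ : S.R) ⟨C * ps, mul_mem hCR O.psR⟩
  have hu12 : u1 = u2 + C * ps := by rw [← O.diff]; ring
  set G := u2 ^ (p - 1) + (C * ps) * (r : F) with hG
  have hr' : u1 ^ p = u2 ^ p + (C * ps) ^ p + (p : F) * (C * ps) * G := by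
    have := congrArg Subtype.val hr
    rw [hu12, hG]
    simpa using this
  have hGR : G ∈ S.R := add_mem (pow_mem O.u2R _) (mul_mem (mul_mem hCR O.psR) r.2)
  have hGrd : S.rd G = 1 := by
    rw [hG, S.rd_add (pow_mem O.u2R _) (mul_mem (mul_mem hCR O.psR) r.2), S.rd_pow O.u2R, O.rd2,
      S.rd_mul (mul_mem hCR O.psR) r.2, S.rd_mul hCR O.psR, hCrd]
    simp
  have hpow : C ^ p = C ^ (p - 1) * C := by
    rw [← pow_succ, Nat.sub_add_cancel hpp.one_le]
  have hg1 : u * u1 ^ p ∈ Lsp K x 0 (p * n) := by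
    have := mem_Xsp.1 O.u1X
    rwa [Nat.mul_zero] at this
  have hg2 : u * u2 ^ p ∈ Lsp K x (p * n) 0 := by
    have := mem_Xsp.1 O.u2X
    rwa [Nat.mul_zero] at this
  set W := Lsp K x 0 (p * n) ⊔ Lsp K x (p * n) 0 with hW
  have hdW : u * u1 ^ p - u * u2 ^ p ∈ W := by
    rw [sub_eq_add_neg]
    exact Submodule.add_mem_sup hg1 (neg_mem hg2)
  have hd : u * u1 ^ p - u * u2 ^ p = u * (C ^ (p - 1) * C * ps ^ p + (p : F) * (C * ps) * G) := by
    rw [hr', mul_pow, hpow]; ring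
  have hCp1 : C ^ (p - 1) ≠ 0 := pow_ne_zero _ hC0
  rcases lt_trichotomy (S.A.valuation (p : K)) (S.A.valuation c ^ (p - 1)) with hlt | heq | hgt
  · right
    refine ⟨hlt, ?_⟩
    have hκ : S.A.valuation ((p : K) / c ^ (p - 1)) < 1 := by
      rw [map_div₀, map_pow]
      exact (div_lt_one₀ (zero_lt_iff.2 (pow_ne_zero _ hvc0))).2 hlt
    obtain ⟨hκA, hκ0⟩ := a2_res_zero S hκ
    set Cp := algebraMap K F (c ^ p) with hCp
    have hCpe : Cp = C ^ (p - 1) * C := by rw [hCp, map_pow, ← hC, hpow]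
    have hCp0 : Cp ≠ 0 := by rw [hCpe]; exact mul_ne_zero hCp1 hC0
    have hCpR : Cp ∈ S.R := by rw [hCpe]; exact mul_mem (pow_mem hCR _) hCR
    have hCprd : S.rd Cp = 0 := by
      rw [hCpe, S.rd_mul (pow_mem hCR _) hCR, hCrd, mul_zero]
    set T := algebraMap K F (c ^ p)⁻¹ * (u * u1 ^ p - u * u2 ^ p) with hT
    have hTW : T ∈ W := by
      rw [hT, ← Algebra.smul_def]
      exact W.smul_mem _ hdW
    have hTe : T = u * (ps ^ p + algebraMap K F ((p : K) / c ^ (p - 1)) * (ps * G)) := by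
      rw [hT, hd, map_inv₀, ← hCp, hCpe, map_div₀, map_pow, map_natCast, ← hC]
      field_simp
    have hκR := S.map_mem _ hκA
    have hTR : T ∈ S.R := by
      rw [hTe]
      exact mul_mem HU.uR (add_mem (pow_mem O.psR _) (mul_mem hκR (mul_mem O.psR hGR)))
    have hTrd : S.rd T = S.rd ps ^ p := by
      rw [hTe, S.rd_mul HU.uR (add_mem (pow_mem O.psR _) (mul_mem hκR (mul_mem O.psR hGR))),
        S.rd_add (pow_mem O.psR _) (mul_mem hκR (mul_mem O.psR hGR)),
        S.rd_mul hκR (mul_mem O.psR hGR), S.rd_algebraMap hκA, hκ0, HU.u1, S.rd_pow O.psR]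
      simp
    obtain ⟨v1, hv1, v2, hv2, hv1R, hv2R, hTv⟩ := a2_dec S H O.redL1 O.redL2 O.redW hTW hTR
    have hsumrd : S.rd v1 + S.rd v2 = S.rd ps ^ p := by
      rw [← S.rd_add hv1R hv2R, ← hTv, hTrd]
    have hCT : Cp * T = u * u1 ^ p - u * u2 ^ p := by
      rw [hT, map_inv₀, ← hCp, ← mul_assoc, mul_inv_cancel₀ hCp0, one_mul]
    set f := u * u1 ^ p - Cp * v1 with hf
    have hf2 : f = u * u2 ^ p + Cp * v2 := by
      have : Cp * (v1 + v2) = u * u1 ^ p - u * u2 ^ p := by rw [← hTv, hCT]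
      rw [hf]
      linear_combination -this
    have hfL1 : f ∈ Lsp K x 0 (p * n) := by
      rw [hf, hCp, ← Algebra.smul_def]
      exact sub_mem hg1 (Submodule.smul_mem _ _ hv1)
    have hfL2 : f ∈ Lsp K x (p * n) 0 := by
      rw [hf2, hCp, ← Algebra.smul_def]
      exact add_mem hg2 (Submodule.smul_mem _ _ hv2)
    obtain ⟨a, ha⟩ := H.const f (mem_Lsp.2 ⟨(mem_Lsp.1 hfL1).1, (mem_Lsp.1 hfL2).2⟩)
    have hg1R : u * u1 ^ p ∈ S.R := mul_mem HU.uR (pow_mem O.u1R _)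
    have hfR : f ∈ S.R := sub_mem hg1R (mul_mem hCpR hv1R)
    have hfrd : S.rd f = 1 := by
      rw [hf, S.rd_sub hg1R (mul_mem hCpR hv1R), S.rd_mul HU.uR (pow_mem O.u1R _), S.rd_pow O.u1R,
        S.rd_mul hCpR hv1R, hCprd, HU.u1, O.rd1]
      simp
    have haA : a ∈ S.A := S.mem_A_of_algebraMap_mem (ha ▸ hfR)
    have hares : S.resA ⟨a, haA⟩ = 1 := by
      apply (algebraMap k E).injective
      rw [← S.rd_algebraMap haA, ← ha, hfrd, map_one]
    have hainv : a⁻¹ ∈ S.A := by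
      by_contra h
      rw [S.resA_eq_zero haA h] at hares
      exact zero_ne_one hares
    have ha0 : a ≠ 0 := by
      rintro rfl
      have : S.resA ⟨0, haA⟩ = 0 := map_zero S.resA
      rw [this] at hares
      exact zero_ne_one hares
    have hainvres : S.resA ⟨a⁻¹, hainv⟩ = 1 := by
      have h1 : (⟨a, haA⟩ : S.A) * ⟨a⁻¹, hainv⟩ = 1 := Subtype.ext (mul_inv_cancel₀ ha0)
      have h2 := congrArg S.resA h1
      rwa [map_mul, hares, one_mul, map_one] at h2
    obtain ⟨α, hα⟩ := hKroot a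
    have hα0 : α ≠ 0 := by
      rintro rfl
      rw [zero_pow hp.ne'] at hα
      exact ha0 hα.symm
    have hαA : α ∈ S.A := by
      by_contra h
      have hi : α⁻¹ ∈ S.A := (S.A.mem_or_inv_mem α).resolve_left h
      have h0 : S.resA ⟨α⁻¹, hi⟩ = 0 := S.resA_eq_zero hi (by rwa [inv_inv])
      have h1 : (⟨a⁻¹, hainv⟩ : S.A) = ⟨α⁻¹, hi⟩ ^ p := Subtype.ext (by
        show a⁻¹ = (α⁻¹) ^ p
        rw [inv_pow, hα])
      rw [h1, map_pow, h0, zero_pow hp.ne'] at hainvres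
      exact zero_ne_one hainvres
    have hαi : α⁻¹ ∈ S.A := by
      by_contra h
      have h0 : S.resA ⟨α, hαA⟩ = 0 := S.resA_eq_zero hαA h
      have h1 : (⟨a, haA⟩ : S.A) = ⟨α, hαA⟩ ^ p := Subtype.ext hα.symm
      rw [h1, map_pow, h0, zero_pow hp.ne'] at hares
      exact zero_ne_one hares
    have hαires : S.resA ⟨α⁻¹, hαi⟩ = 1 := by
      have h1 : (⟨a⁻¹, hainv⟩ : S.A) = ⟨α⁻¹, hαi⟩ ^ p := Subtype.ext (by
        show a⁻¹ = (α⁻¹) ^ p
        rw [inv_pow, hα])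
      rw [h1, map_pow] at hainvres
      apply frobenius_inj k p
      rw [frobenius_def, frobenius_def, hainvres, one_pow]
    set Ai := algebraMap K F α⁻¹ with hAi
    set ai := algebraMap K F a⁻¹ with hai
    have hAiR : Ai ∈ S.R := S.map_mem _ hαi
    have haiR : ai ∈ S.R := S.map_mem _ hainv
    have hAird : S.rd Ai = 1 := by rw [hAi, S.rd_algebraMap hαi, hαires, map_one]
    have haird : S.rd ai = 1 := by rw [hai, S.rd_algebraMap hainv, hainvres, map_one]
    have hAip : Ai ^ p = ai := by rw [hAi, hai, ← map_pow, inv_pow, hα]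
    have haia : ai * algebraMap K F a = 1 := by
      rw [hai, ← map_mul, inv_mul_cancel₀ ha0, map_one]
    have hrv1 : S.rd (ai * v1) = S.rd v1 := by rw [S.rd_mul haiR hv1R, haird, one_mul]
    have hrv2 : S.rd (-(ai * v2)) = - S.rd v2 := by
      rw [S.rd_neg (mul_mem haiR hv2R), S.rd_mul haiR hv2R, haird, one_mul]
    have hb1 : S.rd v1 ∈ Lb (p * 0) (p * n) := by
      rw [Nat.mul_zero]; exact H.hredL _ _ _ hv1 hv1R
    have hb2 : S.rd v2 ∈ Lb (p * n) (p * 0) := by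
      rw [Nat.mul_zero]; exact H.hredL _ _ _ hv2 hv2R
    refine ⟨Ai * u1, Ai * u2, ai * v1, -(ai * v2), ?_, ?_, mul_mem hAiR O.u1R, mul_mem hAiR O.u2R,
      ?_, ?_, ?_, ?_, mul_mem haiR hv1R, neg_mem (mul_mem haiR hv2R), ?_, ?_, ?_, ?_⟩
    · rw [hAi, ← Algebra.smul_def]; exact Submodule.smul_mem _ _ O.u1X
    · rw [hAi, ← Algebra.smul_def]; exact Submodule.smul_mem _ _ O.u2X
    · rw [S.rd_mul hAiR O.u1R, hAird, O.rd1, one_mul]
    · rw [S.rd_mul hAiR O.u2R, hAird, O.rd2, one_mul]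
    · rw [hai, ← Algebra.smul_def]; exact Submodule.smul_mem _ _ hv1
    · rw [hai, ← Algebra.smul_def]; exact neg_mem (Submodule.smul_mem _ _ hv2)
    · have e : u * u1 ^ p = algebraMap K F a + Cp * v1 := by rw [← ha, hf]; ring
      rw [mul_pow, hAip]
      linear_combination ai * e + haia
    · have e : u * u2 ^ p = algebraMap K F a - Cp * v2 := by rw [← ha, hf2]; ring
      rw [mul_pow, hAip]
      linear_combination ai * e + haia
    · intro r hr
      rw [hrv1] at hr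
      have h1 : r ∈ Lb 0 n := hroot 0 n r (hr ▸ hb1)
      have h2 : S.rd ps - r ∈ Lb n 0 := by
        apply hroot n 0
        rw [sub_pow_char, ← hr, ← hsumrd, add_sub_cancel_left]
        exact hb2
      apply O.psn
      have := Submodule.add_mem_sup h1 h2
      rwa [add_sub_cancel] at this
    · intro r hr
      rw [hrv2] at hr
      have hr2 : S.rd v2 = (0 - r) ^ p := by
        rw [sub_pow_char, zero_pow hp.ne', zero_sub, ← hr, neg_neg]
      have h2 : 0 - r ∈ Lb n 0 := hroot n 0 _ (hr2 ▸ hb2)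
      have h1 : S.rd ps + r ∈ Lb 0 n := by
        apply hroot 0 n
        rw [add_pow_char, ← hr, ← hsumrd, add_neg_cancel_right]
        exact hb1
      apply O.psn
      have := Submodule.add_mem_sup h1 h2
      rwa [zero_sub, add_neg_cancel_right] at this
  · exact Or.inl heq
  · exfalso
    have hp0 : (p : K) ≠ 0 := by
      intro h
      rw [h, map_zero] at hgt
      exact not_lt_zero hgt
    have hPf : (p : F) ≠ 0 := by
      rw [← map_natCast (algebraMap K F)]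
      exact (_root_.map_ne_zero _).2 hp0
    have hκ : S.A.valuation (c ^ (p - 1) / (p : K)) < 1 := by
      rw [map_div₀, map_pow]
      exact (div_lt_one₀ (zero_lt_iff.2 ((Valuation.ne_zero_iff _).2 hp0))).2 hgt
    obtain ⟨hκA, hκ0⟩ := a2_res_zero S hκ
    set T := algebraMap K F ((p : K) * c)⁻¹ * (u * u1 ^ p - u * u2 ^ p) with hT
    have hTW : T ∈ W := by
      rw [hT, ← Algebra.smul_def]
      exact W.smul_mem _ hdW
    have hTe : T = u * (algebraMap K F (c ^ (p - 1) / (p : K)) * ps ^ p + ps * G) := by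
      rw [hT, hd, map_inv₀, map_mul, map_div₀, map_pow, map_natCast, ← hC]
      field_simp
    have hκR := S.map_mem _ hκA
    have hTR : T ∈ S.R := by
      rw [hTe]
      exact mul_mem HU.uR (add_mem (mul_mem hκR (pow_mem O.psR _)) (mul_mem O.psR hGR))
    have hTrd : S.rd T = S.rd ps := by
      rw [hTe, S.rd_mul HU.uR (add_mem (mul_mem hκR (pow_mem O.psR _)) (mul_mem O.psR hGR)),
        S.rd_add (mul_mem hκR (pow_mem O.psR _)) (mul_mem O.psR hGR),
        S.rd_mul hκR (pow_mem O.psR _), S.rd_mul O.psR hGR, S.rd_algebraMap hκA, hκ0, hGrd, HU.u1]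
      simp
    have hmem : S.rd T ∈ S.redSub W := ⟨T, hTW, hTR, rfl⟩
    rw [hW, O.redW] at hmem
    obtain ⟨a1, ha1, a2, ha2, hsum⟩ := Submodule.mem_sup.1 hmem
    have h2 := H.sat n (p * n) a1 a2 ha1 ha2 (by rw [hsum, hTrd]; exact O.psnn)
    apply O.psn
    rw [← hTrd, ← hsum]
    exact Submodule.add_mem_sup h2.1 h2.2

end Fermat.Agent.S33
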