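import Mathlib
import Fermat.Agent.S33.A2
import Fermat.Agent.S33.A3
import Fermat.Agent.S33.Defs

/-!
# S33: A1 + A2 + A3 assembled

A class `u ≡ 1` (with `p ∣ div u`) which is not trivial and is fixed by a semilinear `Th` (over `τ`) inducing the
identity on the reduction has two exact representatives `1 + c^p e₁`, `1 + c^p e₂`
(`e₁ ∈ L(0,pn)`, `e₂ ∈ L(pn,0)`), with `res (τ c / c) = 1`, provided `res (τ c / c) ≠ 1` whenever `|c|^(p-1) = |p|`.
-/

set_option autoImplicit false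

namespace Fermat.Agent.S33

open Polynomial IntermediateField Fermat.Agent.S24 Fermat.Agent.S18 Fermat.Agent.S18.CoreDim Module
open Fermat.Agent.S34

variable {K F k E : Type*} [Field K] [Field F] [Algebra K F] [Field k] [CommRing E] [Algebra k E]

theorem TriOut.isExact1 {S : RedCore K F k E} {x : F} {p : ℕ} {hp : 0 < p} {u : F} {n : ℕ} {c : K}
    {h1 h2 e1 e2 : F} (O : TriOut S x p hp u n c h1 h2 e1 e2) (hc : S.A.valuation c < 1)
    (hlt : S.A.valuation (p : K) < S.A.valuation c ^ (p - 1)) : IsExact S p (c ^ p) e1 where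
  lt_one := by rw [map_pow]; exact pow_lt_one₀ zero_le hc hp.ne'
  gt := by
    rw [map_pow, ← pow_mul, mul_comm p (p - 1), pow_mul]
    exact pow_lt_pow_left₀ hlt zero_le hp.ne'
  mem := O.e1R
  not_pow := O.np1

theorem TriOut.isExact2 {S : RedCore K F k E} {x : F} {p : ℕ} {hp : 0 < p} {u : F} {n : ℕ} {c : K}
    {h1 h2 e1 e2 : F} (O : TriOut S x p hp u n c h1 h2 e1 e2) (hc : S.A.valuation c < 1)
    (hlt : S.A.valuation (p : K) < S.A.valuation c ^ (p - 1)) : IsExact S p (c ^ p) e2 where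
  lt_one := by rw [map_pow]; exact pow_lt_one₀ zero_le hc hp.ne'
  gt := by
    rw [map_pow, ← pow_mul, mul_comm p (p - 1), pow_mul]
    exact pow_lt_pow_left₀ hlt zero_le hp.ne'
  mem := O.e2R
  not_pow := O.np2

/-- **A1 + A2 + A3.** -/
theorem exists_exact_of_fixed [Nontrivial E] (S : RedCore K F k E) {x : F}
    {Lb : ℕ → ℕ → Submodule k E} (H : CoreHyp S x Lb) {p : ℕ} (hpp : p.Prime) [CharP k p]
    (hp : 0 < p) {u : F} (HU : CoreHypU S x Lb p hp u)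
    (hroot : ∀ (a b : ℕ) (r : E), r ^ p ∈ Lb (p * a) (p * b) → r ∈ Lb a b)
    (hKroot : ∀ a : K, ∃ α : K, α ^ p = a)
    (hnt : ¬ Triv K u p)
    (τ : K →+* K) (hτ : ∀ c : K, c ≠ 0 → τ c / c ∈ S.A)
    (Th : F →+ F)
    (hsemi : ∀ (a : K) (f : F), Th (algebraMap K F a * f) = algebraMap K F (τ a) * Th f)
    (hThX : ∀ (a b : ℕ), ∀ f ∈ Xsp K x u p hp a b, Th f ∈ Xsp K x u p hp a b)
    (hThR : ∀ f ∈ S.R, Th f ∈ S.R ∧ S.rd (Th f) = S.rd f)
    (hbd : ∀ (c : K) (h : τ c / c ∈ S.A), S.A.valuation (p : K) = S.A.valuation c ^ (p - 1) →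
      S.resA ⟨τ c / c, h⟩ ≠ 1) :
    ∃ (n : ℕ) (c : K) (h1 h2 e1 e2 : F), c ≠ 0 ∧ S.A.valuation c < 1 ∧
      S.A.valuation (p : K) < S.A.valuation c ^ (p - 1) ∧
      (∀ h : τ c / c ∈ S.A, S.resA ⟨τ c / c, h⟩ = 1) ∧
      TriOut S x p hp u n c h1 h2 e1 e2 ∧ IsExact S p (c ^ p) e1 ∧ IsExact S p (c ^ p) e2 := by
  have hcon : ∀ h : F, h ≠ 0 → ∀ c : K, u * h ^ p ≠ algebraMap K F c :=
    fun h hh c hc => hnt ⟨h, hh, c, hc⟩
  obtain ⟨N₀, hN₀⟩ := coreP S H hp HU hcon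
  obtain ⟨c, u1, u2, ps, O⟩ := hN₀ N₀ le_rfl
  have := O.finX1
  have := O.finX2
  have hres : S.resA ⟨τ c / c, hτ c O.c0⟩ = 1 := by
    refine A3_inv S (Xsp K x u p hp 0 N₀) (Xsp K x u p hp N₀ 0) ?_ ?_ ?_ ?_ O.inf ?_ O.c0 O.cA O.u1X
      O.u2X O.u1R O.rd1 O.psR O.diff ?_ τ (hτ c O.c0) Th hsemi (hThX _ _) (hThX _ _) hThR
    · rw [O.red1]; exact H.finb _ _
    · rw [O.red2]; exact H.finb _ _
    · rw [H.dimRed _ O.finX1]
    · rw [H.dimRed _ O.finX2]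
    · rw [O.red1, O.red2]
      intro r hr
      exact H.constb r (H.inf_le _ hr)
    · rw [O.red1, O.red2]; exact O.psn
  have hc1 : S.A.valuation c < 1 := by
    rcases lt_or_eq_of_le ((S.A.valuation_le_one_iff c).2 O.cA) with h | h
    · exact h
    · exfalso
      apply O.cinv
      rw [← S.A.valuation_le_one_iff, map_inv₀, h, inv_one]
  rcases tri S H hpp hp HU hroot hKroot O with heq | ⟨hlt, h1, h2, e1, e2, T⟩
  · exact absurd hres (hbd c _ heq)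
  · exact ⟨N₀, c, h1, h2, e1, e2, O.c0, hc1, hlt, fun _ => hres, T, T.isExact1 hc1 hlt,
      T.isExact2 hc1 hlt⟩

end Fermat.Agent.S33
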