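import Fermat.Agent.S35.TKL

/-!
# S33, piece C1: the toric subgroup `L n` of the tower; `L_dec`, `L_in`

`N = p M`, `M ∣ M₁`, `A ∣ p`.  `torL A h w₁ D n` = the classes in `AS D n` having a representative whose pull back
to level `p M₁` is `S35.IsTor A p M₁ (p ^ n) w₁`.
* `torL_dec` : stable under the decomposition group of `A`;
* `torL_in`  : `τ x - x ∈ L n` for all `x` and all `τ` in the inertia group of `A`.
-/

set_option autoImplicit false
set_option linter.unusedSectionVars false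

namespace Fermat.Agent.S33

open ModularCurve AlgebraicCurve HahnSeries Fermat.Agent.S24 Fermat.Agent.S28 Fermat.Agent.S18
  Fermat.Agent.GR Fermat.Agent.S34 Fermat.Agent.S35

/-! ### `IsTor` is a group property -/

section Tor

variable {A : ValuationSubring Kb} {q M m : ℕ} {w : FN (q * M) ≃ₐ[Kb] FN (q * M)}

theorem C1_isTor_one : IsTor A q M m w 1 := by
  refine ⟨one_ne_zero, DvdOrd.one, ⟨1, 1, one_ne_zero, one_mem _, ?_⟩, ⟨1, 1, one_ne_zero, one_mem _, ?_⟩⟩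
  · rw [map_one, one_mul, one_pow]; exact Red.one
  · rw [map_one, map_one, one_mul, one_pow]; exact Red.one

theorem C1_isTor_mul {z z' : FN (q * M)} (hz : IsTor A q M m w z) (hz' : IsTor A q M m w z') :
    IsTor A q M m w (z * z') := by
  obtain ⟨h0, ho, ⟨c, r, hc, hr, h1⟩, ⟨d, s, hd, hs, h2⟩⟩ := hz
  obtain ⟨h0', ho', ⟨c', r', hc', hr', h1'⟩, ⟨d', s', hd', hs', h2'⟩⟩ := hz'
  refine ⟨mul_ne_zero h0 h0', ho.mul ho', ⟨c * c', r * r', mul_ne_zero hc hc', mul_mem hr hr', ?_⟩,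
    ⟨d * d', s * s', mul_ne_zero hd hd', mul_mem hs hs', ?_⟩⟩
  · have := h1.mul h1'
    rw [mul_pow, map_mul C, MulMemClass.coe_mul]
    convert this using 1
    ring
  · have := h2.mul h2'
    rw [mul_pow, map_mul C, map_mul w, MulMemClass.coe_mul]
    convert this using 1
    ring

theorem C1_isTor_inv {z : FN (q * M)} (hz : IsTor A q M m w z) : IsTor A q M m w z⁻¹ := by
  obtain ⟨h0, ho, ⟨c, r, hc, hr, h1⟩, ⟨d, s, hd, hs, h2⟩⟩ := hz
  refine ⟨inv_ne_zero h0, ho.inv, ⟨c⁻¹, r⁻¹, inv_ne_zero hc, inv_mem hr, ?_⟩,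
    ⟨d⁻¹, s⁻¹, inv_ne_zero hd, inv_mem hs, ?_⟩⟩
  · have := h1.inv
    rwa [mul_inv, ← map_inv₀ C, ← inv_pow] at this
  · have := h2.inv
    rw [map_inv₀ w]
    rwa [mul_inv, ← map_inv₀ C, ← inv_pow] at this

end Tor

/-! ### Galois -/

section Gal

variable {A : ValuationSubring Kb} {q M m : ℕ} [NeZero q] [NeZero M]
  {w : FN (q * M) ≃ₐ[Kb] FN (q * M)}

/-- `IsTor` is stable under the decomposition group. -/
theorem C1_isTor_galF (hq : q.Prime) (hqM : ¬ q ∣ M) (hA : A.LiesOverPrime q) (hw : S35.IsWq q M w)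
    {σ : GQ} (hσ : σ ∈ A.decompositionSubgroup ℚ) {z : FN (q * M)} (hz : IsTor A q M m w z) :
    IsTor A q M m w (galF (q * M) σ z) := by
  have : Fact q.Prime := ⟨hq⟩
  have := charP_kA hq hA
  obtain ⟨h0, ho, ⟨c, r, hc, hr, h1⟩, ⟨d, s, hd, hs, h2⟩⟩ := hz
  set g : A.decompositionSubgroup ℚ := ⟨σ, hσ⟩ with hg
  set φ : kA A →+* kA A :=
    MulSemiringAction.toRingHom (A.decompositionSubgroup ℚ) (kA A) g with hφdef
  have hφ : ∀ x : A, IsLocalRing.residue A (g • x) = φ (IsLocalRing.residue A x) :=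
    fun x => IsLocalRing.ResidueField.residue_smul _ g x
  have hne : ∀ x : Kb, x ≠ 0 → σ x ≠ 0 := fun x hx => by
    rwa [Ne, map_eq_zero_iff _ σ.injective]
  refine ⟨by rwa [Ne, map_eq_zero_iff _ (galF (q * M) σ).injective], ho.galF σ,
    ⟨σ c, coeffMap φ r, hne c hc, g2_coeffMap_mem A hqM g φ hφ ⟨r, hr⟩, ?_⟩,
    ⟨σ d, coeffMap φ s, hne d hd, g2_coeffMap_mem A hqM g φ hφ ⟨s, hs⟩, ?_⟩⟩
  · have := h1.map g φ hφ
    rw [map_mul (coeffMap _), coeffMap_C, map_pow (coeffMap φ)] at this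
    exact this
  · have := h2.map g φ hφ
    rw [map_mul (coeffMap _), coeffMap_C, map_pow (coeffMap φ)] at this
    rw [hw.gal]
    exact this

/-- `v ^ m` is toric. -/
theorem C1_isTor_pow (hq : q.Prime) (hqM : ¬ q ∣ M) (hA : A.LiesOverPrime q) (hw : S35.IsWq q M w)
    {v : FN (q * M)} (hv : v ≠ 0) : IsTor A q M m w (v ^ m) := by
  have hwv : w v ≠ 0 := by rwa [Ne, map_eq_zero_iff w w.injective]
  obtain ⟨c, r, hc, hr, h1⟩ := exists_red_mem' hq hqM hA hw v hv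
  obtain ⟨d, s, hd, hs, h2⟩ := exists_red_mem' hq hqM hA hw (w v) hwv
  refine ⟨pow_ne_zero _ hv, dvdOrd_pow_self m v, ⟨c ^ m, r, pow_ne_zero _ hc, hr, ?_⟩,
    ⟨d ^ m, s, pow_ne_zero _ hd, hs, ?_⟩⟩
  · have := h1.pow m
    rwa [mul_pow, ← map_pow C] at this
  · have := h2.pow m
    rw [map_pow w]
    rwa [mul_pow, ← map_pow C] at this

/-- `IsTor` only depends on the class modulo `m`-th powers. -/
theorem C1_isTor_mul_pow (hq : q.Prime) (hqM : ¬ q ∣ M) (hA : A.LiesOverPrime q) (hw : S35.IsWq q M w)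
    {z v : FN (q * M)} (hz : IsTor A q M m w z) (hv : v ≠ 0) : IsTor A q M m w (z * v ^ m) :=
  C1_isTor_mul hz (C1_isTor_pow hq hqM hA hw hv)

theorem C1_red_const (hm : 0 < m) {f : LaurentSeries Kb} {κ : kA A} (hκ : κ ≠ 0)
    (h1 : gsMem A f) (h2 : gr A f = C κ) :
    ∃ (c : Kb) (r : LaurentSeries (kA A)), c ≠ 0 ∧ r ∈ modularFunctionFieldFullC (kA A) M ∧
      Red A (C c * f) (r ^ m) := by
  have := isAlgClosed_kA A
  obtain ⟨β, hβ⟩ := IsAlgClosed.exists_pow_nat_eq κ hm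
  refine ⟨1, C β, one_ne_zero, ?_, ?_⟩
  · rw [← Fermat.Agent.S28.algebraMap_eq_C]
    exact IntermediateField.algebraMap_mem _ _
  · rw [map_one, one_mul, ← map_pow, hβ]
    refine red_iff.mpr ⟨h1, h2, ?_⟩
    rwa [Ne, map_eq_zero_iff _ C_injective]

/-- `τ z / z` is toric for `τ` in the inertia group. -/
theorem C1_isTor_inertia (hq : q.Prime) (hqM : ¬ q ∣ M) (hA : A.LiesOverPrime q) (hw : S35.IsWq q M w)
    (hm : 0 < m) {τ : GQ} (hτ : τ ∈ A.inertiaSubgroupIn ℚ) {z : FN (q * M)} (hz : z ≠ 0)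
    (ho : DvdOrd (q * M) m z) : IsTor A q M m w (galF (q * M) τ z / z) := by
  have : Fact q.Prime := ⟨hq⟩
  have := charP_kA hq hA
  obtain ⟨g, hg, rfl⟩ := hτ
  have hwz : w z ≠ 0 := by rwa [Ne, map_eq_zero_iff w w.injective]
  obtain ⟨κ₁, hκ₁, m1, g1⟩ := gs_inertia_div A hqM hw.spec g hg z hz
  obtain ⟨κ₂, hκ₂, m2, g2⟩ := gs_inertia_div A hqM hw.spec g hg (w z) hwz
  refine ⟨div_ne_zero (by rwa [Ne, map_eq_zero_iff _ (galF (q * M) _).injective]) hz, ?_,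
    C1_red_const hm hκ₁ m1 g1, ?_⟩
  · rw [div_eq_mul_inv]
    exact (ho.galF _).mul ho.inv
  · have e : w (galF (q * M) (g : GQ) z / z) = galF (q * M) (g : GQ) (w z) / w z := by
      rw [map_div₀, hw.gal]
    show ∃ (c : Kb) (r : LaurentSeries (kA A)), c ≠ 0 ∧ r ∈ modularFunctionFieldFullC (kA A) M ∧
      Red A (C c * ((w (galF (q * M) (g : GQ) z / z) : FN (q * M)) : LaurentSeries Kb)) (r ^ m)
    rw [e]
    exact C1_red_const hm hκ₂ m2 g2

end Gal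

/-! ### the tower -/

section Rep

variable {p N : ℕ} [NeZero N] (D : AnData p N)

theorem C1_cls_inv {m : ℕ} {u : FN N} (hu : u ≠ 0) : cls m u⁻¹ = - cls m u := by
  rw [eq_neg_iff_add_eq_zero, ← cls_mul (inv_ne_zero hu) hu, inv_mul_cancel₀ hu, cls_one]

theorem C1_cls_div {m : ℕ} {u v : FN N} (hu : u ≠ 0) (hv : v ≠ 0) :
    cls m (u / v) = cls m u - cls m v := by
  rw [div_eq_mul_inv, cls_mul hu (inv_ne_zero hv), C1_cls_inv hv, sub_eq_add_neg]

/-- two representatives of one class differ by an `m`-th power. -/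
theorem C1_cls_eq_iff {m : ℕ} {u v : FN N} (hu : u ≠ 0) (hv : v ≠ 0) :
    cls m u = cls m v ↔ ∃ x : FN N, x ≠ 0 ∧ u = v * x ^ m := by
  constructor
  · intro h
    have h1 : cls m (u / v) = 0 := by rw [C1_cls_div hu hv, h, sub_self]
    obtain ⟨x, hx⟩ := (cls_eq_zero_iff (div_ne_zero hu hv)).mp h1
    by_cases hx0 : x = 0
    · refine ⟨1, one_ne_zero, ?_⟩
      by_cases hm : m = 0
      · subst hm
        rw [pow_zero] at hx ⊢
        rw [mul_one]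
        exact (div_eq_one_iff_eq hv).mp hx
      · rw [hx0, zero_pow hm] at hx
        exact absurd hx (div_ne_zero hu hv)
    · exact ⟨x, hx0, by rw [← hx, mul_div_cancel₀ _ hv]⟩
  · rintro ⟨x, -, h⟩
    exact cls_eq_of_eq_mul_pow hu h

/-- every class of `AS D n` has a representative with `p ^ n ∣ div`. -/
theorem C1_exists_rep (n : ℕ) {y : KQ N (p ^ n)} (hy : y ∈ AS D n) :
    ∃ u : FN N, u ≠ 0 ∧ DvdOrd N (p ^ n) u ∧ cls (p ^ n) u = y := by
  induction hy using AddSubgroup.closure_induction with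
  | mem x hx =>
    obtain ⟨⟨g, h⟩, rfl⟩ := hx
    exact ⟨_, galF_u_ne D n g h, (dvdOrd_u D n h).galF g, rfl⟩
  | zero => exact ⟨1, one_ne_zero, DvdOrd.one, cls_one⟩
  | add x y _ _ hx hy =>
    obtain ⟨u, hu, ho, rfl⟩ := hx
    obtain ⟨v, hv, ho', rfl⟩ := hy
    exact ⟨u * v, mul_ne_zero hu hv, ho.mul ho', cls_mul hu hv⟩
  | neg x _ hx =>
    obtain ⟨u, hu, ho, rfl⟩ := hx
    exact ⟨u⁻¹, inv_ne_zero hu, ho.inv, C1_cls_inv hu⟩

end Rep

section TorL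

variable {p M M₁ : ℕ} [NeZero p] [NeZero M₁] [NeZero (p * M)] [NeZero (p * M₁)]
  (A : ValuationSubring Kb) (h : M ∣ M₁) (w₁ : FN (p * M₁) ≃ₐ[Kb] FN (p * M₁))

/-- the class `y ∈ F_N^× / m` is toric: it has a representative whose pull back to level `p M₁` is `IsTor`. -/
def C1_TorCls (m : ℕ) (y : KQ (p * M) m) : Prop :=
  ∃ u : FN (p * M), u ≠ 0 ∧ cls m u = y ∧ IsTor A p M₁ m w₁ (inclFN (mul_dvd_mul_left p h) u)

variable {A w₁}

theorem C1_incl_ne {u : FN (p * M)} (hu : u ≠ 0) : inclFN (mul_dvd_mul_left p h) u ≠ 0 := by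
  rw [Ne, map_eq_zero]; exact hu

theorem C1_torCls_zero {m : ℕ} : C1_TorCls A h w₁ m 0 :=
  ⟨1, one_ne_zero, cls_one, by rw [map_one]; exact C1_isTor_one⟩

theorem C1_torCls_add {m : ℕ} {y y' : KQ (p * M) m} (hy : C1_TorCls A h w₁ m y)
    (hy' : C1_TorCls A h w₁ m y') : C1_TorCls A h w₁ m (y + y') := by
  obtain ⟨u, hu, rfl, ht⟩ := hy
  obtain ⟨v, hv, rfl, ht'⟩ := hy'
  exact ⟨u * v, mul_ne_zero hu hv, cls_mul hu hv, by rw [map_mul]; exact C1_isTor_mul ht ht'⟩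

theorem C1_torCls_neg {m : ℕ} {y : KQ (p * M) m} (hy : C1_TorCls A h w₁ m y) :
    C1_TorCls A h w₁ m (- y) := by
  obtain ⟨u, hu, rfl, ht⟩ := hy
  exact ⟨u⁻¹, inv_ne_zero hu, C1_cls_inv hu, by rw [map_inv₀]; exact C1_isTor_inv ht⟩

/-- **every** representative of a toric class is toric. -/
theorem C1_torCls_cls_iff (hp : p.Prime) (hpM : ¬ p ∣ M₁) (hA : A.LiesOverPrime p)
    (hw : S35.IsWq p M₁ w₁) {m : ℕ} {u : FN (p * M)} (hu : u ≠ 0) :
    C1_TorCls A h w₁ m (cls m u) ↔ IsTor A p M₁ m w₁ (inclFN (mul_dvd_mul_left p h) u) := by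
  constructor
  · rintro ⟨v, hv, hc, ht⟩
    obtain ⟨x, hx, rfl⟩ := (C1_cls_eq_iff hu hv).mp hc.symm
    rw [map_mul, map_pow]
    exact C1_isTor_mul_pow hp hpM hA hw ht (C1_incl_ne h hx)
  · exact fun ht => ⟨u, hu, rfl, ht⟩

theorem C1_torCls_actQ (hp : p.Prime) (hpM : ¬ p ∣ M₁) (hA : A.LiesOverPrime p)
    (hw : S35.IsWq p M₁ w₁) {m : ℕ} {σ : GQ} (hσ : σ ∈ A.decompositionSubgroup ℚ)
    {y : KQ (p * M) m} (hy : C1_TorCls A h w₁ m y) : C1_TorCls A h w₁ m (actQ m σ y) := by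
  obtain ⟨u, hu, rfl, ht⟩ := hy
  refine ⟨galF (p * M) σ u, by rwa [Ne, map_eq_zero_iff _ (galF (p * M) σ).injective],
    (actQ_cls σ u).symm, ?_⟩
  rw [← galF_inclFN]
  exact C1_isTor_galF hp hpM hA hw hσ ht

theorem C1_torCls_inertia (hp : p.Prime) (hpM : ¬ p ∣ M₁) (hA : A.LiesOverPrime p)
    (hw : S35.IsWq p M₁ w₁) {m : ℕ} (hm : 0 < m) {τ : GQ} (hτ : τ ∈ A.inertiaSubgroupIn ℚ)
    {u : FN (p * M)} (hu : u ≠ 0) (ho : DvdOrd (p * M) m u) :
    C1_TorCls A h w₁ m (actQ m τ (cls m u) - cls m u) := by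
  have hτu : galF (p * M) τ u ≠ 0 := by rwa [Ne, map_eq_zero_iff _ (galF (p * M) τ).injective]
  refine ⟨galF (p * M) τ u / u, div_ne_zero hτu hu, ?_, ?_⟩
  · rw [C1_cls_div hτu hu, actQ_cls]
  · rw [map_div₀, ← galF_inclFN]
    exact C1_isTor_inertia hp hpM hA hw hm hτ (C1_incl_ne h hu) (dvdOrd_inclFN _ ho)

variable (A w₁) (D : AnData p (p * M)) [Fact p.Prime]

/-- the toric subgroup of `AS D n`. -/
def C1_torS (n : ℕ) : AddSubgroup (AS D n) where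
  carrier := {y | C1_TorCls A h w₁ (p ^ n) (y : KQ (p * M) (p ^ n))}
  zero_mem' := C1_torCls_zero h
  add_mem' := fun hy hy' => C1_torCls_add h hy hy'
  neg_mem' := fun hy => C1_torCls_neg h hy

/-- the toric subgroup `L n` of the tower. -/
def C1_torL (n : ℕ) : AddSubgroup ((towerOfAnData D).A n) := C1_torS A h w₁ D n

variable {A w₁ D}

theorem C1_mem_torL_iff {n : ℕ} {x : (towerOfAnData D).A n} :
    x ∈ C1_torL A h w₁ D n ↔ C1_TorCls A h w₁ (p ^ n) (show AS D n from x).1 := Iff.rfl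

theorem C1_torL_dec (hpM : ¬ p ∣ M₁) (hA : A.LiesOverPrime p) (hw : S35.IsWq p M₁ w₁) (n : ℕ)
    (σ : GQ) (hσ : σ ∈ A.decompositionSubgroup ℚ) (x : (towerOfAnData D).A n)
    (hx : x ∈ C1_torL A h w₁ D n) : (towerOfAnData D).act n σ x ∈ C1_torL A h w₁ D n :=
  C1_torCls_actQ h (Fact.out) hpM hA hw hσ hx

theorem C1_torL_in (hpM : ¬ p ∣ M₁) (hA : A.LiesOverPrime p) (hw : S35.IsWq p M₁ w₁) (n : ℕ)
    (τ : GQ) (hτ : τ ∈ A.inertiaSubgroupIn ℚ) (x : (towerOfAnData D).A n) :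
    (towerOfAnData D).act n τ x - x ∈ C1_torL A h w₁ D n := by
  obtain ⟨u, hu, ho, hc⟩ := C1_exists_rep D n (show AS D n from x).2
  have hp : p.Prime := Fact.out
  have := C1_torCls_inertia h hp hpM hA hw (pow_pos hp.pos n) hτ hu ho
  rw [hc] at this
  exact this

end TorL

end Fermat.Agent.S33
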