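import Fermat.Agent.S33.C1
import Fermat.Agent.S33.ModDefs

/-!
# S33, piece C1: the official statements (`IsTorCls.zero/add/neg/act`, `isTorCls_inertia`) from `C1.lean`
-/

set_option autoImplicit false
set_option linter.unusedSectionVars false
set_option linter.unusedVariables false

namespace Fermat.Agent.S33

open ModularCurve AlgebraicCurve HahnSeries Fermat.Agent.S24 Fermat.Agent.S28 Fermat.Agent.S18
  Fermat.Agent.GR Fermat.Agent.S34 Fermat.Agent.S35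

section C

variable {p M : ℕ} [NeZero p] [NeZero M] [NeZero (p * M)] [Fact p.Prime]

theorem C1b_neZero (p M₁ : ℕ) [NeZero p] [NeZero M₁] : NeZero (p * M₁) :=
  ⟨mul_ne_zero (NeZero.ne p) (NeZero.ne M₁)⟩

/-- **C1a** -/
theorem IsTorCls.zero (A : ValuationSubring Kb) {M₁ : ℕ} [NeZero M₁] (h : M ∣ M₁)
    (w₁ : FN (p * M₁) ≃ₐ[Kb] FN (p * M₁)) (m : ℕ) : IsTorCls A h w₁ m (0 : KQ (p * M) m) :=
  have := C1b_neZero p M₁
  C1_torCls_zero h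

theorem IsTorCls.add {A : ValuationSubring Kb} {M₁ : ℕ} [NeZero M₁] {h : M ∣ M₁}
    {w₁ : FN (p * M₁) ≃ₐ[Kb] FN (p * M₁)} {m : ℕ} {x y : KQ (p * M) m}
    (hx : IsTorCls A h w₁ m x) (hy : IsTorCls A h w₁ m y) : IsTorCls A h w₁ m (x + y) :=
  have := C1b_neZero p M₁
  C1_torCls_add h hx hy

theorem IsTorCls.neg {A : ValuationSubring Kb} {M₁ : ℕ} [NeZero M₁] {h : M ∣ M₁}
    {w₁ : FN (p * M₁) ≃ₐ[Kb] FN (p * M₁)} {m : ℕ} {x : KQ (p * M) m}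
    (hx : IsTorCls A h w₁ m x) : IsTorCls A h w₁ m (-x) :=
  have := C1b_neZero p M₁
  C1_torCls_neg h hx

/-- **C1b** stability under the decomposition group. -/
theorem IsTorCls.act {A : ValuationSubring Kb} (hp : p.Prime) (hA : A.LiesOverPrime p) {M₁ : ℕ}
    [NeZero M₁] {h : M ∣ M₁} (hpM₁ : ¬ p ∣ M₁)
    {w₁ : FN (p * M₁) ≃ₐ[Kb] FN (p * M₁)} (hw₁ : S35.IsWq p M₁ w₁) {m : ℕ} (hm : 0 < m)
    {x : KQ (p * M) m}
    (hx : IsTorCls A h w₁ m x) {σ : GQ} (hσ : σ ∈ A.decompositionSubgroup ℚ) :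
    IsTorCls A h w₁ m (actQ m σ x) :=
  have := C1b_neZero p M₁
  C1_torCls_actQ h hp hpM₁ hA hw₁ hσ hx

/-- **C1c** `(τ - 1) x` is toric for `τ` in the inertia group and every class with `m ∣ div`. -/
theorem isTorCls_inertia {A : ValuationSubring Kb} (hp : p.Prime) (hA : A.LiesOverPrime p) {M₁ : ℕ}
    [NeZero M₁] (h : M ∣ M₁) (hpM₁ : ¬ p ∣ M₁)
    {w₁ : FN (p * M₁) ≃ₐ[Kb] FN (p * M₁)} (hw₁ : S35.IsWq p M₁ w₁) {m : ℕ} (hm : 0 < m)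
    {u : FN (p * M)} (hu : u ≠ 0) (hord : DvdOrd (p * M) m u) {τ : GQ}
    (hτ : τ ∈ A.inertiaSubgroupIn ℚ) :
    IsTorCls A h w₁ m (actQ m τ (cls m u) - cls m u) :=
  have := C1b_neZero p M₁
  C1_torCls_inertia h hp hpM₁ hA hw₁ hm hτ hu hord

/-- every representative of a toric class is toric. -/
theorem isTorCls_cls_iff {A : ValuationSubring Kb} (hp : p.Prime) (hA : A.LiesOverPrime p) {M₁ : ℕ}
    [NeZero M₁] (h : M ∣ M₁) (hpM₁ : ¬ p ∣ M₁)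
    {w₁ : FN (p * M₁) ≃ₐ[Kb] FN (p * M₁)} (hw₁ : S35.IsWq p M₁ w₁) {m : ℕ}
    {u : FN (p * M)} (hu : u ≠ 0) :
    IsTorCls A h w₁ m (cls m u) ↔ IsTor A p M₁ m w₁ (inclFN (mul_dvd_mul_left p h) u) :=
  have := C1b_neZero p M₁
  C1_torCls_cls_iff h hp hpM₁ hA hw₁ hu

end C

end Fermat.Agent.S33
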