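import Fermat.Agent.S35.TKL

/-!
# S33, piece C2: `fix` for all `n` from exponent `p`

A class `y ∈ F_N^× / p^n` (`N = p M`), toric after pull back to the level `p M₁` (`M ∣ M₁`), fixed by `τ`, in a subgroup `X`
(`= AS D n`), is `0`, provided that
* `F2` : at exponent `p`, level `p M₁`: a `τ`-fixed class with a representative `≡ 1` for both Gauss valuations and with the
  property `Q` is trivial;
* `P3` : the pull back `F_N^× / p → F_{p M₁}^× / p` is injective;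
* `hX` : `[v ^ (p ^ (n - 1))] ∈ X` implies `Q v`;  `hQ` : `Q` is a class property.
-/

set_option autoImplicit false
set_option linter.unusedSectionVars false

namespace Fermat.Agent.S33

open ModularCurve AlgebraicCurve HahnSeries Fermat.Agent.S24 Fermat.Agent.S28 Fermat.Agent.S18
  Fermat.Agent.GR Fermat.Agent.S34 Fermat.Agent.S35

/-- `a ^ k = b ^ k` in `F_N` implies `a = c b` with a constant `c`. -/
theorem C2_const_of_pow_eq {N : ℕ} {a b : FN N} {k : ℕ} (hk : 0 < k) (hb : b ≠ 0)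
    (h : a ^ k = b ^ k) : ∃ c : Kb, c ≠ 0 ∧ a = algebraMap Kb (FN N) c * b := by
  have h1 : (a * b⁻¹) ^ k = 1 := by
    rw [mul_pow, h, inv_pow, mul_inv_cancel₀ (pow_ne_zero _ hb)]
  obtain ⟨c, hc⟩ := exists_algebraMap_eq_of_pow_eq_one hk h1
  refine ⟨c, ?_, ?_⟩
  · rintro rfl
    rw [map_zero] at hc
    rw [← hc, zero_pow hk.ne'] at h1
    exact zero_ne_one h1
  · rw [hc, mul_assoc, inv_mul_cancel₀ hb, mul_one]

/-- `a ^ k = (b ^ m) ^ k` implies that `a` is an `m`-th power. -/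
theorem C2_root {N : ℕ} {a b : FN N} {k m : ℕ} (hk : 0 < k) (hm : 0 < m) (hb : b ≠ 0)
    (h : a ^ k = (b ^ m) ^ k) : ∃ g : FN N, g ≠ 0 ∧ a = g ^ m := by
  obtain ⟨c, hc0, hc⟩ := C2_const_of_pow_eq hk (pow_ne_zero m hb) h
  obtain ⟨d, hd⟩ := IsAlgClosed.exists_pow_nat_eq c hm
  have hd0 : d ≠ 0 := by
    rintro rfl
    rw [zero_pow hm.ne'] at hd
    exact hc0 hd.symm
  refine ⟨algebraMap Kb (FN N) d * b, mul_ne_zero (by rw [Ne, map_eq_zero]; exact hd0) hb, ?_⟩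
  rw [mul_pow, ← map_pow, hd, hc]

theorem C2_cls_eq_iff {N m : ℕ} {a b : FN N} (ha : a ≠ 0) (hb : b ≠ 0) :
    cls m a = cls m b ↔ ∃ g : FN N, a = b * g ^ m := by
  constructor
  · intro h
    have h1 : cls m (a * b⁻¹) = 0 := by
      have h2 : cls m (b * b⁻¹) = 0 := by rw [mul_inv_cancel₀ hb, cls_one]
      rw [cls_mul hb (inv_ne_zero hb)] at h2
      rw [cls_mul ha (inv_ne_zero hb), h, h2]
    obtain ⟨g, hg⟩ := (cls_eq_zero_iff (mul_ne_zero ha (inv_ne_zero hb))).mp h1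
    exact ⟨g, by rw [← hg]; field_simp⟩
  · rintro ⟨g, hg⟩
    exact cls_eq_of_eq_mul_pow ha hg


/-- powers of toric elements are toric. -/
theorem C2_isTor_pow {A : ValuationSubring Kb} {q M m : ℕ} {w : FN (q * M) ≃ₐ[Kb] FN (q * M)}
    {z : FN (q * M)} (hz : IsTor A q M m w z) (j : ℕ) : IsTor A q M m w (z ^ j) := by
  obtain ⟨hz0, hord, ⟨c, r, hc, hr, h1⟩, ⟨c', r', hc', hr', h2⟩⟩ := hz
  refine ⟨pow_ne_zero _ hz0, hord.pow j, ⟨c ^ j, r ^ j, pow_ne_zero _ hc, pow_mem hr j, ?_⟩,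
    ⟨c' ^ j, r' ^ j, pow_ne_zero _ hc', pow_mem hr' j, ?_⟩⟩
  · have h3 := h1.pow j
    rw [mul_pow, ← map_pow, ← pow_mul, mul_comm m j, pow_mul] at h3
    exact h3
  · have h3 := h2.pow j
    rw [mul_pow, ← map_pow, ← pow_mul, mul_comm m j, pow_mul] at h3
    rw [map_pow w]
    exact h3

/-- extraction of a `p ^ n`-th root on the level of reductions (char `p`). -/
theorem C2_red_root {A : ValuationSubring Kb} {p M : ℕ} [NeZero p] [NeZero M] (hp : p.Prime)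
    (hpM : ¬ p ∣ M) (hA : A.LiesOverPrime p) {w : FN (p * M) ≃ₐ[Kb] FN (p * M)} (hw : S35.IsWq p M w)
    (n : ℕ) (f : FN (p * M)) (hf : f ≠ 0)
    (h : ∃ (c : Kb) (r : LaurentSeries (kA A)), c ≠ 0 ∧ r ∈ modularFunctionFieldFullC (kA A) M ∧
      Red A (C c * ((f ^ (p ^ n) : FN (p * M)) : LaurentSeries Kb)) (r ^ (p ^ (n + 1)))) :
    ∃ (c : Kb) (r : LaurentSeries (kA A)), c ≠ 0 ∧ r ∈ modularFunctionFieldFullC (kA A) M ∧
      Red A (C c * (f : LaurentSeries Kb)) (r ^ p) := by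
  have : Fact p.Prime := ⟨hp⟩
  have := charP_kA hp hA
  have := isAlgClosed_kA A
  have : CharP (LaurentSeries (kA A)) p :=
    charP_of_injective_algebraMap (algebraMap (kA A) _).injective p
  obtain ⟨c1, r, hc1, hr, h1⟩ := h
  obtain ⟨c0, r0, hc0, hr0, h0⟩ := exists_red_mem' hp hpM hA hw f hf
  have h2 := h0.pow (p ^ n)
  rw [mul_pow, ← map_pow] at h2
  rw [SubmonoidClass.coe_pow] at h1
  obtain ⟨κ, hκ, h3⟩ := h2.unique h1
  obtain ⟨lam, hlam⟩ := IsAlgClosed.exists_pow_nat_eq κ (pow_pos hp.pos (n + 1))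
  have h4 : r0 ^ (p ^ n) = ((C lam * r) ^ p) ^ (p ^ n) := by
    rw [h3, ← hlam, map_pow, ← mul_pow, ← pow_mul, pow_succ, mul_comm p]
  have h5 : r0 = (C lam * r) ^ p := by
    have h6 : (r0 - (C lam * r) ^ p) ^ (p ^ n) = 0 := by
      rw [sub_pow_char_pow, h4, sub_self]
    exact sub_eq_zero.mp (pow_eq_zero_iff (pow_pos hp.pos n).ne' |>.mp h6)
  refine ⟨c0, C lam * r, hc0, ?_, by rw [← h5]; exact h0⟩
  rw [← Fermat.Agent.S28.algebraMap_eq_C]
  exact mul_mem (IntermediateField.algebraMap_mem _ _) hr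

/-- `IsTor` for `p ^ (n+1)` of `f ^ (p ^ n)` gives `IsTor` for `p` of `f`. -/
theorem C2_isTor_root {A : ValuationSubring Kb} {p M : ℕ} [NeZero p] [NeZero M] (hp : p.Prime)
    (hpM : ¬ p ∣ M) (hA : A.LiesOverPrime p) {w : FN (p * M) ≃ₐ[Kb] FN (p * M)} (hw : S35.IsWq p M w)
    (n : ℕ) (f : FN (p * M)) (h : IsTor A p M (p ^ (n + 1)) w (f ^ (p ^ n))) :
    IsTor A p M p w f := by
  obtain ⟨h0, hord, h1, h2⟩ := h
  have hf : f ≠ 0 := by
    rintro rfl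
    exact h0 (zero_pow (pow_pos hp.pos n).ne')
  refine ⟨hf, ?_, C2_red_root hp hpM hA hw n f hf h1, ?_⟩
  · intro P
    have h3 := hord P
    rw [← zpow_natCast, P.ord_zpow] at h3
    push_cast at h3
    rw [pow_succ] at h3
    exact (mul_dvd_mul_iff_left (pow_ne_zero n (by exact_mod_cast hp.ne_zero))).mp h3
  · refine C2_red_root hp hpM hA hw n (w f) (by rwa [Ne, map_eq_zero_iff w w.injective]) ?_
    rw [← map_pow]
    exact h2


/-- **C2.** -/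
theorem C2_fix {p M M₁ : ℕ} [NeZero p] [NeZero M] [NeZero M₁] [NeZero (p * M₁)] [Fact p.Prime]
    (hMM₁ : M ∣ M₁) (hpM₁ : ¬ p ∣ M₁)
    (A : ValuationSubring Kb) [CharP (kA A) p] (hA : A.LiesOverPrime p)
    {w₁ : FN (p * M₁) ≃ₐ[Kb] FN (p * M₁)} (hw₁ : S35.IsWq p M₁ w₁) (τ : GQ)
    (Q : FN (p * M₁) → Prop)
    (hQ : ∀ z g : FN (p * M₁), g ≠ 0 → Q z → Q (z * g ^ p))
    (F2 : ∀ z : FN (p * M₁), z ∈ (gauss2 A hpM₁ hw₁.spec).V → (gauss2 A hpM₁ hw₁.spec).rd z = 1 →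
      DvdOrd (p * M₁) p z → (∃ g : FN (p * M₁), galF (p * M₁) τ z = z * g ^ p) → Q z →
      ∃ g : FN (p * M₁), z = g ^ p)
    (P3 : ∀ u : FN (p * M), (∃ v : FN (p * M₁), inclFN (mul_dvd_mul_left p hMM₁) u = v ^ p) →
      ∃ v : FN (p * M), u = v ^ p)
    (n : ℕ) (X : AddSubgroup (KQ (p * M) (p ^ n)))
    (hX : ∀ v : FN (p * M), v ≠ 0 → cls (p ^ n) (v ^ (p ^ (n - 1))) ∈ X →
      Q (inclFN (mul_dvd_mul_left p hMM₁) v))
    (u : FN (p * M)) (hyX : cls (p ^ n) u ∈ X)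
    (htor : IsTor A p M₁ (p ^ n) w₁ (inclFN (mul_dvd_mul_left p hMM₁) u))
    (hfix : actQ (p ^ n) τ (cls (p ^ n) u) = cls (p ^ n) u) : cls (p ^ n) u = 0 := by
  have hp : p.Prime := Fact.out
  set ι := inclFN (mul_dvd_mul_left p hMM₁) with hι
  have hu : u ≠ 0 := by
    rintro rfl
    exact htor.1 (map_zero _)
  by_contra hy
  have hn : n ≠ 0 := by
    rintro rfl
    apply hy
    have := nsmul_KQ (cls (p ^ 0) u)
    rwa [pow_zero, one_nsmul] at this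
  obtain ⟨n', rfl⟩ : ∃ n', n = n' + 1 := ⟨n - 1, by omega⟩
  have hex : ∃ j, p ^ j • cls (p ^ (n' + 1)) u = 0 := ⟨n' + 1, nsmul_KQ _⟩
  classical
  have hj0 : Nat.find hex ≠ 0 := by
    intro h0
    have := Nat.find_spec hex
    rw [h0, pow_zero, one_nsmul] at this
    exact hy this
  obtain ⟨k, hk⟩ : ∃ k, Nat.find hex = k + 1 := ⟨Nat.find hex - 1, by omega⟩
  have hk1 : p ^ k • cls (p ^ (n' + 1)) u ≠ 0 := Nat.find_min hex (by omega)
  have hk2 : p ^ (k + 1) • cls (p ^ (n' + 1)) u = 0 := hk ▸ Nat.find_spec hex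
  set u1 : FN (p * M) := u ^ (p ^ k) with hu1
  have hu10 : u1 ≠ 0 := pow_ne_zero _ hu
  have hc1 : cls (p ^ (n' + 1)) u1 = p ^ k • cls (p ^ (n' + 1)) u := cls_pow hu _
  -- `u1 = v ^ (p ^ n')`
  obtain ⟨v, hv0, hv⟩ : ∃ v : FN (p * M), v ≠ 0 ∧ u1 = v ^ (p ^ n') := by
    have h1 : cls (p ^ (n' + 1)) (u1 ^ p) = 0 := by
      rw [cls_pow hu10, hc1, ← mul_nsmul', ← pow_succ', hk2]
    obtain ⟨h, hh⟩ := (cls_eq_zero_iff (pow_ne_zero _ hu10)).mp h1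
    have hh0 : h ≠ 0 := by
      rintro rfl
      rw [zero_pow (pow_pos hp.pos _).ne'] at hh
      exact pow_ne_zero _ hu10 hh
    exact C2_root hp.pos (pow_pos hp.pos n') hh0 (by rw [hh, pow_succ, pow_mul])
  -- toric
  have ht : IsTor A p M₁ p w₁ (ι v) := by
    refine C2_isTor_root hp hpM₁ hA hw₁ n' (ι v) ?_
    rw [← map_pow, ← hv, hu1, map_pow]
    exact C2_isTor_pow htor _
  -- fixed
  obtain ⟨g', hg'⟩ : ∃ g' : FN (p * M), galF (p * M) τ v = v * g' ^ p := by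
    have h1 : cls (p ^ (n' + 1)) (galF (p * M) τ u1) = cls (p ^ (n' + 1)) u1 := by
      rw [← actQ_cls, hc1, map_nsmul, hfix]
    have hτu : galF (p * M) τ u1 ≠ 0 := by
      rwa [Ne, map_eq_zero_iff _ (galF (p * M) τ).injective]
    obtain ⟨g, hg⟩ := (C2_cls_eq_iff hτu hu10).mp h1
    have hg0 : g ≠ 0 := by
      rintro rfl
      rw [zero_pow (pow_pos hp.pos _).ne', mul_zero] at hg
      exact hτu hg
    obtain ⟨g', -, hg'⟩ := C2_root (a := galF (p * M) τ v * v⁻¹) (pow_pos hp.pos n') hp.pos hg0 (by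
      rw [mul_pow, ← map_pow, ← hv, hg, hv, inv_pow, ← pow_mul, pow_succ, mul_comm p (p ^ n')]
      field_simp)
    exact ⟨g', by rw [← hg']; field_simp⟩
  obtain ⟨η, hη0, ht1⟩ := ht.exists_isTor1 A hA hpM₁ hw₁.spec hp.pos
  obtain ⟨v2, hv20, hV, hrd⟩ := exists_toric_rep1 A hpM₁ hw₁.spec hp.pos _ ht1
  have hne : ∀ {t : FN (p * M₁)}, t ≠ 0 → galF (p * M₁) τ t ≠ 0 := fun {t} ht => by
    rwa [Ne, map_eq_zero_iff _ (galF (p * M₁) τ).injective]
  have hιv : ι v ≠ 0 := ht.1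
  obtain ⟨g, hg⟩ := F2 (ι v * η ^ p * v2 ^ p) hV hrd (ht1.1.mul (dvdOrd_pow_self p v2))
    ⟨ι g' * (galF (p * M₁) τ η * η⁻¹) * (galF (p * M₁) τ v2 * v2⁻¹), by
      rw [map_mul, map_mul, map_pow, map_pow, hι, galF_inclFN, hg', map_mul, map_pow, mul_pow,
        mul_pow, mul_pow, mul_pow, inv_pow, inv_pow]
      have e1 := pow_ne_zero p hη0
      have e2 := pow_ne_zero p hv20
      field_simp⟩
    (hQ _ _ hv20 (hQ _ _ hη0 (hX v hv0 (by
      rw [Nat.add_sub_cancel, ← hv, hc1]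
      exact nsmul_mem hyX _))))
  obtain ⟨g0, hg0⟩ := P3 v ⟨g * (η * v2)⁻¹, by
    rw [mul_pow, ← hg, inv_pow, mul_pow]
    field_simp⟩
  apply hk1
  rw [← hc1, hv, hg0, ← pow_mul, ← pow_succ']
  exact cls_pow_self _

end Fermat.Agent.S33
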