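import Fermat.Agent.S35.AN
import Fermat.Agent.S35.TKL
import Fermat.Agent.S37.MopMem
import Fermat.Agent.S33.Defs

/-!
# S33, piece C3: the `T_p`-orbits of the norms of the classes of exponent `p` are finite

* `exists_anFamilyP` : the family of analytic data of `S35.exists_anFamily` with the additional information at `l = p`;
* `C3_main` : for `v` of level `p M` with `[v ^ (p ^ n)] ∈ AS DN (n + 1)`, the norms `N1 v`, `N1 (w v)` (computed at the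
  auxiliary level `p M₁`) satisfy `TpFin p M₁ ζ`.
-/

set_option autoImplicit false
set_option linter.unusedSectionVars false
set_option linter.style.haveILetI false

namespace Fermat.Agent.S33

open ModularCurve AlgebraicCurve HahnSeries Fermat.Agent.S24 Fermat.Agent.S18 Fermat.Agent.GR
open Fermat.Agent.S29 Fermat.Agent.S35

/-! ### maps induced on Kummer classes -/

/-- the additive map induced on Kummer classes by a multiplicative map. -/
noncomputable def C3_mapQ {N N' : ℕ} (m : ℕ) (f : FN N →* FN N') : KQ N m →+ KQ N' m :=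
  MonoidHom.toAdditive (QuotientGroup.map (Pw N m) (Pw N' m) (Units.map f) (by
      rintro _ ⟨w, rfl⟩
      exact ⟨Units.map f w, (map_pow _ _ _).symm⟩))

theorem C3_map_ne_zero {N N' : ℕ} (f : FN N →* FN N') {u : FN N} (hu : u ≠ 0) : f u ≠ 0 :=
  (Units.map f (Units.mk0 u hu)).ne_zero

theorem C3_mapQ_cls {N N' m : ℕ} (f : FN N →* FN N') {u : FN N} (hu : u ≠ 0) :
    C3_mapQ m f (cls m u) = cls m (f u) := by
  rw [cls_of_ne hu, cls_of_ne (C3_map_ne_zero f hu)]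
  show mkQ m _ = _
  congr 1
  exact Units.ext rfl

/-! ### `p`-th roots -/

theorem C3_pow_inj {N p : ℕ} (hp : 0 < p) (n : ℕ) {v x : FN N} (hv : v ≠ 0)
    (h : v ^ (p ^ n) = x ^ (p ^ (n + 1))) : ∃ y : FN N, v = y ^ p := by
  have hx : x ≠ 0 := by
    rintro rfl
    rw [zero_pow (pow_pos hp _).ne'] at h
    exact pow_ne_zero _ hv h
  have h1 : (v * (x ^ p)⁻¹) ^ (p ^ n) = 1 := by
    rw [mul_pow, h, inv_pow, ← pow_mul, ← pow_succ', mul_inv_cancel₀ (pow_ne_zero _ hx)]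
  obtain ⟨c, hc⟩ := exists_algebraMap_eq_of_pow_eq_one (pow_pos hp n) h1
  obtain ⟨d, hd⟩ := IsAlgClosed.exists_pow_nat_eq c hp
  refine ⟨algebraMap Kb (FN N) d * x, ?_⟩
  rw [mul_pow, ← map_pow, hd, hc, mul_assoc, inv_mul_cancel₀ (pow_ne_zero _ hx), mul_one]

theorem C3_cls_eq {N m : ℕ} {u v : FN N} (hu : u ≠ 0) (hv : v ≠ 0) (h : cls m u = cls m v) :
    ∃ x : FN N, u = v * x ^ m := by
  have h1 : cls m (u * v⁻¹) = 0 := by
    have h2 : cls m (v * v⁻¹) = 0 := by rw [mul_inv_cancel₀ hv, cls_one]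
    rw [cls_mul hv (inv_ne_zero hv)] at h2
    rw [cls_mul hu (inv_ne_zero hv), h, h2]
  obtain ⟨x, hx⟩ := (cls_eq_zero_iff (mul_ne_zero hu (inv_ne_zero hv))).mp h1
  exact ⟨x, by rw [← hx, mul_comm u, ← mul_assoc, mul_inv_cancel₀ hv, one_mul]⟩

/-! ### the groups `AS D n` -/

section AS

variable {p N : ℕ} [NeZero N] (D : AnData p N)

theorem C3_dvdOrd_of_mem {n : ℕ} {y : KQ N (p ^ n)} (hy : y ∈ AS D n) :
    ∀ u : FN N, u ≠ 0 → cls (p ^ n) u = y → DvdOrd N (p ^ n) u := by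
  have key : ∀ y ∈ AS D n, ∃ u : FN N, u ≠ 0 ∧ cls (p ^ n) u = y ∧ DvdOrd N (p ^ n) u := by
    intro y hy
    induction hy using AddSubgroup.closure_induction with
    | mem y hy =>
      obtain ⟨⟨g, h⟩, rfl⟩ := hy
      exact ⟨_, galF_u_ne D n g h, rfl, (dvdOrd_u D n h).galF g⟩
    | zero => exact ⟨1, one_ne_zero, cls_one, DvdOrd.one⟩
    | add a b _ _ ha hb =>
      obtain ⟨u, hu, rfl, hu'⟩ := ha
      obtain ⟨v, hv, rfl, hv'⟩ := hb
      exact ⟨u * v, mul_ne_zero hu hv, cls_mul hu hv, hu'.mul hv'⟩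
    | neg a _ ha =>
      obtain ⟨u, hu, rfl, hu'⟩ := ha
      refine ⟨u⁻¹, inv_ne_zero hu, ?_, hu'.inv⟩
      have h2 : cls (p ^ n) (u * u⁻¹) = 0 := by rw [mul_inv_cancel₀ hu, cls_one]
      rw [cls_mul hu (inv_ne_zero hu)] at h2
      exact eq_neg_of_add_eq_zero_right h2
  intro u hu hyu
  obtain ⟨v, hv, hvy, hv'⟩ := key y hy
  obtain ⟨x, hx⟩ := C3_cls_eq hu hv (hyu.trans hvy.symm)
  rw [hx]
  exact hv'.mul (dvdOrd_pow_self _ x)

theorem C3_dvdOrd (hp : 0 < p) {n : ℕ} {v : FN N} (hv : v ≠ 0)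
    (h : cls (p ^ (n + 1)) (v ^ (p ^ n)) ∈ AS D (n + 1)) : DvdOrd N p v := by
  intro P
  have h1 := C3_dvdOrd_of_mem D h _ (pow_ne_zero _ hv) rfl P
  rw [← zpow_natCast, P.ord_zpow] at h1
  push_cast at h1
  rw [pow_succ] at h1
  exact (mul_dvd_mul_iff_left (pow_ne_zero n (by exact_mod_cast hp.ne'))).mp h1

theorem C3_orbit_finite {m : ℕ} (y : KQ N m) : (Set.range fun σ : GQ => actQ m σ y).Finite := by
  obtain ⟨L, hL, hfix⟩ := smooth_KQ y
  let f : GQ → (L →ₐ[ℚ] Qb) := fun σ => (σ : Qb →ₐ[ℚ] Qb).comp L.val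
  have hfac : Function.FactorsThrough (fun σ : GQ => actQ m σ y) f := by
    intro σ σ' h
    have h1 : actQ m (σ⁻¹ * σ') y = y := by
      refine hfix _ fun z hz => ?_
      have h2 : σ z = σ' z := congrArg (fun F : L →ₐ[ℚ] Qb => F ⟨z, hz⟩) h
      show σ⁻¹ (σ' z) = z
      rw [← h2]
      exact σ.symm_apply_apply z
    show actQ m σ y = actQ m σ' y
    have h3 := congrArg (actQ m σ) h1
    rw [← actQ_mul, mul_inv_cancel_left] at h3
    exact h3.symm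
  refine (Set.finite_range (Function.extend f (fun σ : GQ => actQ m σ y) fun _ => 0)).subset ?_
  rintro _ ⟨σ, rfl⟩
  exact ⟨f σ, hfac.extend_apply _ σ⟩

theorem C3_AS_finite (hp : 0 < p) (n : ℕ) : Finite (AS D n) := by
  classical
  obtain ⟨s, hs⟩ := (Module.Finite.fg_top : (⊤ : Submodule ℤ D.H).FG)
  set S : Set (KQ N (p ^ n)) := ⋃ h ∈ s, Set.range fun σ : GQ => actQ (p ^ n) σ (gen D n 1 h) with hS
  have hSfin : S.Finite := s.finite_toSet.biUnion fun h _ => C3_orbit_finite _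
  have hle : AS D n = AddSubgroup.closure S := by
    apply le_antisymm
    · rw [AS, AddSubgroup.closure_le]
      rintro _ ⟨⟨g, h⟩, rfl⟩
      let Φ : D.H →+ KQ N (p ^ n) := AddMonoidHom.mk' (gen D n g) (gen_add D n g)
      have h1 : (⊤ : Submodule ℤ D.H) ≤
          (AddSubgroup.toIntSubmodule (AddSubgroup.closure S)).comap Φ.toIntLinearMap := by
        rw [← hs, Submodule.span_le]
        intro h hh
        refine AddSubgroup.subset_closure ?_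
        refine Set.mem_biUnion hh ⟨g, ?_⟩
        show actQ (p ^ n) g (gen D n 1 h) = gen D n g h
        rw [actQ_gen, mul_one]
      exact h1 (Submodule.mem_top (x := h))
    · rw [AddSubgroup.closure_le]
      intro y hy
      obtain ⟨h, -, σ, rfl⟩ := Set.mem_iUnion₂.mp hy
      exact actQ_mem D n σ (gen_mem D n 1 h)
  have hfg : (AS D n).FG := by
    rw [hle]
    exact ⟨hSfin.toFinset, by rw [Set.Finite.coe_toFinset]⟩
  haveI : AddGroup.FG (AS D n) := (AddGroup.fg_iff_addSubgroup_fg _).mpr hfg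
  refine AddCommGroup.finite_of_fg_isAddTorsion _ fun x => ?_
  rw [isOfFinAddOrder_iff_nsmul_eq_zero]
  exact ⟨p ^ n, pow_pos hp n, Subtype.ext (nsmul_KQ _)⟩

end AS



/-! ### the Hecke operator `T_p` on Kummer classes of level `M`, `p ∤ M` -/

/-- the analytic data are compatible with the multiplicative Hecke operator `T_p` (`p ∤ M`). -/
def HeckeP {p M : ℕ} [NeZero p] [NeZero M] (D : AnData p M) : Prop :=
  ∀ n (h : D.H), ∃ (ζ : Kbˣ) (x : FN M) (h' : D.H), IsPrimitiveRoot ζ p ∧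
    Mop ζ p (D.u n h : LaurentSeries Kb) = ((D.u n h' * x ^ (p ^ n) : FN M) : LaurentSeries Kb)

section Hecke

variable {p M : ℕ} [NeZero p] [NeZero M]

/-- `Mop ζ p` as a multiplicative map of `ℚ̄(X₀(M))`. -/
noncomputable def C3_MopH (hp : p.Prime) (hpM : ¬ p ∣ M) {ζ : Kbˣ} (hζ : IsPrimitiveRoot ζ p) :
    FN M →* FN M where
  toFun u := ⟨Mop ζ p (u : LaurentSeries Kb), Fermat.Agent.S37.Mop_mem_FN hp hpM hζ u.2⟩
  map_one' := Subtype.ext (Mop_one ζ p)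
  map_mul' _ _ := Subtype.ext (Mop_mul hζ _ _)

theorem C3_coe_MopH (hp : p.Prime) (hpM : ¬ p ∣ M) {ζ : Kbˣ} (hζ : IsPrimitiveRoot ζ p)
    (u : FN M) : ((C3_MopH hp hpM hζ u : FN M) : LaurentSeries Kb) = Mop ζ p (u : LaurentSeries Kb) :=
  rfl

theorem C3_MopH_galF (hp : p.Prime) (hpM : ¬ p ∣ M) {ζ : Kbˣ} (hζ : IsPrimitiveRoot ζ p)
    (σ : GQ) (u : FN M) : C3_MopH hp hpM hζ (galF M σ u) = galF M σ (C3_MopH hp hpM hζ u) := by
  apply Subtype.ext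
  rw [C3_coe_MopH, coe_galF, coe_galF, C3_coe_MopH, coeffMap_Mop]
  exact Mop_eq_of_isPrimitiveRoot hζ
    (hζ.map_of_injective (Units.map_injective (f := ((σ : Kb →+* Kb) : Kb →* Kb)) σ.injective)) _

theorem C3_MopQ_mem (hp : p.Prime) (hpM : ¬ p ∣ M) {ζ : Kbˣ} (hζ : IsPrimitiveRoot ζ p)
    {D : AnData p M} (hT : HeckeP D) {n : ℕ} {y : KQ M (p ^ n)} (hy : y ∈ AS D n) :
    C3_mapQ (p ^ n) (C3_MopH hp hpM hζ) y ∈ AS D n := by
  refine map_mem_of_AS D _ _ (fun g h => ?_) hy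
  obtain ⟨ζ', x, h', hζ', hx⟩ := hT n h
  rw [gen, C3_mapQ_cls _ (galF_u_ne D n g h), C3_MopH_galF]
  have h1 : C3_MopH hp hpM hζ (D.u n h) = D.u n h' * x ^ (p ^ n) := by
    apply Subtype.ext
    rw [C3_coe_MopH, Mop_eq_of_isPrimitiveRoot hζ hζ', hx]
  have h2 : cls (p ^ n) (galF M g (C3_MopH hp hpM hζ (D.u n h))) = gen D n g h' := by
    refine cls_eq_of_eq_mul_pow (w := galF M g x) ?_ ?_
    · rw [Ne, map_eq_zero_iff _ (galF M g).injective]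
      exact C3_map_ne_zero _ (D.u_ne n h)
    · rw [h1, map_mul, map_pow]
  rw [h2]
  exact gen_mem D n g h'

/-- `v` represents a class of exponent `p` of `AS D (n + 1)`. -/
def C3_InS (D : AnData p M) (n : ℕ) (v : FN M) : Prop :=
  v ≠ 0 ∧ cls (p ^ (n + 1)) (v ^ (p ^ n)) ∈ AS D (n + 1)

theorem C3_InS.Mop (hp : p.Prime) (hpM : ¬ p ∣ M) {ζ : Kbˣ} (hζ : IsPrimitiveRoot ζ p)
    {D : AnData p M} (hT : HeckeP D) {n : ℕ} {v : FN M} (hv : C3_InS D n v) :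
    C3_InS D n (C3_MopH hp hpM hζ v) := by
  refine ⟨C3_map_ne_zero _ hv.1, ?_⟩
  have h1 := C3_MopQ_mem hp hpM hζ hT hv.2
  rwa [C3_mapQ_cls _ (pow_ne_zero _ hv.1), map_pow] at h1

theorem C3_tpFin (hp : p.Prime) (hpM : ¬ p ∣ M) {ζ : Kbˣ} (hζ : IsPrimitiveRoot ζ p)
    {D : AnData p M} (hT : HeckeP D) {n : ℕ} {v : FN M} (hv : C3_InS D n v) :
    TpFin p M ζ v := by
  set s : ℕ → FN M := fun i => (C3_MopH hp hpM hζ)^[i] v with hs
  have hsI : ∀ i, C3_InS D n (s i) := by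
    intro i
    induction i with
    | zero => exact hv
    | succ k ih =>
      rw [hs]
      simp only [Function.iterate_succ_apply']
      exact ih.Mop hp hpM hζ hT
  refine ⟨s, rfl, fun i => (hsI i).1, fun i => C3_dvdOrd D hp.pos (hsI i).1 (hsI i).2,
    fun i => ⟨1, ?_⟩, ?_⟩
  · rw [hs]
    simp only [Function.iterate_succ_apply']
    rw [C3_coe_MopH]
    simp
  · haveI := C3_AS_finite D hp.pos (n + 1)
    obtain ⟨i, j, hij, he⟩ := Finite.exists_ne_map_eq_of_infinite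
      (fun i : ℕ => (⟨_, (hsI i).2⟩ : AS D (n + 1)))
    have he' : cls (p ^ (n + 1)) (s i ^ (p ^ n)) = cls (p ^ (n + 1)) (s j ^ (p ^ n)) :=
      congrArg Subtype.val he
    have main : ∀ i j : ℕ, cls (p ^ (n + 1)) (s i ^ (p ^ n)) = cls (p ^ (n + 1)) (s j ^ (p ^ n)) →
        ∃ x : FN M, s j = s i * x ^ p := by
      intro i j h
      obtain ⟨x, hx⟩ := C3_cls_eq (pow_ne_zero _ (hsI j).1) (pow_ne_zero _ (hsI i).1) h.symm
      have h1 : (s j * (s i)⁻¹) ^ (p ^ n) = x ^ (p ^ (n + 1)) := by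
        rw [mul_pow, hx, inv_pow, mul_comm (s i ^ p ^ n), mul_assoc,
          mul_inv_cancel₀ (pow_ne_zero _ (hsI i).1), mul_one]
      obtain ⟨y, hy⟩ := C3_pow_inj hp.pos n (mul_ne_zero (hsI j).1 (inv_ne_zero (hsI i).1)) h1
      exact ⟨y, by rw [← hy, mul_comm (s j), ← mul_assoc, mul_inv_cancel₀ (hsI i).1, one_mul]⟩
    rcases lt_or_gt_of_ne hij with h | h
    · exact ⟨i, j, h, main i j he'⟩
    · exact ⟨j, i, h, main j i he'.symm⟩

/-- change of level. -/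
theorem C3_tpFin_incl {M₁ : ℕ} [NeZero M₁] (hM : M ∣ M₁) {ζ : Kbˣ} {y : FN M}
    (h : TpFin p M ζ y) : TpFin p M₁ ζ (inclFN hM y) := by
  obtain ⟨s, h0, h1, h2, h3, i, j, hij, v, hv⟩ := h
  refine ⟨fun i => inclFN hM (s i), congrArg _ h0, fun i => ?_, fun i => Fermat.Agent.S34.dvdOrd_inclFN hM (h2 i),
    fun i => ?_, i, j, hij, inclFN hM v, ?_⟩
  · rw [Ne, map_eq_zero]; exact h1 i
  · obtain ⟨v, hv⟩ := h3 i
    exact ⟨inclFN hM v, by rw [coe_inclFN, coe_inclFN, coe_inclFN, hv]⟩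
  · show inclFN hM (s j) = inclFN hM (s i) * inclFN hM v ^ p
    rw [hv, map_mul, map_pow]

end Hecke


/-! ### the norm from level `p M` to level `M` -/

section Norm

variable {p M : ℕ} [NeZero p] [NeZero M] [NeZero (p * M)]

/-- `N1 w ζ` as a multiplicative map. -/
noncomputable def C3_N1H (hp : p.Prime) (hpM : ¬ p ∣ M) {w : FN (p * M) ≃ₐ[Kb] FN (p * M)}
    (hw : IsWq p M w) {ζ : Kbˣ} (hζ : IsPrimitiveRoot ζ p) : FN (p * M) →* FN M where
  toFun u := ⟨N1 w ζ u, N1_mem hw hζ hp hpM u⟩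
  map_one' := Subtype.ext N1_one
  map_mul' _ _ := Subtype.ext (N1_mul hζ _ _)

theorem C3_coe_N1H (hp : p.Prime) (hpM : ¬ p ∣ M) {w : FN (p * M) ≃ₐ[Kb] FN (p * M)}
    (hw : IsWq p M w) {ζ : Kbˣ} (hζ : IsPrimitiveRoot ζ p) (u : FN (p * M)) :
    ((C3_N1H hp hpM hw hζ u : FN M) : LaurentSeries Kb) = N1 w ζ u := rfl

theorem C3_N1H_galF (hp : p.Prime) (hpM : ¬ p ∣ M) {w : FN (p * M) ≃ₐ[Kb] FN (p * M)}
    (hw : IsWq p M w) {ζ : Kbˣ} (hζ : IsPrimitiveRoot ζ p) (σ : GQ) (u : FN (p * M)) :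
    C3_N1H hp hpM hw hζ (galF (p * M) σ u) = galF M σ (C3_N1H hp hpM hw hζ u) := by
  apply Subtype.ext
  rw [C3_coe_N1H, N1_galF hw hζ, coe_galF, C3_coe_N1H]

theorem C3_N1Q_mem (hp : p.Prime) (hpM : ¬ p ∣ M) {w : FN (p * M) ≃ₐ[Kb] FN (p * M)}
    (hw : IsWq p M w) {ζ : Kbˣ} (hζ : IsPrimitiveRoot ζ p)
    {DN : AnData p (p * M)} {DM : AnData p M} (D2 : AnData2 p p M w DN DM)
    {n : ℕ} {y : KQ (p * M) (p ^ n)} (hy : y ∈ AS DN n) :
    C3_mapQ (p ^ n) (C3_N1H hp hpM hw hζ) y ∈ AS DM n := by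
  refine map_mem_of_AS DN _ _ (fun g h => ?_) hy
  obtain ⟨ζ', x, hζ', hx⟩ := D2.u_tr n h
  rw [gen, C3_mapQ_cls _ (galF_u_ne DN n g h), C3_N1H_galF]
  have h1 : C3_N1H hp hpM hw hζ (DN.u n h) = DM.u n (D2.trH h) * x ^ (p ^ n) := by
    apply Subtype.ext
    rw [C3_coe_N1H, N1_eq_of_isPrimitiveRoot hζ hζ', hx]
  have h2 : cls (p ^ n) (galF M g (C3_N1H hp hpM hw hζ (DN.u n h))) = gen DM n g (D2.trH h) := by
    refine cls_eq_of_eq_mul_pow (w := galF M g x) ?_ ?_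
    · rw [Ne, map_eq_zero_iff _ (galF M g).injective]
      exact C3_map_ne_zero _ (DN.u_ne n h)
    · rw [h1, map_mul, map_pow]
  rw [h2]
  exact gen_mem DM n g _

theorem C3_N1wQ_mem (hp : p.Prime) (hpM : ¬ p ∣ M) {w : FN (p * M) ≃ₐ[Kb] FN (p * M)}
    (hw : IsWq p M w) {ζ : Kbˣ} (hζ : IsPrimitiveRoot ζ p)
    {DN : AnData p (p * M)} {DM : AnData p M} (D2 : AnData2 p p M w DN DM)
    {n : ℕ} {y : KQ (p * M) (p ^ n)} (hy : y ∈ AS DN n) :
    C3_mapQ (p ^ n) ((C3_N1H hp hpM hw hζ).comp (w : FN (p * M) →* FN (p * M))) y ∈ AS DM n := by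
  refine map_mem_of_AS DN _ _ (fun g h => ?_) hy
  obtain ⟨ζ', x, hζ', hx⟩ := D2.u_tr' n h
  rw [gen, C3_mapQ_cls _ (galF_u_ne DN n g h)]
  have h0 : ((C3_N1H hp hpM hw hζ).comp (w : FN (p * M) →* FN (p * M))) (galF (p * M) g (DN.u n h))
      = galF M g (C3_N1H hp hpM hw hζ (w (DN.u n h))) := by
    show C3_N1H hp hpM hw hζ (w (galF (p * M) g (DN.u n h))) = _
    rw [hw.gal, C3_N1H_galF]
  rw [h0]
  have h1 : C3_N1H hp hpM hw hζ (w (DN.u n h)) = DM.u n (D2.trH' h) * x ^ (p ^ n) := by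
    apply Subtype.ext
    rw [C3_coe_N1H, N1_eq_of_isPrimitiveRoot hζ hζ', hx]
  have h2 : cls (p ^ n) (galF M g (C3_N1H hp hpM hw hζ (w (DN.u n h)))) =
      gen DM n g (D2.trH' h) := by
    refine cls_eq_of_eq_mul_pow (w := galF M g x) ?_ ?_
    · rw [Ne, map_eq_zero_iff _ (galF M g).injective]
      refine C3_map_ne_zero _ ?_
      rw [Ne, map_eq_zero_iff w w.injective]
      exact DN.u_ne n h
    · rw [h1, map_mul, map_pow]
  rw [h2]
  exact gen_mem DM n g _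

end Norm

/-- **C3.** -/
theorem C3_main {p : ℕ} [Fact p.Prime] [NeZero p] {M M₁ : ℕ} [NeZero M] [NeZero M₁]
    [NeZero (p * M)] [NeZero (p * M₁)] (hpM₁ : ¬ p ∣ M₁) (hM : M ∣ M₁)
    {DN : AnData p (p * M)} {DM : AnData p M} {w : FN (p * M) ≃ₐ[Kb] FN (p * M)}
    (hw : IsWq p M w) (D2 : AnData2 p p M w DN DM) (hT : HeckeP DM)
    {w₁ : FN (p * M₁) ≃ₐ[Kb] FN (p * M₁)} (hw₁ : IsWq p M₁ w₁)
    {ζ : Kbˣ} (hζ : IsPrimitiveRoot ζ p) (n : ℕ) {v : FN (p * M)} (hv : v ≠ 0)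
    (hvA : cls (p ^ (n + 1)) (v ^ (p ^ n)) ∈ AS DN (n + 1)) :
    ∃ y y' : FN M₁,
      (y : LaurentSeries Kb) = N1 w₁ ζ (inclFN (mul_dvd_mul_left p hM) v) ∧
      (y' : LaurentSeries Kb) = N1 w₁ ζ (w₁ (inclFN (mul_dvd_mul_left p hM) v)) ∧
      TpFin p M₁ ζ y ∧ TpFin p M₁ ζ y' := by
  have hp : p.Prime := Fact.out
  have hpM : ¬ p ∣ M := fun h => hpM₁ (h.trans hM)
  have hwv : w₁ (inclFN (mul_dvd_mul_left p hM) v) = inclFN (mul_dvd_mul_left p hM) (w v) := by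
    apply Subtype.ext
    rw [hw.coe_compat hp hM hw₁, coe_inclFN]
  have hN : ∀ f : FN (p * M), N1 w₁ ζ (inclFN (mul_dvd_mul_left p hM) f) = N1 w ζ f := by
    intro f
    rw [N1, N1, hw.coe_compat hp hM hw₁, coe_inclFN]
  have i1 : C3_InS DM n (C3_N1H hp hpM hw hζ v) := by
    refine ⟨C3_map_ne_zero _ hv, ?_⟩
    have h1 := C3_N1Q_mem hp hpM hw hζ D2 hvA
    rwa [C3_mapQ_cls _ (pow_ne_zero _ hv), map_pow] at h1
  have i2 : C3_InS DM n (C3_N1H hp hpM hw hζ (w v)) := by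
    refine ⟨C3_map_ne_zero _ (by rw [Ne, map_eq_zero_iff w w.injective]; exact hv), ?_⟩
    have h1 := C3_N1wQ_mem hp hpM hw hζ D2 hvA
    rwa [C3_mapQ_cls _ (pow_ne_zero _ hv), map_pow] at h1
  refine ⟨inclFN hM (C3_N1H hp hpM hw hζ v), inclFN hM (C3_N1H hp hpM hw hζ (w v)), ?_, ?_,
    C3_tpFin_incl hM (C3_tpFin hp hpM hζ hT i1), C3_tpFin_incl hM (C3_tpFin hp hpM hζ hT i2)⟩
  · rw [coe_inclFN, C3_coe_N1H, hN]
  · rw [coe_inclFN, C3_coe_N1H, hwv, hN]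

/-- the family of `S35.exists_anFamily`, with the additional information at `ℓ = p`. -/
theorem exists_anFamilyP (p : ℕ) [Fact p.Prime] [NeZero p] :
    ∃ D : ∀ (N : ℕ) [NeZero N], AnData p N,
      (∀ (q M : ℕ) [NeZero q] [NeZero M] [NeZero (q * M)], q.Prime → ¬ q ∣ M →
        ∀ w : FN (q * M) ≃ₐ[Kb] FN (q * M), IsWq q M w →
          Nonempty (AnData2 p q M w (D (q * M)) (D M))) ∧
      ∀ (M : ℕ) [NeZero M], ¬ p ∣ M → HeckeP (D M) := by
  classical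
  have hp : 0 < p := (Fact.out : p.Prime).pos
  have hpn : ∀ n : ℕ, 0 < p ^ n := fun n => pow_pos hp n
  choose U hU using fun (N : ℕ) (hN : NeZero N) (n : ℕ) (h : HLat N) => exists_isKumL (hpn n) h
  refine ⟨fun N hN => anDataOf p N (U N hN) (hU N hN), ?_, ?_⟩
  · intro q M iq iM iqM hq hqM w hw
    have : Fact q.Prime := ⟨hq⟩
    obtain ⟨B⟩ := exists_bez hq hqM
    obtain ⟨wH, hwH⟩ := (famW B).exists_H
    obtain ⟨trH, htrH⟩ := (famTr B hqM).exists_H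
    have hw' := hw.toS34
    obtain ⟨ζ₀, hζ₀⟩ := HasEnoughRootsOfUnity.exists_primitiveRoot Kb q
    set ζ : Kbˣ := hζ₀.isUnit (NeZero.ne q) |>.unit with hζdef
    have hζ : IsPrimitiveRoot ζ q := by
      rw [← IsPrimitiveRoot.coe_units_iff]; exact hζ₀
    have key1 : ∀ n (h : HLat (q * M)), ∃ v : FN (q * M),
        w (U (q * M) iqM n h) = U (q * M) iqM n (wH h) * v ^ (p ^ n) := by
      intro n h
      obtain ⟨χ, hχ, hu⟩ := hU (q * M) iqM n h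
      obtain ⟨ψ, hψ⟩ := exists_isChiOf (p ^ n) (wH h)
      have h1 : IsKumL (p ^ n) (wH h) (w.toAlgHom (U (q * M) iqM n h)) :=
        ⟨ψ, hψ, isKumChi_w B hw' (hpn n) (hwH _ _ _ _ hχ hψ) (hψ.pow_eq_one (hpn n)) hψ.isPar hu⟩
      obtain ⟨v, -, hv⟩ := (hU (q * M) iqM n (wH h)).unique (hpn n) h1
      exact ⟨v, hv⟩
    have key2 : ∀ n (h : HLat (q * M)), ∃ v : FN M,
        N1 w ζ (U (q * M) iqM n h) = ((U M iM n (trH h) * v ^ (p ^ n) : FN M) : LaurentSeries Kb) := by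
      intro n h
      obtain ⟨χ, hχ, hu⟩ := hU (q * M) iqM n h
      obtain ⟨χ', hχ'⟩ := exists_isChiOf (p ^ n) (wH h)
      obtain ⟨ψ, hψ⟩ := exists_isChiOf (p ^ n) (trH h)
      obtain ⟨hs, hk⟩ := isKumChi_norm B hqM hw' (hpn n) (hwH _ _ _ _ hχ hχ') hχ'.isPar
        (htrH _ _ _ _ hχ hψ) (hψ.pow_eq_one (hpn n)) hψ.isPar hu hζ
      obtain ⟨v, -, hv⟩ := (hU M iM n (trH h)).unique (hpn n) ⟨ψ, hψ, hk⟩
      exact ⟨v, congrArg Subtype.val hv⟩
    refine ⟨{ trH := trH.toAddMonoidHom, trH' := (trH.comp wH).toAddMonoidHom, u_tr := ?_, u_tr' := ?_ }⟩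
    · intro n h
      obtain ⟨v, hv⟩ := key2 n h
      exact ⟨ζ, v, hζ, hv⟩
    · intro n h
      obtain ⟨v, hv⟩ := key1 n h
      obtain ⟨x, hx⟩ := key2 n (wH h)
      refine ⟨ζ, x * ⟨N1 w ζ v, N1_mem hw hζ hq hqM v⟩, hζ, ?_⟩
      show N1 w ζ (w (U (q * M) iqM n h)) = _
      rw [hv, N1_mul hζ, N1_pow hζ, hx]
      show _ = ((U M iM n (trH (wH h)) * (x * ⟨N1 w ζ v, N1_mem hw hζ hq hqM v⟩) ^ (p ^ n) : FN M) :
        LaurentSeries Kb)
      rw [mul_pow, ← mul_assoc]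
      rfl
  · intro M iM hpM n h
    obtain ⟨ζ₀, hζ₀⟩ := HasEnoughRootsOfUnity.exists_primitiveRoot Kb p
    set ζ : Kbˣ := hζ₀.isUnit (NeZero.ne p) |>.unit with hζ
    have hζp : IsPrimitiveRoot ζ p := by
      rw [← IsPrimitiveRoot.coe_units_iff]; exact hζ₀
    obtain ⟨hs, hk⟩ := (hU M iM n h).hecke hpM (hpn n)
      (fun χ ψ hχ hψ => hχ.isHeckeChar (Fact.out : p.Prime) hpM hψ) hζp
    obtain ⟨x, -, hx⟩ := (hU M iM n _).unique (hpn n) hk
    exact ⟨ζ, x, _, hζp, congrArg Subtype.val hx⟩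

end Fermat.Agent.S33
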