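import Fermat.Agent.S33.C3
import Fermat.Agent.S33.ModDefs

/-!
# S33, piece C3: the official statement `exists_anData_tpFin` (from `C3_main` and `exists_anFamilyP`)
-/

set_option autoImplicit false

namespace Fermat.Agent.S33

open ModularCurve AlgebraicCurve HahnSeries Fermat.Agent.S24 Fermat.Agent.S28 Fermat.Agent.S18
  Fermat.Agent.GR Fermat.Agent.S35

variable {p M : ℕ} [NeZero p] [NeZero M] [NeZero (p * M)] [Fact p.Prime]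

/-- **C3** the analytic data with finite `T_p`-orbits of the norms. -/
theorem exists_anData_tpFin (hp : p.Prime) (hpM : ¬ p ∣ M) :
    ∃ D : AnData p (p * M), ∀ (M₁ : ℕ) [NeZero M₁] (h : M ∣ M₁) (hpM₁ : ¬ p ∣ M₁)
      (w₁ : FN (p * M₁) ≃ₐ[Kb] FN (p * M₁)) (hw₁ : S35.IsWq p M₁ w₁) (ζ : Kbˣ)
      (hζ : IsPrimitiveRoot ζ p) (n : ℕ) (v : FN (p * M)), v ≠ 0 →
      cls (p ^ (n + 1)) (v ^ p ^ n) ∈ AS D (n + 1) →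
      TpFin p M₁ ζ ⟨N1 w₁ ζ (inclFN (mul_dvd_mul_left p h) v), N1_mem hw₁ hζ hp hpM₁ _⟩ ∧
      TpFin p M₁ ζ ⟨N1 w₁ ζ (w₁ (inclFN (mul_dvd_mul_left p h) v)), N1_mem hw₁ hζ hp hpM₁ _⟩ := by
  obtain ⟨D, hfam, hT⟩ := exists_anFamilyP p
  obtain ⟨w, hw⟩ := exists_isWq (q := p) (M := M) hp hpM
  obtain ⟨D2⟩ := hfam p M hp hpM w hw
  refine ⟨D (p * M), fun M₁ _ h hpM₁ w₁ hw₁ ζ hζ n v hv hvA => ?_⟩
  haveI : NeZero (p * M₁) := ⟨mul_ne_zero (NeZero.ne p) (NeZero.ne M₁)⟩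
  obtain ⟨y, y', hy, hy', h1, h2⟩ := C3_main hpM₁ h hw D2 (hT M hpM) hw₁ hζ n hv hvA
  have e1 : y = ⟨N1 w₁ ζ (inclFN (mul_dvd_mul_left p h) v), N1_mem hw₁ hζ hp hpM₁ _⟩ :=
    Subtype.ext hy
  have e2 : y' = ⟨N1 w₁ ζ (w₁ (inclFN (mul_dvd_mul_left p h) v)), N1_mem hw₁ hζ hp hpM₁ _⟩ :=
    Subtype.ext hy'
  rw [← e1, ← e2]
  exact ⟨h1, h2⟩

end Fermat.Agent.S33
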