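import Mathlib

/-!
# S33 consumer, abstract core (CAbs)
-/

set_option autoImplicit false

namespace Fermat.Agent.S33

variable {G R A : Type*} [Group G] [CommRing R] [AddCommGroup A] [Module R A]

/-- `t(g) = g + χ(g) g⁻¹`. -/
def tOp (r : G →* Module.End R A) (χ : G →* Rˣ) (g : G) : Module.End R A :=
  r g + (χ g : R) • r g⁻¹

/-- `s(g) = u (t(τ0 g) - t(g))`. -/
def sOp (r : G →* Module.End R A) (χ : G →* Rˣ) (u : R) (τ0 g : G) : Module.End R A :=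
  u • (tOp r χ (τ0 * g) - tOp r χ g)

theorem tOp_apply (r : G →* Module.End R A) (χ : G →* Rˣ) (g : G) (x : A) :
    tOp r χ g x = r g x + (χ g : R) • r g⁻¹ x := rfl

theorem sOp_apply (r : G →* Module.End R A) (χ : G →* Rˣ) (u : R) (τ0 g : G) (x : A) :
    sOp r χ u τ0 g x = u • (tOp r χ (τ0 * g) x - tOp r χ g x) := rfl

theorem r_mul_apply (r : G →* Module.End R A) (g h : G) (x : A) : r (g * h) x = r g (r h x) := by
  rw [map_mul]; rfl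

theorem r_inv_apply (r : G →* Module.End R A) (g : G) (x : A) : r g⁻¹ (r g x) = x := by
  rw [← r_mul_apply, inv_mul_cancel, map_one]; rfl

theorem r_apply_inv (r : G →* Module.End R A) (g : G) (x : A) : r g (r g⁻¹ x) = x := by
  rw [← r_mul_apply, mul_inv_cancel, map_one]; rfl

theorem chi_mul_inv (χ : G →* Rˣ) (g : G) : (χ g : R) * (χ g⁻¹ : R) = 1 := by
  rw [← Units.val_mul, ← map_mul, mul_inv_cancel, map_one, Units.val_one]

theorem chi_mul (χ : G →* Rˣ) (g h : G) : (χ (g * h) : R) = (χ g : R) * (χ h : R) := by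
  rw [map_mul, Units.val_mul]

section main

variable (r : G →* Module.End R A) (χ : G →* Rˣ)
  (hcen : ∀ (g h : G) (x : A), tOp r χ g (r h x) = r h (tOp r χ g x))
  (D I : Subgroup G) (hID : I ≤ D) (τ0 : G) (hτ0 : τ0 ∈ I) (u : R)
  (hu : u * ((χ τ0 : R) - 1) = 1)
  (L X : Submodule R A)
  (hX : ∀ g, ∀ x ∈ X, r g x ∈ X)
  (hD : ∀ σ ∈ D, ∀ y ∈ L, r σ y ∈ L) (hI : ∀ τ ∈ I, ∀ x, r τ x - x ∈ L)
  (hfix : ∀ y ∈ L, r τ0 y = y → y = 0)

/-- `ν_τ = t(τ) - 1 - χ(τ)`. -/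
def nuOp (r : G →* Module.End R A) (χ : G →* Rˣ) (τ : G) : Module.End R A :=
  tOp r χ τ - 1 - (χ τ : R) • 1

theorem nuOp_apply (τ : G) (x : A) : nuOp r χ τ x = tOp r χ τ x - x - (χ τ : R) • x := rfl

include hcen in
theorem nuOp_comm (τ g : G) (x : A) : nuOp r χ τ (r g x) = r g (nuOp r χ τ x) := by
  rw [nuOp_apply, nuOp_apply, hcen, map_sub, map_sub, map_smul]

include hID hD hI in
theorem nuOp_mem_L (τ : G) (hτ : τ ∈ I) (x : A) : nuOp r χ τ x ∈ L := by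
  have h1 : r τ x - x ∈ L := hI τ hτ x
  have h2 : r τ⁻¹ (r τ x - x) ∈ L := hD _ (hID (inv_mem hτ)) _ h1
  have h3 : nuOp r χ τ x = (r τ x - x) - (χ τ : R) • r τ⁻¹ (r τ x - x) := by
    rw [nuOp_apply, tOp_apply, map_sub, r_inv_apply]
    module
  rw [h3]
  exact L.sub_mem h1 (L.smul_mem _ h2)

include hX in
theorem nuOp_mem_X (τ : G) (x : A) (hx : x ∈ X) : nuOp r χ τ x ∈ X := by
  rw [nuOp_apply, tOp_apply]
  exact X.sub_mem (X.sub_mem (X.add_mem (hX _ _ hx) (X.smul_mem _ (hX _ _ hx))) hx) (X.smul_mem _ hx)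

/-- `(τ0 - 1)(τ0 - χ0) = τ0 ν`. -/
theorem key_id (x : A) :
    r τ0 (r τ0 x - (χ τ0 : R) • x) - (r τ0 x - (χ τ0 : R) • x) = r τ0 (nuOp r χ τ0 x) := by
  rw [nuOp_apply, tOp_apply]
  simp only [map_sub, map_add, map_smul, r_apply_inv]
  module

include hID hτ0 hD hfix in
/-- on `L ∩ ker ν`, `τ0 = χ0`. -/
theorem tau0_eq (y : A) (hy : y ∈ L) (hν : nuOp r χ τ0 y = 0) : r τ0 y = (χ τ0 : R) • y := by
  have h1 : r τ0 y - (χ τ0 : R) • y ∈ L := L.sub_mem (hD _ (hID hτ0) _ hy) (L.smul_mem _ hy)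
  have h2 := key_id r χ τ0 y
  rw [hν, map_zero, sub_eq_zero] at h2
  exact sub_eq_zero.mp (hfix _ h1 h2)

theorem inv_eq_of_eq (g : G) (y : A) (h : r g y = (χ g : R) • y) : r g⁻¹ y = (χ g⁻¹ : R) • y := by
  have h1 := congrArg (fun z => (χ g⁻¹ : R) • r g⁻¹ z) h
  simp only [r_inv_apply, map_smul, smul_smul] at h1
  rw [mul_comm, chi_mul_inv, one_smul] at h1
  exact h1.symm

include hcen hID hτ0 hu hX hD hI hfix in
theorem Z_eq_zero
    (hnil : ∀ x ∈ X, ∃ j : ℕ, ((nuOp r χ τ0) ^ j) x = 0)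
    (hirr : ∀ w ∈ X, (∀ g h, sOp r χ u τ0 g (sOp r χ u τ0 h w) = sOp r χ u τ0 (g * h) w) →
      (∀ g, tOp r χ g w = sOp r χ u τ0 g w + (χ g : R) • sOp r χ u τ0 g⁻¹ w) → w = 0)
    (Z : Submodule R A) (hZL : Z ≤ L) (hZX : Z ≤ X) (hZ : ∀ g, ∀ z ∈ Z, r g z ∈ Z) :
    ∀ z ∈ Z, z = 0 := by
  -- the case `ν z = 0`
  have hs : ∀ w ∈ Z, nuOp r χ τ0 w = 0 → ∀ g, sOp r χ u τ0 g w = r g w := by
    intro w hw hν g
    have h1 : r τ0 (r g w) = (χ τ0 : R) • r g w :=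
      tau0_eq r χ D I hID τ0 hτ0 L hD hfix _ (hZL (hZ g w hw))
        (by rw [nuOp_comm r χ hcen, hν, map_zero])
    have h2 : r τ0⁻¹ w = (χ τ0⁻¹ : R) • w :=
      inv_eq_of_eq r χ τ0 w (tau0_eq r χ D I hID τ0 hτ0 L hD hfix _ (hZL hw) hν)
    rw [sOp_apply, tOp_apply, tOp_apply, r_mul_apply, h1, mul_inv_rev, r_mul_apply, h2, chi_mul,
      map_smul, smul_smul]
    have h3 : (χ τ0 : R) * (χ g : R) * (χ τ0⁻¹ : R) = (χ g : R) := by
      linear_combination (χ g : R) * chi_mul_inv χ τ0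
    rw [h3]
    have h4 : (χ τ0 : R) • r g w + (χ g : R) • r g⁻¹ w - (r g w + (χ g : R) • r g⁻¹ w)
        = ((χ τ0 : R) - 1) • r g w := by module
    rw [h4, smul_smul, hu, one_smul]
  have h0 : ∀ w ∈ Z, nuOp r χ τ0 w = 0 → w = 0 := by
    intro w hw hν
    refine hirr w (hZX hw) (fun g h => ?_) (fun g => ?_)
    · rw [hs w hw hν h, hs w hw hν (g * h),
        hs (r h w) (hZ h w hw) (by rw [nuOp_comm r χ hcen, hν, map_zero]) g, r_mul_apply]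
    · rw [hs w hw hν g, hs w hw hν g⁻¹, tOp_apply]
  have hνZ : ∀ z ∈ Z, nuOp r χ τ0 z ∈ Z := by
    intro z hz
    rw [nuOp_apply, tOp_apply]
    exact Z.sub_mem (Z.sub_mem (Z.add_mem (hZ _ _ hz) (Z.smul_mem _ (hZ _ _ hz))) hz)
      (Z.smul_mem _ hz)
  have hind : ∀ j : ℕ, ∀ z ∈ Z, ((nuOp r χ τ0) ^ j) z = 0 → z = 0 := by
    intro j
    induction j with
    | zero => intro z _ h; simpa using h
    | succ j ih =>
      intro z hz h
      rw [pow_succ, Module.End.mul_apply] at h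
      exact h0 z hz (ih _ (hνZ z hz) h)
  intro z hz
  obtain ⟨j, hj⟩ := hnil z (hZX hz)
  exact hind j z hz hj

include hcen hID hτ0 hu hX hD hI hfix in
theorem abs_main
    (hnil : ∀ x ∈ X, ∃ j : ℕ, ((nuOp r χ τ0) ^ j) x = 0)
    (hirr : ∀ w ∈ X, (∀ g h, sOp r χ u τ0 g (sOp r χ u τ0 h w) = sOp r χ u τ0 (g * h) w) →
      (∀ g, tOp r χ g w = sOp r χ u τ0 g w + (χ g : R) • sOp r χ u τ0 g⁻¹ w) → w = 0) :
    (∀ x ∈ X, tOp r χ τ0 x - x - (χ τ0 : R) • x = 0) ∧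
    (∀ τ ∈ I, ∀ g, ∀ x ∈ X, tOp r χ (τ0 * τ * g) x - tOp r χ (τ0 * g) x
      - (χ τ0 : R) • tOp r χ (τ * g) x + (χ τ0 : R) • tOp r χ g x = 0) ∧
    (∀ σ ∈ D, ∀ g, ∀ x ∈ X, tOp r χ (τ0 * σ * τ0 * g) x - tOp r χ (τ0 * σ * g) x
      - (χ τ0 : R) • tOp r χ (σ * τ0 * g) x + (χ τ0 : R) • tOp r χ (σ * g) x = 0) := by
  -- `ν_τ = 0` on `X`
  have hν : ∀ τ ∈ I, ∀ x ∈ X, nuOp r χ τ x = 0 := by
    intro τ hτ x hx
    refine Z_eq_zero r χ hcen D I hID τ0 hτ0 u hu L X hX hD hI hfix hnil hirr (X.map (nuOp r χ τ))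
      ?_ ?_ ?_ _ (Submodule.mem_map_of_mem hx)
    · rintro _ ⟨y, _, rfl⟩
      exact nuOp_mem_L r χ D I hID L hD hI τ hτ y
    · rintro _ ⟨y, hy, rfl⟩
      exact nuOp_mem_X r χ X hX τ y hy
    · rintro g _ ⟨y, hy, rfl⟩
      exact ⟨r g y, hX g y hy, nuOp_comm r χ hcen τ g y⟩
  -- `τ0 = χ0` on `L ∩ X`
  have hY0 : ∀ y ∈ L, y ∈ X → r τ0 y = (χ τ0 : R) • y := fun y hy hyX =>
    tau0_eq r χ D I hID τ0 hτ0 L hD hfix y hy (hν τ0 hτ0 y hyX)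
  have hY0' : ∀ y ∈ L, y ∈ X → r τ0⁻¹ y = (χ τ0⁻¹ : R) • y := fun y hy hyX =>
    inv_eq_of_eq r χ τ0 y (hY0 y hy hyX)
  -- `τ = χ_τ` on `L ∩ X`
  have hYτ : ∀ τ ∈ I, ∀ y ∈ L, y ∈ X → r τ y = (χ τ : R) • y := by
    intro τ hτ y hy hyX
    have e1 := hν τ hτ y hyX
    have e2 := hν (τ * τ0) (mul_mem hτ hτ0) y hyX
    rw [nuOp_apply, tOp_apply] at e1 e2
    have hy' : r τ⁻¹ y ∈ L := hD _ (hID (inv_mem hτ)) _ hy
    rw [r_mul_apply, hY0 y hy hyX, mul_inv_rev, r_mul_apply, hY0' _ hy' (hX _ _ hyX), chi_mul,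
      map_smul, smul_smul] at e2
    have h3 : (χ τ : R) * (χ τ0 : R) * (χ τ0⁻¹ : R) = (χ τ : R) := by
      linear_combination (χ τ : R) * chi_mul_inv χ τ0
    rw [h3] at e2
    have h4 : ((χ τ0 : R) - 1) • (r τ y - (χ τ : R) • y) = 0 := by
      have : ((χ τ0 : R) - 1) • (r τ y - (χ τ : R) • y) =
          ((χ τ0 : R) • r τ y + (χ τ : R) • r τ⁻¹ y - y - ((χ τ : R) * (χ τ0 : R)) • y)
          - (r τ y + (χ τ : R) • r τ⁻¹ y - y - (χ τ : R) • y) := by module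
      rw [this, e1, e2, sub_zero]
    have h5 := congrArg (fun z => u • z) h4
    simp only [smul_smul, hu, one_smul, smul_zero] at h5
    exact sub_eq_zero.mp h5
  have hτ0' : τ0⁻¹ ∈ I := inv_mem hτ0
  refine ⟨fun x hx => hν τ0 hτ0 x hx, fun τ hτ g x hx => ?_, fun σ hσ g x hx => ?_⟩
  · have hy1L : r τ (r g x) - r g x ∈ L := hI τ hτ _
    have hy1X : r τ (r g x) - r g x ∈ X := X.sub_mem (hX _ _ (hX _ _ hx)) (hX _ _ hx)
    have hy2L : r τ0⁻¹ x - x ∈ L := hI _ hτ0' _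
    have hy2X : r τ0⁻¹ x - x ∈ X := X.sub_mem (hX _ _ hx) hx
    have f1 := hY0 _ hy1L hy1X
    have f2 := hYτ τ⁻¹ (inv_mem hτ) _ hy2L hy2X
    simp only [map_sub] at f1 f2
    simp only [tOp_apply, r_mul_apply, mul_inv_rev, chi_mul]
    have f3 := congrArg (fun z => ((χ τ0 : R) * (χ g : R) * (χ τ : R)) • r g⁻¹ z) f2
    simp only [map_sub, map_smul, smul_sub, smul_smul] at f3
    have h3 : (χ τ0 : R) * (χ g : R) * (χ τ : R) * (χ τ⁻¹ : R) = (χ τ0 : R) * (χ g : R) := by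
      linear_combination (χ τ0 : R) * (χ g : R) * chi_mul_inv χ τ
    rw [h3] at f3
    linear_combination (norm := module) f1 + f3
  · have hσ' : σ⁻¹ ∈ D := inv_mem hσ
    have hy3L : r τ0 (r g x) - r g x ∈ L := hI τ0 hτ0 _
    have hy3X : r τ0 (r g x) - r g x ∈ X := X.sub_mem (hX _ _ (hX _ _ hx)) (hX _ _ hx)
    have hy2L : r τ0⁻¹ x - x ∈ L := hI _ hτ0' _
    have hy2X : r τ0⁻¹ x - x ∈ X := X.sub_mem (hX _ _ hx) hx
    have f1 := hY0 _ (hD σ hσ _ hy3L) (hX σ _ hy3X)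
    have f2 := hY0' _ (hD _ hσ' _ hy2L) (hX σ⁻¹ _ hy2X)
    simp only [map_sub] at f1 f2
    simp only [tOp_apply, r_mul_apply, mul_inv_rev, chi_mul]
    have f3 := congrArg (fun z => ((χ τ0 : R) * (χ σ : R) * (χ g : R) * (χ τ0 : R)) • r g⁻¹ z) f2
    simp only [map_sub, map_smul, smul_sub, smul_smul] at f3
    have h3 : (χ τ0 : R) * (χ σ : R) * (χ g : R) * (χ τ0 : R) * (χ τ0⁻¹ : R)
        = (χ τ0 : R) * (χ σ : R) * (χ g : R) := by
      linear_combination (χ τ0 : R) * (χ σ : R) * (χ g : R) * chi_mul_inv χ τ0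
    rw [h3] at f3
    linear_combination (norm := module) f1 + f3

end main

end Fermat.Agent.S33
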