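import Fermat.Agent.S34.Consumer

/-!
# S33 consumer, piece CDet: the determinant of a Hecke-Galois datum is cyclotomic
-/

set_option autoImplicit false

namespace Fermat.Agent.S33

open IsLocalRing Fermat.Agent.GR

variable {p : ℕ} {N : ℕ} [NeZero N] {S : Finset ℕ}
  {𝒪 : Type} [CommRing 𝒪] [IsDomain 𝒪] [IsDiscreteValuationRing 𝒪]
  [IsAdicComplete (IsLocalRing.maximalIdeal 𝒪) 𝒪]
  {θ : CuspForm.heckeAlgebra N 2 (↑S : Set ℕ) →+* IsLocalRing.ResidueField 𝒪}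
  {T : Type} [CommRing T] [IsLocalRing T] [IsNoetherianRing T]
  [IsAdicComplete (IsLocalRing.maximalIdeal T) T] [Algebra 𝒪 T] [IsLocalHom (algebraMap 𝒪 T)]
  [Module.Finite 𝒪 T] [Module.Free 𝒪 T]

/-- **CDet**.  The determinant is cyclotomic (copy of `S34.det_eq_one_of_fixes`). -/
theorem det_sub_natCast_mem (hp : p.Prime) (hp𝒪 : (p : 𝒪) ∈ IsLocalRing.maximalIdeal 𝒪) (hpS : p ∈ S)
    (hNS : ∀ q : ℕ, q.Prime → q ∣ N → q ∈ S)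
    (H : CuspForm.HeckeGaloisRepDatum N (↑S : Set ℕ) 𝒪 θ T) (g : GQ) (m : ℕ) (ζ : Qb)
    (hζ : IsPrimitiveRoot ζ (p ^ m)) (a : ℕ) (ha : g ζ = ζ ^ a) :
    LinearMap.det (H.ρ.ρ g) - (a : T) ∈ maximalIdeal T ^ m := by
  classical
  obtain ⟨L₁, hL₁, hcont⟩ := H.ρ.isAdicContinuous m
  have hζi : IsIntegral ℚ ζ := ((AlgebraicClosure.isAlgebraic ℚ).isAlgebraic ζ).isIntegral
  have : FiniteDimensional ℚ (IntermediateField.adjoin ℚ {ζ}) :=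
    IntermediateField.adjoin.finiteDimensional hζi
  let L : IntermediateField ℚ Qb := L₁ ⊔ IntermediateField.adjoin ℚ {ζ}
  have : FiniteDimensional ℚ L := inferInstance
  have hL1 : L₁ ≤ L := le_sup_left
  have hζL : ζ ∈ L :=
    (le_sup_right : IntermediateField.adjoin ℚ {ζ} ≤ L) (IntermediateField.mem_adjoin_simple_self ℚ ζ)
  obtain ⟨ℓ, hℓ, hℓS, P, hP, σ, hσ, k, hk⟩ := frobenius_density L g S
  have hℓN : ¬ ℓ ∣ N := fun h => hℓS (hNS ℓ hℓ h)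
  have hℓp : ℓ ≠ p := fun h => hℓS (h ▸ hpS)
  have hℓS' : ℓ ∉ (↑S : Set ℕ) := by simpa using hℓS
  obtain ⟨ε, hε⟩ : ∃ ε : GQ, ε = g⁻¹ * σ ^ k := ⟨_, rfl⟩
  have hεL : ∀ x ∈ L, ε x = x := by
    intro x hx
    rw [hε, AlgEquiv.mul_apply, hk x hx]
    exact g.symm_apply_apply x
  have hσk : σ ^ k = g * ε := by rw [hε, mul_inv_cancel_left]
  have hdσ : LinearMap.det (H.ρ.ρ σ) = (ℓ : T) :=
    S34.det_eq_of_charpoly H.ρ.finrank_eq _ _ _ (H.charpoly_frob ℓ hℓ hℓN hℓS' P hP σ hσ)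
  have hdk : LinearMap.det (H.ρ.ρ g) * LinearMap.det (H.ρ.ρ ε) = (ℓ : T) ^ k := by
    rw [← map_mul, ← map_mul, ← hσk, map_pow, map_pow, hdσ]
  have hdε : LinearMap.det (H.ρ.ρ ε) - 1 ∈ maximalIdeal T ^ m :=
    S34.det_sub_one_mem _ _ (hcont ε fun x hx => hεL x (hL1 hx))
  have hroot : ζ ^ (ℓ ^ k) = ζ ^ a := by
    have h1 : (σ ^ k) ζ = ζ ^ (ℓ ^ k) :=
      frob_pow_root hℓ hP hσ (fun hd => hℓp
        ((Nat.prime_dvd_prime_iff_eq hℓ hp).mp (hℓ.dvd_of_dvd_pow hd))) k hζ.pow_eq_one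
    rw [← h1, hk ζ hζL, ha]
  have hmod : ((p ^ m : ℕ) : ℤ) ∣ ((ℓ ^ k : ℕ) : ℤ) - (a : ℤ) := by
    have hζ0 : ζ ≠ 0 := hζ.ne_zero (pow_ne_zero _ hp.ne_zero)
    rw [← hζ.zpow_eq_one_iff_dvd, zpow_sub₀ hζ0, zpow_natCast, zpow_natCast, hroot,
      div_self (pow_ne_zero _ hζ0)]
  have hpT : (p : T) ∈ maximalIdeal T := S34.natCast_mem_maximalIdeal hp𝒪
  have hℓk : (ℓ : T) ^ k - (a : T) ∈ maximalIdeal T ^ m := by
    obtain ⟨d, hd⟩ := hmod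
    have h1 := congrArg (Int.cast : ℤ → T) hd
    push_cast at h1
    rw [h1]
    exact Ideal.mul_mem_right _ _ (Ideal.pow_mem_pow hpT m)
  have : LinearMap.det (H.ρ.ρ g) - (a : T) =
      ((ℓ : T) ^ k - (a : T)) - LinearMap.det (H.ρ.ρ g) * (LinearMap.det (H.ρ.ρ ε) - 1) := by
    rw [← hdk]; ring
  rw [this]
  exact sub_mem hℓk (Ideal.mul_mem_left _ _ hdε)

end Fermat.Agent.S33
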