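import Mathlib

/-!
# S33 consumer, piece CE: `E ≡ 1 mod I` killing the `I`-divisible part of `H / k H`
-/

set_option autoImplicit false

namespace Fermat.Agent.S33

/-- **CE** (finite ring / Nakayama).  `E ≡ 1 mod I` killing the `I`-divisible part of `H / k H`. -/
theorem exists_E {R H : Type} [CommRing R] [AddCommGroup H] [Module.Finite ℤ H]
    (φ : R →+* Module.End ℤ H) (I : Ideal R) (k : ℕ) (hk : 0 < k) :
    ∃ (E : R) (j : ℕ), E - 1 ∈ I ∧ ∀ D ∈ I, ∀ h : H, ∃ h' : H, φ (D ^ j * E) h = k • h' := by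
  letI : Module R H := Module.compHom H φ
  have hsmul : ∀ (r : R) (h : H), r • h = φ r h := fun _ _ => rfl
  let N0 : Submodule R H :=
    { carrier := {h | ∃ h', h = k • h'}
      add_mem' := by
        rintro _ _ ⟨a, rfl⟩ ⟨b, rfl⟩
        exact ⟨a + b, (smul_add _ _ _).symm⟩
      zero_mem' := ⟨0, (smul_zero _).symm⟩
      smul_mem' := by
        rintro r _ ⟨a, rfl⟩
        exact ⟨φ r a, by rw [hsmul, map_nsmul]⟩ }
  have hfinZ : Module.Finite ℤ (H ⧸ N0) :=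
    Module.Finite.of_surjective (N0.mkQ.toAddMonoidHom.toIntLinearMap) (Submodule.mkQ_surjective N0)
  have htors : Module.IsTorsion ℤ (H ⧸ N0) := by
    intro x
    obtain ⟨h, rfl⟩ := Submodule.mkQ_surjective N0 x
    refine ⟨⟨(k : ℤ), ?_⟩, ?_⟩
    · rw [mem_nonZeroDivisors_iff_ne_zero]
      exact_mod_cast hk.ne'
    · show (k : ℤ) • N0.mkQ h = 0
      rw [natCast_zsmul, ← map_nsmul, Submodule.mkQ_apply, Submodule.Quotient.mk_eq_zero]
      exact ⟨h, rfl⟩
  have hfin : Finite (H ⧸ N0) := Module.finite_of_fg_torsion (H ⧸ N0) htors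
  let f : ℕ →o (Submodule R (H ⧸ N0))ᵒᵈ :=
    { toFun := fun j => OrderDual.toDual (I ^ j • (⊤ : Submodule R (H ⧸ N0)))
      monotone' := fun a b hab => by
        show I ^ b • (⊤ : Submodule R (H ⧸ N0)) ≤ I ^ a • ⊤
        exact Submodule.smul_mono_left (Ideal.pow_le_pow_right hab) }
  obtain ⟨j, hj⟩ := IsArtinian.monotone_stabilizes f
  have hst : I ^ j • (⊤ : Submodule R (H ⧸ N0)) = I ^ (j + 1) • ⊤ := hj (j + 1) (Nat.le_succ j)
  have hle : I ^ j • (⊤ : Submodule R (H ⧸ N0)) ≤ I • (I ^ j • (⊤ : Submodule R (H ⧸ N0))) := by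
    rw [← Submodule.mul_smul, ← pow_succ', ← hst]
  obtain ⟨E, hE1, hE⟩ := Submodule.exists_sub_one_mem_and_smul_eq_zero_of_fg_of_le_smul I
    (I ^ j • (⊤ : Submodule R (H ⧸ N0))) (IsNoetherian.noetherian _) hle
  refine ⟨E, j, hE1, fun D hD h => ?_⟩
  have h1 : D ^ j • N0.mkQ h ∈ I ^ j • (⊤ : Submodule R (H ⧸ N0)) :=
    Submodule.smul_mem_smul (Ideal.pow_mem_pow hD j) Submodule.mem_top
  have h2 := hE _ h1
  rw [← mul_smul, ← map_smul, Submodule.mkQ_apply, Submodule.Quotient.mk_eq_zero] at h2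
  obtain ⟨h', hh'⟩ := h2
  exact ⟨h', by rw [mul_comm, ← hh', hsmul]⟩

end Fermat.Agent.S33
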