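import Fermat.Agent.GR.Burnside

/-!
# S33 consumer, piece CFin (= K6): the final linear algebra over `T`
-/

set_option autoImplicit false

namespace Fermat.Agent.S33

open IsLocalRing Fermat.Agent.GR

/-- Cayley–Hamilton in rank 2. -/
theorem CFin_ch {T V : Type*} [CommRing T] [AddCommGroup V] [Module T V]
    (b : Module.Basis (Fin 2) T V) (a : Module.End T V) :
    a * a - LinearMap.trace T V a • a + LinearMap.det a • (1 : Module.End T V) = 0 := by
  apply (LinearMap.toMatrixAlgEquiv b).injective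
  rw [LinearMap.trace_eq_matrix_trace T b, ← LinearMap.det_toMatrix b]
  simp only [map_add, map_sub, map_mul, map_smul, map_one, map_zero]
  have hA : LinearMap.toMatrix b b a = LinearMap.toMatrixAlgEquiv b a := rfl
  rw [hA]
  generalize LinearMap.toMatrixAlgEquiv b a = A
  ext i j
  fin_cases i <;> fin_cases j <;>
    simp [Matrix.mul_apply, Fin.sum_univ_two, Matrix.trace_fin_two, Matrix.det_fin_two] <;> ring

/-- an endomorphism all of whose twisted traces vanish is zero. -/
theorem CFin_eq_zero {T : Type} [CommRing T] [IsLocalRing T] (ρ : GaloisRepAdic T)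
    (habs : ρ.residual.IsAbsolutelyIrreducible) (Z : Module.End T ρ.V)
    (h : ∀ g : GQ, LinearMap.trace T ρ.V (Z * ρ.ρ g) = 0) : Z = 0 := by
  classical
  have hspan := span_range_eq_top_adic ρ habs
  have h1 : ∀ x : Module.End T ρ.V, LinearMap.trace T ρ.V (x * Z) = LinearMap.trace T ρ.V (x * 0) := by
    intro x
    rw [mul_zero, map_zero, LinearMap.trace_mul_comm]
    have hx : x ∈ Submodule.span T (Set.range ρ.ρ) := by rw [hspan]; trivial
    induction hx using Submodule.span_induction with
    | mem x hx => obtain ⟨g, rfl⟩ := hx; exact h g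
    | zero => simp
    | add x y _ _ hx hy => rw [mul_add, map_add, hx, hy, add_zero]
    | smul c x _ hx => rw [mul_smul_comm, map_smul, hx, smul_zero]
  let b := Module.Free.chooseBasis T ρ.V
  apply (LinearMap.toMatrixAlgEquiv b).injective
  rw [Matrix.ext_iff_trace_mul_left]
  intro X
  have h2 := h1 ((LinearMap.toMatrixAlgEquiv b).symm X)
  rw [LinearMap.trace_eq_matrix_trace T b, LinearMap.trace_eq_matrix_trace T b] at h2
  change ((LinearMap.toMatrixAlgEquiv b) ((LinearMap.toMatrixAlgEquiv b).symm X * Z)).trace =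
    ((LinearMap.toMatrixAlgEquiv b) ((LinearMap.toMatrixAlgEquiv b).symm X * 0)).trace at h2
  rw [map_mul, map_mul, AlgEquiv.apply_symm_apply] at h2
  exact h2

/-- the range of an idempotent of trace `1` on a free module of rank 2 over a local ring is spanned
by the first vector of a basis. -/
theorem CFin_basis {T V : Type*} [CommRing T] [IsLocalRing T] [AddCommGroup V] [Module T V]
    (b0 : Module.Basis (Fin 2) T V) (e : Module.End T V) (hidem : e * e = e)
    (htr : LinearMap.trace T V e = 1) :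
    ∃ b : Module.Basis (Fin 2) T V, LinearMap.range e = T ∙ b 0 := by
  classical
  set M := LinearMap.toMatrix b0 b0 e with hM
  have hcol : ∀ i, e (b0 i) = M 0 i • b0 0 + M 1 i • b0 1 := by
    intro i
    have h1 : Matrix.toLin b0 b0 M = e := by rw [hM, Matrix.toLin_toMatrix]
    conv_lhs => rw [← h1, Matrix.toLin_self, Fin.sum_univ_two]
  have hMM : M * M = M := by
    rw [hM, ← LinearMap.toMatrix_mul, hidem]
  have htr' : M 0 0 + M 1 1 = 1 := by
    rw [LinearMap.trace_eq_matrix_trace T b0, Matrix.trace_fin_two] at htr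
    exact htr
  have h00 : M 0 0 * M 0 0 + M 0 1 * M 1 0 = M 0 0 := by
    have := congrFun (congrFun hMM 0) 0
    rwa [Matrix.mul_apply, Fin.sum_univ_two] at this
  have hrange : ∀ v0 : V, v0 ∈ LinearMap.range e → (∀ i, e (b0 i) ∈ T ∙ v0) →
      LinearMap.range e = T ∙ v0 := by
    intro v0 hv0 hi
    apply le_antisymm
    · rintro _ ⟨v, rfl⟩
      rw [← b0.sum_repr v, map_sum]
      refine Submodule.sum_mem _ fun i _ => ?_
      rw [map_smul]
      exact Submodule.smul_mem _ _ (hi i)
    · rw [Submodule.span_singleton_le_iff_mem]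
      exact hv0
  rcases IsLocalRing.isUnit_or_isUnit_of_add_one htr' with hx | hx
  · -- `x = M 0 0` is a unit
    let Pm : Matrix (Fin 2) (Fin 2) T := !![M 0 0, 0; M 1 0, 1]
    have hP : IsUnit Pm.det := by
      have : Pm.det = M 0 0 := by simp [Pm, Matrix.det_fin_two]
      rw [this]; exact hx
    refine ⟨b0.map (Matrix.toLinearEquiv b0 Pm hP), ?_⟩
    have hb : (b0.map (Matrix.toLinearEquiv b0 Pm hP)) 0 = e (b0 0) := by
      rw [Module.Basis.map_apply, hcol]
      change Matrix.toLin b0 b0 Pm (b0 0) = _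
      rw [Matrix.toLin_self, Fin.sum_univ_two]
      simp [Pm]
    rw [hb]
    refine hrange _ ⟨_, rfl⟩ fun i => ?_
    obtain ⟨x', hx'⟩ := hx.exists_left_inv
    fin_cases i
    · exact Submodule.mem_span_singleton_self _
    · rw [Submodule.mem_span_singleton]
      refine ⟨x' * M 0 1, ?_⟩
      change _ = e (b0 1)
      rw [hcol 0, hcol 1, smul_add, smul_smul, smul_smul]
      congr 2
      · linear_combination (M 0 1) * hx'
      · linear_combination x' * (h00 - M 0 0 * htr') + (M 1 1) * hx'
  · -- `1 - x = M 1 1` is a unit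
    let Pm : Matrix (Fin 2) (Fin 2) T := !![M 0 1, 1; M 1 1, 0]
    have hP : IsUnit Pm.det := by
      have : Pm.det = - M 1 1 := by simp [Pm, Matrix.det_fin_two]
      rw [this]; exact hx.neg
    refine ⟨b0.map (Matrix.toLinearEquiv b0 Pm hP), ?_⟩
    have hb : (b0.map (Matrix.toLinearEquiv b0 Pm hP)) 0 = e (b0 1) := by
      rw [Module.Basis.map_apply, hcol]
      change Matrix.toLin b0 b0 Pm (b0 0) = _
      rw [Matrix.toLin_self, Fin.sum_univ_two]
      simp [Pm]
    rw [hb]
    refine hrange _ ⟨_, rfl⟩ fun i => ?_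
    obtain ⟨x', hx'⟩ := hx.exists_left_inv
    fin_cases i
    · rw [Submodule.mem_span_singleton]
      refine ⟨x' * M 1 0, ?_⟩
      change _ = e (b0 0)
      rw [hcol 0, hcol 1, smul_add, smul_smul, smul_smul]
      congr 2
      · linear_combination x' * (h00 - M 0 0 * htr') + (M 0 0) * hx'
      · linear_combination (M 1 0) * hx'
    · exact Submodule.mem_span_singleton_self _

/-- **CFin** (= K6).  The final linear algebra over `T`. -/
theorem ordinary_of_trace_identities {T : Type} [CommRing T] [IsLocalRing T] (ρ : GaloisRepAdic T)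
    (habs : ρ.residual.IsAbsolutelyIrreducible) (P : ValuationSubring Qb) (τ0 : GQ) (e0 : T)
    (he0 : LinearMap.det (ρ.ρ τ0) = e0) (hunit : IsUnit (e0 - 1))
    (h0 : LinearMap.trace T ρ.V (ρ.ρ τ0) = 1 + e0)
    (h1 : ∀ τ ∈ P.inertiaSubgroupIn ℚ, ∀ g : GQ,
      LinearMap.trace T ρ.V (ρ.ρ (τ0 * τ * g)) - LinearMap.trace T ρ.V (ρ.ρ (τ0 * g))
        - e0 * LinearMap.trace T ρ.V (ρ.ρ (τ * g)) + e0 * LinearMap.trace T ρ.V (ρ.ρ g) = 0)
    (h2 : ∀ σ ∈ P.decompositionSubgroup ℚ, ∀ g : GQ,
      LinearMap.trace T ρ.V (ρ.ρ (τ0 * σ * τ0 * g)) - LinearMap.trace T ρ.V (ρ.ρ (τ0 * σ * g))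
        - e0 * LinearMap.trace T ρ.V (ρ.ρ (σ * τ0 * g)) + e0 * LinearMap.trace T ρ.V (ρ.ρ (σ * g)) = 0) :
    ∃ L : Submodule T ρ.V,
      (∃ b : Module.Basis (Fin 2) T ρ.V, L = T ∙ b 0) ∧
      (∀ σ ∈ P.decompositionSubgroup ℚ, ∀ v ∈ L, ρ.ρ σ v ∈ L) ∧
      (∀ σ ∈ P.inertiaSubgroupIn ℚ, ∀ v : ρ.V, ρ.ρ σ v - v ∈ L) := by
  classical
  let b0 : Module.Basis (Fin 2) T ρ.V := Module.finBasisOfFinrankEq T ρ.V ρ.finrank_eq
  set a : Module.End T ρ.V := ρ.ρ τ0 with ha
  obtain ⟨w, hw⟩ := hunit.exists_left_inv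
  -- Cayley–Hamilton
  have hch : a * a - (1 + e0) • a + e0 • (1 : Module.End T ρ.V) = 0 := by
    have := CFin_ch b0 a
    rwa [h0, he0] at this
  have hI : ∀ τ ∈ P.inertiaSubgroupIn ℚ, (a - e0 • 1) * (ρ.ρ τ - 1) = 0 := by
    intro τ hτ
    apply CFin_eq_zero ρ habs
    intro g
    have := h1 τ hτ g
    simp only [map_mul] at this
    rw [← this]
    simp only [sub_mul, mul_sub, smul_mul_assoc, one_mul, mul_one, map_sub, map_smul, smul_eq_mul,
      ← ha]
    ring
  have hD : ∀ σ ∈ P.decompositionSubgroup ℚ, (a - e0 • 1) * ρ.ρ σ * (a - 1) = 0 := by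
    intro σ hσ
    apply CFin_eq_zero ρ habs
    intro g
    have := h2 σ hσ g
    simp only [map_mul] at this
    rw [← this]
    simp only [sub_mul, mul_sub, smul_mul_assoc, one_mul, mul_one, map_sub, map_smul, smul_eq_mul,
      ← ha]
    ring
  -- the idempotent
  set e : Module.End T ρ.V := w • (a - 1) with he
  have hker : (a - e0 • 1) * e = 0 := by
    rw [he, mul_smul_comm]
    have : (a - e0 • 1) * (a - 1) = a * a - (1 + e0) • a + e0 • (1 : Module.End T ρ.V) := by
      simp only [sub_mul, mul_sub, smul_mul_assoc, one_mul, mul_one, add_smul, one_smul]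
      abel
    rw [this, hch, smul_zero]
  have hsplit : e - w • (a - e0 • 1) = 1 := by
    rw [he, ← smul_sub]
    have : a - 1 - (a - e0 • 1) = (e0 - 1) • (1 : Module.End T ρ.V) := by
      rw [sub_smul, one_smul]; abel
    rw [this, smul_smul, hw, one_smul]
  have hidem : e * e = e := by
    have h3 : e = w • (a - e0 • 1) + 1 := sub_eq_iff_eq_add'.mp hsplit
    calc e * e = (w • (a - e0 • 1) + 1) * e := by rw [← h3]
      _ = e := by rw [add_mul, one_mul, smul_mul_assoc, hker, smul_zero, zero_add]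
  have htr : LinearMap.trace T ρ.V e = 1 := by
    rw [he, map_smul, map_sub, h0, LinearMap.trace_one, ρ.finrank_eq, smul_eq_mul]
    push_cast
    linear_combination hw
  have hmem : ∀ v : ρ.V, v ∈ LinearMap.range e ↔ (a - e0 • 1) v = 0 := by
    intro v
    constructor
    · rintro ⟨v', rfl⟩
      have := congrArg (fun f : Module.End T ρ.V => f v') hker
      simpa using this
    · intro hv
      refine ⟨v, ?_⟩
      have := congrArg (fun f : Module.End T ρ.V => f v) hsplit
      simp only [LinearMap.sub_apply, LinearMap.smul_apply, Module.End.one_apply] at this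
      rw [LinearMap.sub_apply, LinearMap.smul_apply, Module.End.one_apply] at hv
      rw [hv, smul_zero, sub_zero] at this
      exact this
  obtain ⟨b, hb⟩ := CFin_basis b0 e hidem htr
  refine ⟨LinearMap.range e, ⟨b, hb⟩, ?_, ?_⟩
  · rintro σ hσ _ ⟨v', rfl⟩
    rw [hmem]
    have := congrArg (fun f : Module.End T ρ.V => f v') (hD σ hσ)
    simp only [Module.End.mul_apply, LinearMap.zero_apply] at this
    rw [he, LinearMap.smul_apply, map_smul, map_smul, this, smul_zero]
  · intro τ hτ v
    rw [hmem]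
    have := congrArg (fun f : Module.End T ρ.V => f v) (hI τ hτ)
    simpa using this

end Fermat.Agent.S33
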