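import Fermat.Agent.GR.Burnside

/-!
# S33 consumer, piece CRepA: the trace of an absolutely irreducible representation is not
`c + d / c` with `c`, `d` multiplicative (helper11; statement verbatim from helper2's skeleton)
-/

set_option autoImplicit false

namespace Fermat.Agent.S33

open IsLocalRing Fermat.Agent.GR

/-- **CRep a**.  The trace of an absolutely irreducible representation is not `c + d / c`. -/
theorem no_char_decomp {k : Type} [Field k] (ρ : ResidualGaloisRep k)
    (h : ρ.IsAbsolutelyIrreducible) (c d : GQ → k) (hc : ∀ g h, c (g * h) = c g * c h)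
    (hd : ∀ g h, d (g * h) = d g * d h)
    (ht : ∀ g, LinearMap.trace k ρ.V (ρ.ρ g) = c g + d g * c g⁻¹) : False := by
  classical
  have hspan := span_range_eq_top ρ h
  have h0 : ∀ x g h : GQ, LinearMap.trace k ρ.V (ρ.ρ x * (ρ.ρ g * ρ.ρ h)) =
      LinearMap.trace k ρ.V (ρ.ρ x * (ρ.ρ h * ρ.ρ g)) := by
    intro x g h
    rw [← map_mul, ← map_mul, ← map_mul, ← map_mul, ht, ht]
    simp only [hc, hd, mul_inv_rev]
    ring
  have h1 : ∀ (g h : GQ) (X : Module.End k ρ.V),
      LinearMap.trace k ρ.V (X * (ρ.ρ g * ρ.ρ h)) =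
        LinearMap.trace k ρ.V (X * (ρ.ρ h * ρ.ρ g)) := by
    intro g h X
    have hX : X ∈ Submodule.span k (Set.range ρ.ρ) := by rw [hspan]; trivial
    induction hX using Submodule.span_induction with
    | mem X hX =>
      obtain ⟨x, rfl⟩ := hX
      exact h0 x g h
    | zero => simp
    | add X Y _ _ hX hY => rw [add_mul, add_mul, map_add, map_add, hX, hY]
    | smul a X _ hX => rw [smul_mul_assoc, smul_mul_assoc, map_smul, map_smul, hX]
  let b : Module.Basis (Fin 2) k ρ.V := Module.finBasisOfFinrankEq k ρ.V ρ.finrank_eq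
  have h2 : ∀ g h : GQ, ρ.ρ g * ρ.ρ h = ρ.ρ h * ρ.ρ g := by
    intro g h
    apply (LinearMap.toMatrixAlgEquiv b).injective
    rw [Matrix.ext_iff_trace_mul_left]
    intro X
    have h3 := h1 g h ((LinearMap.toMatrixAlgEquiv b).symm X)
    rw [LinearMap.trace_eq_matrix_trace k b, LinearMap.trace_eq_matrix_trace k b] at h3
    change ((LinearMap.toMatrixAlgEquiv b)
        ((LinearMap.toMatrixAlgEquiv b).symm X * (ρ.ρ g * ρ.ρ h))).trace =
      ((LinearMap.toMatrixAlgEquiv b)
        ((LinearMap.toMatrixAlgEquiv b).symm X * (ρ.ρ h * ρ.ρ g))).trace at h3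
    rw [map_mul, map_mul _ _ (ρ.ρ h * ρ.ρ g), AlgEquiv.apply_symm_apply] at h3
    exact h3
  have h4 : ∀ (g : GQ) (Y : Module.End k ρ.V), ρ.ρ g * Y = Y * ρ.ρ g := by
    intro g Y
    have hY : Y ∈ Submodule.span k (Set.range ρ.ρ) := by rw [hspan]; trivial
    induction hY using Submodule.span_induction with
    | mem Y hY =>
      obtain ⟨y, rfl⟩ := hY
      exact h2 g y
    | zero => simp
    | add X Y _ _ hX hY => rw [mul_add, add_mul, hX, hY]
    | smul a X _ hX => rw [mul_smul_comm, smul_mul_assoc, hX]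
  have h5 : ∀ X Y : Module.End k ρ.V, X * Y = Y * X := by
    intro X Y
    have hX : X ∈ Submodule.span k (Set.range ρ.ρ) := by rw [hspan]; trivial
    induction hX using Submodule.span_induction with
    | mem X hX =>
      obtain ⟨x, rfl⟩ := hX
      exact h4 x Y
    | zero => simp
    | add X X' _ _ hX hX' => rw [mul_add, add_mul, hX, hX']
    | smul a X _ hX => rw [mul_smul_comm, smul_mul_assoc, hX]
  have h6 : ∀ M1 M2 : Matrix (Fin 2) (Fin 2) k, M1 * M2 = M2 * M1 := by
    intro M1 M2
    have h := congrArg (LinearMap.toMatrixAlgEquiv b)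
      (h5 ((LinearMap.toMatrixAlgEquiv b).symm M1) ((LinearMap.toMatrixAlgEquiv b).symm M2))
    rwa [map_mul, map_mul, AlgEquiv.apply_symm_apply, AlgEquiv.apply_symm_apply] at h
  have h7 := h6 !![0, 1; 0, 0] !![0, 0; 1, 0]
  rw [Matrix.mul_fin_two, Matrix.mul_fin_two] at h7
  have h8 := congrFun (congrFun h7 0) 0
  simp at h8

end Fermat.Agent.S33
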