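import Fermat.Agent.S34.Consumer
import Fermat.Agent.GR.Burnside

/-!
# S33 consumer, piece CRepB: trace / determinant of the residual representation; residually ordinary implies
`tr ρ(τ) ≡ 1 + det ρ(τ)` for `τ` in inertia
-/

set_option autoImplicit false

namespace Fermat.Agent.S33

open IsLocalRing Fermat.Agent.GR
open scoped TensorProduct

/-- **CRep c**.  trace of the residual representation. -/
theorem trace_residual {T : Type} [CommRing T] [IsLocalRing T] (ρ : GaloisRepAdic T) (g : GQ) :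
    LinearMap.trace (ResidueField T) ρ.residual.V (ρ.residual.ρ g) =
      residue T (LinearMap.trace T ρ.V (ρ.ρ g)) := by
  show LinearMap.trace (ResidueField T) (ResidueField T ⊗[T] ρ.V)
    ((ρ.ρ g).baseChange (ResidueField T)) = _
  rw [LinearMap.trace_baseChange]
  rfl

/-- determinant of the residual representation. -/
theorem det_residual {T : Type} [CommRing T] [IsLocalRing T] (ρ : GaloisRepAdic T) (g : GQ) :
    LinearMap.det (ρ.residual.ρ g) = residue T (LinearMap.det (ρ.ρ g)) := by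
  show LinearMap.det ((ρ.ρ g).baseChange (ResidueField T)) = _
  rw [LinearMap.det_baseChange]
  rfl

/-- linear algebra: `f b₀ ∈ k b₀`, `f b₁ - b₁ ∈ k b₀` implies `tr f = 1 + det f`. -/
theorem CRepB_trace_eq {k V : Type*} [Field k] [AddCommGroup V] [Module k V]
    (b : Module.Basis (Fin 2) k V) (f : V →ₗ[k] V) (h0 : f (b 0) ∈ k ∙ b 0)
    (h1 : f (b 1) - b 1 ∈ k ∙ b 0) : LinearMap.trace k V f = 1 + LinearMap.det f := by
  obtain ⟨α, hα⟩ := Submodule.mem_span_singleton.mp h0
  obtain ⟨β, hβ⟩ := Submodule.mem_span_singleton.mp h1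
  have e1 : f (b 1) = b 1 + β • b 0 := by rw [hβ]; abel
  rw [LinearMap.trace_eq_matrix_trace k b f, ← LinearMap.det_toMatrix b f, Matrix.trace_fin_two,
    Matrix.det_fin_two]
  simp only [LinearMap.toMatrix_apply, ← hα, e1, map_add, map_smul, Module.Basis.repr_self,
    Finsupp.smul_single, Finsupp.add_apply, Finsupp.single_apply]
  simp [add_comm]

/-- **CRep b**.  Residually ordinary: `tr ρ(τ) ≡ 1 + det ρ(τ)` for `τ` in inertia. -/
theorem trace_sub_one_sub_det_mem {T : Type} [CommRing T] [IsLocalRing T] (ρ : GaloisRepAdic T)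
    (p : ℕ) (hres : (GaloisRepAdic.ofResidualGaloisRep ρ.residual).IsOrdinaryAt p)
    (P : ValuationSubring Qb) (hP : P.LiesOverPrime p) (τ : GQ) (hτ : τ ∈ P.inertiaSubgroupIn ℚ) :
    LinearMap.trace T ρ.V (ρ.ρ τ) - 1 - LinearMap.det (ρ.ρ τ) ∈ maximalIdeal T := by
  obtain ⟨L, ⟨b, hb⟩, hD, hI⟩ := hres P hP
  have hτD : τ ∈ P.decompositionSubgroup ℚ := by
    obtain ⟨x, -, rfl⟩ := hτ
    exact x.2
  have h0 := hD τ hτD (b 0) (by rw [hb]; exact Submodule.mem_span_singleton_self _)
  have h1 := hI τ hτ (b 1)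
  rw [hb] at h0 h1
  have key := CRepB_trace_eq (k := ResidueField T) (V := ρ.residual.V) b (ρ.residual.ρ τ) h0 h1
  have key' : residue T (LinearMap.trace T ρ.V (ρ.ρ τ)) =
      1 + residue T (LinearMap.det (ρ.ρ τ)) :=
    (trace_residual ρ τ).symm.trans (key.trans (congrArg (1 + ·) (det_residual ρ τ)))
  rw [← residue_eq_zero_iff, map_sub, map_sub, map_one, key']
  ring

end Fermat.Agent.S33
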