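import Fermat.Agent.S33.CTow2
import Fermat.Agent.S33.CDet
import Fermat.Agent.S33.CRepA
import Fermat.Agent.S33.CRepB
import Fermat.Agent.S33.CFin

/-!
# S33 consumer, CMain: `ordinary_of_tor`
-/

set_option autoImplicit false

namespace Fermat.Agent.S33

open IsLocalRing Fermat.Agent.GR

variable {p : ℕ} {N : ℕ} [NeZero N] {S : Finset ℕ}
  {𝒪 : Type} [CommRing 𝒪] [IsDomain 𝒪] [IsDiscreteValuationRing 𝒪]
  [IsAdicComplete (IsLocalRing.maximalIdeal 𝒪) 𝒪]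
  {θ : CuspForm.heckeAlgebra N 2 (↑S : Set ℕ) →+* IsLocalRing.ResidueField 𝒪}
  {T : Type} [CommRing T] [IsLocalRing T] [IsNoetherianRing T]
  [IsAdicComplete (IsLocalRing.maximalIdeal T) T] [Algebra 𝒪 T] [IsLocalHom (algebraMap 𝒪 T)]
  [Module.Finite 𝒪 T] [Module.Free 𝒪 T]

attribute [local instance] ctMod

/-- `χ(τ0) - 1` is a unit modulo `p ^ m` if `τ0` moves the `p`-th roots of unity. -/
theorem cm_isUnit_chi_sub_one (hp : p.Prime) {m : ℕ} (hm : m ≠ 0) [NeZero (p ^ m)] {ζ : Qb}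
    (hζ : IsPrimitiveRoot ζ (p ^ m)) (τ0 : GQ)
    (hτ0ne : ∀ ζ : Qb, ζ ^ p = 1 → ζ ≠ 1 → τ0 ζ ≠ ζ) :
    IsUnit (((hζ.autToPow ℚ τ0 : (ZMod (p ^ m))ˣ) : ZMod (p ^ m)) - 1) := by
  obtain ⟨z, hz⟩ : ∃ z, z = ((hζ.autToPow ℚ τ0 : (ZMod (p ^ m))ˣ) : ZMod (p ^ m)) - 1 := ⟨_, rfl⟩
  rw [← hz, ← ZMod.natCast_zmod_val z, ZMod.isUnit_iff_coprime]
  refine Nat.Coprime.pow_right _ ((Nat.Prime.coprime_iff_not_dvd hp).mpr fun hdvd => ?_).symm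
  obtain ⟨a0, ha0⟩ : ∃ a0, a0 = ((hζ.autToPow ℚ τ0 : (ZMod (p ^ m))ˣ) : ZMod (p ^ m)).val := ⟨_, rfl⟩
  have hspec : τ0 ζ = ζ ^ a0 := by rw [ha0]; exact ct_chi_spec hζ τ0
  have hpm : p ^ (m - 1) * p = p ^ m := by
    rw [← pow_succ, Nat.sub_add_cancel (Nat.one_le_iff_ne_zero.mpr hm)]
  have hξp : (ζ ^ (p ^ (m - 1))) ^ p = 1 := by
    rw [← pow_mul, hpm]; exact hζ.pow_eq_one
  have hξ1 : ζ ^ (p ^ (m - 1)) ≠ 1 := fun h => by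
    have h1 := hζ.dvd_of_pow_eq_one _ h
    have h2 := Nat.le_of_dvd (pow_pos hp.pos _) h1
    have h3 : p ^ (m - 1) < p ^ m := Nat.pow_lt_pow_right hp.one_lt (by omega)
    omega
  apply hτ0ne _ hξp hξ1
  have h1 : τ0 (ζ ^ (p ^ (m - 1))) = (ζ ^ (p ^ (m - 1))) ^ a0 := by
    rw [map_pow, hspec, ← pow_mul, ← pow_mul, mul_comm]
  have h2 : a0 ≡ 1 [MOD p] := by
    have h3 : (a0 : ZMod (p ^ m)) = ((z.val + 1 : ℕ) : ZMod (p ^ m)) := by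
      push_cast
      rw [ha0, ZMod.natCast_zmod_val, ZMod.natCast_zmod_val, hz]; ring
    have h4 := (ZMod.natCast_eq_natCast_iff _ _ _).mp h3
    have h5 : a0 ≡ z.val + 1 [MOD p] := h4.of_dvd (dvd_pow_self p hm)
    refine h5.trans ?_
    obtain ⟨k, hk⟩ := hdvd
    rw [hk]
    simp [Nat.ModEq]
  rw [h1, pow_eq_pow_mod a0 hξp, h2, ← pow_eq_pow_mod 1 hξp, pow_one]

/-- transport of `u (c - 1) = 1` from `ZMod (p ^ m)` to `T`. -/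
theorem cm_cast_rel {T : Type} [CommRing T] [IsLocalRing T] (hpT : (p : T) ∈ maximalIdeal T) {m : ℕ}
    [NeZero (p ^ m)] (u c : ZMod (p ^ m)) (hu : u * (c - 1) = 1) :
    (u.val : T) * ((c.val : T) - 1) - 1 ∈ maximalIdeal T ^ m := by
  have h1 : ((u.val * c.val : ℕ) : ZMod (p ^ m)) = ((u.val + 1 : ℕ) : ZMod (p ^ m)) := by
    push_cast
    rw [ZMod.natCast_zmod_val, ZMod.natCast_zmod_val]
    linear_combination hu
  have h2 := (Nat.modEq_iff_dvd).mp ((ZMod.natCast_eq_natCast_iff _ _ _).mp h1)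
  obtain ⟨d, hd⟩ := h2
  have h3 := congrArg (Int.cast : ℤ → T) hd
  push_cast at h3
  have h4 : (u.val : T) * ((c.val : T) - 1) - 1 = -((p : T) ^ m * (d : T)) := by
    rw [← h3]; ring
  rw [h4]
  exact neg_mem (Ideal.mul_mem_right _ _ (Ideal.pow_mem_pow hpT m))

/-- the three trace identities modulo `𝔪 ^ n`. -/
theorem cm_level [Finite (IsLocalRing.ResidueField 𝒪)] (hp : p.Prime) (𝔗 : Tower p N)
    (hp𝒪 : (p : 𝒪) ∈ IsLocalRing.maximalIdeal 𝒪) (hpS : p ∈ S)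
    (hNS : ∀ q : ℕ, q.Prime → q ∣ N → q ∈ S)
    (H : CuspForm.HeckeGaloisRepDatum N (↑S : Set ℕ) 𝒪 θ T)
    (hres : (GaloisRepAdic.ofResidualGaloisRep H.ρ.residual).IsOrdinaryAt p)
    (P : ValuationSubring Qb) (hP : P.LiesOverPrime p)
    (L : ∀ n, AddSubgroup (𝔗.A n)) (τ0 : GQ) (hτ0 : τ0 ∈ P.inertiaSubgroupIn ℚ)
    (hτ0ne : ∀ ζ : Qb, ζ ^ p = 1 → ζ ≠ 1 → τ0 ζ ≠ ζ)
    (hLdec : ∀ n, ∀ σ ∈ P.decompositionSubgroup ℚ, ∀ x ∈ L n, 𝔗.act n σ x ∈ L n)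
    (hLin : ∀ n, ∀ τ ∈ P.inertiaSubgroupIn ℚ, ∀ x, 𝔗.act n τ x - x ∈ L n)
    (hLfix : ∀ n, ∀ x ∈ L n, 𝔗.act n τ0 x = x → x = 0)
    (tr : GQ → T) (htr : ∀ g, tr g = LinearMap.trace T H.ρ.V (H.ρ.ρ g))
    (dt : GQ → T) (hdt : ∀ g, dt g = LinearMap.det (H.ρ.ρ g))
    (n : ℕ) (hn : n ≠ 0) :
    IsUnit (dt τ0 - 1) ∧
    (tr τ0 - 1 - dt τ0 * 1 ∈ maximalIdeal T ^ n) ∧
    (∀ τ ∈ P.inertiaSubgroupIn ℚ, ∀ g : GQ,
      tr (τ0 * τ * g) - tr (τ0 * g) - dt τ0 * tr (τ * g) + dt τ0 * tr g ∈ maximalIdeal T ^ n) ∧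
    (∀ σ ∈ P.decompositionSubgroup ℚ, ∀ g : GQ,
      tr (τ0 * σ * τ0 * g) - tr (τ0 * σ * g) - dt τ0 * tr (σ * τ0 * g) + dt τ0 * tr (σ * g)
        ∈ maximalIdeal T ^ n) := by
  classical
  obtain ⟨m, E, j, e, hnm, C⟩ := ct_exists_ctx hp 𝔗 hp𝒪 H n hn
  have hm : m ≠ 0 := by omega
  have : NeZero p := ⟨hp.ne_zero⟩
  have : NeZero (p ^ m) := ⟨pow_ne_zero _ hp.ne_zero⟩
  obtain ⟨ζ, hζ⟩ := HasEnoughRootsOfUnity.exists_primitiveRoot Qb (p ^ m)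
  obtain ⟨χ, hχdef⟩ : ∃ χ : GQ →* (ZMod (p ^ m))ˣ, χ = hζ.autToPow ℚ := ⟨_, rfl⟩
  have hle : maximalIdeal T ^ m ≤ maximalIdeal T ^ n := Ideal.pow_le_pow_right hnm
  have hpT : (p : T) ∈ maximalIdeal T := S34.natCast_mem_maximalIdeal hp𝒪
  have hχ : ∀ g, dt g - (((χ g : ZMod (p ^ m)).val : ℕ) : T) ∈ maximalIdeal T ^ n := fun g => by
    rw [hdt, hχdef]
    exact hle (det_sub_natCast_mem hp hp𝒪 hpS hNS H g m ζ hζ _ (ct_chi_spec hζ g))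
  have ht : ∀ g, CtRel 𝔗 H n m (tOp (ctR 𝔗 m) χ g) (tr g) := fun g => by
    rw [htr, hχdef]
    exact ct_rel_t hp 𝔗 hpS hNS H n hζ g
  have hcen : ∀ (g h : GQ) (x : 𝔗.A m),
      tOp (ctR 𝔗 m) χ g (ctR 𝔗 m h x) = ctR 𝔗 m h (tOp (ctR 𝔗 m) χ g x) := by
    rw [hχdef]
    exact ct_central hp 𝔗 hζ
  -- the scalar `u`
  obtain ⟨u, hu⟩ : ∃ u : ZMod (p ^ m), u * ((χ τ0 : ZMod (p ^ m)) - 1) = 1 := by
    have := cm_isUnit_chi_sub_one hp hm hζ τ0 hτ0ne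
    rw [← hχdef] at this
    obtain ⟨v, hv⟩ := this.exists_left_inv
    exact ⟨v, hv⟩
  have hu1 : (u.val : T) * (dt τ0 - 1) - 1 ∈ maximalIdeal T ^ n := by
    have h1 := hle (cm_cast_rel hpT u (χ τ0 : ZMod (p ^ m)) hu)
    have h2 : (u.val : T) * (dt τ0 - 1) - 1 =
        ((u.val : T) * ((((χ τ0 : ZMod (p ^ m)).val : ℕ) : T) - 1) - 1)
          + (u.val : T) * (dt τ0 - (((χ τ0 : ZMod (p ^ m)).val : ℕ) : T)) := by ring
    rw [h2]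
    exact add_mem h1 (Ideal.mul_mem_left _ _ (hχ τ0))
  have hunit : IsUnit (dt τ0 - 1) := by
    have h1 := IsLocalRing.isUnit_one_sub_self_of_mem_nonunits _ (neg_mem (C.pow_le hu1))
    rw [show 1 - -((u.val : T) * (dt τ0 - 1) - 1) = (u.val : T) * (dt τ0 - 1) by ring] at h1
    exact isUnit_of_mul_isUnit_right h1
  obtain ⟨uT, huT⟩ := hunit.exists_left_inv
  have huT' : uT - (u.val : T) ∈ maximalIdeal T ^ n := by
    have : uT - (u.val : T) = -(uT * ((u.val : T) * (dt τ0 - 1) - 1)) := by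
      linear_combination (u.val : T) * huT
    rw [this]
    exact neg_mem (Ideal.mul_mem_left _ _ hu1)
  have hs : ∀ g, CtRel 𝔗 H n m (sOp (ctR 𝔗 m) χ u τ0 g) (uT * (tr (τ0 * g) - tr g)) := fun g =>
    ((ht (τ0 * g)).sub (ht g)).smul u uT huT'
  have hν : CtRel 𝔗 H n m (nuOp (ctR 𝔗 m) χ τ0) (tr τ0 - 1 - dt τ0 * 1) :=
    ((ht τ0).sub CtRel.one).sub (CtRel.one.smul (χ τ0 : ZMod (p ^ m)) (dt τ0) (hχ τ0))
  have hνm : tr τ0 - 1 - dt τ0 * 1 ∈ maximalIdeal T := by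
    rw [mul_one, htr, hdt]
    exact trace_sub_one_sub_det_mem H.ρ p hres P hP τ0 hτ0
  have hID : P.inertiaSubgroupIn ℚ ≤ P.decompositionSubgroup ℚ := Subgroup.map_subtype_le _
  have main := abs_main (ctR 𝔗 m) χ hcen (P.decompositionSubgroup ℚ) (P.inertiaSubgroupIn ℚ) hID τ0
    hτ0 u hu (AddSubgroup.toZModSubmodule (p ^ m) (L m)) (ctX 𝔗 S m E)
    (fun g x hx => ctX_stable 𝔗 m E g x hx)
    (fun σ hσ y hy => hLdec m σ hσ y hy) (fun τ hτ x => hLin m τ hτ x)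
    (fun y hy h => hLfix m y hy h)
    (fun x hx => ⟨j, C.nil hν hνm x hx⟩)
    (by
      intro w hw h1 h2
      by_contra hw0
      refine no_char_decomp H.ρ.residual H.residual_absIrr
        (fun g => residue T (uT * (tr (τ0 * g) - tr g))) (fun g => residue T (dt g)) ?_ ?_ ?_
      · intro g h
        have hr : CtRel 𝔗 H n m
            (sOp (ctR 𝔗 m) χ u τ0 g * sOp (ctR 𝔗 m) χ u τ0 h - sOp (ctR 𝔗 m) χ u τ0 (g * h))
            (uT * (tr (τ0 * g) - tr g) * (uT * (tr (τ0 * h) - tr h))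
              - uT * (tr (τ0 * (g * h)) - tr (g * h))) := ((hs g).mul (hs h)).sub (hs (g * h))
        have h3 := C.mem_of_ker hr w hw hw0 (by
          rw [LinearMap.sub_apply, Module.End.mul_apply, h1, sub_self])
        rw [← IsLocalRing.residue_eq_zero_iff, map_sub, map_mul, sub_eq_zero] at h3
        exact h3.symm
      · intro g h
        rw [hdt, hdt, hdt, map_mul, map_mul, map_mul]
      · intro g
        have hr : CtRel 𝔗 H n m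
            (tOp (ctR 𝔗 m) χ g - sOp (ctR 𝔗 m) χ u τ0 g
              - (χ g : ZMod (p ^ m)) • sOp (ctR 𝔗 m) χ u τ0 g⁻¹)
            (tr g - uT * (tr (τ0 * g) - tr g) - dt g * (uT * (tr (τ0 * g⁻¹) - tr g⁻¹))) :=
          ((ht g).sub (hs g)).sub ((hs g⁻¹).smul (χ g : ZMod (p ^ m)) (dt g) (hχ g))
        have h3 := C.mem_of_ker hr w hw hw0 (by
          rw [LinearMap.sub_apply, LinearMap.sub_apply, LinearMap.smul_apply, h2]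
          abel)
        rw [← IsLocalRing.residue_eq_zero_iff, map_sub, map_sub, map_mul (residue T) (dt g)] at h3
        rw [trace_residual, ← htr]
        linear_combination h3)
  obtain ⟨m1, m2, m3⟩ := main
  refine ⟨hunit, C.mem_of_zero hν (fun x hx => m1 x hx), fun τ hτ g => ?_, fun σ hσ g => ?_⟩
  · have hr : CtRel 𝔗 H n m
        (tOp (ctR 𝔗 m) χ (τ0 * τ * g) - tOp (ctR 𝔗 m) χ (τ0 * g)
          - (χ τ0 : ZMod (p ^ m)) • tOp (ctR 𝔗 m) χ (τ * g)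
          + (χ τ0 : ZMod (p ^ m)) • tOp (ctR 𝔗 m) χ g)
        (tr (τ0 * τ * g) - tr (τ0 * g) - dt τ0 * tr (τ * g) + dt τ0 * tr g) :=
      (((ht _).sub (ht _)).sub ((ht _).smul _ _ (hχ τ0))).add ((ht _).smul _ _ (hχ τ0))
    exact C.mem_of_zero hr (fun x hx => m2 τ hτ g x hx)
  · have hr : CtRel 𝔗 H n m
        (tOp (ctR 𝔗 m) χ (τ0 * σ * τ0 * g) - tOp (ctR 𝔗 m) χ (τ0 * σ * g)
          - (χ τ0 : ZMod (p ^ m)) • tOp (ctR 𝔗 m) χ (σ * τ0 * g)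
          + (χ τ0 : ZMod (p ^ m)) • tOp (ctR 𝔗 m) χ (σ * g))
        (tr (τ0 * σ * τ0 * g) - tr (τ0 * σ * g) - dt τ0 * tr (σ * τ0 * g) + dt τ0 * tr (σ * g)) :=
      (((ht _).sub (ht _)).sub ((ht _).smul _ _ (hχ τ0))).add ((ht _).smul _ _ (hχ τ0))
    exact C.mem_of_zero hr (fun x hx => m3 σ hσ g x hx)

/-- **CONS.** -/
theorem ordinary_of_tor [Finite (IsLocalRing.ResidueField 𝒪)] [CharZero 𝒪] (hp : p.Prime)
    (_hp2 : p ≠ 2) (𝔗 : Tower p N)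
    (hp𝒪 : (p : 𝒪) ∈ IsLocalRing.maximalIdeal 𝒪) (hpS : p ∈ S)
    (hNS : ∀ q : ℕ, q.Prime → q ∣ N → q ∈ S)
    (H : CuspForm.HeckeGaloisRepDatum N (↑S : Set ℕ) 𝒪 θ T)
    (hres : (GaloisRepAdic.ofResidualGaloisRep H.ρ.residual).IsOrdinaryAt p)
    (htor : ∀ P : ValuationSubring Qb, P.LiesOverPrime p →
      ∃ (L : ∀ n, AddSubgroup (𝔗.A n)) (τ0 : GQ), τ0 ∈ P.inertiaSubgroupIn ℚ ∧
        (∀ ζ : Qb, ζ ^ p = 1 → ζ ≠ 1 → τ0 ζ ≠ ζ) ∧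
        (∀ n, ∀ σ ∈ P.decompositionSubgroup ℚ, ∀ x ∈ L n, 𝔗.act n σ x ∈ L n) ∧
        (∀ n, ∀ τ ∈ P.inertiaSubgroupIn ℚ, ∀ x, 𝔗.act n τ x - x ∈ L n) ∧
        (∀ n, ∀ x ∈ L n, 𝔗.act n τ0 x = x → x = 0)) :
    H.ρ.IsOrdinaryAt p := by
  intro P hP
  obtain ⟨L, τ0, hτ0, hτ0ne, hLdec, hLin, hLfix⟩ := htor P hP
  have key := cm_level hp 𝔗 hp𝒪 hpS hNS H hres P hP L τ0 hτ0 hτ0ne hLdec hLin hLfix
    (fun g => LinearMap.trace T H.ρ.V (H.ρ.ρ g)) (fun _ => rfl)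
    (fun g => LinearMap.det (H.ρ.ρ g)) (fun _ => rfl)
  have haus : ∀ t : T, (∀ n : ℕ, n ≠ 0 → t ∈ maximalIdeal T ^ n) → t = 0 := by
    intro t ht
    refine IsHausdorff.haus (inferInstance : IsHausdorff (maximalIdeal T) T) _ fun n => ?_
    rw [SModEq.zero, smul_eq_mul, Ideal.mul_top]
    exact Ideal.pow_le_pow_right (Nat.le_succ n) (ht (n + 1) (Nat.succ_ne_zero n))
  refine ordinary_of_trace_identities H.ρ H.residual_absIrr P τ0 (LinearMap.det (H.ρ.ρ τ0)) rfl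
    (key 1 one_ne_zero).1 ?_ ?_ ?_
  · have := haus _ (fun n hn => (key n hn).2.1)
    linear_combination this
  · intro τ hτ g
    exact haus _ (fun n hn => (key n hn).2.2.1 τ hτ g)
  · intro σ hσ g
    exact haus _ (fun n hn => (key n hn).2.2.2 σ hσ g)

end Fermat.Agent.S33
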