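import Fermat.Agent.GR.TraceInv
import Fermat.Agent.S33.CAbs

/-!
# S33 consumer, CTow1: the tower as a `ZMod (p^m)`-module, `t(g)` is central, pairs
-/

set_option autoImplicit false

namespace Fermat.Agent.S33

open IsLocalRing Fermat.Agent.GR

variable {p N : ℕ} [NeZero N]

/-- the `ZMod (p^m)`-module structure of `𝔗.A m`. -/
@[instance_reducible] noncomputable def ctMod (𝔗 : Tower p N) (m : ℕ) : Module (ZMod (p ^ m)) (𝔗.A m) :=
  AddCommGroup.zmodModule (𝔗.pow_smul m)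

attribute [local instance] ctMod

/-- the Galois action as a linear action. -/
noncomputable def ctR (𝔗 : Tower p N) (m : ℕ) : GQ →* Module.End (ZMod (p ^ m)) (𝔗.A m) where
  toFun g := AddMonoidHom.toZModLinearMap (p ^ m) (𝔗.act m g)
  map_one' := by
    ext x
    change 𝔗.act m 1 x = x
    rw [map_one]; rfl
  map_mul' g h := by
    ext x
    change 𝔗.act m (g * h) x = 𝔗.act m g (𝔗.act m h x)
    rw [map_mul]; rfl

theorem ctR_apply (𝔗 : Tower p N) (m : ℕ) (g : GQ) (x : 𝔗.A m) : ctR 𝔗 m g x = 𝔗.act m g x := rfl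

theorem ct_natCast_smul (𝔗 : Tower p N) (m : ℕ) (a : ℕ) (x : 𝔗.A m) :
    (a : ZMod (p ^ m)) • x = a • x := Nat.cast_smul_eq_nsmul _ a x

section chi

variable {m : ℕ} [NeZero (p ^ m)] {ζ : Qb} (hζ : IsPrimitiveRoot ζ (p ^ m))

theorem ct_chi_eq (g : GQ) (a : ℕ) (ha : g ζ = ζ ^ a) :
    ((hζ.autToPow ℚ g : (ZMod (p ^ m))ˣ) : ZMod (p ^ m)) = (a : ZMod (p ^ m)) := by
  have h := hζ.autToPow_spec ℚ g
  rw [ha] at h
  have h2 : ζ ^ a = ζ ^ (a % (p ^ m)) := by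
    conv_rhs => rw [hζ.eq_orderOf]
    exact (pow_mod_orderOf ζ a).symm
  rw [h2] at h
  have h3 := hζ.pow_inj (ZMod.val_lt _) (Nat.mod_lt _ (NeZero.pos _)) h
  rw [← ZMod.natCast_mod a, ← h3, ZMod.natCast_zmod_val]

theorem ct_chi_spec (g : GQ) :
    g ζ = ζ ^ ((hζ.autToPow ℚ g : (ZMod (p ^ m))ˣ) : ZMod (p ^ m)).val :=
  (hζ.autToPow_spec ℚ g).symm

end chi

/-- `t(g)` in terms of the tower. -/
theorem ct_tOp_apply (𝔗 : Tower p N) {m : ℕ} [NeZero (p ^ m)] {ζ : Qb}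
    (hζ : IsPrimitiveRoot ζ (p ^ m)) (g : GQ) (a : ℕ) (ha : g ζ = ζ ^ a) (x : 𝔗.A m) :
    tOp (ctR 𝔗 m) (hζ.autToPow ℚ) g x = 𝔗.act m g x + a • 𝔗.act m g⁻¹ x := by
  rw [tOp_apply, ct_chi_eq hζ g a ha, ct_natCast_smul]; rfl

/-- `t(g)` agrees at two given points with an operator commuting with Galois. -/
theorem ct_exists_luc (hp : p.Prime) (𝔗 : Tower p N) {m : ℕ} [NeZero (p ^ m)] {ζ : Qb}
    (hζ : IsPrimitiveRoot ζ (p ^ m)) (g : GQ) (x y : 𝔗.A m) :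
    ∃ F : AddMonoid.End (𝔗.A m), (∀ (h : GQ) (z : 𝔗.A m), F (𝔗.act m h z) = 𝔗.act m h (F z)) ∧
      tOp (ctR 𝔗 m) (hζ.autToPow ℚ) g x = F x ∧ tOp (ctR 𝔗 m) (hζ.autToPow ℚ) g y = F y := by
  classical
  obtain ⟨L₁, hL₁, h1⟩ := 𝔗.smooth m x
  obtain ⟨L₂, hL₂, h2⟩ := 𝔗.smooth m (𝔗.act m g⁻¹ x)
  obtain ⟨L₃, hL₃, h3⟩ := 𝔗.smooth m y
  obtain ⟨L₄, hL₄, h4⟩ := 𝔗.smooth m (𝔗.act m g⁻¹ y)
  have hζi : IsIntegral ℚ ζ := ((AlgebraicClosure.isAlgebraic ℚ).isAlgebraic ζ).isIntegral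
  have : FiniteDimensional ℚ (IntermediateField.adjoin ℚ {ζ}) :=
    IntermediateField.adjoin.finiteDimensional hζi
  let L : IntermediateField ℚ Qb := L₁ ⊔ L₂ ⊔ L₃ ⊔ L₄ ⊔ IntermediateField.adjoin ℚ {ζ}
  have : FiniteDimensional ℚ L := inferInstance
  have hl1 : L₁ ≤ L := le_sup_left.trans (le_sup_left.trans (le_sup_left.trans le_sup_left))
  have hl2 : L₂ ≤ L := le_sup_right.trans (le_sup_left.trans (le_sup_left.trans le_sup_left))
  have hl3 : L₃ ≤ L := le_sup_right.trans (le_sup_left.trans le_sup_left)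
  have hl4 : L₄ ≤ L := le_sup_right.trans le_sup_left
  have hζL : ζ ∈ L :=
    (le_sup_right : IntermediateField.adjoin ℚ {ζ} ≤ L) (IntermediateField.mem_adjoin_simple_self ℚ ζ)
  obtain ⟨ℓ, hℓ, hℓS, P, hP, σ, hσ, k, hk⟩ :=
    frobenius_density L g (insert p (Nat.primeFactors N))
  have hℓp : ℓ ≠ p := fun h => hℓS (h ▸ Finset.mem_insert_self _ _)
  have hℓN : ¬ ℓ ∣ N := fun h => hℓS (Finset.mem_insert_of_mem
    (Nat.mem_primeFactors.mpr ⟨hℓ, h, NeZero.ne N⟩))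
  obtain ⟨ε, hε⟩ : ∃ ε : GQ, ε = g⁻¹ * σ ^ k := ⟨_, rfl⟩
  have hεL : ∀ x ∈ L, ε x = x := by
    intro x hx
    rw [hε, AlgEquiv.mul_apply, hk x hx]
    exact g.symm_apply_apply x
  have hεL' : ∀ x ∈ L, ε⁻¹ x = x := by
    intro x hx
    conv_lhs => rw [← hεL x hx]
    exact ε.symm_apply_apply x
  have hσk : σ ^ k = g * ε := by rw [hε, mul_inv_cancel_left]
  have hσk' : (σ ^ k)⁻¹ = ε⁻¹ * g⁻¹ := by rw [hσk, mul_inv_rev]
  have hga : g ζ = ζ ^ (ℓ ^ k) := by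
    rw [← hk ζ hζL]
    refine frob_pow_root hℓ hP hσ (fun hd => hℓp ?_) k hζ.pow_eq_one
    exact (Nat.prime_dvd_prime_iff_eq hℓ hp).mp (hℓ.dvd_of_dvd_pow hd)
  refine ⟨Polynomial.aeval (𝔗.T m ℓ) (luc (Polynomial.X : Polynomial ℤ) (Polynomial.C (ℓ : ℤ)) k),
    fun h z => ?_, ?_, ?_⟩
  · have hc : Commute (𝔗.T m ℓ) (𝔗.act m h) := by
      ext y
      exact 𝔗.T_act m ℓ h y
    have hc2 : Commute (Polynomial.aeval (𝔗.T m ℓ)
        (luc (Polynomial.X : Polynomial ℤ) (Polynomial.C (ℓ : ℤ)) k)) (𝔗.act m h) := by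
      generalize luc (Polynomial.X : Polynomial ℤ) (Polynomial.C (ℓ : ℤ)) k = Q
      induction Q using Polynomial.induction_on with
      | C a =>
        rw [Polynomial.aeval_C]
        exact Algebra.commute_algebraMap_left _ _
      | add P Q hP hQ => rw [map_add]; exact hP.add_left hQ
      | monomial k a ih =>
        rw [pow_succ, ← mul_assoc, map_mul _ _ Polynomial.X, Polynomial.aeval_X]
        exact ih.mul_left hc
    exact congrArg (fun G : AddMonoid.End (𝔗.A m) => G z) hc2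
  · have key := 𝔗.frob_pow_rel m hℓ hℓN hℓp hP hσ k x
    rw [hσk', hσk, map_mul, map_mul, end_mul_apply, end_mul_apply,
      h1 ε (fun y hy => hεL y (hl1 hy)), h2 ε⁻¹ (fun y hy => hεL' y (hl2 hy))] at key
    rw [ct_tOp_apply 𝔗 hζ g _ hga]
    have : 𝔗.act m g x + ℓ ^ k • 𝔗.act m g⁻¹ x - (Polynomial.aeval (𝔗.T m ℓ)
        (luc (Polynomial.X : Polynomial ℤ) (Polynomial.C (ℓ : ℤ)) k)) x = 0 := by
      rw [← key]; abel
    exact sub_eq_zero.mp this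
  · have key := 𝔗.frob_pow_rel m hℓ hℓN hℓp hP hσ k y
    rw [hσk', hσk, map_mul, map_mul, end_mul_apply, end_mul_apply,
      h3 ε (fun y hy => hεL y (hl3 hy)), h4 ε⁻¹ (fun y hy => hεL' y (hl4 hy))] at key
    rw [ct_tOp_apply 𝔗 hζ g _ hga]
    have : 𝔗.act m g y + ℓ ^ k • 𝔗.act m g⁻¹ y - (Polynomial.aeval (𝔗.T m ℓ)
        (luc (Polynomial.X : Polynomial ℤ) (Polynomial.C (ℓ : ℤ)) k)) y = 0 := by
      rw [← key]; abel
    exact sub_eq_zero.mp this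

/-- `t(g)` is central. -/
theorem ct_central (hp : p.Prime) (𝔗 : Tower p N) {m : ℕ} [NeZero (p ^ m)] {ζ : Qb}
    (hζ : IsPrimitiveRoot ζ (p ^ m)) (g h : GQ) (x : 𝔗.A m) :
    tOp (ctR 𝔗 m) (hζ.autToPow ℚ) g (ctR 𝔗 m h x) =
      ctR 𝔗 m h (tOp (ctR 𝔗 m) (hζ.autToPow ℚ) g x) := by
  obtain ⟨F, hF, h1, h2⟩ := ct_exists_luc hp 𝔗 hζ g x (𝔗.act m h x)
  rw [ctR_apply, h2, h1, hF]; rfl

end Fermat.Agent.S33
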