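import Fermat.Agent.S33.CTow1
import Fermat.Agent.S33.CE
import Fermat.Agent.S34.Consumer

/-!
# S33 consumer, CTow2: pairs (operator on the tower, Hecke operator), the relation with `T`
-/

set_option autoImplicit false

namespace Fermat.Agent.S33

open IsLocalRing Fermat.Agent.GR

variable {p : ℕ} {N : ℕ} [NeZero N] {S : Finset ℕ}
  {𝒪 : Type} [CommRing 𝒪] [IsDomain 𝒪] [IsDiscreteValuationRing 𝒪]
  [IsAdicComplete (IsLocalRing.maximalIdeal 𝒪) 𝒪]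
  {θ : CuspForm.heckeAlgebra N 2 (↑S : Set ℕ) →+* IsLocalRing.ResidueField 𝒪}
  {T : Type} [CommRing T] [IsLocalRing T] [IsNoetherianRing T]
  [IsAdicComplete (IsLocalRing.maximalIdeal T) T] [Algebra 𝒪 T] [IsLocalHom (algebraMap 𝒪 T)]
  [Module.Finite 𝒪 T] [Module.Free 𝒪 T]

attribute [local instance] ctMod

/-- a pair: an operator on `𝔗.A m` commuting with Galois and inducing `D` on the lattice. -/
def CtPair (𝔗 : Tower p N) (S : Finset ℕ) (m : ℕ) (f : Module.End (ZMod (p ^ m)) (𝔗.A m))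
    (D : CuspForm.heckeAlgebra N 2 (↑S : Set ℕ)) : Prop :=
  (∀ (g : GQ) (x : 𝔗.A m), f (𝔗.act m g x) = 𝔗.act m g (f x)) ∧
  ∀ h : 𝔗.H, f (𝔗.ι m h) = 𝔗.ι m (𝔗.actH (heckeInc N S D) h)

section pair

variable {𝔗 : Tower p N} {m : ℕ} {f f' : Module.End (ZMod (p ^ m)) (𝔗.A m)}
  {D D' : CuspForm.heckeAlgebra N 2 (↑S : Set ℕ)}

theorem CtPair.add (h : CtPair 𝔗 S m f D) (h' : CtPair 𝔗 S m f' D') :
    CtPair 𝔗 S m (f + f') (D + D') := by
  refine ⟨fun g x => ?_, fun y => ?_⟩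
  · rw [LinearMap.add_apply, LinearMap.add_apply, h.1, h'.1, map_add]
  · rw [LinearMap.add_apply, h.2, h'.2, map_add, map_add, LinearMap.add_apply, map_add]

theorem CtPair.sub (h : CtPair 𝔗 S m f D) (h' : CtPair 𝔗 S m f' D') :
    CtPair 𝔗 S m (f - f') (D - D') := by
  refine ⟨fun g x => ?_, fun y => ?_⟩
  · rw [LinearMap.sub_apply, LinearMap.sub_apply, h.1, h'.1, map_sub]
  · rw [LinearMap.sub_apply, h.2, h'.2, map_sub, map_sub, LinearMap.sub_apply, map_sub]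

theorem CtPair.mul (h : CtPair 𝔗 S m f D) (h' : CtPair 𝔗 S m f' D') :
    CtPair 𝔗 S m (f * f') (D * D') := by
  refine ⟨fun g x => ?_, fun y => ?_⟩
  · rw [Module.End.mul_apply, Module.End.mul_apply, h'.1, h.1]
  · rw [Module.End.mul_apply, h'.2, h.2, map_mul, map_mul, Module.End.mul_apply]

theorem CtPair.one : CtPair 𝔗 S m 1 1 :=
  ⟨fun _ _ => rfl, fun y => by rw [map_one, map_one]; rfl⟩

theorem CtPair.pow (h : CtPair 𝔗 S m f D) (j : ℕ) : CtPair 𝔗 S m (f ^ j) (D ^ j) := by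
  induction j with
  | zero => rw [pow_zero, pow_zero]; exact CtPair.one
  | succ j ih => rw [pow_succ, pow_succ]; exact ih.mul h

theorem CtPair.natSmul (h : CtPair 𝔗 S m f D) (a : ℕ) :
    CtPair 𝔗 S m ((a : ZMod (p ^ m)) • f) ((a : CuspForm.heckeAlgebra N 2 (↑S : Set ℕ)) * D) := by
  refine ⟨fun g x => ?_, fun y => ?_⟩
  · rw [LinearMap.smul_apply, LinearMap.smul_apply, h.1, ct_natCast_smul, ct_natCast_smul, map_nsmul]
  · rw [LinearMap.smul_apply, h.2, ct_natCast_smul, map_mul, map_mul, map_natCast, map_natCast,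
      Module.End.mul_apply, Module.End.natCast_apply, map_nsmul]

end pair

/-- the `𝔪`-primary part: the span of the Galois translates of `ι (E H)`. -/
noncomputable def ctX (𝔗 : Tower p N) (S : Finset ℕ) (m : ℕ) (E : CuspForm.heckeAlgebra N 2 (↑S : Set ℕ)) :
    Submodule (ZMod (p ^ m)) (𝔗.A m) :=
  Submodule.span _ {x | ∃ (g : GQ) (h : 𝔗.H),
    x = 𝔗.act m g (𝔗.ι m (𝔗.actH (heckeInc N S E) h))}

theorem ctX_stable (𝔗 : Tower p N) (m : ℕ) (E : CuspForm.heckeAlgebra N 2 (↑S : Set ℕ)) (g : GQ)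
    (x : 𝔗.A m) (hx : x ∈ ctX 𝔗 S m E) : ctR 𝔗 m g x ∈ ctX 𝔗 S m E := by
  have : ctX 𝔗 S m E ≤ (ctX 𝔗 S m E).comap (ctR 𝔗 m g) := by
    refine Submodule.span_le.mpr ?_
    rintro x ⟨g', h, rfl⟩
    refine Submodule.subset_span ⟨g * g', h, ?_⟩
    rw [ctR_apply, map_mul]; rfl
  exact this hx

section pair2

variable {𝔗 : Tower p N} {m : ℕ} {f : Module.End (ZMod (p ^ m)) (𝔗.A m)}
  {D E : CuspForm.heckeAlgebra N 2 (↑S : Set ℕ)}

theorem CtPair.eq_zero_on (hf : CtPair 𝔗 S m f D)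
    (hDE : ∀ h, ∃ h', 𝔗.actH (heckeInc N S (D * E)) h = (p ^ m) • h') :
    ∀ x ∈ ctX 𝔗 S m E, f x = 0 := by
  have : ctX 𝔗 S m E ≤ LinearMap.ker f := by
    refine Submodule.span_le.mpr ?_
    rintro x ⟨g, h, rfl⟩
    change f _ = 0
    obtain ⟨h', hh'⟩ := hDE h
    rw [hf.1, hf.2, ← Module.End.mul_apply, ← map_mul, ← map_mul, hh', map_nsmul, 𝔗.pow_smul,
      map_zero]
  exact fun x hx => this hx

theorem CtPair.dvd_of_zero (hf : CtPair 𝔗 S m f D) (h0 : ∀ x ∈ ctX 𝔗 S m E, f x = 0) :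
    ∀ h, ∃ h', 𝔗.actH (heckeInc N S (D * E)) h = (p ^ m) • h' := by
  intro h
  apply 𝔗.ι_ker m
  rw [map_mul, map_mul, Module.End.mul_apply, ← hf.2]
  apply h0
  exact Submodule.subset_span ⟨1, h, by rw [map_one]; rfl⟩

end pair2

/-- the relation between operators on the tower and elements of `T` modulo `𝔪 ^ n`. -/
def CtRel (𝔗 : Tower p N) (H : CuspForm.HeckeGaloisRepDatum N (↑S : Set ℕ) 𝒪 θ T) (n m : ℕ)
    (f : Module.End (ZMod (p ^ m)) (𝔗.A m)) (t : T) : Prop :=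
  ∃ D, CtPair 𝔗 S m f D ∧ t - H.π D ∈ maximalIdeal T ^ n

section rel

variable {𝔗 : Tower p N} {H : CuspForm.HeckeGaloisRepDatum N (↑S : Set ℕ) 𝒪 θ T} {n m : ℕ}
  {f f' : Module.End (ZMod (p ^ m)) (𝔗.A m)} {t t' : T}

theorem CtRel.add (h : CtRel 𝔗 H n m f t) (h' : CtRel 𝔗 H n m f' t') :
    CtRel 𝔗 H n m (f + f') (t + t') := by
  obtain ⟨D, hD, ht⟩ := h
  obtain ⟨D', hD', ht'⟩ := h'
  refine ⟨D + D', hD.add hD', ?_⟩
  have : t + t' - H.π (D + D') = (t - H.π D) + (t' - H.π D') := by rw [map_add]; ring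
  rw [this]; exact add_mem ht ht'

theorem CtRel.sub (h : CtRel 𝔗 H n m f t) (h' : CtRel 𝔗 H n m f' t') :
    CtRel 𝔗 H n m (f - f') (t - t') := by
  obtain ⟨D, hD, ht⟩ := h
  obtain ⟨D', hD', ht'⟩ := h'
  refine ⟨D - D', hD.sub hD', ?_⟩
  have : t - t' - H.π (D - D') = (t - H.π D) - (t' - H.π D') := by rw [map_sub]; ring
  rw [this]; exact sub_mem ht ht'

theorem CtRel.mul (h : CtRel 𝔗 H n m f t) (h' : CtRel 𝔗 H n m f' t') :
    CtRel 𝔗 H n m (f * f') (t * t') := by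
  obtain ⟨D, hD, ht⟩ := h
  obtain ⟨D', hD', ht'⟩ := h'
  refine ⟨D * D', hD.mul hD', ?_⟩
  have : t * t' - H.π (D * D') = (t - H.π D) * t' + H.π D * (t' - H.π D') := by rw [map_mul]; ring
  rw [this]; exact add_mem (Ideal.mul_mem_right _ _ ht) (Ideal.mul_mem_left _ _ ht')

theorem CtRel.one : CtRel 𝔗 H n m 1 1 :=
  ⟨1, CtPair.one, by rw [map_one, sub_self]; exact zero_mem _⟩

theorem CtRel.pow (h : CtRel 𝔗 H n m f t) (j : ℕ) : CtRel 𝔗 H n m (f ^ j) (t ^ j) := by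
  induction j with
  | zero => rw [pow_zero, pow_zero]; exact CtRel.one
  | succ j ih => rw [pow_succ, pow_succ]; exact ih.mul h

theorem CtRel.natSmul (h : CtRel 𝔗 H n m f t) (a : ℕ) (e : T) (he : e - (a : T) ∈ maximalIdeal T ^ n) :
    CtRel 𝔗 H n m ((a : ZMod (p ^ m)) • f) (e * t) := by
  obtain ⟨D, hD, ht⟩ := h
  refine ⟨_, hD.natSmul a, ?_⟩
  have : e * t - H.π ((a : CuspForm.heckeAlgebra N 2 (↑S : Set ℕ)) * D) =
      (e - (a : T)) * t + (a : T) * (t - H.π D) := by rw [map_mul, map_natCast]; ring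
  rw [this]; exact add_mem (Ideal.mul_mem_right _ _ he) (Ideal.mul_mem_left _ _ ht)

theorem CtRel.smul [NeZero (p ^ m)] (h : CtRel 𝔗 H n m f t) (z : ZMod (p ^ m)) (e : T)
    (he : e - (z.val : T) ∈ maximalIdeal T ^ n) : CtRel 𝔗 H n m (z • f) (e * t) := by
  have := h.natSmul z.val e he
  rwa [ZMod.natCast_zmod_val] at this

end rel

/-- the context: `E`, `j` from CE, saturation, exponent of the residue field. -/
structure CtCtx (𝔗 : Tower p N) (H : CuspForm.HeckeGaloisRepDatum N (↑S : Set ℕ) 𝒪 θ T) (n m : ℕ)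
    (E : CuspForm.heckeAlgebra N 2 (↑S : Set ℕ)) (j e : ℕ) : Prop where
  hn : n ≠ 0
  hE : H.π E - 1 ∈ maximalIdeal T
  hEj : ∀ D, H.π D ∈ maximalIdeal T → ∀ h, ∃ h', 𝔗.actH (heckeInc N S (D ^ j * E)) h = (p ^ m) • h'
  hsat : ∀ r, (∀ h, ∃ h', 𝔗.actH (heckeInc N S r) h = (p ^ m) • h') → H.π r ∈ maximalIdeal T ^ n
  he : 0 < e
  hek : ∀ t : T, IsUnit t → t ^ e - 1 ∈ maximalIdeal T

section ctx

variable {𝔗 : Tower p N} {H : CuspForm.HeckeGaloisRepDatum N (↑S : Set ℕ) 𝒪 θ T} {n m : ℕ}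
  {E : CuspForm.heckeAlgebra N 2 (↑S : Set ℕ)} {j e : ℕ}
  {f : Module.End (ZMod (p ^ m)) (𝔗.A m)} {t : T}

theorem CtCtx.pow_le (C : CtCtx 𝔗 H n m E j e) : maximalIdeal T ^ n ≤ maximalIdeal T :=
  Ideal.pow_le_self C.hn

/-- TRANSFER. -/
theorem CtCtx.mem_of_zero (C : CtCtx 𝔗 H n m E j e) (h : CtRel 𝔗 H n m f t)
    (h0 : ∀ x ∈ ctX 𝔗 S m E, f x = 0) : t ∈ maximalIdeal T ^ n := by
  obtain ⟨D, hD, ht⟩ := h
  have h1 := C.hsat _ (hD.dvd_of_zero h0)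
  have hEu : IsUnit (H.π E) := by
    have := IsLocalRing.isUnit_one_sub_self_of_mem_nonunits _ (neg_mem C.hE)
    rwa [show 1 - -(H.π E - 1) = H.π E by ring] at this
  rw [map_mul, mul_comm, Ideal.unit_mul_mem_iff_mem _ hEu] at h1
  have : t = (t - H.π D) + H.π D := by ring
  rw [this]; exact add_mem ht h1

/-- NIL. -/
theorem CtCtx.nil (C : CtCtx 𝔗 H n m E j e) (h : CtRel 𝔗 H n m f t) (ht : t ∈ maximalIdeal T) :
    ∀ x ∈ ctX 𝔗 S m E, (f ^ j) x = 0 := by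
  obtain ⟨D, hD, htD⟩ := h
  have h1 : H.π D ∈ maximalIdeal T := by
    have : H.π D = t - (t - H.π D) := by ring
    rw [this]; exact sub_mem ht (C.pow_le htD)
  exact (hD.pow j).eq_zero_on (C.hEj D h1)

/-- [P]. -/
theorem CtCtx.mem_of_ker (C : CtCtx 𝔗 H n m E j e) (h : CtRel 𝔗 H n m f t) (x : 𝔗.A m)
    (hx : x ∈ ctX 𝔗 S m E) (hx0 : x ≠ 0) (hfx : f x = 0) : t ∈ maximalIdeal T := by
  by_contra ht
  have htu : IsUnit t := by
    by_contra h'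
    exact ht ((IsLocalRing.mem_maximalIdeal t).mpr h')
  have h1 : CtRel 𝔗 H n m (f ^ e - 1) (t ^ e - 1) := (h.pow e).sub CtRel.one
  have h2 := C.nil h1 (C.hek t htu) x hx
  have h3 : (f ^ e - 1) x = -x := by
    obtain ⟨e', rfl⟩ : ∃ e', e = e' + 1 := ⟨e - 1, (Nat.sub_add_cancel C.he).symm⟩
    rw [LinearMap.sub_apply, pow_succ, Module.End.mul_apply, hfx, map_zero, Module.End.one_apply,
      zero_sub]
  have h4 : ∀ i : ℕ, ((f ^ e - 1) ^ i) x = 0 → x = 0 := by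
    intro i
    induction i with
    | zero => intro h; simpa using h
    | succ i ih =>
      intro h
      rw [pow_succ, Module.End.mul_apply, h3, map_neg, neg_eq_zero] at h
      exact ih h
  exact hx0 (h4 j h2)

end ctx

/-- `t(g)` is related to the trace of `ρ g`. -/
theorem ct_rel_t (hp : p.Prime) (𝔗 : Tower p N) (hpS : p ∈ S)
    (hNS : ∀ q : ℕ, q.Prime → q ∣ N → q ∈ S)
    (H : CuspForm.HeckeGaloisRepDatum N (↑S : Set ℕ) 𝒪 θ T) (n : ℕ) {m : ℕ} [NeZero (p ^ m)]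
    {ζ : Qb} (hζ : IsPrimitiveRoot ζ (p ^ m)) (g : GQ) :
    CtRel 𝔗 H n m (tOp (ctR 𝔗 m) (hζ.autToPow ℚ) g) (LinearMap.trace T H.ρ.V (H.ρ.ρ g)) := by
  classical
  obtain ⟨L₁, hL₁, ha⟩ := H.ρ.isAdicContinuous n
  obtain ⟨L₂, hL₂, hb⟩ := 𝔗.exists_field_fixing_hom m (𝔗.ι m)
  obtain ⟨L₃, hL₃, hc⟩ := 𝔗.exists_field_fixing_hom m ((𝔗.act m g⁻¹).comp (𝔗.ι m))
  have hζi : IsIntegral ℚ ζ := ((AlgebraicClosure.isAlgebraic ℚ).isAlgebraic ζ).isIntegral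
  have : FiniteDimensional ℚ (IntermediateField.adjoin ℚ {ζ}) :=
    IntermediateField.adjoin.finiteDimensional hζi
  let L : IntermediateField ℚ Qb := L₁ ⊔ L₂ ⊔ L₃ ⊔ IntermediateField.adjoin ℚ {ζ}
  have : FiniteDimensional ℚ L := inferInstance
  have hL1 : L₁ ≤ L := le_sup_left.trans (le_sup_left.trans le_sup_left)
  have hL2 : L₂ ≤ L := le_sup_right.trans (le_sup_left.trans le_sup_left)
  have hL3 : L₃ ≤ L := le_sup_right.trans le_sup_left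
  have hζL : ζ ∈ L :=
    (le_sup_right : IntermediateField.adjoin ℚ {ζ} ≤ L) (IntermediateField.mem_adjoin_simple_self ℚ ζ)
  obtain ⟨D, a, ht, hζa, hr⟩ := tri_half hp 𝔗 hpS hNS H n m L g ζ hζ.pow_eq_one hζL
    (fun ε hε => ha ε fun x hx => hε x (hL1 hx)) (fun ε hε => hb ε fun x hx => hε x (hL2 hx))
    (fun ε hε => hc ε fun x hx => hε x (hL3 hx))
  refine ⟨D, ⟨fun g' x => ct_central hp 𝔗 hζ g g' x, fun h => ?_⟩, ht⟩
  rw [ct_tOp_apply 𝔗 hζ g a hζa]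
  have h1 := hr h
  have h2 : 𝔗.act m g (𝔗.ι m h) + a • 𝔗.act m g⁻¹ (𝔗.ι m h)
      - 𝔗.ι m (𝔗.actH (heckeInc N S D) h) = 0 := by
    rw [← h1]; abel
  exact sub_eq_zero.mp h2

/-- saturation, in terms of `T`. -/
theorem ct_sat (hp : p.Prime) (𝔗 : Tower p N) (hp𝒪 : (p : 𝒪) ∈ IsLocalRing.maximalIdeal 𝒪)
    (H : CuspForm.HeckeGaloisRepDatum N (↑S : Set ℕ) 𝒪 θ T) :
    ∃ c : ℕ, ∀ (n : ℕ) (r : CuspForm.heckeAlgebra N 2 (↑S : Set ℕ)),
      (∀ h, ∃ h', 𝔗.actH (heckeInc N S r) h = (p ^ (n + c)) • h') → H.π r ∈ maximalIdeal T ^ n := by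
  obtain ⟨c, e, he, hsat⟩ := exists_saturation_bound (𝔗.actH.comp (heckeInc N S))
    (𝔗.actH_inj.comp (heckeInc_injective N S)) p hp
  refine ⟨c, fun n r hr => ?_⟩
  obtain ⟨r', hr'⟩ := hsat n r hr
  have hpT : (p : T) ∈ maximalIdeal T := S34.natCast_mem_maximalIdeal hp𝒪
  have heT : IsUnit (e : T) := by
    have hpp : Prime (p : ℤ) := Nat.prime_iff_prime_int.mp hp
    obtain ⟨u, v, huv⟩ := (Prime.coprime_iff_not_dvd hpp).mpr he
    have h1 : (v : T) * (e : T) = 1 - (u : T) * (p : T) := by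
      have := congrArg (Int.cast : ℤ → T) huv
      push_cast at this
      linear_combination this
    have h2 : IsUnit ((v : T) * (e : T)) := by
      rw [h1]
      exact IsLocalRing.isUnit_one_sub_self_of_mem_nonunits _ (Ideal.mul_mem_left _ _ hpT)
    exact isUnit_of_mul_isUnit_right h2
  have h1 := congrArg H.π hr'
  rw [map_zsmul, map_zsmul, zsmul_eq_mul, zsmul_eq_mul] at h1
  rw [← Ideal.unit_mul_mem_iff_mem _ heT, h1]
  push_cast
  exact Ideal.mul_mem_right _ _ (Ideal.pow_mem_pow hpT n)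

/-- the exponent of the residue field. -/
theorem ct_exists_exp [Finite (IsLocalRing.ResidueField 𝒪)]
    (H : CuspForm.HeckeGaloisRepDatum N (↑S : Set ℕ) 𝒪 θ T) :
    ∃ e : ℕ, 0 < e ∧ ∀ t : T, IsUnit t → t ^ e - 1 ∈ maximalIdeal T := by
  have hsurj : Function.Surjective (IsLocalRing.ResidueField.map (algebraMap 𝒪 T)) := by
    intro y
    obtain ⟨x, hx⟩ := H.residue_surjective y
    exact ⟨IsLocalRing.residue 𝒪 x, hx⟩
  have hfin : Finite (IsLocalRing.ResidueField T) := Finite.of_surjective _ hsurj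
  refine ⟨Nat.card (IsLocalRing.ResidueField T)ˣ, Nat.card_pos, fun t ht => ?_⟩
  have h1 : (ht.map (IsLocalRing.residue T)).unit ^ Nat.card (IsLocalRing.ResidueField T)ˣ = 1 :=
    pow_card_eq_one'
  have h2 := congrArg (Units.val) h1
  rw [Units.val_pow_eq_pow_val, IsUnit.unit_spec, Units.val_one, ← map_pow] at h2
  rw [← IsLocalRing.residue_eq_zero_iff, map_sub, h2, map_one, sub_self]

/-- existence of a context at every level. -/
theorem ct_exists_ctx [Finite (IsLocalRing.ResidueField 𝒪)] (hp : p.Prime) (𝔗 : Tower p N)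
    (hp𝒪 : (p : 𝒪) ∈ IsLocalRing.maximalIdeal 𝒪)
    (H : CuspForm.HeckeGaloisRepDatum N (↑S : Set ℕ) 𝒪 θ T) (n : ℕ) (hn : n ≠ 0) :
    ∃ (m : ℕ) (E : CuspForm.heckeAlgebra N 2 (↑S : Set ℕ)) (j e : ℕ), n ≤ m ∧ CtCtx 𝔗 H n m E j e := by
  obtain ⟨c, hc⟩ := ct_sat hp 𝔗 hp𝒪 H
  obtain ⟨e, he, hek⟩ := ct_exists_exp H
  obtain ⟨E, j, hE, hEj⟩ := exists_E (𝔗.actH.comp (heckeInc N S)) ((maximalIdeal T).comap H.π)
    (p ^ (n + c)) (pow_pos hp.pos _)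
  refine ⟨n + c, E, j, e, Nat.le_add_right _ _, hn, ?_, fun D hD h => hEj D hD h, hc n, he, hek⟩
  have := Ideal.mem_comap.mp hE
  rwa [map_sub, map_one] at this

end Fermat.Agent.S33
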