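import Fermat.Agent.S33.A4b

/-!
# S33, piece F1 (abstract part): descent along a finite `T_p`-orbit

`T` multiplicative on `F`, commuting with the semilinear `G`.  A class `u ≡ 1`, `G`-fixed, nontrivial, has an exact
representative `1 + b e` (`hExact`, from A1 - A3).  `T (1 + b e) = 1 + b h'` with `rd h'` a `p`-th power (`hlead`), so
the level strictly decreases along the orbit, and the class of `T (1 + b e)` is again nontrivial (`hkill`).  Hence the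
orbit of a nontrivial class is infinite.
-/

set_option autoImplicit false

namespace Fermat.Agent.S33

open Fermat.Agent.S34

variable {K F k E : Type*} [Field K] [Field F] [Algebra K F] [Field k] [CommRing E] [Algebra k E]

/-- `u` has an exact representative of level `b`. -/
def F1Data (S : RedCore K F k E) (p : ℕ) (Good : K → Prop) (Reg : F → Prop) (u : F) (b : K) : Prop :=
  ∃ h e : F, Good b ∧ h ≠ 0 ∧ u * h ^ p = 1 + algebraMap K F b * e ∧ Reg e ∧ IsExact S p b e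

theorem F1Data.congr {S : RedCore K F k E} {p : ℕ} {Good : K → Prop} {Reg : F → Prop} {u : F} {b : K}
    (H : F1Data S p Good Reg u b) {v : F} (hv : v ≠ 0) : F1Data S p Good Reg (u * v ^ p) b := by
  obtain ⟨h, e, hG, h0, heq, hR, hE⟩ := H
  refine ⟨h * v⁻¹, e, hG, mul_ne_zero h0 (inv_ne_zero hv), ?_, hR, hE⟩
  rw [← heq, mul_pow, inv_pow]
  have : v ^ p ≠ 0 := pow_ne_zero p hv
  field_simp

theorem F1Data.level_unique [IsAlgClosed K] {p : ℕ} (hp : p.Prime) [CharP k p] [IsReduced E] [Nontrivial E]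
    {S : RedCore K F k E} (hkp : ∀ c : k, ∃ d : k, d ^ p = c) {Good : K → Prop} {Reg : F → Prop} {u : F}
    {b b' : K} (H : F1Data S p Good Reg u b) (H' : F1Data S p Good Reg u b') :
    S.A.valuation b = S.A.valuation b' := by
  obtain ⟨h, e, -, h0, heq, -, hE⟩ := H
  obtain ⟨h', e', -, h0', heq', -, hE'⟩ := H'
  refine hE.level_eq S hp hkp hE' (a := 1) (f := h * h'⁻¹) ?_
  rw [← heq, ← heq', map_one, one_mul, mul_pow, inv_pow]
  have : h' ^ p ≠ 0 := pow_ne_zero p h0'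
  field_simp

theorem F1_fix_congr {p : ℕ} (G : F →+* F) {u : F} (h : ∃ w, G u = u * w ^ p) {v : F} (hv : v ≠ 0) :
    ∃ w, G (u * v ^ p) = u * v ^ p * w ^ p := by
  obtain ⟨w, hw⟩ := h
  refine ⟨w * G v * v⁻¹, ?_⟩
  rw [map_mul, map_pow, hw, mul_pow, mul_pow, inv_pow]
  have : v ^ p ≠ 0 := pow_ne_zero p hv
  field_simp

theorem F1_T_ne_zero (T : F →* F) {h : F} (h0 : h ≠ 0) : T h ≠ 0 := by
  intro hT
  have : T h * T h⁻¹ = 1 := by rw [← map_mul, mul_inv_cancel₀ h0, map_one]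
  rw [hT, zero_mul] at this
  exact zero_ne_one this

/-- **the step.** -/
theorem F1_step [IsAlgClosed K] {p : ℕ} (hp : p.Prime) [CharP k p] [IsReduced E] [Nontrivial E]
    (S : RedCore K F k E) (hkp : ∀ c : k, ∃ d : k, d ^ p = c)
    (Good : K → Prop) (Reg : F → Prop) (D : F → Prop) (G : F →+* F) (T : F →* F)
    (hTG : ∀ f, G (T f) = T (G f))
    (hExact : ∀ u : F, u ∈ S.R → S.rd u = 1 → D u → (∃ w, G u = u * w ^ p) → ¬ Triv K u p →
      ∃ b, F1Data S p Good Reg u b)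
    (hDmul : ∀ u v : F, D u → v ≠ 0 → D (u * v ^ p))
    (hlead : ∀ (b : K) (e : F), S.A.valuation b < 1 → e ∈ S.R → ∃ h' g : F, h' ∈ S.R ∧ g ∈ S.R ∧
      S.rd h' = S.rd g ^ p ∧ T (1 + algebraMap K F b * e) = 1 + algebraMap K F b * h')
    (hkill : ∀ (b : K) (e : F), Good b → Reg e → IsExact S p b e → ∀ (a : K) (f : F),
      T (1 + algebraMap K F b * e) ≠ algebraMap K F a * f ^ p)
    {u u₁ v : F} {b : K} (H : F1Data S p Good Reg u b) (hfix : ∃ w, G u = u * w ^ p)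
    (hu₁ : u₁ = T u * v ^ p) (hu₁0 : u₁ ≠ 0) (hD : D u₁) :
    (∃ w, G u₁ = u₁ * w ^ p) ∧ ∃ b', F1Data S p Good Reg u₁ b' ∧ S.A.valuation b' < S.A.valuation b := by
  obtain ⟨h, e, hG, h0, heq, hR, hE⟩ := H
  have hv : v ≠ 0 := by
    rintro rfl
    rw [zero_pow hp.ne_zero, mul_zero] at hu₁
    exact hu₁0 hu₁
  have hfixT : ∃ w, G (T u) = T u * w ^ p := by
    obtain ⟨w, hw⟩ := hfix
    exact ⟨T w, by rw [hTG, hw, map_mul, map_pow]⟩
  have hfix₁ : ∃ w, G u₁ = u₁ * w ^ p := by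
    rw [hu₁]; exact F1_fix_congr G hfixT hv
  refine ⟨hfix₁, ?_⟩
  obtain ⟨h', g, hh', hg, hrd, hT⟩ := hlead b e hE.lt_one hE.mem
  have hTh : T h ≠ 0 := F1_T_ne_zero T h0
  have hz : T h * v⁻¹ ≠ 0 := mul_ne_zero hTh (inv_ne_zero hv)
  have hvp : v ^ p ≠ 0 := pow_ne_zero p hv
  -- the representative `1 + b h'` of `u₁`
  have hrep : u₁ * (T h * v⁻¹) ^ p = 1 + algebraMap K F b * h' := by
    rw [← hT, ← heq, map_mul, map_pow, hu₁, mul_pow, inv_pow]
    field_simp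
  have hsm := A4.small_mul S hE.lt_one hh'
  have hmem : u₁ * (T h * v⁻¹) ^ p ∈ S.R := by rw [hrep]; exact add_mem (one_mem _) hsm.1
  have hrd1 : S.rd (u₁ * (T h * v⁻¹) ^ p) = 1 := by
    rw [hrep, S.rd_add (one_mem _) hsm.1, S.rd_one, hsm.2, add_zero]
  have hnt : ¬ Triv K (u₁ * (T h * v⁻¹) ^ p) p := by
    rintro ⟨f, f0, a, hf⟩
    apply hkill b e hG hR hE a f⁻¹
    rw [hT, ← hrep, ← hf, inv_pow, mul_assoc _ (f ^ p), mul_inv_cancel₀ (pow_ne_zero p f0), mul_one]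
  obtain ⟨b', Hb'⟩ := hExact _ hmem hrd1 (hDmul _ _ hD hz) (F1_fix_congr G hfix₁ hz) hnt
  refine ⟨b', ?_, ?_⟩
  · have := Hb'.congr (inv_ne_zero hz)
    rwa [inv_pow, mul_assoc, mul_inv_cancel₀ (pow_ne_zero p hz), mul_one] at this
  · obtain ⟨h₁, e₁, -, -, heq₁, -, hE₁⟩ := Hb'
    refine hE₁.level_lt S hp hkp hE.lt_one hE.gt hh' hg hrd (a := 1) (f := h₁) ?_
    rw [← heq₁, hrep, map_one, one_mul]

/-- **F1, abstract form.** -/
theorem F1_abs [IsAlgClosed K] {p : ℕ} (hp : p.Prime) [CharP k p] [IsReduced E] [Nontrivial E]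
    (S : RedCore K F k E) (hkp : ∀ c : k, ∃ d : k, d ^ p = c)
    (Good : K → Prop) (Reg : F → Prop) (D : F → Prop) (G : F →+* F) (T : F →* F)
    (hTG : ∀ f, G (T f) = T (G f))
    (hExact : ∀ u : F, u ∈ S.R → S.rd u = 1 → D u → (∃ w, G u = u * w ^ p) → ¬ Triv K u p →
      ∃ b, F1Data S p Good Reg u b)
    (hDmul : ∀ u v : F, D u → v ≠ 0 → D (u * v ^ p))
    (hlead : ∀ (b : K) (e : F), S.A.valuation b < 1 → e ∈ S.R → ∃ h' g : F, h' ∈ S.R ∧ g ∈ S.R ∧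
      S.rd h' = S.rd g ^ p ∧ T (1 + algebraMap K F b * e) = 1 + algebraMap K F b * h')
    (hkill : ∀ (b : K) (e : F), Good b → Reg e → IsExact S p b e → ∀ (a : K) (f : F),
      T (1 + algebraMap K F b * e) ≠ algebraMap K F a * f ^ p)
    (s : ℕ → F) (hs0 : ∀ i, s i ≠ 0) (hsD : ∀ i, D (s i)) (hsT : ∀ i, ∃ v, s (i + 1) = T (s i) * v ^ p)
    (hper : ∃ i j, i < j ∧ ∃ v, s j = s i * v ^ p)
    (hrep : ∃ v, v ≠ 0 ∧ s 0 * v ^ p ∈ S.R ∧ S.rd (s 0 * v ^ p) = 1)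
    (hfix : ∃ w, G (s 0) = s 0 * w ^ p) : ∃ v, s 0 = v ^ p := by
  by_contra hcon
  have hnt : ¬ Triv K (s 0) p := by
    rintro ⟨h, h0, c, hc⟩
    obtain ⟨α, hα⟩ := A4b_root hp c
    apply hcon
    refine ⟨algebraMap K F α * h⁻¹, ?_⟩
    rw [mul_pow, ← map_pow, hα, ← hc, inv_pow, mul_assoc, mul_inv_cancel₀ (pow_ne_zero p h0), mul_one]
  obtain ⟨v₀, hv₀, hm, hr⟩ := hrep
  have hnt' : ¬ Triv K (s 0 * v₀ ^ p) p := by
    rintro ⟨h, h0, c, hc⟩
    exact hnt ⟨v₀ * h, mul_ne_zero hv₀ h0, c, by rw [mul_pow, ← mul_assoc, hc]⟩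
  obtain ⟨b₀, Hb₀⟩ := hExact _ hm hr (hDmul _ _ (hsD 0) hv₀) (F1_fix_congr G hfix hv₀) hnt'
  have H0 : F1Data S p Good Reg (s 0) b₀ := by
    have := Hb₀.congr (inv_ne_zero hv₀)
    rwa [inv_pow, mul_assoc, mul_inv_cancel₀ (pow_ne_zero p hv₀), mul_one] at this
  have hall : ∀ i, (∃ w, G (s i) = s i * w ^ p) ∧ ∃ b, F1Data S p Good Reg (s i) b := by
    intro i
    induction i with
    | zero => exact ⟨hfix, b₀, H0⟩
    | succ i ih =>
      obtain ⟨hf, b, Hb⟩ := ih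
      obtain ⟨v, hv⟩ := hsT i
      obtain ⟨hf', b', Hb', -⟩ := F1_step hp S hkp Good Reg D G T hTG hExact hDmul hlead hkill Hb hf hv
        (hs0 _) (hsD _)
      exact ⟨hf', b', Hb'⟩
  choose hf bb Hbb using hall
  have hanti : StrictAnti fun i => S.A.valuation (bb i) := by
    refine strictAnti_nat_of_succ_lt fun i => ?_
    obtain ⟨v, hv⟩ := hsT i
    obtain ⟨-, b', Hb', hlt⟩ := F1_step hp S hkp Good Reg D G T hTG hExact hDmul hlead hkill (Hbb i) (hf i) hv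
      (hs0 _) (hsD _)
    rw [(Hbb (i + 1)).level_unique hp hkp Hb']
    exact hlt
  obtain ⟨i, j, hij, v, hv⟩ := hper
  have hv0 : v ≠ 0 := by
    rintro rfl
    rw [zero_pow hp.ne_zero, mul_zero] at hv
    exact hs0 j hv
  have h1 : F1Data S p Good Reg (s j) (bb i) := by rw [hv]; exact (Hbb i).congr hv0
  have h2 := (Hbb j).level_unique hp hkp h1
  exact absurd h2 (hanti hij).ne

end Fermat.Agent.S33
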