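import Fermat.Agent.S18.Sep
import Fermat.Agent.S24.TowerDegree

/-!
# S33, piece L4 (EP): `E ∩ k((t^p)) = E^p` for `E = k(X₀(M))`, `char k = p ∤ M`

Abstract form: `k` perfect of characteristic `ℓ`, `E / k(x)` algebraic, `D` a `k`-derivation of `E` with `D x ≠ 0`.
Then `D f = 0 ⟹ f ∈ E^ℓ`.
-/

set_option autoImplicit false

namespace Fermat.Agent.S33

open IntermediateField Polynomial ModularCurve Fermat.Agent.S18 Fermat.Agent.S24

section Abstract

variable {k E M : Type*} [Field k] [Field E] [Algebra k E] [AddCommGroup M] [Module k M]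
  [Module E M] (D : Derivation k E M) {x : E}

theorem ep_abstract [PerfectField k] (hx : D x ≠ 0) [Algebra.IsAlgebraic k⟮x⟯ E]
    (ℓ : ℕ) [Fact ℓ.Prime] [CharP k ℓ] (f : E) (hf : D f = 0) : ∃ r : E, r ^ ℓ = f := by
  have hℓ : ℓ.Prime := Fact.out
  have hsep : Algebra.IsSeparable k⟮x⟯ E := sep_abstract D hx
  have hcharK : CharP k⟮x⟯ ℓ := charP_of_injective_algebraMap (algebraMap k k⟮x⟯).injective ℓ
  have hcharE : CharP E ℓ := charP_of_injective_algebraMap (algebraMap k E).injective ℓ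
  have hexp : ExpChar k⟮x⟯ ℓ := ExpChar.prime hℓ
  have h1 : k⟮x⟯⟮f⟯ = k⟮x⟯⟮f ^ ℓ⟯ :=
    adjoin_simple_eq_adjoin_pow_expChar_of_isSeparable' k⟮x⟯ E f ℓ
  obtain ⟨g, hg⟩ : ∃ g, g = f ^ ℓ := ⟨_, rfl⟩
  rw [← hg] at h1
  have hgint : IsIntegral k⟮x⟯ g := (Algebra.IsAlgebraic.isAlgebraic g).isIntegral
  have hDg : D g = 0 := by
    rw [hg, Derivation.leibniz_pow, hf, smul_zero, smul_zero]
  have hDgi : ∀ i : ℕ, D (g ^ i) = 0 := fun i => by
    rw [Derivation.leibniz_pow, hDg, smul_zero, smul_zero]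
  have hfmem : f ∈ k⟮x⟯⟮g⟯ := h1 ▸ mem_adjoin_simple_self k⟮x⟯ f
  -- `f = P₀(g)`
  obtain ⟨P₀, hP₀⟩ : ∃ P₀ : (k⟮x⟯)[X], aeval g P₀ = f := by
    have h2 : f ∈ (k⟮x⟯⟮g⟯).toSubalgebra := hfmem
    rw [adjoin_simple_toSubalgebra_of_isAlgebraic hgint.isAlgebraic,
      Algebra.adjoin_singleton_eq_range_aeval] at h2
    exact h2
  obtain ⟨m, hm⟩ : ∃ m, m = minpoly k⟮x⟯ g := ⟨_, rfl⟩
  have hmm : m.Monic := hm ▸ minpoly.monic hgint
  obtain ⟨P, hP⟩ : ∃ P, P = P₀ %ₘ m := ⟨_, rfl⟩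
  have hPf : aeval g P = f := by
    have h3 := modByMonic_add_div P₀ m
    have h4 := congrArg (aeval g) h3
    rw [map_add, map_mul, hm, minpoly.aeval, zero_mul, add_zero, ← hm, ← hP] at h4
    rw [h4, hP₀]
  have hPdeg : P.degree < m.degree := hP ▸ degree_modByMonic_lt _ hmm
  choose δ hδmem hδ using fun c : k⟮x⟯ => sep_exists_delta D (c : E) c.2
  let Q : (k⟮x⟯)[X] := ∑ i ∈ Finset.range (P.natDegree + 1),
    monomial i (⟨δ (P.coeff i), hδmem _⟩ : k⟮x⟯)
  have hQ : aeval g Q • D x = 0 := by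
    have h0 : D (aeval g P) = 0 := by rw [hPf, hf]
    rw [aeval_eq_sum_range, map_sum] at h0
    rw [← h0, map_sum, Finset.sum_smul]
    refine Finset.sum_congr rfl fun i _ => ?_
    rw [aeval_monomial, Algebra.smul_def, Derivation.leibniz, hDgi, smul_zero, zero_add]
    show (δ (P.coeff i) * g ^ i) • D x = g ^ i • D ((P.coeff i : k⟮x⟯) : E)
    rw [hδ, smul_smul, mul_comm]
  have hQ0 : aeval g Q = 0 := (smul_eq_zero.mp hQ).resolve_right hx
  have hQcoeff : ∀ i, Q.coeff i = (⟨δ (P.coeff i), hδmem _⟩ : k⟮x⟯) ∨ (Q.coeff i = 0 ∧ P.coeff i = 0) := by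
    intro i
    by_cases hi : i < P.natDegree + 1
    · left
      rw [finsetSum_coeff, Finset.sum_eq_single i]
      · rw [coeff_monomial, if_pos rfl]
      · intro j _ hj
        rw [coeff_monomial, if_neg hj]
      · intro h
        exact absurd (Finset.mem_range.mpr hi) h
    · right
      refine ⟨?_, coeff_eq_zero_of_natDegree_lt (by omega)⟩
      rw [finsetSum_coeff]
      refine Finset.sum_eq_zero fun j hj => ?_
      rw [coeff_monomial, if_neg]
      have := Finset.mem_range.mp hj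
      omega
  have hQz : Q = 0 := by
    by_contra hne
    have h5 := minpoly.degree_le_of_ne_zero k⟮x⟯ g hne hQ0
    rw [← hm] at h5
    have h6 : Q.degree ≤ P.degree := by
      rw [degree_le_iff_coeff_zero]
      intro j hj
      have hPj : P.coeff j = 0 := coeff_eq_zero_of_degree_lt hj
      rcases hQcoeff j with h | h
      · rw [h]
        apply Subtype.ext
        show δ (P.coeff j) = 0
        have h7 := hδ (P.coeff j)
        rw [hPj] at h7 ⊢
        have h8 : D ((0 : k⟮x⟯) : E) = 0 := map_zero D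
        rw [h8] at h7
        exact (smul_eq_zero.mp h7.symm).resolve_right hx
      · exact h.1
    exact absurd (lt_of_le_of_lt (h5.trans h6) hPdeg) (lt_irrefl _)
  have hDcoeff : ∀ i, D ((P.coeff i : k⟮x⟯) : E) = 0 := by
    intro i
    rcases hQcoeff i with h | h
    · rw [hQz, coeff_zero] at h
      have h2 : δ (P.coeff i) = 0 := (congrArg (fun c : k⟮x⟯ => (c : E)) h).symm
      rw [hδ, h2, zero_smul]
    · rw [h.2]
      exact map_zero D
  choose r hr hr2 using fun i => sep_exists_root D hx ℓ _ (P.coeff i).2 (hDcoeff i)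
  refine ⟨∑ i ∈ Finset.range (P.natDegree + 1), r i * f ^ i, ?_⟩
  rw [sum_pow_char]
  conv_rhs => rw [← hPf, aeval_eq_sum_range]
  refine Finset.sum_congr rfl fun i _ => ?_
  rw [mul_pow, hr2, Algebra.smul_def, hg, ← pow_mul, ← pow_mul, mul_comm i ℓ]
  rfl

end Abstract

/-- `θ f = 0` iff `f ∈ k((t^p))`. -/
theorem sepTheta_eq_zero_iff {k : Type*} [Field k] (p : ℕ) [CharP k p] (f : LaurentSeries k) :
    sepTheta f = 0 ↔ ∀ n : ℤ, ¬ (p : ℤ) ∣ n → f.coeff n = 0 := by
  constructor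
  · intro h n hn
    have h1 : (sepTheta f).coeff n = 0 := by rw [h, HahnSeries.coeff_zero]
    rw [sepTheta_coeff] at h1
    refine (mul_eq_zero.mp h1).resolve_left fun h2 => hn ?_
    exact (CharP.intCast_eq_zero_iff k p n).mp h2
  · intro h
    ext n
    rw [sepTheta_coeff, HahnSeries.coeff_zero]
    by_cases hn : (p : ℤ) ∣ n
    · rw [(CharP.intCast_eq_zero_iff k p n).mpr hn, zero_mul]
    · rw [h n hn, mul_zero]

/-- a `p`-th power lies in `k((t^p))`. -/
theorem coeff_pow_char_eq_zero {k : Type*} [Field k] (p : ℕ) [CharP k p] (r : LaurentSeries k)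
    (n : ℤ) (hn : ¬ (p : ℤ) ∣ n) : (r ^ p).coeff n = 0 := by
  refine (sepTheta_eq_zero_iff p (r ^ p)).mp ?_ n hn
  have h1 : sepD (k := k) (r ^ p) = 0 := by
    rw [Derivation.leibniz_pow, ← Nat.cast_smul_eq_nsmul k, CharP.cast_eq_zero k p, zero_smul]
  exact h1

/-- **L4 (EP).** `E ∩ k((t^p)) = E^p` for `E = k(X₀(M))`, `k` algebraically closed of characteristic `p ∤ M`. -/
theorem ep_of_coeff {k : Type} [Field k] [IsAlgClosed k] (p : ℕ) [Fact p.Prime] [CharP k p]
    (M : ℕ) (hM : (M : k) ≠ 0) {f : LaurentSeries k} (hf : f ∈ modularFunctionFieldFullC k M)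
    (h : ∀ n : ℤ, ¬ (p : ℤ) ∣ n → f.coeff n = 0) :
    ∃ r ∈ modularFunctionFieldFullC k M, f = r ^ p := by
  have hfin := (finrank_modularFunctionFieldFullC k M hM).1
  have halg : Algebra.IsAlgebraic k⟮jFullC k M⟯ (modularFunctionFieldFullC k M) :=
    Algebra.IsAlgebraic.of_finite _ _
  let D : Derivation k (modularFunctionFieldFullC k M) (LaurentSeries k) :=
    (sepD (k := k)).compAlgebraMap (modularFunctionFieldFullC k M)
  have hx : D (jFullC k M) ≠ 0 := by
    intro h0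
    have h1 : (sepTheta (jqModC k)).coeff (-1) = 0 := by
      have : sepTheta (jqModC k) = 0 := h0
      rw [this, HahnSeries.coeff_zero]
    rw [sepTheta_coeff, coeff_jqModC_neg_one] at h1
    simp at h1
  have hDf : D ⟨f, hf⟩ = 0 := (sepTheta_eq_zero_iff p f).mpr h
  obtain ⟨r, hr⟩ := ep_abstract D hx p ⟨f, hf⟩ hDf
  exact ⟨r, r.2, (congrArg (fun z : modularFunctionFieldFullC k M => (z : LaurentSeries k)) hr).symm⟩

/-- `f ∈ E` is a `p`-th power in `E` iff it lies in `k((t^p))`. -/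
theorem ep_iff {k : Type} [Field k] [IsAlgClosed k] (p : ℕ) [Fact p.Prime] [CharP k p]
    (M : ℕ) (hM : (M : k) ≠ 0) {f : LaurentSeries k} (hf : f ∈ modularFunctionFieldFullC k M) :
    (∃ r ∈ modularFunctionFieldFullC k M, f = r ^ p) ↔ ∀ n : ℤ, ¬ (p : ℤ) ∣ n → f.coeff n = 0 :=
  ⟨fun ⟨r, _, hr⟩ n hn => hr ▸ coeff_pow_char_eq_zero p r n hn, ep_of_coeff p M hM hf⟩

end Fermat.Agent.S33
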