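import Fermat.Agent.S33.L3M
import Fermat.Agent.S33.L4
import Fermat.Agent.S33.ModDefs
import Fermat.Agent.S37.MopMem
import Fermat.Agent.S34.Gauss2Gal

/-!
# S33, piece F1T: the `T_p`-part of F1 on series (level `M`, `p ∤ M`, Gauss setting)
-/

set_option autoImplicit false

namespace Fermat.Agent.S33

open ModularCurve AlgebraicCurve HahnSeries Fermat.Agent.S24 Fermat.Agent.S28 Fermat.Agent.S18
  Fermat.Agent.GR Fermat.Agent.S34 Fermat.Agent.S35 Fermat.Agent.S28.Core

/-- (INT_rd) -/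
theorem F1T_rd (A : ValuationSubring Kb) (M : ℕ) [NeZero M] (hN : (M : kA A) ≠ 0) (f : FN M)
    (Y : LaurentSeries A) (h : (f : LaurentSeries Kb) = coeffMap A.subtype Y) :
    f ∈ (gaussSetting A M hN).V ∧
      (((gaussSetting A M hN).rd f : modularFunctionFieldFullC (kA A) M) : LaurentSeries (kA A)) =
        coeffMap (IsLocalRing.residue A) Y := by
  have hS := isGauss_gaussSetting A M hN
  have h1 : coeffMap (IsLocalRing.residue A) (1 : LaurentSeries A) ≠ 0 := by
    rw [map_one]; exact one_ne_zero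
  have h2 : (f : LaurentSeries Kb) * coeffMap A.subtype (1 : LaurentSeries A) =
      coeffMap A.subtype Y := by rw [map_one, mul_one, h]
  refine ⟨(hS.mem_iff f).2 ⟨Y, 1, h1, h2⟩, ?_⟩
  have := hS.rd_mul f Y 1 h1 h2
  rwa [map_one, mul_one] at this

/-- the formal identity behind F1T (i). -/
theorem F1T_formal {B : Type*} [CommRing B] [IsDomain B] {p : ℕ} [NeZero p] (hp : p.Prime) {z : Bˣ}
    (hz : IsPrimitiveRoot z p) (b : B) (Y : LaurentSeries B) :
    ∃ X1 X2 : LaurentSeries B, Mop z p (1 + C b * Y) =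
      1 + C b * (qExpand B p Y + C (b ^ (p - 1)) * X1 + C (p : B) * X2) := by
  obtain ⟨X, hX⟩ := UU_one_add hp hz b Y
  refine ⟨UU z p Y * (1 + C b * qExpand B p Y), X * (1 + C b * qExpand B p Y), ?_⟩
  have h1 : Mop z p (1 + C b * Y) = qExpand B p (1 + C b * Y) * UU z p (1 + C b * Y) := rfl
  have hbp : b ^ p = b * b ^ (p - 1) := by
    rw [← pow_succ', Nat.sub_add_cancel hp.one_le]
  rw [h1, hX, map_add, map_one, map_mul, qExpand_C, hbp]
  simp only [map_mul]
  ring

theorem F1T_unit {p : ℕ} [NeZero p] (A : ValuationSubring Kb) {ζ : Kbˣ} (hζ : IsPrimitiveRoot ζ p) :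
    ∃ z : Aˣ, Units.map (A.subtype : A →* Kb) z = ζ ∧ IsPrimitiveRoot z p := by
  obtain ⟨z, hz, -⟩ := exists_unit_of_pow_eq_one (A := A) (NeZero.ne p) ζ hζ.pow_eq_one
  refine ⟨z, hz, ?_⟩
  have hinj : Function.Injective (Units.map (A.subtype : A →* Kb)) :=
    Units.map_injective A.subtype_injective
  rw [← IsPrimitiveRoot.map_iff_of_injective hinj, hz]
  exact hζ

theorem F1T_coe_one_add {M : ℕ} (b : Kb) (e : FN M) :
    ((1 + algebraMap Kb (FN M) b * e : FN M) : LaurentSeries Kb) = 1 + C b * (e : LaurentSeries Kb) := by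
  rw [← S28.algebraMap_eq_C]; rfl

/-- **F1T (i)**: `T_p (1 + b e) = 1 + b h'` with `rd h'` a `p`-th power. -/
theorem F1T_mop {p M : ℕ} [NeZero p] [NeZero M] (hp : p.Prime) (hpM : ¬ p ∣ M)
    (A : ValuationSubring Kb) (hA : A.LiesOverPrime p) (hN : (M : kA A) ≠ 0) {ζ : Kbˣ}
    (hζ : IsPrimitiveRoot ζ p) {b : Kb} (hb0 : b ≠ 0) (hb1 : A.valuation b < 1)
    (e : FN M) (Y : LaurentSeries A) (he : (e : LaurentSeries Kb) = coeffMap A.subtype Y) :
    ∃ h' g : FN M, h' ∈ (gaussSetting A M hN).V ∧ g ∈ (gaussSetting A M hN).V ∧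
      (gaussSetting A M hN).rd h' = (gaussSetting A M hN).rd g ^ p ∧
      Mop ζ p ((1 + algebraMap Kb (FN M) b * e : FN M) : LaurentSeries Kb) =
        ((1 + algebraMap Kb (FN M) b * h' : FN M) : LaurentSeries Kb) := by
  have : Fact p.Prime := ⟨hp⟩
  have : CharP (kA A) p := charP_kA hp hA
  have := isAlgClosed_kA A
  have hbA : b ∈ A := (A.valuation_le_one_iff b).1 hb1.le
  obtain ⟨z, hz, hzp⟩ := F1T_unit A hζ
  obtain ⟨X1, X2, hX⟩ := F1T_formal hp hzp (⟨b, hbA⟩ : A) Y
  set H' : LaurentSeries A := qExpand A p Y + C ((⟨b, hbA⟩ : A) ^ (p - 1)) * X1 + C (p : A) * X2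
    with hH'
  have hsub : ∀ Z : LaurentSeries A, coeffMap A.subtype (GR.Mop z p Z) =
      GR.Mop ζ p (coeffMap A.subtype Z) := by
    intro Z
    rw [coeffMap_Mop]
    congr 1
  have hCb : coeffMap A.subtype (C (⟨b, hbA⟩ : A)) = (C b : LaurentSeries Kb) := by
    rw [coeffMap_C]; rfl
  have hu : ((1 + algebraMap Kb (FN M) b * e : FN M) : LaurentSeries Kb) =
      coeffMap A.subtype (1 + C (⟨b, hbA⟩ : A) * Y) := by
    rw [F1T_coe_one_add, map_add, map_one, map_mul, hCb, he]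
  have hM : Mop ζ p ((1 + algebraMap Kb (FN M) b * e : FN M) : LaurentSeries Kb) =
      1 + C b * coeffMap A.subtype H' := by
    rw [hu, ← hsub, hX, map_add, map_one, map_mul, hCb]
  have hCb0 : (C b : LaurentSeries Kb) ≠ 0 := by
    rw [Ne, map_eq_zero_iff _ HahnSeries.C_injective]; exact hb0
  have hmem : coeffMap A.subtype H' ∈ FN M := by
    have h1 : Mop ζ p ((1 + algebraMap Kb (FN M) b * e : FN M) : LaurentSeries Kb) ∈ FN M :=
      Fermat.Agent.S37.Mop_mem_FN hp hpM hζ (1 + algebraMap Kb (FN M) b * e : FN M).2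
    have h2 : coeffMap A.subtype H' =
        (Mop ζ p ((1 + algebraMap Kb (FN M) b * e : FN M) : LaurentSeries Kb) - 1) *
          ((algebraMap Kb (FN M) b : FN M) : LaurentSeries Kb)⁻¹ := by
      rw [hM, gs_coe_algebraMap]
      field_simp
      ring
    rw [h2]
    exact mul_mem (sub_mem h1 (one_mem _)) (inv_mem (algebraMap Kb (FN M) b : FN M).2)
  obtain ⟨hV, hrd⟩ := F1T_rd A M hN ⟨_, hmem⟩ H' rfl
  have hres_b : IsLocalRing.residue A (⟨b, hbA⟩ : A) = 0 := by
    rw [IsLocalRing.residue_eq_zero_iff]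
    exact (A.valuation_lt_one_iff _).2 hb1
  have hred : coeffMap (IsLocalRing.residue A) H' =
      qExpand (kA A) p (coeffMap (IsLocalRing.residue A) Y) := by
    rw [hH', map_add, map_add, map_mul, map_mul, coeffMap_C, coeffMap_C, map_pow, hres_b,
      zero_pow (Nat.sub_ne_zero_of_lt hp.one_lt), map_natCast, CharP.cast_eq_zero, map_zero,
      zero_mul, zero_mul, add_zero, add_zero, ModularCurve.coeffMap_qExpand]
  obtain ⟨r, hr, hrp⟩ := ep_of_coeff p M hN ((gaussSetting A M hN).rd ⟨_, hmem⟩).2 (by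
    intro n hn
    rw [hrd, hred]
    exact qExpand_coeff_of_not_dvd p _ hn)
  obtain ⟨g, hg⟩ := (gaussSetting A M hN).red_surj ⟨r, hr⟩
  refine ⟨⟨_, hmem⟩, g, hV, g.2, ?_, ?_⟩
  · rw [(gaussSetting A M hN).rd_of_mem g.2]
    apply Subtype.ext
    rw [hrp]
    show r ^ p = (((gaussSetting A M hN).red ⟨g, g.2⟩ ^ p : modularFunctionFieldFullC (kA A) M) :
      LaurentSeries (kA A))
    have : (⟨(g : FN M), g.2⟩ : (gaussSetting A M hN).V) = g := rfl
    rw [this, hg]
    rfl
  · rw [hM, F1T_coe_one_add]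

/-- `Mop` of a power series is a power series. -/
theorem F1T_Mop_ops {B : Type*} [CommRing B] (z : Bˣ) (ℓ : ℕ) [NeZero ℓ] (f : PowerSeries B) :
    ∃ g : PowerSeries B, Mop z ℓ (ops f) = ops g := by
  obtain ⟨g, hg⟩ := L1b_UU_ops z ℓ f
  refine ⟨f.expand ℓ (NeZero.ne ℓ) * g, ?_⟩
  rw [map_mul, ops_expand, ← hg]
  rfl

/-- **F1T (ii)**: if `T_p (1 + b e)` is trivial then `|b|^(p²) = |p|^p |b|`. -/
theorem F1T_kill {p M : ℕ} [NeZero p] [NeZero M] (hp : p.Prime)
    (A : ValuationSubring Kb) (hA : A.LiesOverPrime p) (hN : (M : kA A) ≠ 0) {ζ : Kbˣ}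
    (hζ : IsPrimitiveRoot ζ p)
    (hINT : ∀ f : LaurentSeries Kb, gsMem A f → (∀ m, (f ^ p).coeff m ∈ A) → ∀ m, f.coeff m ∈ A)
    {b : Kb} (hb1 : A.valuation b < 1)
    (hgt : A.valuation (p : Kb) ^ p < A.valuation b ^ (p - 1))
    (e : FN M) (Y : PowerSeries A)
    (he : (e : LaurentSeries Kb) = coeffMap A.subtype (HahnSeries.ofPowerSeries ℤ A Y))
    (hnp : ∀ r : modularFunctionFieldFullC (kA A) M, (gaussSetting A M hN).rd e ≠ r ^ p)
    (a : Kb) (f : FN M)
    (hMop : Mop ζ p ((1 + algebraMap Kb (FN M) b * e : FN M) : LaurentSeries Kb) =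
      ((algebraMap Kb (FN M) a * f ^ p : FN M) : LaurentSeries Kb)) :
    A.valuation b ^ (p * p) = A.valuation (p : Kb) ^ p * A.valuation b := by
  have : Fact p.Prime := ⟨hp⟩
  have : CharP (kA A) p := charP_kA hp hA
  have := isAlgClosed_kA A
  have hbA : b ∈ A := (A.valuation_le_one_iff b).1 hb1.le
  obtain ⟨z, hz, hzp⟩ := F1T_unit A hζ
  obtain ⟨α, hα⟩ := IsAlgClosed.exists_pow_nat_eq a hp.pos
  set f' : FN M := algebraMap Kb (FN M) α * f with hf'
  have hsub : ∀ Z : LaurentSeries A, coeffMap A.subtype (GR.Mop z p Z) =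
      GR.Mop ζ p (coeffMap A.subtype Z) := by
    intro Z
    rw [coeffMap_Mop]
    congr 1
  have hCb : coeffMap A.subtype (C (⟨b, hbA⟩ : A)) = (C b : LaurentSeries Kb) := by
    rw [coeffMap_C]; rfl
  -- the series `u`
  have hu : ((1 + algebraMap Kb (FN M) b * e : FN M) : LaurentSeries Kb) =
      coeffMap A.subtype (ops (1 + PowerSeries.C (⟨b, hbA⟩ : A) * Y)) := by
    rw [F1T_coe_one_add, map_add, map_one, map_mul, map_add, map_one, map_mul, he,
      HahnSeries.ofPowerSeries_C, hCb]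
  obtain ⟨W, hW⟩ := F1T_Mop_ops z p (1 + PowerSeries.C (⟨b, hbA⟩ : A) * Y)
  have hfp : (f' : LaurentSeries Kb) ^ p = coeffMap A.subtype (ops W) := by
    rw [← hW, hsub, ← hu, hMop, hf', ← hα]
    show _ = ((algebraMap Kb (FN M) (α ^ p) * f ^ p : FN M) : LaurentSeries Kb)
    rw [map_pow, ← mul_pow]
    rfl
  -- `f'` is Gauss integral
  have hfpV : f' ^ p ∈ (gaussSetting A M hN).V := (F1T_rd A M hN (f' ^ p) (ops W) hfp).1
  have hfV : f' ∈ (gaussSetting A M hN).V := by
    rcases (gaussSetting A M hN).V.mem_or_inv_mem f' with h | h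
    · exact h
    · by_cases h0 : f' = 0
      · rw [h0]; exact zero_mem _
      have : f' = f' ^ p * f'⁻¹ ^ (p - 1) := by
        obtain ⟨r, rfl⟩ : ∃ r, p = r + 1 := ⟨p - 1, by have := hp.pos; omega⟩
        rw [Nat.add_sub_cancel, pow_succ, inv_pow]
        field_simp
      rw [this]
      exact mul_mem hfpV (pow_mem h _)
  have hfA : ∀ m, (f' : LaurentSeries Kb).coeff m ∈ A := by
    refine hINT _ hfV ?_
    intro m
    rw [hfp, coeffMap_coeff]
    exact Subtype.property _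
  -- `f'` is a power series
  have hneg : ∀ n : ℤ, n < 0 → (f' : LaurentSeries Kb).coeff n = 0 := by
    intro n hn
    by_cases h0 : (f' : LaurentSeries Kb) = 0
    · rw [h0]; rfl
    apply HahnSeries.coeff_eq_zero_of_lt_order
    refine lt_of_lt_of_le hn ?_
    have h1 : ((f' : LaurentSeries Kb) ^ p).order = p • (f' : LaurentSeries Kb).order :=
      HahnSeries.order_pow _ _
    have h2 : 0 ≤ ((f' : LaurentSeries Kb) ^ p).order := by
      rw [hfp, coeffMap_ofPowerSeries]
      apply HahnSeries.le_order_iff_forall (by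
        rw [← coeffMap_ofPowerSeries, ← hfp]; exact pow_ne_zero _ h0) |>.2
      intro i hi
      exact ops_coeff_neg _ hi
    rw [h1] at h2
    by_contra hlt
    push Not at hlt
    have : p • (f' : LaurentSeries Kb).order < 0 := by
      rw [nsmul_eq_mul]
      exact mul_neg_of_pos_of_neg (by exact_mod_cast hp.pos) hlt
    omega
  obtain ⟨f'', hf''⟩ := L1b_exists_ops hneg
  refine tpLocal A hp hA ζ hζ hb1 hgt (h := Y.map A.subtype) (f := f'') ?_ ?_ ?_ ?_
  · intro n
    rw [PowerSeries.coeff_map]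
    exact Subtype.property _
  · intro n
    rw [← ops_coeff_natCast, hf'']
    exact hfA _
  · by_contra hcon
    push Not at hcon
    obtain ⟨-, hrd⟩ := F1T_rd A M hN e (ops Y) he
    obtain ⟨r, hr, hrp⟩ := ep_of_coeff p M hN ((gaussSetting A M hN).rd e).2 (by
      intro n hn
      rw [hrd, coeffMap_coeff]
      rcases lt_or_ge n 0 with hn0 | hn0
      · rw [ops_coeff_neg _ hn0, map_zero]
      · lift n to ℕ using hn0
        rw [ops_coeff_natCast, IsLocalRing.residue_eq_zero_iff]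
        have h1 := hcon n (by exact_mod_cast hn)
        rw [PowerSeries.coeff_map] at h1
        exact (A.valuation_lt_one_iff _).2
          (lt_of_le_of_ne (A.valuation_le_one _) h1))
    exact hnp ⟨r, hr⟩ (Subtype.ext hrp)
  · rw [hf'', hfp, ← hW, hsub]
    congr 1
    rw [coeffMap_ofPowerSeries]
    congr 1
    rw [map_add, map_one, map_mul, PowerSeries.map_C]
    rfl

/-- inertia acts trivially on the Gauss reduction (level `M`). -/
theorem F1T_gal (A : ValuationSubring Kb) (M : ℕ) [NeZero M] (hN : (M : kA A) ≠ 0) {τ : GQ}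
    (hτ : τ ∈ A.inertiaSubgroupIn ℚ) {f : FN M} (hf : f ∈ (gaussSetting A M hN).V) :
    galF M τ f ∈ (gaussSetting A M hN).V ∧
      (gaussSetting A M hN).rd (galF M τ f) = (gaussSetting A M hN).rd f := by
  obtain ⟨g, hg, rfl⟩ := hτ
  have h1 := g2_gsMem_gal g _ (g2_inertia_res g hg) hf
  rw [coeffMap_id] at h1
  have hV : galF M (g : GQ) f ∈ (gaussSetting A M hN).V := h1.1
  refine ⟨hV, ?_⟩
  show (gaussSetting A M hN).rd (galF M (g : GQ) f) = _
  rw [(gaussSetting A M hN).rd_of_mem hV, (gaussSetting A M hN).rd_of_mem hf]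
  exact Subtype.ext h1.2

end Fermat.Agent.S33
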