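import Fermat.Agent.S33.G1
import Fermat.Agent.S34.CoreDim2

/-!
# S33, piece G1b: the symbol lemmas of G1 in the `RedCore.resA` vocabulary of A3 / A123 / F2b
-/

set_option autoImplicit false
set_option linter.unusedSectionVars false

namespace Fermat.Agent.S33

open Fermat.Agent.S24 (Kb)
open Fermat.Agent.GR (GQ)
open Fermat.Agent.S34 (RedCore)

section General

variable {K F k E : Type*} [Field K] [Field F] [Algebra K F] [Field k] [CommRing E] [Algebra k E]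

theorem G1b_resA_eq_zero_iff (S : RedCore K F k E) {y : K} (h : y ∈ S.A) :
    S.resA ⟨y, h⟩ = 0 ↔ S.A.valuation y < 1 := by
  have hmax : (RingHom.ker S.resA).IsMaximal := RingHom.ker_isMaximal_of_surjective _ S.resA_surj
  have hker : RingHom.ker S.resA = IsLocalRing.maximalIdeal S.A := IsLocalRing.eq_maximalIdeal hmax
  rw [← RingHom.mem_ker, hker, S.A.valuation_lt_one_iff]

theorem G1b_resA_eq_one_iff (S : RedCore K F k E) {y : K} (h : y ∈ S.A) :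
    S.resA ⟨y, h⟩ = 1 ↔ S.A.valuation (y - 1) < 1 := by
  have h1 : y - 1 ∈ S.A := sub_mem h (one_mem _)
  rw [← G1b_resA_eq_zero_iff S h1]
  have e : (⟨y - 1, h1⟩ : S.A) = ⟨y, h⟩ - 1 := rfl
  rw [e, map_sub, map_one, sub_eq_zero]

theorem G1b_val_div_sub_one (A : ValuationSubring K) {a c : K} (hc : c ≠ 0) :
    A.valuation (a / c - 1) < 1 ↔ A.valuation (a - c) < A.valuation c := by
  have hv : 0 < A.valuation c := zero_lt_iff.mpr ((A.valuation.ne_zero_iff).mpr hc)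
  have e : a / c - 1 = (a - c) / c := by field_simp
  rw [e, map_div₀, div_lt_one₀ hv]

end General

variable {F k E : Type*} [Field F] [Algebra Kb F] [Field k] [CommRing E] [Algebra k E]

/-- `τ c / c` is integral for `τ` in the inertia group. -/
theorem G1b_div_mem {A : ValuationSubring Kb} {τ : GQ} (hτ : τ ∈ A.inertiaSubgroupIn ℚ) {c : Kb}
    (hc : c ≠ 0) : τ c / c ∈ A := by
  rw [← A.valuation_le_one_iff, map_div₀, g1_val_map hτ,
    div_self ((A.valuation.ne_zero_iff).mpr hc)]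

theorem G1b_resA_iff (S : RedCore Kb F k E) {τ : GQ} {c : Kb} (hc : c ≠ 0) (h : τ c / c ∈ S.A) :
    S.resA ⟨τ c / c, h⟩ = 1 ↔ S.A.valuation (τ c - c) < S.A.valuation c := by
  rw [G1b_resA_eq_one_iff, G1b_val_div_sub_one S.A hc]

/-- **everything F1 / F2 need from G1**, for a ring hom `τ` which is pointwise `τ₀`
(use `hττ := fun _ => rfl`). -/
theorem G1b_pack (S : RedCore Kb F k E) {p : ℕ} (hp : p.Prime) (hp2 : p ≠ 2)
    (hA : S.A.LiesOverPrime p) {τ₀ : GQ} (hτ₀ : IsTau0 S.A p τ₀) (τ : Kb →+* Kb)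
    (hττ : ∀ c, τ c = τ₀ c) :
    (∀ c : Kb, c ≠ 0 → τ c / c ∈ S.A) ∧
    (∀ c : Kb, c ≠ 0 → S.A.valuation (p : Kb) = S.A.valuation c ^ (p - 1) →
      ∀ h : τ c / c ∈ S.A, S.resA ⟨τ c / c, h⟩ ≠ 1) ∧
    (∀ (c : Kb) (h : τ c / c ∈ S.A), S.A.valuation (p : Kb) = S.A.valuation c ^ (p - 1) →
      S.resA ⟨τ c / c, h⟩ ≠ 1) ∧
    (∀ c : Kb, c ≠ 0 → (∀ h : τ c / c ∈ S.A, S.resA ⟨τ c / c, h⟩ = 1) →
      S.A.valuation (τ₀ c - c) < S.A.valuation c) ∧
    (∀ c : Kb, c ≠ 0 → (∀ h : τ c / c ∈ S.A, S.resA ⟨τ c / c, h⟩ = 1) →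
      S.A.valuation (c ^ p) ^ (p * p) ≠ S.A.valuation (p : Kb) ^ p * S.A.valuation (c ^ p)) := by
  have hmem : ∀ c : Kb, c ≠ 0 → τ c / c ∈ S.A := by
    intro c hc
    rw [hττ]
    exact G1b_div_mem hτ₀.1 hc
  have h2 : ∀ c : Kb, c ≠ 0 → S.A.valuation (p : Kb) = S.A.valuation c ^ (p - 1) →
      ∀ h : τ c / c ∈ S.A, S.resA ⟨τ c / c, h⟩ ≠ 1 := by
    intro c hc hv h h1
    have h' : τ₀ c / c ∈ S.A := by rw [← hττ]; exact h
    have e : (⟨τ c / c, h⟩ : S.A) = ⟨τ₀ c / c, h'⟩ := Subtype.ext (show τ c / c = τ₀ c / c by rw [hττ])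
    rw [e, G1b_resA_iff S hc] at h1
    exact hτ₀.false_of_pow_eq hp hp2 hA h1 hv.symm
  have h4 : ∀ c : Kb, c ≠ 0 → (∀ h : τ c / c ∈ S.A, S.resA ⟨τ c / c, h⟩ = 1) →
      S.A.valuation (τ₀ c - c) < S.A.valuation c := by
    intro c hc h
    have h1 := h (hmem c hc)
    have h' : τ₀ c / c ∈ S.A := G1b_div_mem hτ₀.1 hc
    have e : (⟨τ c / c, hmem c hc⟩ : S.A) = ⟨τ₀ c / c, h'⟩ := Subtype.ext (show τ c / c = τ₀ c / c by rw [hττ])
    rwa [e, G1b_resA_iff S hc] at h1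
  refine ⟨hmem, h2, ?_, h4, ?_⟩
  · intro c h hv
    have hc : c ≠ 0 := by
      rintro rfl
      have hp1 : p - 1 ≠ 0 := by have := hp.two_le; omega
      rw [map_zero, zero_pow hp1, map_eq_zero] at hv
      exact hp.ne_zero (by exact_mod_cast hv)
    exact h2 c hc hv h
  · intro c hc h hv
    exact hτ₀.false_of_tpLocal hp hp2 hA (g1_th_one_pow hτ₀.1 (h4 c hc h) p) hv

/-- helper9's form (`S.A = A`, `resA = residue`). -/
theorem IsTau0.residue_ne_one {A : ValuationSubring Kb} {p : ℕ} (hp : p.Prime) (hp2 : p ≠ 2)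
    (hA : A.LiesOverPrime p) {τ₀ : GQ} (hτ₀ : IsTau0 A p τ₀) (c : Kb) (hc : c ≠ 0)
    (hv : A.valuation (p : Kb) = A.valuation c ^ (p - 1)) (h : τ₀ c / c ∈ A) :
    IsLocalRing.residue A ⟨τ₀ c / c, h⟩ ≠ 1 := by
  intro h1
  have h2 : IsLocalRing.residue A (⟨τ₀ c / c, h⟩ - 1) = 0 := by rw [map_sub, h1, map_one, sub_self]
  rw [IsLocalRing.residue_eq_zero_iff, A.valuation_lt_one_iff] at h2
  have h3 : A.valuation (τ₀ c / c - 1) < 1 := h2
  rw [G1b_val_div_sub_one A hc] at h3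
  exact hτ₀.false_of_pow_eq hp hp2 hA h3 hv.symm

end Fermat.Agent.S33
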