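import Fermat.Agent.S33.F1HDefs
import Fermat.Agent.S33.G1b
import Fermat.Agent.S33.A123
import Fermat.Agent.S33.F1T
import Fermat.Agent.S34.GalX
import Fermat.Agent.S34.UnipCoord

/-!
# S33, F1 hedge, sub-lemma F1H2 (helper6's copy, names `F1H2h_*`): instance of `F2b_exact`
-/

set_option autoImplicit false

namespace Fermat.Agent.S33

open ModularCurve AlgebraicCurve HahnSeries Fermat.Agent.S24 Fermat.Agent.S28 Fermat.Agent.S18
  Fermat.Agent.GR Fermat.Agent.S34 Fermat.Agent.S35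

variable {p M₁ : ℕ} [NeZero p] [NeZero M₁] {A : ValuationSubring Kb}

theorem F1H2h_exact (hp : p.Prime) (hp2 : p ≠ 2) (h4 : 4 ∣ M₁) (hpM₁ : ¬ p ∣ M₁)
    (hA : A.LiesOverPrime p) (hN : (M₁ : kA A) ≠ 0) {τ₀ : GQ} (hτ₀ : IsTau0 A p τ₀) {u : FN M₁}
    (hu : F1H_Good A hN p τ₀ u) (hnt : ¬ Triv Kb u p) :
    ∃ (b : Kb) (e w : FN M₁), w ≠ 0 ∧ IsExact (A5G_core (gaussSetting A M₁ hN)) p b e ∧
      u * w ^ p = 1 + algebraMap Kb (FN M₁) b * e ∧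
      e ∈ intRing Kb (t2 M₁ (Dvd.dvd.trans (by norm_num) h4))⁻¹ ∧
      A.valuation (τ₀ b - b) < A.valuation b := by
  have := isAlgClosed_kA A
  have hch : CharP (kA A) p := charP_kA hp hA
  have h2 : 2 ∣ M₁ := Dvd.dvd.trans (by norm_num) h4
  set S0 := gaussSetting A M₁ hN with hS0
  set SC := A5G_core S0 with hSC
  obtain ⟨hc, hn0, hnI⟩ := instA_odd A hp hA hp2 M₁ h4 hpM₁ S0 (isGauss_gaussSetting A M₁ hN)
  have H := A5G_coreHyp S0 hc hn0 hnI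
  have HU := A5G_coreHypU (isFF_FN M₁) S0 hc hp.pos hu.mem hu.rd hu.ord
  obtain ⟨g, hg⟩ := hu.fix
  obtain ⟨k1, k2, -, k4, -⟩ := G1b_pack SC hp hp2 (show SC.A.LiesOverPrime p from hA)
    (show IsTau0 SC.A p τ₀ from hτ₀) ((τ₀ : Kb ≃ₐ[ℚ] Kb) : Kb →+* Kb) (fun _ => rfl)
  obtain ⟨n, c, h1, h2', e1, e2, hc0, hc1, hclt, O, hres⟩ :=
    F2b_exact SC H hp hp.pos HU (fun a b r h => A5G_hroot hp.pos h)
      (fun a => IsAlgClosed.exists_pow_nat_eq a hp.pos)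
      ((galF M₁ τ₀ : FN M₁ ≃+* FN M₁) : FN M₁ →+* FN M₁) ((τ₀ : Kb ≃ₐ[ℚ] Kb) : Kb →+* Kb)
      (fun c => galF_algebraMap M₁ τ₀ c) (galF_t2 M₁ h2 τ₀)
      (fun f hf => by
        have := F1T_gal A M₁ hN hτ₀.1 (f := f) hf
        refine ⟨this.1, ?_⟩
        rw [hSC, A5G_rd, A5G_rd]
        exact this.2)
      k1 k2 (g := g) hg (fun h hh c hc => hnt ⟨h, hh, c, hc⟩)
  refine ⟨c ^ p, e2, h2', ?_, O.isExact2 hc1 hclt, O.eq2, ?_, ?_⟩
  · rintro rfl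
    have := O.rdh2
    rw [SC.rd_zero] at this
    exact zero_ne_one this
  · have := O.e2L.2
    rwa [pow_zero, one_mul] at this
  · exact g1_th_one_pow hτ₀.1 (k4 c hc0 hres) p

end Fermat.Agent.S33
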