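import Fermat.Agent.S33.F1L

/-!
# S33, piece F1L2: `F1L_lead` in the vocabulary of `gaussSetting` (= the statement `F1H_mop` of the F1 hedge)
-/

set_option autoImplicit false

namespace Fermat.Agent.S33

open ModularCurve AlgebraicCurve HahnSeries Fermat.Agent.S24 Fermat.Agent.S28 Fermat.Agent.S18
  Fermat.Agent.GR Fermat.Agent.S34 Fermat.Agent.S35

variable {p M₁ : ℕ} [NeZero p] [NeZero M₁] {A : ValuationSubring Kb}

theorem F1L_mop (hp : p.Prime) (hpM₁ : ¬ p ∣ M₁) (hA : A.LiesOverPrime p) (hN : (M₁ : kA A) ≠ 0)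
    {ζ : Kbˣ} (hζ : IsPrimitiveRoot ζ p) {b : Kb} (hb : A.valuation b < 1) {e : FN M₁}
    (he : e ∈ (gaussSetting A M₁ hN).V) :
    ∃ h' g : FN M₁, h' ∈ (gaussSetting A M₁ hN).V ∧ g ∈ (gaussSetting A M₁ hN).V ∧
      (gaussSetting A M₁ hN).rd h' = (gaussSetting A M₁ hN).rd g ^ p ∧
      C3_MopH hp hpM₁ hζ (1 + algebraMap Kb (FN M₁) b * e) = 1 + algebraMap Kb (FN M₁) b * h' := by
  have : Fact p.Prime := ⟨hp⟩
  have := charP_kA hp hA
  obtain ⟨h', g, h1, h2, h3, h4⟩ := F1L_lead hp hpM₁ hN hζ b e hb he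
  rw [A5G_rd, A5G_rd] at h3
  exact ⟨h', g, h1, h2, h3, h4⟩

end Fermat.Agent.S33
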