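import Fermat.Agent.S33.F1TL
import Fermat.Agent.S33.Int

/-!
# S33, F1: the chart `t₂⁻¹` (regular at the cusp `∞`) and the final form of the last step
-/

set_option autoImplicit false

namespace Fermat.Agent.S33

open ModularCurve AlgebraicCurve HahnSeries Fermat.Agent.S24 Fermat.Agent.S28 Fermat.Agent.S18
  Fermat.Agent.GR Fermat.Agent.S34 Fermat.Agent.S35

/-- `t₂⁻¹ = t U⁻¹` is a power series with integer coefficients. -/
theorem F1TC_t2_inv (N : ℕ) (hN : 2 ∣ N) : ∃ W : PowerSeries ℤ,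
    (((t2 N hN)⁻¹ : FN N) : LaurentSeries Kb) =
      coeffMap (Int.castRingHom Kb) (HahnSeries.ofPowerSeries ℤ ℤ W) := by
  obtain ⟨U, hU, h⟩ := tZ2_eq
  refine ⟨PowerSeries.X * U.invOfUnit 1, ?_⟩
  have hUU : U * U.invOfUnit 1 = 1 := PowerSeries.mul_invOfUnit U 1 (by rw [hU]; rfl)
  have h1 : tZ2 * HahnSeries.ofPowerSeries ℤ ℤ (PowerSeries.X * U.invOfUnit 1) = 1 := by
    rw [h, map_mul, HahnSeries.ofPowerSeries_X]
    calc HahnSeries.single (-1 : ℤ) (1 : ℤ) * HahnSeries.ofPowerSeries ℤ ℤ U *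
          (HahnSeries.single 1 1 * HahnSeries.ofPowerSeries ℤ ℤ (U.invOfUnit 1))
        = (HahnSeries.single (-1 : ℤ) (1 : ℤ) * HahnSeries.single 1 1) *
          HahnSeries.ofPowerSeries ℤ ℤ (U * U.invOfUnit 1) := by rw [map_mul]; ring
      _ = 1 := by
        rw [hUU, (HahnSeries.ofPowerSeries ℤ ℤ).map_one, mul_one, HahnSeries.single_mul_single]
        norm_num
  have h2 := congrArg (coeffMap (Int.castRingHom Kb)) h1
  rw [map_mul, map_one] at h2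
  rw [IntermediateField.coe_inv, instA_coe_t2]
  exact inv_eq_of_mul_eq_one_right h2

/-- **INT_chart**. -/
theorem F1TC_chart (A : ValuationSubring Kb) {p : ℕ} (hp : p.Prime) (hA : A.LiesOverPrime p)
    (hodd : p ≠ 2) (N : ℕ) [NeZero N] (h4 : 4 ∣ N) (hpN : ¬ p ∣ N) (hN : (N : kA A) ≠ 0) (e : FN N)
    (he : e ∈ intRing Kb (t2 N (Dvd.dvd.trans (by norm_num) h4))⁻¹)
    (heV : e ∈ (gaussSetting A N hN).V) :
    ∃ Y : PowerSeries A,
      (e : LaurentSeries Kb) = coeffMap A.subtype (HahnSeries.ofPowerSeries ℤ A Y) := by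
  have hS := isGauss_gaussSetting A N hN
  have hx := (instA_odd A hp hA hodd N h4 hpN _ hS).1.inv
  obtain ⟨W, hW⟩ := F1TC_t2_inv N (Dvd.dvd.trans (by norm_num) h4)
  have hX : (((t2 N (Dvd.dvd.trans (by norm_num) h4))⁻¹ : FN N) : LaurentSeries Kb) ∈ intSub A := by
    rw [mem_intSub_iff]
    intro m
    rw [hW, coeffMap_coeff]
    exact intCast_mem A _
  have hX0 : (((t2 N (Dvd.dvd.trans (by norm_num) h4))⁻¹ : FN N) : LaurentSeries Kb) ∈
      geSub Kb 0 := by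
    intro m hm
    rw [hW, coeffMap_coeff, Fermat.Agent.S28.Core.ops_coeff_neg _ hm, map_zero]
  obtain ⟨H, hH, hHA, -⟩ := int_powerSeries _ (arch_of_liesOver A hp hA) hS hx hX hX0 heV he
  refine ⟨PowerSeries.mk fun n => ⟨PowerSeries.coeff n H, hHA n⟩, ?_⟩
  rw [hH, coeffMap_ofPowerSeries]
  congr 1
  ext n
  rw [PowerSeries.coeff_map, PowerSeries.coeff_mk]
  rfl

variable {p M₁ : ℕ} [NeZero p] [NeZero M₁] {A : ValuationSubring Kb}

/-- `F1H_last` of helper6's list (statement verbatim). -/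
theorem F1TC_last (hp : p.Prime) (hp2 : p ≠ 2) (h4 : 4 ∣ M₁) (hpM₁ : ¬ p ∣ M₁)
    (hA : A.LiesOverPrime p) (hN : (M₁ : kA A) ≠ 0) {τ₀ : GQ} (hτ₀ : IsTau0 A p τ₀) {ζ : Kbˣ}
    (hζ : IsPrimitiveRoot ζ p) {b : Kb} {e : FN M₁}
    (hE : IsExact (A5G_core (gaussSetting A M₁ hN)) p b e)
    (hint : e ∈ intRing Kb (t2 M₁ (Dvd.dvd.trans (by norm_num) h4))⁻¹)
    (hth : A.valuation (τ₀ b - b) < A.valuation b) (a : Kb) (f : FN M₁)
    (h : C3_MopH hp hpM₁ hζ (1 + algebraMap Kb (FN M₁) b * e) = algebraMap Kb (FN M₁) a * f ^ p) :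
    False :=
  F1T_last hp hp2 hpM₁ hA hN hτ₀ hζ hE (F1TC_chart A hp hA hp2 M₁ h4 hpM₁ hN e hint hE.mem) hth a f h

end Fermat.Agent.S33
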