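import Fermat.Agent.S33.F1H1
import Fermat.Agent.S33.F1H2h
import Fermat.Agent.S33.F1L2
import Fermat.Agent.S33.F1TC

/-!
# S33, F1 (hedge by helper6): `fixM` from `F1H_of_red`, `F1H_good_Mop`, `F1H2h_exact`, `F1L_mop`, `F1TC_last`
-/

set_option autoImplicit false

namespace Fermat.Agent.S33

open ModularCurve AlgebraicCurve HahnSeries Fermat.Agent.S24 Fermat.Agent.S28 Fermat.Agent.S18
  Fermat.Agent.GR Fermat.Agent.S34 Fermat.Agent.S35

variable {p M₁ : ℕ} [NeZero p] [NeZero M₁] {A : ValuationSubring Kb}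

/-- the exact data attached to a class. -/
def F1H_Data (A : ValuationSubring Kb) (hN : (M₁ : kA A) ≠ 0) (p : ℕ) (h2 : 2 ∣ M₁) (τ₀ : GQ)
    (y : FN M₁) (b : Kb) : Prop :=
  ∃ e w : FN M₁, w ≠ 0 ∧ IsExact (A5G_core (gaussSetting A M₁ hN)) p b e ∧
    y * w ^ p = 1 + algebraMap Kb (FN M₁) b * e ∧ e ∈ intRing Kb (t2 M₁ h2)⁻¹ ∧
    A.valuation (τ₀ b - b) < A.valuation b

theorem F1H_triv_of_not {y : FN M₁} (hp : 0 < p) (hy0 : y ≠ 0) (h : Triv Kb y p) :
    ∃ v : FN M₁, y = v ^ p := by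
  obtain ⟨h, hh, c, hc⟩ := h
  obtain ⟨γ, hγ⟩ := IsAlgClosed.exists_pow_nat_eq c hp
  refine ⟨algebraMap Kb (FN M₁) γ * h⁻¹, ?_⟩
  rw [mul_pow, ← map_pow, hγ, ← hc, inv_pow, mul_assoc, mul_inv_cancel₀ (pow_ne_zero p hh), mul_one]

/-- **F1**, official statement. -/
theorem F1H_fixM (hp : p.Prime) (hp2 : p ≠ 2) (h4 : 4 ∣ M₁)
    (hpM₁ : ¬ p ∣ M₁) (hA : A.LiesOverPrime p) {τ₀ : GQ}
    (hτ₀ : IsTau0 A p τ₀) {ζ : Kbˣ} (hζ : IsPrimitiveRoot ζ p) (y : FN M₁) (hy0 : y ≠ 0)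
    (hy : ∃ v : FN M₁, v ≠ 0 ∧ Red A ((y * v ^ p : FN M₁) : LaurentSeries Kb) 1)
    (hfix : ∃ v : FN M₁, galF M₁ τ₀ y = y * v ^ p) (hfin : TpFin p M₁ ζ y) :
    ∃ v : FN M₁, y = v ^ p := by
  classical
  have := isAlgClosed_kA A
  have hch : CharP (kA A) p := charP_kA hp hA
  have hN : (M₁ : kA A) ≠ 0 := fun h => hpM₁ ((hh_natCast_eq_zero_iff A hp hA M₁).1 h)
  have h2 : 2 ∣ M₁ := Dvd.dvd.trans (by norm_num) h4
  set S0 := gaussSetting A M₁ hN with hS0
  set SC := A5G_core S0 with hSC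
  have hkp : ∀ c : kA A, ∃ d : kA A, d ^ p = c := fun c => IsAlgClosed.exists_pow_nat_eq c hp.pos
  set T := C3_MopH hp hpM₁ hζ with hT
  obtain ⟨s, hs0, hsne, hsord, hsstep, i₀, j₀, hij, v₀, hv₀⟩ := hfin
  -- the step in `FN M₁`
  have hstep : ∀ i, ∃ v : FN M₁, v ≠ 0 ∧ s (i + 1) = T (s i) * v ^ p := by
    intro i
    obtain ⟨v, hv⟩ := hsstep i
    have e : s (i + 1) = T (s i) * v ^ p := Subtype.ext hv
    refine ⟨v, ?_, e⟩
    rintro rfl
    rw [zero_pow hp.ne_zero, mul_zero] at e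
    exact hsne _ e
  have hTne : ∀ {f : FN M₁}, f ≠ 0 → T f ≠ 0 := fun hf => C3_map_ne_zero T hf
  -- good representatives
  have hgood : ∀ i, ∃ v : FN M₁, v ≠ 0 ∧ F1H_Good A hN p τ₀ (s i * v ^ p) := by
    intro i
    induction i with
    | zero =>
      obtain ⟨v, hv, hred⟩ := hy
      obtain ⟨g, hg⟩ := hfix
      refine ⟨v, hv, ?_⟩
      rw [hs0]
      obtain ⟨h1, h2'⟩ := F1H_of_red hN hred
      refine ⟨h1, h2', ?_, ⟨g * (galF M₁ τ₀ v / v), ?_⟩⟩
      · have := hsord 0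
        rw [hs0] at this
        exact this.mul (dvdOrd_pow_self p v)
      · rw [map_mul, map_pow, hg, mul_pow, div_pow]
        have : v ^ p ≠ 0 := pow_ne_zero p hv
        field_simp
    | succ i ih =>
      obtain ⟨v, hv, hG⟩ := ih
      obtain ⟨v', hv', e⟩ := hstep i
      have e2 : T (s i * v ^ p) = s (i + 1) * (T v / v') ^ p := by
        rw [map_mul, map_pow, e, div_pow]
        have : v' ^ p ≠ 0 := pow_ne_zero p hv'
        field_simp
      refine ⟨T v / v', div_ne_zero (hTne hv) hv', ?_⟩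
      rw [← e2]
      refine F1H_good_Mop hp hpM₁ hA hN hζ hG ?_
      rw [← hT, e2]
      exact (hsord (i + 1)).mul (dvdOrd_pow_self p _)
  -- `Triv` is a class property
  have htriv_mul : ∀ {f v : FN M₁}, v ≠ 0 → Triv Kb (f * v ^ p) p → Triv Kb f p := by
    rintro f v hv ⟨h, hh, c, hc⟩
    exact ⟨v * h, mul_ne_zero hv hh, c, by rw [← hc, mul_pow]; ring⟩
  -- exact data
  have hdata : ∀ i, ¬ Triv Kb (s i) p → ∃ b, F1H_Data A hN p h2 τ₀ (s i) b := by
    intro i hnt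
    obtain ⟨v, hv, hG⟩ := hgood i
    obtain ⟨b, e, w, hw, hE, heq, hint, hth⟩ :=
      F1H2h_exact hp hp2 h4 hpM₁ hA hN hτ₀ hG (fun h => hnt (htriv_mul hv h))
    exact ⟨b, e, v * w, mul_ne_zero hv hw, hE, by rw [← heq, mul_pow]; ring, hint, hth⟩
  by_contra hcon
  have hnt0 : ¬ Triv Kb (s 0) p := by
    rw [hs0]
    exact fun h => hcon (F1H_triv_of_not hp.pos hy0 h)
  -- nontriviality propagates
  have hnt : ∀ i, ¬ Triv Kb (s i) p := by
    intro i
    induction i with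
    | zero => exact hnt0
    | succ i ih =>
      rintro ⟨h, hh, c, hc⟩
      obtain ⟨b, e, w, hw, hE, heq, hint, hth⟩ := hdata i ih
      obtain ⟨v', hv', e'⟩ := hstep i
      refine F1TC_last hp hp2 h4 hpM₁ hA hN hτ₀ hζ hE hint hth c (T w / (v' * h)) ?_
      rw [← hT, ← heq, map_mul, map_pow, ← hc, e', div_pow, mul_pow]
      have h1 : v' ^ p ≠ 0 := pow_ne_zero p hv'
      have h2' : h ^ p ≠ 0 := pow_ne_zero p hh
      field_simp
  choose b hb using fun i => hdata i (hnt i)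
  -- the levels decrease strictly
  have hdec : ∀ i, A.valuation (b (i + 1)) < A.valuation (b i) := by
    intro i
    obtain ⟨e, w, hw, hE, heq, -, -⟩ := hb i
    obtain ⟨e', w', hw', hE', heq', -, -⟩ := hb (i + 1)
    obtain ⟨v', hv', est⟩ := hstep i
    obtain ⟨h', g, hh', hg, hrd, hM⟩ := F1L_mop hp hpM₁ hA hN hζ hE.lt_one hE.mem
    refine hE'.level_lt SC hp hkp (h := h') (g := g) (a := 1) (f := v' * w' / T w) hE.lt_one hE.gt
      hh' hg ?_ ?_
    · rw [hSC, A5G_rd, A5G_rd]; exact hrd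
    · rw [← hM, ← hT, ← heq, ← heq', est, map_mul, map_pow, map_one, one_mul, div_pow, mul_pow]
      have h1 : T w ^ p ≠ 0 := pow_ne_zero p (hTne hw)
      field_simp
  have hanti : ∀ i j, i < j → A.valuation (b j) < A.valuation (b i) := by
    intro i j hij
    induction j, hij using Nat.le_induction with
    | base => exact hdec i
    | succ j _ ih => exact lt_trans (hdec j) ih
  have hlt := hanti i₀ j₀ hij
  obtain ⟨e, w, hw, hE, heq, -, -⟩ := hb i₀
  obtain ⟨e', w', hw', hE', heq', -, -⟩ := hb j₀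
  have heq2 : A.valuation (b j₀) = A.valuation (b i₀) := by
    refine hE'.level_eq SC hp hkp hE (a := 1) (f := v₀ * w' / w) ?_
    rw [← heq, ← heq', hv₀, map_one, one_mul, div_pow, mul_pow]
    have h1 : w ^ p ≠ 0 := pow_ne_zero p hw
    field_simp
  exact absurd heq2 hlt.ne

end Fermat.Agent.S33
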