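import Fermat.Agent.S33.F1HDefs

/-!
# S33, F1 hedge, sub-lemma F1H1: `F1H_of_red`, `F1H_good_Mop`
-/

set_option autoImplicit false

namespace Fermat.Agent.S33

open ModularCurve AlgebraicCurve HahnSeries Fermat.Agent.S24 Fermat.Agent.S28 Fermat.Agent.S18
  Fermat.Agent.GR Fermat.Agent.S34 Fermat.Agent.S35

variable {p M₁ : ℕ} [NeZero p] [NeZero M₁] {A : ValuationSubring Kb}

/-- membership and reduction in the Gauss setting in terms of `gsMem`, `gr`. -/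
theorem F1H1_iff (hN : (M₁ : kA A) ≠ 0) (u : FN M₁) :
    (u ∈ (gaussSetting A M₁ hN).V ∧ (gaussSetting A M₁ hN).rd u = 1) ↔
      (gsMem A (u : LaurentSeries Kb) ∧ gr A (u : LaurentSeries Kb) = 1) := by
  constructor
  · rintro ⟨h1, h2⟩
    refine ⟨h1, ?_⟩
    rw [(gaussSetting A M₁ hN).rd_of_mem h1] at h2
    exact congrArg Subtype.val h2
  · rintro ⟨h1, h2⟩
    have hV : u ∈ (gaussSetting A M₁ hN).V := h1
    refine ⟨hV, ?_⟩
    rw [(gaussSetting A M₁ hN).rd_of_mem hV]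
    exact Subtype.ext h2

theorem F1H_of_red (hN : (M₁ : kA A) ≠ 0) {u : FN M₁} (h : Red A (u : LaurentSeries Kb) 1) :
    u ∈ (gaussSetting A M₁ hN).V ∧ (gaussSetting A M₁ hN).rd u = 1 := by
  rw [F1H1_iff]
  obtain ⟨Y₁, Y₂, h0, -, h1, h2⟩ := h
  refine ⟨⟨Y₁, Y₂, h0, h1⟩, ?_⟩
  have := gr_mul_eq h0 h1
  rw [h2] at this
  exact mul_right_cancel₀ h0 this

theorem F1H_good_Mop (hp : p.Prime) (hpM₁ : ¬ p ∣ M₁) (hA : A.LiesOverPrime p)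
    (hN : (M₁ : kA A) ≠ 0) {τ₀ : GQ} {ζ : Kbˣ} (hζ : IsPrimitiveRoot ζ p) {u : FN M₁}
    (hu : F1H_Good A hN p τ₀ u) (hord : DvdOrd M₁ p (C3_MopH hp hpM₁ hζ u)) :
    F1H_Good A hN p τ₀ (C3_MopH hp hpM₁ hζ u) := by
  have : Fact p.Prime := ⟨hp⟩
  have : CharP (kA A) p := charP_kA hp hA
  obtain ⟨h1, h2⟩ := (F1H1_iff hN u).1 ⟨hu.mem, hu.rd⟩
  have hq := gsMem_qExpand (A := A) p h1
  have hU := gsMem_UU (A := A) hζ h1
  have hM : gsMem A ((C3_MopH hp hpM₁ hζ u : FN M₁) : LaurentSeries Kb) ∧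
      gr A ((C3_MopH hp hpM₁ hζ u : FN M₁) : LaurentSeries Kb) = 1 := by
    rw [C3_coe_MopH]
    have e : Mop ζ p (u : LaurentSeries Kb) =
        qExpand Kb p (u : LaurentSeries Kb) * UU ζ p (u : LaurentSeries Kb) := rfl
    rw [e]
    refine ⟨hq.1.mul hU.1, ?_⟩
    rw [gr_mul hq.1 hU.1, hq.2, hU.2, h2, map_one, map_one, one_mul]
  obtain ⟨m1, m2⟩ := (F1H1_iff hN _).2 hM
  obtain ⟨g, hg⟩ := hu.fix
  exact ⟨m1, m2, hord, ⟨C3_MopH hp hpM₁ hζ g, by rw [← C3_MopH_galF, hg, map_mul, map_pow]⟩⟩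

end Fermat.Agent.S33
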