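import Fermat.Agent.S33.F1HDefs
import Fermat.Agent.S33.F1T
import Fermat.Agent.S33.G1b
import Fermat.Agent.S33.A123
import Fermat.Agent.S34.GalX

/-!
# S33, F1H2: the exact representative at level `M₁` (instance of `F2b_exact` for the Gauss setting, `x = t₂`)
-/

set_option autoImplicit false

namespace Fermat.Agent.S33

open ModularCurve AlgebraicCurve HahnSeries Fermat.Agent.S24 Fermat.Agent.S28 Fermat.Agent.S18
  Fermat.Agent.GR Fermat.Agent.S34 Fermat.Agent.S35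

variable {p M₁ : ℕ} [NeZero p] [NeZero M₁] {A : ValuationSubring Kb}

theorem F1H_exact (hp : p.Prime) (hp2 : p ≠ 2) (h4 : 4 ∣ M₁) (hpM₁ : ¬ p ∣ M₁)
    (hA : A.LiesOverPrime p) (hN : (M₁ : kA A) ≠ 0) {τ₀ : GQ} (hτ₀ : IsTau0 A p τ₀) {u : FN M₁}
    (hu : F1H_Good A hN p τ₀ u) (hnt : ¬ Triv Kb u p) :
    ∃ (b : Kb) (e w : FN M₁), w ≠ 0 ∧ IsExact (A5G_core (gaussSetting A M₁ hN)) p b e ∧
      u * w ^ p = 1 + algebraMap Kb (FN M₁) b * e ∧
      e ∈ intRing Kb (t2 M₁ (Dvd.dvd.trans (by norm_num) h4))⁻¹ ∧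
      A.valuation (τ₀ b - b) < A.valuation b := by
  have := isAlgClosed_kA A
  have := charP_kA hp hA
  set S := gaussSetting A M₁ hN with hS
  obtain ⟨hc, hn0, hnI⟩ := instA_odd A hp hA hp2 M₁ h4 hpM₁ S (isGauss_gaussSetting A M₁ hN)
  set x := t2 M₁ (Dvd.dvd.trans (by norm_num) h4) with hx
  have H := A5G_coreHyp S hc hn0 hnI
  have HU := A5G_coreHypU (isFF_FN M₁) S hc hp.pos hu.mem hu.rd hu.ord
  obtain ⟨g, hg⟩ := hu.fix
  obtain ⟨hτA, hth, -, h4', -⟩ := G1b_pack (A5G_core S) hp hp2 hA hτ₀ (τ₀ : Kb →+* Kb) (fun _ => rfl)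
  obtain ⟨n, c, h1, h2, e1, e2, hc0, hc1, hlt, T, hres⟩ :=
    F2b_exact (A5G_core S) H hp hp.pos HU (fun a b r h => A5G_hroot hp.pos h)
      (fun a => IsAlgClosed.exists_pow_nat_eq a hp.pos)
      (galF M₁ τ₀ : FN M₁ →+* FN M₁) (τ₀ : Kb →+* Kb)
      (fun c => by
        apply Subtype.ext
        show ((galF M₁ τ₀ (algebraMap Kb (FN M₁) c) : FN M₁) : LaurentSeries Kb) = _
        rw [coe_galF, gs_coe_algebraMap, gs_coe_algebraMap, coeffMap_C])
      (galF_t2 M₁ _ τ₀)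
      (fun f hf => by
        have := F1T_gal A M₁ hN hτ₀.1 hf
        refine ⟨this.1, ?_⟩
        rw [A5G_rd, A5G_rd]
        exact this.2)
      hτA hth (g := g) hg (fun h hh c hc => hnt ⟨h, hh, c, hc⟩)
  refine ⟨c ^ p, e2, h2, ?_, T.isExact2 hc1 hlt, T.eq2, ?_, ?_⟩
  · rintro rfl
    have := T.rdh2
    rw [A5G_rd, S.rd_zero] at this
    exact zero_ne_one this
  · have := (mem_Lsp.1 T.e2L).2
    rwa [pow_zero, one_mul] at this
  · exact g1_th_one_pow hτ₀.1 (h4' c hc0 hres) p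

end Fermat.Agent.S33
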