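import Fermat.Agent.S33.F1HDefs

/-!
# S33, piece F1H3: `T_p (1 + b e) = 1 + b h'` with `rd h'` a `p`-th power (`e` Gauss-integral)
-/

set_option autoImplicit false

namespace Fermat.Agent.S33

open ModularCurve AlgebraicCurve HahnSeries Fermat.Agent.S24 Fermat.Agent.S28 Fermat.Agent.S18
  Fermat.Agent.GR Fermat.Agent.S34 Fermat.Agent.S35

variable {p M₁ : ℕ} [NeZero p] [NeZero M₁] {A : ValuationSubring Kb}

theorem F1H3_coe_one_add (b : Kb) (e : FN M₁) :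
    ((1 + algebraMap Kb (FN M₁) b * e : FN M₁) : LaurentSeries Kb) =
      1 + C b * (e : LaurentSeries Kb) := by
  show (1 : LaurentSeries Kb) + ((algebraMap Kb (FN M₁) b : FN M₁) : LaurentSeries Kb) *
    (e : LaurentSeries Kb) = _
  rw [gs_coe_algebraMap]

theorem F1H_mop (hp : p.Prime) (hpM₁ : ¬ p ∣ M₁) (hA : A.LiesOverPrime p) (hN : (M₁ : kA A) ≠ 0)
    {ζ : Kbˣ} (hζ : IsPrimitiveRoot ζ p) {b : Kb} (hb : A.valuation b < 1) {e : FN M₁}
    (he : e ∈ (gaussSetting A M₁ hN).V) :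
    ∃ h' g : FN M₁, h' ∈ (gaussSetting A M₁ hN).V ∧ g ∈ (gaussSetting A M₁ hN).V ∧
      (gaussSetting A M₁ hN).rd h' = (gaussSetting A M₁ hN).rd g ^ p ∧
      C3_MopH hp hpM₁ hζ (1 + algebraMap Kb (FN M₁) b * e) =
        1 + algebraMap Kb (FN M₁) b * h' := by
  have : Fact p.Prime := ⟨hp⟩
  have : CharP (kA A) p := charP_kA hp hA
  have := isAlgClosed_kA A
  by_cases hb0 : b = 0
  · refine ⟨0, 0, zero_mem _, zero_mem _, ?_, ?_⟩
    · rw [(gaussSetting A M₁ hN).rd_zero, zero_pow hp.ne_zero]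
    · rw [hb0, map_zero, zero_mul, zero_mul, add_zero, map_one]
  have heg : gsMem A (e : LaurentSeries Kb) := he
  obtain ⟨H', hH'm, hH'g, hH'⟩ := Mop_one_add_gs hp.two_le hζ hb heg
  have hCb0 : (C b : LaurentSeries Kb) ≠ 0 := by
    rw [Ne, map_eq_zero_iff _ HahnSeries.C_injective]; exact hb0
  have hM : Mop ζ p ((1 + algebraMap Kb (FN M₁) b * e : FN M₁) : LaurentSeries Kb) =
      1 + C b * H' := by
    rw [F1H3_coe_one_add, hH']
  have hmem : H' ∈ FN M₁ := by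
    have h1 : Mop ζ p ((1 + algebraMap Kb (FN M₁) b * e : FN M₁) : LaurentSeries Kb) ∈ FN M₁ :=
      Fermat.Agent.S37.Mop_mem_FN hp hpM₁ hζ (1 + algebraMap Kb (FN M₁) b * e : FN M₁).2
    have h2 : H' =
        (Mop ζ p ((1 + algebraMap Kb (FN M₁) b * e : FN M₁) : LaurentSeries Kb) - 1) *
          ((algebraMap Kb (FN M₁) b : FN M₁) : LaurentSeries Kb)⁻¹ := by
      rw [hM, gs_coe_algebraMap]
      field_simp
      ring
    rw [h2]
    exact mul_mem (sub_mem h1 (one_mem _)) (inv_mem (algebraMap Kb (FN M₁) b : FN M₁).2)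
  have hV : (⟨H', hmem⟩ : FN M₁) ∈ (gaussSetting A M₁ hN).V := hH'm
  have hrd : (((gaussSetting A M₁ hN).rd ⟨H', hmem⟩ : modularFunctionFieldFullC (kA A) M₁) :
      LaurentSeries (kA A)) = gr A H' := by
    rw [(gaussSetting A M₁ hN).rd_of_mem hV]; rfl
  obtain ⟨r, hr, hrp⟩ := ep_of_coeff p M₁ hN ((gaussSetting A M₁ hN).rd ⟨H', hmem⟩).2 (by
    intro n hn
    rw [hrd, hH'g]
    exact qExpand_coeff_of_not_dvd p _ hn)
  obtain ⟨g, hg⟩ := (gaussSetting A M₁ hN).red_surj ⟨r, hr⟩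
  refine ⟨⟨H', hmem⟩, g, hV, g.2, ?_, ?_⟩
  · rw [(gaussSetting A M₁ hN).rd_of_mem g.2]
    apply Subtype.ext
    rw [hrp]
    show r ^ p = (((gaussSetting A M₁ hN).red ⟨g, g.2⟩ ^ p : modularFunctionFieldFullC (kA A) M₁) :
      LaurentSeries (kA A))
    have : (⟨(g : FN M₁), g.2⟩ : (gaussSetting A M₁ hN).V) = g := rfl
    rw [this, hg]
    rfl
  · apply Subtype.ext
    rw [C3_coe_MopH, hM, F1H3_coe_one_add]

end Fermat.Agent.S33
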