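import Fermat.Agent.S33.L1
import Fermat.Agent.S18.DW

/-!
# S33:L1g — the Gauss-valuation version of L1 (Newton)

`gsMem A h` (Gauss norm `≤ 1`) does not imply that the coefficients of `h` lie in `A`; here L1 is proved for
`gsMem`:  `UU ζ p (1 + b h) = 1 + b^p UU ζ p h + p b X` with `gsMem A X`.
-/

set_option autoImplicit false
set_option linter.unusedSectionVars false

namespace Fermat.Agent.S33

open HahnSeries Fermat.Agent.S28 Fermat.Agent.GR Fermat.Agent.S35 Fermat.Agent.S18 Finset ModularCurve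
  Fermat.Agent.S24

section General

variable {B : Type*} [CommRing B]

theorem L1g_scale_qExpand {z : Bˣ} {p : ℕ} [NeZero p] (hz : z ^ p = 1) (g : LaurentSeries B) :
    scale z (qExpand B p g) = qExpand B p g := by
  ext n
  rw [scale_coeff]
  by_cases hn : (p : ℤ) ∣ n
  · obtain ⟨k, rfl⟩ := hn
    rw [zpow_mul, zpow_natCast, hz, one_zpow, Units.val_one, one_mul]
  · rw [qExpand_coeff_of_not_dvd p _ hn, mul_zero]

/-- L1 with explicit quotients `esy H j / p`. -/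
theorem L1g_UU_one_add_of [IsDomain B] {p : ℕ} [NeZero p] (hp : p.Prime) {z : Bˣ} (b : B)
    (h : LaurentSeries B) (Xf : ℕ → LaurentSeries B)
    (hXf : ∀ j, 0 < j → j < p →
      esy (fun i : Fin p => scale (z ^ (i : ℕ)) h) j = (p : LaurentSeries B) * Xf j) :
    UU z p (1 + C b * h) = 1 + C (b ^ p) * UU z p h +
      C ((p : B) * b) * ∑ j ∈ range (p - 1), C (b ^ j) * Uop p (Xf (j + 1)) := by
  classical
  set H : Fin p → LaurentSeries B := fun i => scale (z ^ (i : ℕ)) h with hH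
  have hPop : Pop z p (1 + C b * h) = ∑ j ∈ range (p + 1), C b ^ j * esy H j := by
    have := prod_one_add_mul (C b) H
    rw [Fintype.card_fin] at this
    rw [← this, Pop, ← Fin.prod_univ_eq_prod_range (fun i => scale (z ^ i) (1 + C b * h)) p]
    refine Finset.prod_congr rfl fun i _ => ?_
    rw [map_add, map_one, map_mul, scale_C]
  obtain ⟨r, rfl⟩ : ∃ r, p = r + 1 := ⟨p - 1, by have := hp.pos; omega⟩
  rw [Nat.add_sub_cancel]
  rw [UU, hPop, Finset.sum_range_succ, Finset.sum_range_succ', Uop_add1, Uop_add1, Uop_sum1]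
  have e0 : Uop (r + 1) (C b ^ 0 * esy H 0) = 1 := by
    rw [pow_zero, one_mul, esy_zero, ← map_one (C : B →+* LaurentSeries B), Uop_C]
  have e1 : Uop (r + 1) (C b ^ (r + 1) * esy H (r + 1)) = C (b ^ (r + 1)) * UU z (r + 1) h := by
    have : esy H (r + 1) = Pop z (r + 1) h := by
      have h1 := esy_card H
      rw [Fintype.card_fin] at h1
      rw [h1, Pop, ← Fin.prod_univ_eq_prod_range (fun i => scale (z ^ i) h) (r + 1)]
    rw [this, ← map_pow, Uop_C_mul1, UU]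
  have e2 : ∑ j ∈ range r, Uop (r + 1) (C b ^ (j + 1) * esy H (j + 1)) =
      C (((r + 1 : ℕ) : B) * b) * ∑ j ∈ range r, C (b ^ j) * Uop (r + 1) (Xf (j + 1)) := by
    rw [Finset.mul_sum]
    refine Finset.sum_congr rfl fun j hj => ?_
    have hj' : j + 1 < r + 1 := by have := Finset.mem_range.1 hj; omega
    rw [hXf (j + 1) (Nat.succ_pos j) hj', ← map_pow, ← map_natCast (C : B →+* LaurentSeries B),
      ← mul_assoc, ← map_mul, Uop_C_mul1, ← mul_assoc, ← map_mul]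
    congr 2
    ring
  rw [e0, e1, e2]
  ring

end General

theorem L1g_natCast_ne_zero (p : ℕ) [NeZero p] : (p : LaurentSeries Kb) ≠ 0 := by
  rw [← map_natCast (C : Kb →+* LaurentSeries Kb)]
  exact (map_ne_zero_iff _ HahnSeries.C_injective).2 (Nat.cast_ne_zero.2 (NeZero.ne p))

/-- `U_p (f g(t^p)) = U_p(f) g`. -/
theorem L1g_Uop_mul_qExpand {p : ℕ} [NeZero p] {ζ : Kbˣ} (hζ : IsPrimitiveRoot ζ p)
    (f g : LaurentSeries Kb) : Uop p (f * qExpand Kb p g) = Uop p f * g := by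
  apply qExpand_injective (R := Kb) p
  apply mul_left_cancel₀ (L1g_natCast_ne_zero p)
  rw [← sum_scale_eq hζ, map_mul, ← mul_assoc, ← sum_scale_eq hζ, Finset.sum_mul]
  refine Finset.sum_congr rfl fun i _ => ?_
  rw [map_mul, L1g_scale_qExpand (by rw [← pow_mul, mul_comm, pow_mul, hζ.pow_eq_one, one_pow])]

variable {A : ValuationSubring Kb}

theorem gsMem_scale (z : Aˣ) {f : LaurentSeries Kb} (hf : gsMem A f) :
    gsMem A (scale (Units.map (A.subtype : A →* Kb) z) f) := by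
  obtain ⟨Y₁, Y₂, h0, h⟩ := hf
  refine ⟨scale z Y₁, scale z Y₂, ?_, ?_⟩
  · rw [coeffMap_scale]
    intro hh
    exact h0 (scale_injective _ (by rw [hh, map_zero]))
  · have e : ∀ Y : LaurentSeries A, coeffMap A.subtype (scale z Y) =
        scale (Units.map (A.subtype : A →* Kb) z) (coeffMap A.subtype Y) := fun Y => by
      rw [coeffMap_scale]
    rw [e, e, ← map_mul, h]

theorem gsMem_qExpand (p : ℕ) [NeZero p] {f : LaurentSeries Kb} (hf : gsMem A f) :
    gsMem A (qExpand Kb p f) ∧ gr A (qExpand Kb p f) = qExpand (kA A) p (gr A f) := by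
  obtain ⟨Y₁, Y₂, h0, h⟩ := hf
  have h0' : coeffMap (IsLocalRing.residue A) (qExpand A p Y₂) ≠ 0 := by
    rw [Transfer.coeffMap_qExpand]
    intro hh
    exact h0 (qExpand_injective (R := kA A) p (by rw [hh, map_zero]))
  have h' : qExpand Kb p f * coeffMap A.subtype (qExpand A p Y₂) =
      coeffMap A.subtype (qExpand A p Y₁) := by
    rw [Transfer.coeffMap_qExpand, Transfer.coeffMap_qExpand, ← map_mul, h]
  refine ⟨⟨_, _, h0', h'⟩, ?_⟩
  have h1 := gr_mul_eq h0' h'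
  have h2 := gr_mul_eq h0 h
  apply mul_right_cancel₀ h0'
  rw [h1, Transfer.coeffMap_qExpand, Transfer.coeffMap_qExpand, ← h2, map_mul]

section P

variable {p : ℕ} [NeZero p] [Fact p.Prime] [CharP (kA A) p]

theorem L1g_frob_ne (x : LaurentSeries (kA A)) (hx : x ≠ 0) :
    coeffMap (frobenius (kA A) p) x ≠ 0 := fun hh =>
  hx (coeffMap_injective (frobenius (kA A) p) (frobenius (kA A) p).injective (by rw [hh, map_zero]))

theorem gsMem_UU {ζ : Kbˣ} (hζ : IsPrimitiveRoot ζ p) {f : LaurentSeries Kb} (hf : gsMem A f) :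
    gsMem A (UU ζ p f) ∧ gr A (UU ζ p f) = coeffMap (frobenius (kA A) p) (gr A f) := by
  obtain ⟨Y₁, Y₂, h0, h⟩ := hf
  obtain ⟨z, hz, hz1⟩ := exists_unit_of_pow_eq_one (A := A) (NeZero.ne p) ζ hζ.pow_eq_one
  have hsub : ∀ Y : LaurentSeries A, coeffMap A.subtype (Uop p (Pop z p Y)) =
      Uop p (Pop ζ p (coeffMap A.subtype Y)) := by
    intro Y
    rw [coeffMap_Uop, coeffMap_Pop]
    congr 2
  have h0' : coeffMap (IsLocalRing.residue A) (Uop p (Pop z p Y₂)) ≠ 0 := by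
    rw [coeffMap_Uop_Pop_char p _ z hz1]
    exact L1g_frob_ne _ h0
  have h' : UU ζ p f * coeffMap A.subtype (Uop p (Pop z p Y₂)) =
      coeffMap A.subtype (Uop p (Pop z p Y₁)) := by
    rw [hsub, hsub, UU, ← Uop_Pop_mul hζ, h]
  refine ⟨⟨_, _, h0', h'⟩, ?_⟩
  have h1 := gr_mul_eq h0' h'
  have h2 := gr_mul_eq h0 h
  apply mul_right_cancel₀ h0'
  rw [h1, coeffMap_Uop_Pop_char p _ z hz1, coeffMap_Uop_Pop_char p _ z hz1, ← h2, map_mul]

theorem gsMem_Uop {ζ : Kbˣ} (hζ : IsPrimitiveRoot ζ p) {f : LaurentSeries Kb} (hf : gsMem A f) :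
    gsMem A (Uop p f) := by
  classical
  obtain ⟨Y₁, Y₂, h0, h⟩ := hf
  obtain ⟨z, hz, hz1⟩ := exists_unit_of_pow_eq_one (A := A) (NeZero.ne p) ζ hζ.pow_eq_one
  set P' : LaurentSeries A := ∏ i ∈ (range p).erase 0, scale (z ^ i) Y₂ with hP'
  have hPop : Pop z p Y₂ = Y₂ * P' := by
    have := Finset.mul_prod_erase (range p) (fun i => scale (z ^ i) Y₂)
      (Finset.mem_range.2 (Nat.pos_of_ne_zero (NeZero.ne p)))
    rw [pow_zero, scale_one_apply] at this
    rw [Pop, ← this]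
  have hsub : coeffMap A.subtype (Pop z p Y₂) = Pop ζ p (coeffMap A.subtype Y₂) := by
    rw [coeffMap_Pop]
    congr 1
  refine ⟨Uop p (Y₁ * P'), Uop p (Pop z p Y₂), ?_, ?_⟩
  · rw [coeffMap_Uop_Pop_char p _ z hz1]
    exact L1g_frob_ne _ h0
  · rw [coeffMap_Uop, coeffMap_Uop, ← L1g_Uop_mul_qExpand hζ, hsub, qExpand_Uop_Pop hζ, ← hsub, hPop,
      map_mul, map_mul, ← mul_assoc, h]

/-- the Gauss valuation ring as a subring of `ℚ̄((t))`. -/
def gsRing (A : ValuationSubring Kb) : Subring (LaurentSeries Kb) where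
  carrier := {f | gsMem A f}
  mul_mem' := fun ha hb => gsMem.mul ha hb
  one_mem' := gsMem_one
  add_mem' := fun ha hb => gsMem.add ha hb
  zero_mem' := gsMem_zero
  neg_mem' := fun ha => gsMem.neg ha

theorem mem_gsRing {f : LaurentSeries Kb} : f ∈ gsRing A ↔ gsMem A f := Iff.rfl

/-- **L1g.** -/
theorem UU_one_add_gs {ζ : Kbˣ} (hζ : IsPrimitiveRoot ζ p) {b : Kb} (hb : b ∈ A)
    {h : LaurentSeries Kb} (hh : gsMem A h) :
    ∃ X : LaurentSeries Kb, gsMem A X ∧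
      UU ζ p (1 + C b * h) = 1 + C (b ^ p) * UU ζ p h + C ((p : Kb) * b) * X := by
  classical
  have hp : p.Prime := Fact.out
  obtain ⟨z, hz, hz1⟩ := exists_unit_of_pow_eq_one (A := A) (NeZero.ne p) ζ hζ.pow_eq_one
  have hsc : ∀ i : ℕ, gsMem A (scale (ζ ^ i) h) := by
    intro i
    have := gsMem_scale (z ^ i) hh
    rwa [map_pow, hz] at this
  let H' : Fin p → gsRing A := fun i => ⟨scale (ζ ^ (i : ℕ)) h, hsc i⟩
  have hps : ∀ j, 0 < j → (p : gsRing A) ∣ ∑ i, H' i ^ j := by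
    intro j _
    refine ⟨⟨qExpand Kb p (Uop p (h ^ j)), (gsMem_qExpand p (gsMem_Uop hζ (hh.pow j))).1⟩, ?_⟩
    apply Subtype.ext
    have e1 : ((∑ i, H' i ^ j : gsRing A) : LaurentSeries Kb) =
        ∑ i : Fin p, scale (ζ ^ (i : ℕ)) (h ^ j) := by
      rw [AddSubmonoidClass.coe_finsetSum]
      refine Finset.sum_congr rfl fun i _ => ?_
      rw [SubmonoidClass.coe_pow, map_pow]
    rw [e1, sum_scale_eq hζ]
    rfl
  have hd : ∀ j, 0 < j → j < p → ∃ Xj : LaurentSeries Kb, gsMem A Xj ∧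
      esy (fun i : Fin p => scale (ζ ^ (i : ℕ)) h) j = (p : LaurentSeries Kb) * Xj := by
    intro j h0 hj
    obtain ⟨Xj, hXj⟩ := dvd_esy hp H' hps h0 hj
    refine ⟨Xj, Xj.2, ?_⟩
    have := congrArg (gsRing A).subtype hXj
    rw [map_mul, map_natCast] at this
    rw [← Subring.subtype_apply, ← this, esy, esy, map_sum]
    refine Finset.sum_congr rfl fun t _ => ?_
    rw [map_prod]
    rfl
  choose! Xf hXf1 hXf2 using hd
  refine ⟨_, ?_, L1g_UU_one_add_of hp b h Xf hXf2⟩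
  refine gsMem_sum _ _ fun j hj => ?_
  have hj' : j + 1 < p := by have := Finset.mem_range.1 hj; omega
  exact (gsMem_C (pow_mem hb j)).mul (gsMem_Uop hζ (hXf1 (j + 1) (Nat.succ_pos j) hj'))

theorem L1g_mem_of_lt {b : Kb} (hb : A.valuation b < 1) : b ∈ A :=
  (A.valuation_le_one_iff b).1 hb.le

theorem L1g_res_eq_zero {b : Kb} (hb : A.valuation b < 1) :
    IsLocalRing.residue A ⟨b, L1g_mem_of_lt hb⟩ = 0 := by
  rw [IsLocalRing.residue_eq_zero_iff]
  exact (A.valuation_lt_one_iff ⟨b, L1g_mem_of_lt hb⟩).2 hb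

theorem L1g_gr_C_mul {c : Kb} (hc : A.valuation c < 1) {f : LaurentSeries Kb} (hf : gsMem A f) :
    gsMem A (C c * f) ∧ gr A (C c * f) = 0 := by
  refine ⟨(gsMem_C (L1g_mem_of_lt hc)).mul hf, ?_⟩
  rw [gr_mul (gsMem_C (L1g_mem_of_lt hc)) hf, gr_C (L1g_mem_of_lt hc), L1g_res_eq_zero hc, map_zero,
    zero_mul]

theorem L1g_val_p_lt : A.valuation (p : Kb) < 1 := by
  have hmem : (p : Kb) ∈ A := natCast_mem A p
  have h0 : IsLocalRing.residue A ⟨(p : Kb), hmem⟩ = 0 := by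
    have : (⟨(p : Kb), hmem⟩ : A) = (p : A) := Subtype.ext (by simp)
    rw [this, map_natCast]
    exact CharP.cast_eq_zero (kA A) p
  rw [IsLocalRing.residue_eq_zero_iff] at h0
  exact (A.valuation_lt_one_iff ⟨(p : Kb), hmem⟩).1 h0

/-- `(1 + b e) UU(1 + b e') = 1 + b h'` with `gr h' = gr e` (for `N1` and for `Mop`). -/
theorem one_add_mul_UU_gs (hp2 : 2 ≤ p) {ζ : Kbˣ} (hζ : IsPrimitiveRoot ζ p) {b : Kb}
    (hb : A.valuation b < 1) {e e' : LaurentSeries Kb} (he : gsMem A e) (he' : gsMem A e') :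
    ∃ h' : LaurentSeries Kb, gsMem A h' ∧ gr A h' = gr A e ∧
      (1 + C b * e) * UU ζ p (1 + C b * e') = 1 + C b * h' := by
  have hbA := L1g_mem_of_lt hb
  obtain ⟨X, hX, hXe⟩ := UU_one_add_gs hζ hbA he'
  have hU := (gsMem_UU hζ he').1
  have hbp : A.valuation (b ^ (p - 1)) < 1 := by
    rw [map_pow]
    exact pow_lt_one₀ zero_le hb (by omega)
  have m1 := L1g_gr_C_mul hbp hU
  have m2 := L1g_gr_C_mul (L1g_val_p_lt (A := A) (p := p)) hX
  have m3 : gsMem A (1 + C b * e) := gsMem_one.add ((gsMem_C hbA).mul he)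
  have m4 := m1.1.add m2.1
  refine ⟨e + (1 + C b * e) * (C (b ^ (p - 1)) * UU ζ p e' + C (p : Kb) * X), he.add (m3.mul m4), ?_, ?_⟩
  · rw [gr_add he (m3.mul m4), gr_mul m3 m4, gr_add m1.1 m2.1, m1.2, m2.2, add_zero, mul_zero, add_zero]
  · rw [hXe]
    have e1 : (C (b ^ p) : LaurentSeries Kb) = C b * C (b ^ (p - 1)) := by
      rw [← map_mul, ← pow_succ']
      congr 2
      omega
    rw [e1, map_mul]
    ring

/-- `T_p (1 + b h) = 1 + b h'`, `gr h' = (gr h)(t^p)`. -/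
theorem Mop_one_add_gs (hp2 : 2 ≤ p) {ζ : Kbˣ} (hζ : IsPrimitiveRoot ζ p) {b : Kb}
    (hb : A.valuation b < 1) {h : LaurentSeries Kb} (hh : gsMem A h) :
    ∃ h' : LaurentSeries Kb, gsMem A h' ∧ gr A h' = qExpand (kA A) p (gr A h) ∧
      Mop ζ p (1 + C b * h) = 1 + C b * h' := by
  obtain ⟨h', m, g, e⟩ := one_add_mul_UU_gs hp2 hζ hb (gsMem_qExpand p hh).1 hh
  refine ⟨h', m, by rw [g, (gsMem_qExpand p hh).2], ?_⟩
  rw [← e, Mop, map_add, map_one, map_mul, qExpand_C]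
  rfl

end P

end Fermat.Agent.S33
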