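import Fermat.Agent.S33.L1

/-!
# S33:L1b — `newton`: L1 for power series over `Kb` with coefficients in `A`
-/

set_option autoImplicit false

namespace Fermat.Agent.S33

open HahnSeries Fermat.Agent.S28 Fermat.Agent.S28.Core Fermat.Agent.GR Fermat.Agent.S35 Finset
  ModularCurve Fermat.Agent.S24 Fermat.Agent.S18

section B

variable {B : Type*} [CommRing B]

theorem L1b_exists_ops {Y : LaurentSeries B} (hY : ∀ n : ℤ, n < 0 → Y.coeff n = 0) :
    ∃ f : PowerSeries B, ops f = Y := by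
  refine ⟨PowerSeries.mk fun n => Y.coeff (n : ℤ), ?_⟩
  ext n
  rcases lt_or_ge n 0 with hn | hn
  · rw [ops_coeff_neg _ hn, hY n hn]
  · lift n to ℕ using hn
    rw [ops_coeff_natCast, PowerSeries.coeff_mk]

theorem L1b_Uop_ops (ℓ : ℕ) [NeZero ℓ] (f : PowerSeries B) :
    Uop ℓ (ops f) = ops (PowerSeries.mk fun n => PowerSeries.coeff (ℓ * n) f) := by
  ext n
  rw [Uop_coeff]
  rcases lt_or_ge n 0 with hn | hn
  · rw [ops_coeff_neg _ hn, ops_coeff_neg]
    have : (0 : ℤ) < ℓ := by exact_mod_cast Nat.pos_of_ne_zero (NeZero.ne ℓ)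
    nlinarith
  · lift n to ℕ using hn
    rw [ops_coeff_natCast, PowerSeries.coeff_mk, ← Nat.cast_mul, ops_coeff_natCast]

theorem L1b_Pop_ops (z : Bˣ) (ℓ : ℕ) (f : PowerSeries B) :
    Pop z ℓ (ops f) = ops (∏ i ∈ range ℓ, PowerSeries.rescale (((z ^ i : Bˣ) : B)) f) := by
  rw [Pop, map_prod]
  refine Finset.prod_congr rfl fun i _ => ?_
  rw [ops_rescale]

theorem L1b_UU_ops (z : Bˣ) (ℓ : ℕ) [NeZero ℓ] (f : PowerSeries B) :
    ∃ g : PowerSeries B, UU z ℓ (ops f) = ops g := by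
  rw [UU, L1b_Pop_ops, L1b_Uop_ops]
  exact ⟨_, rfl⟩

theorem L1b_coeffMap_UU {R : Type*} [CommRing R] (ℓ : ℕ) [NeZero ℓ] [Fact ℓ.Prime] [CharP R ℓ]
    (φ : B →+* R) (z : Bˣ) (h1 : Units.map (φ : B →* R) z = 1) (Y : LaurentSeries B) :
    coeffMap φ (UU z ℓ Y) = coeffMap (frobenius R ℓ) (coeffMap φ Y) := by
  rw [UU, coeffMap_Uop, coeffMap_Pop, h1, Pop_one_left, pow_char_eq_qExpand, Uop_qExpand]

/-- `UU z p h ≡ ∑ a_n^p t^n` modulo `z - 1`. -/
theorem L1b_UU_congr [IsDomain B] {p : ℕ} [NeZero p] (hp : p.Prime) {z : Bˣ}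
    (hz : IsPrimitiveRoot z p) (hlam : ¬ IsUnit ((z : B) - 1)) (h : PowerSeries B) :
    ∃ E2 : PowerSeries B, UU z p (ops h) =
      ops (PowerSeries.mk (fun n => PowerSeries.coeff n h ^ p) + PowerSeries.C ((z : B) - 1) * E2) := by
  classical
  have : Fact p.Prime := ⟨hp⟩
  set J : Ideal B := Ideal.span {(z : B) - 1} with hJ
  set φ : B →+* B ⧸ J := Ideal.Quotient.mk J with hφ
  have hJtop : J ≠ ⊤ := by
    rw [hJ, Ne, Ideal.span_singleton_eq_top]
    exact hlam
  have : Nontrivial (B ⧸ J) := Ideal.Quotient.nontrivial_iff.2 hJtop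
  have hz1 : φ (z : B) = 1 := by
    have : φ ((z : B) - 1) = 0 := Ideal.Quotient.eq_zero_iff_mem.2 (Ideal.mem_span_singleton_self _)
    rw [map_sub, map_one, sub_eq_zero] at this
    exact this
  have hp0 : ((p : ℕ) : B ⧸ J) = 0 := by
    have hg : ∑ i ∈ range p, (z : B) ^ i = 0 := by
      have := (IsPrimitiveRoot.coe_units_iff.2 hz).geom_sum_eq_zero hp.one_lt
      exact this
    have := congrArg φ hg
    rw [map_sum, map_zero] at this
    simpa [map_pow, hz1] using this
  have : CharP (B ⧸ J) p := (CharP.charP_iff_prime_eq_zero hp).2 hp0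
  have h1 : Units.map (φ : B →* B ⧸ J) z = 1 := Units.ext hz1
  obtain ⟨g, hg⟩ := L1b_UU_ops z p h
  have key := L1b_coeffMap_UU p φ z h1 (ops h)
  rw [hg] at key
  have hmem : ∀ n : ℕ, PowerSeries.coeff n g - PowerSeries.coeff n h ^ p ∈ J := by
    intro n
    have := congrArg (fun Y => Y.coeff (n : ℤ)) key
    simp only [coeffMap_coeff, ops_coeff_natCast, frobenius_def] at this
    rw [← Ideal.Quotient.eq_zero_iff_mem, map_sub, map_pow]
    exact sub_eq_zero.2 this
  have hex : ∀ n : ℕ, ∃ e : B, PowerSeries.coeff n g - PowerSeries.coeff n h ^ p = ((z : B) - 1) * e := by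
    intro n
    obtain ⟨e, he⟩ := Ideal.mem_span_singleton'.1 (hmem n)
    exact ⟨e, by rw [← he, mul_comm]⟩
  choose e he using hex
  refine ⟨PowerSeries.mk e, ?_⟩
  rw [hg]
  congr 1
  ext n
  rw [map_add, PowerSeries.coeff_mk, PowerSeries.coeff_C_mul, PowerSeries.coeff_mk, ← he n]
  ring

/-- L1 for power series. -/
theorem newtonB [IsDomain B] {p : ℕ} [NeZero p] (hp : p.Prime) {z : Bˣ}
    (hz : IsPrimitiveRoot z p) (hp0 : (p : B) ≠ 0) (hlam : ¬ IsUnit ((z : B) - 1)) (b : B)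
    (h : PowerSeries B) :
    ∃ E1 E2 : PowerSeries B, UU z p (ops (1 + PowerSeries.C b * h)) =
      ops (1 + PowerSeries.C (b ^ p) * (PowerSeries.mk (fun n => PowerSeries.coeff n h ^ p)
        + PowerSeries.C ((z : B) - 1) * E2) + PowerSeries.C ((p : B) * b) * E1) := by
  obtain ⟨E2, hE2⟩ := L1b_UU_congr hp hz hlam h
  have hC : ∀ c : B, ops (PowerSeries.C c) = (C c : LaurentSeries B) := fun c =>
    HahnSeries.ofPowerSeries_C c
  rcases eq_or_ne b 0 with rfl | hb
  · refine ⟨0, E2, ?_⟩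
    simp only [zero_pow hp.ne_zero, map_zero, zero_mul, mul_zero, add_zero, map_one]
    rw [UU, Pop_one, ← map_one (C : B →+* LaurentSeries B), Uop_C]
  · obtain ⟨X, hX⟩ := UU_one_add hp hz b (ops h)
    obtain ⟨g, hg⟩ := L1b_UU_ops z p (1 + PowerSeries.C b * h)
    have e0 : ops (1 + PowerSeries.C b * h) = 1 + C b * ops h := by
      rw [map_add, map_one, map_mul, hC]
    rw [← e0, hg, hE2] at hX
    have hXn : ∀ n : ℤ, n < 0 → X.coeff n = 0 := by
      intro n hn
      have := congrArg (fun Y => Y.coeff n) hX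
      simp only [HahnSeries.coeff_add, HahnSeries.C_mul_eq_smul, HahnSeries.coeff_smul,
        ops_coeff_neg _ hn, smul_eq_mul, mul_zero, add_zero, HahnSeries.coeff_one,
        if_neg hn.ne, zero_add] at this
      exact (mul_eq_zero.1 this.symm).resolve_left (mul_ne_zero hp0 hb)
    obtain ⟨E1, rfl⟩ := L1b_exists_ops hXn
    refine ⟨E1, E2, ?_⟩
    rw [hg, hX]
    simp only [map_add, map_one, map_mul, hC]

end B

/-- **L1 in the form used by L3.** -/
theorem newton (A : ValuationSubring Kb) {p : ℕ} [NeZero p] (hp : p.Prime) (hA : A.LiesOverPrime p)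
    (ζ : Kbˣ) (hζ : IsPrimitiveRoot ζ p) {b : Kb} (hb : b ∈ A) {h : PowerSeries Kb}
    (hh : ∀ n, PowerSeries.coeff n h ∈ A) :
    ∃ (E1 E2 : PowerSeries Kb) (μ : Kb), (∀ n, PowerSeries.coeff n E1 ∈ A) ∧
      (∀ n, PowerSeries.coeff n E2 ∈ A) ∧ A.valuation μ < 1 ∧
      UU ζ p (HahnSeries.ofPowerSeries ℤ Kb (1 + PowerSeries.C b * h)) =
        HahnSeries.ofPowerSeries ℤ Kb (1 + PowerSeries.C (b ^ p) *
          (PowerSeries.mk (fun n => PowerSeries.coeff n h ^ p) + PowerSeries.C μ * E2)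
          + PowerSeries.C ((p : Kb) * b) * E1) := by
  have : Fact p.Prime := ⟨hp⟩
  have : CharP (kA A) p := charP_kA hp hA
  obtain ⟨z, hz, hz1⟩ := exists_unit_of_pow_eq_one (A := A) (NeZero.ne p) ζ hζ.pow_eq_one
  have hzp : IsPrimitiveRoot z p := by
    have hinj : Function.Injective (Units.map (A.subtype : A →* Kb)) :=
      Units.map_injective A.subtype_injective
    rw [← IsPrimitiveRoot.map_iff_of_injective hinj, hz]
    exact hζ
  have hzv : ((z : A) : Kb) = (ζ : Kb) := congrArg Units.val hz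
  have hp0 : ((p : ℕ) : A) ≠ 0 := by
    exact_mod_cast hp.ne_zero
  have hmem : (z : A) - 1 ∈ IsLocalRing.maximalIdeal A := by
    rw [← IsLocalRing.residue_eq_zero_iff, map_sub, map_one, sub_eq_zero]
    apply frobenius_inj (kA A) p
    rw [frobenius_def, frobenius_def, one_pow, ← map_pow, ← Units.val_pow_eq_pow_val, hz1,
      Units.val_one, map_one]
  have hlam : ¬ IsUnit ((z : A) - 1) := (IsLocalRing.mem_maximalIdeal _).1 hmem
  set hB : PowerSeries A := PowerSeries.mk fun n => ⟨PowerSeries.coeff n h, hh n⟩ with hhB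
  have hmap : PowerSeries.map A.subtype hB = h := by
    ext n
    rw [PowerSeries.coeff_map, hhB, PowerSeries.coeff_mk]
    rfl
  obtain ⟨E1, E2, hE⟩ := newtonB hp hzp hp0 hlam (⟨b, hb⟩ : A) hB
  refine ⟨PowerSeries.map A.subtype E1, PowerSeries.map A.subtype E2, (ζ : Kb) - 1, ?_, ?_, ?_, ?_⟩
  · intro n
    rw [PowerSeries.coeff_map]
    exact Subtype.property _
  · intro n
    rw [PowerSeries.coeff_map]
    exact Subtype.property _
  · have := (A.valuation_lt_one_iff ((z : A) - 1)).1 hmem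
    rw [← hzv]
    exact this
  · have h2 := congrArg (coeffMap A.subtype) hE
    rw [UU, coeffMap_Uop, coeffMap_Pop, hz, coeffMap_ofPowerSeries,
      coeffMap_ofPowerSeries] at h2
    rw [UU]
    convert h2 using 3
    · simp only [map_add, map_one, map_mul, PowerSeries.map_C, hmap]
      rfl
    · have e1 : PowerSeries.map A.subtype (PowerSeries.mk fun n => PowerSeries.coeff n hB ^ p) =
          PowerSeries.mk fun n => PowerSeries.coeff n h ^ p := by
        ext n
        rw [PowerSeries.coeff_mk, PowerSeries.coeff_map, PowerSeries.coeff_mk, map_pow, hhB,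
          PowerSeries.coeff_mk]
        rfl
      have e2 : A.subtype (z : A) = (ζ : Kb) := hzv
      simp only [map_add, map_one, map_mul, PowerSeries.map_C, map_pow, map_sub, map_natCast, e1, e2]
      rfl

end Fermat.Agent.S33
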