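import Fermat.Agent.S33.L3
import Fermat.Agent.S33.L1b
import Fermat.Agent.S34.Arch

/-!
# S33, piece L3 (TpLocal), concrete form over a valuation ring `A` of `ℚ̄` above `p`
-/

set_option autoImplicit false

namespace Fermat.Agent.S33

open Fermat.Agent.GR Fermat.Agent.S24 Fermat.Agent.S34 Fermat.Agent.S35 ModularCurve

theorem L3M_mem_of_pow_mem (A : ValuationSubring Kb) {c : Kb} {n : ℕ} (hn : n ≠ 0) (h : c ^ n ∈ A) :
    c ∈ A := by
  rw [← A.valuation_le_one_iff] at h ⊢
  rw [map_pow] at h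
  exact (pow_le_one_iff hn).mp h

theorem L3M_qExpand_ops (p : ℕ) [NeZero p] (X : PowerSeries Kb) :
    qExpand Kb p (HahnSeries.ofPowerSeries ℤ Kb X) = HahnSeries.ofPowerSeries ℤ Kb (L3_V p X) := by
  ext n
  have hp0 : (p : ℤ) ≠ 0 := by exact_mod_cast NeZero.ne p
  have hpp : (0 : ℤ) < p := by exact_mod_cast Nat.pos_of_ne_zero (NeZero.ne p)
  have hc : ∀ (Y : PowerSeries Kb) (i : ℤ), (HahnSeries.ofPowerSeries ℤ Kb Y).coeff i =
      if i < 0 then 0 else PowerSeries.coeff i.natAbs Y := fun Y i => PowerSeries.coeff_coe Y i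
  by_cases hn : (p : ℤ) ∣ n
  · obtain ⟨k, rfl⟩ := hn
    rw [qExpand_coeff_mul, hc, hc]
    by_cases hk : k < 0
    · rw [if_pos hk, if_pos (by nlinarith)]
    · rw [if_neg hk, if_neg (by nlinarith), L3_V, PowerSeries.coeff_mk]
      have h1 : ((p : ℤ) * k).natAbs = p * k.natAbs := by
        rw [Int.natAbs_mul, Int.natAbs_natCast]
      rw [h1, if_pos (Dvd.intro _ rfl), Nat.mul_div_cancel_left _ (Nat.pos_of_ne_zero (NeZero.ne p))]
  · rw [qExpand_coeff_of_not_dvd _ _ hn, hc]
    split_ifs with h0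
    · rfl
    · rw [L3_V, PowerSeries.coeff_mk, if_neg]
      intro hd
      apply hn
      have : (n.natAbs : ℤ) = n := Int.natAbs_of_nonneg (by omega)
      rw [← this]
      exact_mod_cast hd

theorem L3M_V_one_add {R : Type*} [CommRing R] {p : ℕ} (hp : 0 < p) (b : R) (h : PowerSeries R) :
    L3_V p (1 + PowerSeries.C b * h) = 1 + PowerSeries.C b * L3_V p h := by
  ext n
  simp only [L3_V, PowerSeries.coeff_mk, map_add, PowerSeries.coeff_C_mul, PowerSeries.coeff_one]
  by_cases hn : p ∣ n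
  · rw [if_pos hn, if_pos hn]
    obtain ⟨k, rfl⟩ := hn
    rw [Nat.mul_div_cancel_left _ hp]
    have : p * k = 0 ↔ k = 0 := by
      constructor
      · intro h0
        exact (Nat.mul_eq_zero.mp h0).resolve_left hp.ne'
      · rintro rfl; simp
    simp only [this]
  · rw [if_neg hn, if_neg hn, if_neg, mul_zero, add_zero]
    rintro rfl
    exact hn (dvd_zero p)

/-- a power series with coefficients in `A`, as a power series over `A`. -/
noncomputable def L3M_lift (A : ValuationSubring Kb) (X : PowerSeries Kb)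
    (hX : ∀ n, PowerSeries.coeff n X ∈ A) : PowerSeries A :=
  PowerSeries.mk fun n => ⟨PowerSeries.coeff n X, hX n⟩

theorem L3M_coeff_lift (A : ValuationSubring Kb) (X : PowerSeries Kb)
    (hX : ∀ n, PowerSeries.coeff n X ∈ A) (n : ℕ) :
    ((PowerSeries.coeff n (L3M_lift A X hX) : A) : Kb) = PowerSeries.coeff n X := by
  rw [L3M_lift, PowerSeries.coeff_mk]

theorem L3M_map_lift (A : ValuationSubring Kb) (X : PowerSeries Kb)
    (hX : ∀ n, PowerSeries.coeff n X ∈ A) : PowerSeries.map A.subtype (L3M_lift A X hX) = X := by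
  ext n
  rw [PowerSeries.coeff_map]
  exact L3M_coeff_lift A X hX n

theorem L3M_map_injective (A : ValuationSubring Kb) :
    Function.Injective (PowerSeries.map A.subtype) := by
  intro x y hxy
  ext n
  have := congrArg (PowerSeries.coeff n) hxy
  rw [PowerSeries.coeff_map, PowerSeries.coeff_map] at this
  exact this

theorem L3M_arch (A : ValuationSubring Kb) {p : ℕ} (hp : p.Prime) (hA : A.LiesOverPrime p) :
    ∀ c d : A, ¬ IsUnit c → d ≠ 0 → ∃ n : ℕ, d ∣ c ^ n := by
  intro c d hc hd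
  have hd' : (d : Kb) ≠ 0 := fun h => hd (Subtype.ext h)
  have hc' : (c : Kb) = 0 ∨ (c : Kb)⁻¹ ∉ A := by
    by_cases h0 : (c : Kb) = 0
    · exact Or.inl h0
    · right
      intro hi
      exact hc (isUnit_iff_exists_inv.mpr ⟨⟨_, hi⟩, Subtype.ext (mul_inv_cancel₀ h0)⟩)
  obtain ⟨n, hn⟩ := arch_of_liesOver' A hp hA c c.2 hc' d hd'
  refine ⟨n, ⟨⟨_, hn⟩, Subtype.ext ?_⟩⟩
  push_cast
  field_simp

/-- **L3 (TpLocal).** -/
theorem tpLocal (A : ValuationSubring Kb) {p : ℕ} [NeZero p] (hp : p.Prime) (hA : A.LiesOverPrime p)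
    (ζ : Kbˣ) (hζ : IsPrimitiveRoot ζ p) {b : Kb} (hb1 : A.valuation b < 1)
    (hbgt : A.valuation (p : Kb) ^ p < A.valuation b ^ (p - 1))
    {h f : PowerSeries Kb} (hh : ∀ n, PowerSeries.coeff n h ∈ A) (hf : ∀ n, PowerSeries.coeff n f ∈ A)
    (hm : ∃ m, ¬ p ∣ m ∧ A.valuation (PowerSeries.coeff m h) = 1)
    (hMop : Mop ζ p (HahnSeries.ofPowerSeries ℤ Kb (1 + PowerSeries.C b * h)) =
      HahnSeries.ofPowerSeries ℤ Kb f ^ p) :
    A.valuation b ^ (p * p) = A.valuation (p : Kb) ^ p * A.valuation b := by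
  have hbA : b ∈ A := (A.valuation_le_one_iff b).mp hb1.le
  obtain ⟨E1, E2, μ, hE1, hE2, hμ, hUU⟩ := newton A hp hA ζ hζ hbA hh
  have hμA : μ ∈ A := (A.valuation_le_one_iff μ).mp hμ.le
  -- the equation in `PowerSeries Kb`
  have heq : f ^ p = (1 + PowerSeries.C b * L3_V p h) *
      (1 + PowerSeries.C (b ^ p) * (PowerSeries.mk (fun n => PowerSeries.coeff n h ^ p)
        + PowerSeries.C μ * E2) + PowerSeries.C ((p : Kb) * b) * E1) := by
    apply HahnSeries.ofPowerSeries_injective (Γ := ℤ) (R := Kb)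
    rw [map_pow, ← hMop, map_mul, ← hUU, ← L3M_V_one_add hp.pos, ← L3M_qExpand_ops]
    rfl
  obtain ⟨lam, hlam⟩ := IsAlgClosed.exists_pow_nat_eq (p : Kb) (n := p - 1)
    (by have := hp.two_le; omega)
  have hp1 : p - 1 ≠ 0 := by have := hp.two_le; omega
  have hpA : (p : Kb) ∈ A := natCast_mem A p
  have hlamA : lam ∈ A := L3M_mem_of_pow_mem A hp1 (hlam ▸ hpA)
  obtain ⟨b1, hb1p⟩ := IsAlgClosed.exists_pow_nat_eq b hp.pos
  have hb1A : b1 ∈ A := L3M_mem_of_pow_mem A hp.ne_zero (hb1p ▸ hbA)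
  choose c hc using fun n => IsAlgClosed.exists_pow_nat_eq (PowerSeries.coeff n h) hp.pos
  have hcA : ∀ n, c n ∈ A := fun n => L3M_mem_of_pow_mem A hp.ne_zero (hc n ▸ hh n)
  have hp0 : (p : Kb) ≠ 0 := Nat.cast_ne_zero.mpr hp.ne_zero
  have hlam0 : lam ≠ 0 := by
    rintro rfl
    rw [zero_pow hp1] at hlam
    exact hp0 hlam.symm
  set hB := L3M_lift A h hh with hhB
  set fB := L3M_lift A f hf with hfB
  set E1B := L3M_lift A E1 hE1 with hE1B
  set E2B := L3M_lift A E2 hE2 with hE2B
  set HB : PowerSeries A := PowerSeries.mk (fun n => PowerSeries.coeff n hB ^ p)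
    + PowerSeries.C (⟨μ, hμA⟩ : A) * E2B with hHB
  set gfB : PowerSeries A := PowerSeries.mk (fun n => (⟨c n, hcA n⟩ : A)) with hgfB
  have hpv : A.valuation (p : Kb) < 1 := arch_val_q_lt A hA
  have hpR : ¬ IsUnit ((p : ℕ) : A) := by
    intro hu
    have := (A.valuation_eq_one_iff _).mp hu
    push_cast at this
    exact hpv.ne this
  have hass : Associated (((p : ℕ) : A)) ((⟨lam, hlamA⟩ : A) ^ (p - 1)) := by
    have : ((p : ℕ) : A) = (⟨lam, hlamA⟩ : A) ^ (p - 1) := Subtype.ext (by push_cast; exact hlam.symm)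
    rw [this]
  have hres := tpLocal_abs (R := A) hp hpR (lam := ⟨lam, hlamA⟩)
    (fun h0 => hlam0 (congrArg Subtype.val h0)) hass (L3M_arch A hp hA)
    (h := hB) (H := HB) (gf := gfB) (f := fB) (E1 := E1B) (b := ⟨b, hbA⟩) (b1 := ⟨b1, hb1A⟩)
    (Subtype.ext (by push_cast; exact hb1p))
    (by
      intro hu
      exact hb1.ne ((A.valuation_eq_one_iff _).mp hu))
    (by
      rintro ⟨d, hd⟩
      have hd' : b = lam ^ p * (d : Kb) := by
        have := congrArg Subtype.val hd
        push_cast at this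
        exact this
      have h1 : A.valuation b ≤ A.valuation lam ^ p := by
        rw [hd', map_mul, map_pow]
        exact mul_le_of_le_one_right' ((A.valuation_le_one_iff _).mpr d.2)
      have h2 : A.valuation b ^ (p - 1) ≤ A.valuation (p : Kb) ^ p := by
        calc A.valuation b ^ (p - 1) ≤ (A.valuation lam ^ p) ^ (p - 1) := pow_le_pow_left' h1 _
          _ = A.valuation (p : Kb) ^ p := by
              rw [← hlam, map_pow, ← pow_mul, ← pow_mul, mul_comm]
      exact absurd hbgt (not_lt.mpr h2))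
    (by
      intro n
      apply Subtype.ext
      rw [hgfB, PowerSeries.coeff_mk]
      push_cast
      rw [hc n, hhB, L3M_coeff_lift])
    (by
      obtain ⟨m, hmp, hmv⟩ := hm
      have hu : IsUnit (PowerSeries.coeff m hB) := by
        rw [A.valuation_eq_one_iff, hhB, L3M_coeff_lift]
        exact hmv
      refine ⟨m, hmp, hu, ?_⟩
      rw [hHB, map_add, PowerSeries.coeff_mk, PowerSeries.coeff_C_mul]
      refine L3_isUnit_add (hu.pow p) (L3_not_isUnit_mul _ ?_)
      intro hu'
      exact hμ.ne ((A.valuation_eq_one_iff _).mp hu'))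
    (by
      apply L3M_map_injective A
      have e1 : PowerSeries.map A.subtype (L3_V p hB) = L3_V p h := by
        ext n
        rw [PowerSeries.coeff_map, L3_V, L3_V, PowerSeries.coeff_mk, PowerSeries.coeff_mk]
        split_ifs
        · exact L3M_coeff_lift A h hh _
        · rfl
      have e2 : PowerSeries.map A.subtype (PowerSeries.mk fun n => PowerSeries.coeff n hB ^ p) =
          PowerSeries.mk fun n => PowerSeries.coeff n h ^ p := by
        ext n
        rw [PowerSeries.coeff_map, PowerSeries.coeff_mk, PowerSeries.coeff_mk, map_pow]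
        congr 1
        exact L3M_coeff_lift A h hh _
      rw [hHB]
      simp only [map_mul, map_add, map_one, map_pow, PowerSeries.map_C, e1, e2, hfB, hE1B, hE2B,
        L3M_map_lift, map_natCast]
      rw [heq]
      simp only [map_mul, map_pow, map_natCast]
      rfl)
  obtain ⟨u, hu⟩ := hres
  have hu' : b ^ p * ((u : A) : Kb) = (p : Kb) * b1 := by
    have := congrArg Subtype.val hu
    push_cast at this
    exact this
  have huv : A.valuation ((u : A) : Kb) = 1 := (A.valuation_eq_one_iff _).mp u.isUnit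
  have h3 : A.valuation b ^ p = A.valuation (p : Kb) * A.valuation b1 := by
    rw [← map_pow, ← map_mul, ← hu', map_mul, huv, mul_one]
  rw [pow_mul, h3, mul_pow, ← map_pow A.valuation b1, hb1p]

end Fermat.Agent.S33
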