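import Fermat.Agent.S33.A4b
import Fermat.Agent.S33.A5G
import Fermat.Agent.S33.G1
import Fermat.Agent.S33.F2b
import Fermat.Agent.S33.L3M
import Fermat.Agent.S33.L4
import Fermat.Agent.S33.L1g
import Fermat.Agent.S33.C3
import Fermat.Agent.S34.InstA

/-!
# S33, F1 (hedge by helper6): the definition `F1H_Good` (no sorry)
-/

set_option autoImplicit false

namespace Fermat.Agent.S33

open ModularCurve AlgebraicCurve HahnSeries Fermat.Agent.S24 Fermat.Agent.S28 Fermat.Agent.S18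
  Fermat.Agent.GR Fermat.Agent.S34 Fermat.Agent.S35

/-- a good representative: Gauss-integral, `≡ 1`, `p ∣ div`, class fixed by `τ₀`. -/
structure F1H_Good {M₁ : ℕ} [NeZero M₁] (A : ValuationSubring Kb) (hN : (M₁ : kA A) ≠ 0) (p : ℕ)
    (τ₀ : GQ) (u : FN M₁) : Prop where
  mem : u ∈ (gaussSetting A M₁ hN).V
  rd : (gaussSetting A M₁ hN).rd u = 1
  ord : DvdOrd M₁ p u
  fix : ∃ g : FN M₁, galF M₁ τ₀ u = u * g ^ p

end Fermat.Agent.S33
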