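import Fermat.Agent.S33.A4b
import Fermat.Agent.S33.A5G
import Fermat.Agent.S33.L1g
import Fermat.Agent.S33.L4
import Fermat.Agent.S33.C3

/-!
# S33, piece F1L: the hypothesis `hlead` of `F1_abs` for the Gauss setting of level `M` (`p ∤ M`) and `T = T_p`
-/

set_option autoImplicit false

namespace Fermat.Agent.S33

open ModularCurve AlgebraicCurve HahnSeries Fermat.Agent.S24 Fermat.Agent.S28 Fermat.Agent.S18
  Fermat.Agent.GR Fermat.Agent.S34 Fermat.Agent.S35

variable {A : ValuationSubring Kb} {p M : ℕ} [NeZero p] [NeZero M] [Fact p.Prime] [CharP (kA A) p]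

/-- **hlead** of `F1_abs`: `T_p (1 + b e) = 1 + b h'` with `rd h'` a `p`-th power. -/
theorem F1L_lead (hp : p.Prime) (hpM : ¬ p ∣ M) (hN : (M : kA A) ≠ 0) {ζ : Kbˣ}
    (hζ : IsPrimitiveRoot ζ p) (b : Kb) (e : FN M)
    (hb : (A5G_core (gaussSetting A M hN)).A.valuation b < 1)
    (he : e ∈ (A5G_core (gaussSetting A M hN)).R) :
    ∃ h' g : FN M, h' ∈ (A5G_core (gaussSetting A M hN)).R ∧ g ∈ (A5G_core (gaussSetting A M hN)).R ∧
      (A5G_core (gaussSetting A M hN)).rd h' = (A5G_core (gaussSetting A M hN)).rd g ^ p ∧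
      C3_MopH hp hpM hζ (1 + algebraMap Kb (FN M) b * e) = 1 + algebraMap Kb (FN M) b * h' := by
  set S := gaussSetting A M hN with hS
  by_cases hb0 : b = 0
  · refine ⟨0, 0, zero_mem _, zero_mem _, ?_, ?_⟩
    · rw [(A5G_core S).rd_zero, zero_pow hp.ne_zero]
    · rw [hb0, map_zero, zero_mul, zero_mul, add_zero, map_one]
  have hb' : A.valuation b < 1 := hb
  have he' : gsMem A (e : LaurentSeries Kb) := he
  have hk := isAlgClosed_kA A
  obtain ⟨h', h1, h2, h3⟩ := Mop_one_add_gs (A := A) hp.two_le hζ hb' he'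
  have hco : ((1 + algebraMap Kb (FN M) b * e : FN M) : LaurentSeries Kb) =
      1 + C b * (e : LaurentSeries Kb) := by
    simp only [AddMemClass.coe_add, MulMemClass.coe_mul, OneMemClass.coe_one, gs_coe_algebraMap]
  have hmem : Mop ζ p (1 + C b * (e : LaurentSeries Kb)) ∈ FN M := by
    rw [← hco]
    exact (C3_MopH hp hpM hζ (1 + algebraMap Kb (FN M) b * e)).2
  have hC : (C b : LaurentSeries Kb) ≠ 0 := by
    rw [Ne, map_eq_zero_iff _ HahnSeries.C_injective]; exact hb0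
  have hh' : h' = C b⁻¹ * (Mop ζ p (1 + C b * (e : LaurentSeries Kb)) - 1) := by
    rw [h3, map_inv₀]
    field_simp
    ring
  have hh'm : h' ∈ FN M := by
    rw [hh', ← Fermat.Agent.S28.algebraMap_eq_C]
    exact mul_mem (IntermediateField.algebraMap_mem _ _) (sub_mem hmem (one_mem _))
  have hgm : gr A h' ∈ modularFunctionFieldFullC (kA A) M := gr_mem A M hN hh'm h1
  obtain ⟨r, hr, hrp⟩ := ep_of_coeff p M hN hgm (by
    intro n hn
    rw [h2, qExpand_coeff_of_not_dvd p _ hn])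
  obtain ⟨g, hg⟩ := gsRed_surjective A M hN ⟨r, hr⟩
  have hV : (⟨h', hh'm⟩ : FN M) ∈ S.V := h1
  refine ⟨⟨h', hh'm⟩, g, hV, g.2, ?_, ?_⟩
  · rw [A5G_rd, A5G_rd, S.rd_of_mem hV, S.rd_of_mem g.2]
    have e1 : S.red ⟨g, g.2⟩ = ⟨r, hr⟩ := hg
    rw [e1]
    exact Subtype.ext hrp
  · apply Subtype.ext
    rw [C3_coe_MopH, hco, h3]
    simp only [AddMemClass.coe_add, MulMemClass.coe_mul, OneMemClass.coe_one, gs_coe_algebraMap]

end Fermat.Agent.S33
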