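import Fermat.Agent.S18.DW

/-!
# S33, piece INT (hedge): `A((t))` is completely integrally closed for a rank one valuation ring `A`
-/

set_option autoImplicit false

namespace Fermat.Agent.S33

open Fermat.Agent.S18 Fermat.Agent.S24 Fermat.Agent.S28 ModularCurve

/-- lift of a Laurent series with coefficients in `A`. -/
def INT7_lift (A : ValuationSubring Kb) (f : LaurentSeries Kb) (h : ∀ n : ℤ, f.coeff n ∈ A) :
    LaurentSeries A where
  coeff := fun n => ⟨f.coeff n, h n⟩
  isPWO_support' := f.isPWO_support.mono (by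
    intro n hn
    simp only [Function.mem_support, ne_eq] at hn
    exact fun h' => hn (Subtype.ext h'))

theorem INT7_map_lift (A : ValuationSubring Kb) (f : LaurentSeries Kb)
    (h : ∀ n : ℤ, f.coeff n ∈ A) : coeffMap A.subtype (INT7_lift A f h) = f := by
  ext n
  rw [coeffMap_coeff]
  rfl

theorem INT7_mem_range (A : ValuationSubring Kb) (f : LaurentSeries Kb) :
    f ∈ (coeffMap A.subtype).range ↔ ∀ n : ℤ, f.coeff n ∈ A := by
  constructor
  · rintro ⟨Y, rfl⟩ n
    rw [coeffMap_coeff]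
    exact (Y.coeff n).2
  · intro h
    exact ⟨_, INT7_map_lift A f h⟩

theorem INT7_leadingCoeff_pow (g : LaurentSeries Kb) (m : ℕ) :
    (g ^ m).leadingCoeff = g.leadingCoeff ^ m := by
  induction m with
  | zero => simp
  | succ m ih => rw [pow_succ, HahnSeries.leadingCoeff_mul, ih, pow_succ]

/-- **INT_cic.** `A((t))` is completely integrally closed in `Kb((t))`. -/
theorem INT7_cic (A : ValuationSubring Kb)
    (arch : ∀ c : Kb, c ∈ A → c⁻¹ ∉ A → ∀ c0 : Kb, c0 ≠ 0 → ∃ n : ℕ, c ^ n * c0⁻¹ ∈ A)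
    {f d : LaurentSeries Kb} (hd : d ≠ 0) (h : ∀ m : ℕ, ∀ n : ℤ, (d * f ^ m).coeff n ∈ A) :
    ∀ n : ℤ, f.coeff n ∈ A := by
  by_contra hcon
  push Not at hcon
  have hsub : {n : ℤ | f.coeff n ∉ A} ⊆ f.support := by
    intro n hn h0
    exact hn (by rw [h0]; exact A.zero_mem)
  have hwf : {n : ℤ | f.coeff n ∉ A}.IsWF := f.isWF_support.mono hsub
  have hne : {n : ℤ | f.coeff n ∉ A}.Nonempty := hcon
  set r := hwf.min hne with hr
  have hrmem : f.coeff r ∉ A := hwf.min_mem hne
  have hrmin : ∀ n : ℤ, n < r → f.coeff n ∈ A := by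
    intro n hn
    by_contra hnA
    exact absurd (hwf.min_le hne hnA) (not_le.mpr hn)
  -- the tail
  let g : LaurentSeries Kb :=
    { coeff := fun n => if n < r then 0 else f.coeff n
      isPWO_support' := f.isPWO_support.mono (by
        intro n hn
        simp only [Function.mem_support, ne_eq] at hn
        intro h0
        apply hn
        split_ifs
        · rfl
        · exact h0) }
  have hgc : ∀ n, g.coeff n = if n < r then 0 else f.coeff n := fun n => rfl
  have hf0 : f - g ∈ (coeffMap A.subtype).range := by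
    rw [INT7_mem_range]
    intro n
    rw [HahnSeries.coeff_sub, hgc]
    split_ifs with hn
    · rw [sub_zero]; exact hrmin n hn
    · rw [sub_self]; exact A.zero_mem
  have hgr : g.coeff r = f.coeff r := by rw [hgc, if_neg (lt_irrefl r)]
  have har0 : f.coeff r ≠ 0 := fun h0 => hrmem (by rw [h0]; exact A.zero_mem)
  have hg0 : g ≠ 0 := by
    intro h0
    apply har0
    rw [← hgr, h0]; rfl
  have hord : g.order = r := by
    apply le_antisymm
    · exact HahnSeries.order_le_of_coeff_ne_zero (by rw [hgr]; exact har0)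
    · by_contra hlt
      push Not at hlt
      have : g.coeff g.order = 0 := by rw [hgc, if_pos hlt]
      exact hg0 (HahnSeries.coeff_order_eq_zero.mp this)
  have hlead : g.leadingCoeff = f.coeff r := by
    rw [HahnSeries.leadingCoeff_eq, hord, hgr]
  have hmem : ∀ m : ℕ, d * g ^ m ∈ (coeffMap A.subtype).range := by
    intro m
    have hg : g = f + -(f - g) := by ring
    rw [hg, add_pow, Finset.mul_sum]
    refine sum_mem fun j _ => ?_
    have : d * (f ^ j * (-(f - g)) ^ (m - j) * (m.choose j : LaurentSeries Kb)) =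
        (d * f ^ j) * (-(f - g)) ^ (m - j) * (m.choose j : LaurentSeries Kb) := by ring
    rw [this]
    refine mul_mem (mul_mem ?_ (pow_mem (neg_mem hf0) _)) (natCast_mem _ _)
    rw [INT7_mem_range]
    exact h j
  have hl : ∀ m : ℕ, d.leadingCoeff * f.coeff r ^ m ∈ A := by
    intro m
    have h1 := (INT7_mem_range A _).mp (hmem m) (d * g ^ m).order
    rw [← HahnSeries.leadingCoeff_eq, HahnSeries.leadingCoeff_mul, INT7_leadingCoeff_pow,
      hlead] at h1
    exact h1
  have hd0 : d.leadingCoeff ≠ 0 := HahnSeries.leadingCoeff_ne_zero.mpr hd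
  have hcA : (f.coeff r)⁻¹ ∈ A := (A.mem_or_inv_mem (f.coeff r)).resolve_left hrmem
  obtain ⟨n, hn⟩ := arch (f.coeff r)⁻¹ hcA (by rw [inv_inv]; exact hrmem)
    (d.leadingCoeff * (f.coeff r)⁻¹) (mul_ne_zero hd0 (inv_ne_zero har0))
  apply hrmem
  have := A.mul_mem _ _ (hl n) hn
  have e : d.leadingCoeff * f.coeff r ^ n *
      ((f.coeff r)⁻¹ ^ n * (d.leadingCoeff * (f.coeff r)⁻¹)⁻¹) = f.coeff r := by
    rw [inv_pow, mul_inv, inv_inv]
    have h1 : f.coeff r ^ n ≠ 0 := pow_ne_zero _ har0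
    field_simp
  rwa [e] at this

/-- **INT_pow.** -/
theorem INT7_pow (A : ValuationSubring Kb)
    (arch : ∀ c : Kb, c ∈ A → c⁻¹ ∉ A → ∀ c0 : Kb, c0 ≠ 0 → ∃ n : ℕ, c ^ n * c0⁻¹ ∈ A)
    {f : LaurentSeries Kb} {n : ℕ} (hn : 0 < n) (hf : gsMem A f)
    (hpow : ∀ m : ℤ, (f ^ n).coeff m ∈ A) : ∀ m : ℤ, f.coeff m ∈ A := by
  obtain ⟨Y₁, Y₂, h0, hY⟩ := hf
  have hY2 : coeffMap A.subtype Y₂ ≠ 0 := by
    intro h
    apply h0
    have : Y₂ = 0 := by
      apply coeffMap_injective A.subtype A.subtype_injective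
      rw [h, map_zero]
    rw [this, map_zero]
  refine INT7_cic A arch (d := coeffMap A.subtype Y₂ ^ (n - 1)) (pow_ne_zero _ hY2) ?_
  intro m
  rw [← INT7_mem_range]
  have hm : m = n * (m / n) + m % n := (Nat.div_add_mod m n).symm
  have hr : m % n < n := Nat.mod_lt _ hn
  have hs : n - 1 = (n - 1 - m % n) + m % n := by omega
  have e : coeffMap A.subtype Y₂ ^ (n - 1) * f ^ m =
      (f ^ n) ^ (m / n) * coeffMap A.subtype Y₂ ^ (n - 1 - m % n) *
        coeffMap A.subtype Y₁ ^ (m % n) := by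
    rw [← hY, mul_pow]
    conv_lhs => rw [hm, hs, pow_add, pow_add, pow_mul]
    ring
  rw [e]
  refine mul_mem (mul_mem (pow_mem ((INT7_mem_range A _).mpr hpow) _)
    (pow_mem (RingHom.mem_range_self _ _) _)) (pow_mem (RingHom.mem_range_self _ _) _)

end Fermat.Agent.S33
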