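import Fermat.Agent.S33.F1Abs
import Fermat.Agent.S33.F1T
import Fermat.Agent.S33.F2b
import Fermat.Agent.S33.A123
import Fermat.Agent.S33.A5G
import Fermat.Agent.S33.G1b
import Fermat.Agent.S33.L1g
import Fermat.Agent.S33.Int7
import Fermat.Agent.S34.InstA
import Fermat.Agent.S34.GalX
import Fermat.Agent.S34.Arch

/-!
# S33, piece F1: `fixM` with the chart lemma (`INT_chart`) as a hypothesis
-/

set_option autoImplicit false

namespace Fermat.Agent.S33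

open ModularCurve AlgebraicCurve HahnSeries Fermat.Agent.S24 Fermat.Agent.S28 Fermat.Agent.S18
  Fermat.Agent.GR Fermat.Agent.S34 Fermat.Agent.S35

/-- `T_p` on `FN M` as a monoid homomorphism. -/
noncomputable def F1_T {p M : ℕ} [NeZero p] [NeZero M] (hp : p.Prime) (hpM : ¬ p ∣ M) {ζ : Kbˣ}
    (hζ : IsPrimitiveRoot ζ p) : FN M →* FN M where
  toFun f := ⟨Mop ζ p (f : LaurentSeries Kb), Fermat.Agent.S37.Mop_mem_FN hp hpM hζ f.2⟩
  map_one' := Subtype.ext (Mop_one ζ p)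
  map_mul' f g := Subtype.ext (Mop_mul hζ _ _)

theorem F1_T_coe {p M : ℕ} [NeZero p] [NeZero M] (hp : p.Prime) (hpM : ¬ p ∣ M) {ζ : Kbˣ}
    (hζ : IsPrimitiveRoot ζ p) (f : FN M) :
    ((F1_T hp hpM hζ f : FN M) : LaurentSeries Kb) = Mop ζ p (f : LaurentSeries Kb) := rfl

theorem F1_T_gal {p M : ℕ} [NeZero p] [NeZero M] (hp : p.Prime) (hpM : ¬ p ∣ M) {ζ : Kbˣ}
    (hζ : IsPrimitiveRoot ζ p) (σ : GQ) (f : FN M) :
    galF M σ (F1_T hp hpM hζ f) = F1_T hp hpM hζ (galF M σ f) := by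
  apply Subtype.ext
  rw [coe_galF, F1_T_coe, F1_T_coe, coe_galF, coeffMap_Mop]
  refine Mop_eq_of_isPrimitiveRoot ?_ hζ _
  exact hζ.map_of_injective (Units.map_injective (σ : Kb →+* Kb).injective)

/-- `T_p (1 + b e) = 1 + b h'`, `rd h'` a `p`-th power, for every Gauss-integral `e`. -/
theorem F1_lead {p M : ℕ} [NeZero p] [NeZero M] (hp : p.Prime) (hpM : ¬ p ∣ M)
    (A : ValuationSubring Kb) (hA : A.LiesOverPrime p) (hN : (M : kA A) ≠ 0) {ζ : Kbˣ}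
    (hζ : IsPrimitiveRoot ζ p) {b : Kb} (hb1 : A.valuation b < 1)
    (e : FN M) (he : e ∈ (gaussSetting A M hN).V) :
    ∃ h' g : FN M, h' ∈ (gaussSetting A M hN).V ∧ g ∈ (gaussSetting A M hN).V ∧
      (gaussSetting A M hN).rd h' = (gaussSetting A M hN).rd g ^ p ∧
      Mop ζ p ((1 + algebraMap Kb (FN M) b * e : FN M) : LaurentSeries Kb) =
        ((1 + algebraMap Kb (FN M) b * h' : FN M) : LaurentSeries Kb) := by
  have : Fact p.Prime := ⟨hp⟩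
  have : CharP (kA A) p := charP_kA hp hA
  have := isAlgClosed_kA A
  by_cases hb0 : b = 0
  · subst hb0
    refine ⟨0, 0, zero_mem _, zero_mem _, ?_, ?_⟩
    · rw [(gaussSetting A M hN).rd_zero, zero_pow hp.ne_zero]
    · rw [map_zero, zero_mul, zero_mul, add_zero]
      exact Mop_one ζ p
  obtain ⟨h', hm, hg, heq⟩ := Mop_one_add_gs (A := A) hp.two_le hζ hb1 (h := (e : LaurentSeries Kb)) he
  have hCb0 : (C b : LaurentSeries Kb) ≠ 0 := by
    rw [Ne, map_eq_zero_iff _ HahnSeries.C_injective]; exact hb0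
  have hM : Mop ζ p ((1 + algebraMap Kb (FN M) b * e : FN M) : LaurentSeries Kb) = 1 + C b * h' := by
    rw [F1T_coe_one_add, heq]
  have hmem : h' ∈ FN M := by
    have h1 : Mop ζ p ((1 + algebraMap Kb (FN M) b * e : FN M) : LaurentSeries Kb) ∈ FN M :=
      Fermat.Agent.S37.Mop_mem_FN hp hpM hζ (1 + algebraMap Kb (FN M) b * e : FN M).2
    have h2 : h' =
        (Mop ζ p ((1 + algebraMap Kb (FN M) b * e : FN M) : LaurentSeries Kb) - 1) *
          ((algebraMap Kb (FN M) b : FN M) : LaurentSeries Kb)⁻¹ := by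
      rw [hM, gs_coe_algebraMap]
      field_simp
      ring
    rw [h2]
    exact mul_mem (sub_mem h1 (one_mem _)) (inv_mem (algebraMap Kb (FN M) b : FN M).2)
  have hV : (⟨h', hmem⟩ : FN M) ∈ (gaussSetting A M hN).V := hm
  have hrd : (((gaussSetting A M hN).rd ⟨h', hmem⟩ : modularFunctionFieldFullC (kA A) M) :
      LaurentSeries (kA A)) = gr A h' := by
    rw [(gaussSetting A M hN).rd_of_mem hV]; rfl
  obtain ⟨r, hr, hrp⟩ := ep_of_coeff p M hN ((gaussSetting A M hN).rd ⟨_, hmem⟩).2 (by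
    intro n hn
    rw [hrd, hg]
    exact qExpand_coeff_of_not_dvd p _ hn)
  obtain ⟨g, hg'⟩ := (gaussSetting A M hN).red_surj ⟨r, hr⟩
  refine ⟨⟨_, hmem⟩, g, hV, g.2, ?_, ?_⟩
  · rw [(gaussSetting A M hN).rd_of_mem g.2]
    apply Subtype.ext
    rw [hrp]
    show r ^ p = (((gaussSetting A M hN).red ⟨g, g.2⟩ ^ p : modularFunctionFieldFullC (kA A) M) :
      LaurentSeries (kA A))
    have : (⟨(g : FN M), g.2⟩ : (gaussSetting A M hN).V) = g := rfl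
    rw [this, hg']
    rfl
  · rw [hM, F1T_coe_one_add]

/-- regular at the cusp with integral expansion. -/
def F1_Reg (A : ValuationSubring Kb) {M : ℕ} (e : FN M) : Prop :=
  ∃ Y : PowerSeries A, (e : LaurentSeries Kb) = coeffMap A.subtype (HahnSeries.ofPowerSeries ℤ A Y)

/-- the exact representative (A1 + A2 + A3 + chart). -/
theorem F1_exact {p M₁ : ℕ} [NeZero p] [NeZero M₁] (hp : p.Prime) (hp2 : p ≠ 2) (h4 : 4 ∣ M₁)
    (hpM₁ : ¬ p ∣ M₁) {A : ValuationSubring Kb} (hA : A.LiesOverPrime p) (hN : (M₁ : kA A) ≠ 0)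
    {τ₀ : GQ} (hτ₀ : IsTau0 A p τ₀)
    (hChart : ∀ e : FN M₁, e ∈ intRing Kb (t2 M₁ (Dvd.dvd.trans (by norm_num) h4))⁻¹ →
      e ∈ (gaussSetting A M₁ hN).V → F1_Reg A e)
    (u : FN M₁) (huV : u ∈ (A5G_core (gaussSetting A M₁ hN)).R)
    (hrd : (A5G_core (gaussSetting A M₁ hN)).rd u = 1) (hD : DvdOrd M₁ p u)
    (hfix : ∃ w, (galF M₁ τ₀ : FN M₁ →+* FN M₁) u = u * w ^ p) (hnt : ¬ Triv Kb u p) :
    ∃ b, F1Data (A5G_core (gaussSetting A M₁ hN)) p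
      (fun b => A.valuation (τ₀ b - b) < A.valuation b) (F1_Reg A) u b := by
  have : Fact p.Prime := ⟨hp⟩
  have : CharP (kA A) p := charP_kA hp hA
  have := isAlgClosed_kA A
  obtain ⟨hc, h0, hI⟩ := instA_odd A hp hA hp2 M₁ h4 hpM₁ (gaussSetting A M₁ hN)
    (isGauss_gaussSetting A M₁ hN)
  have H := A5G_coreHyp (gaussSetting A M₁ hN) hc h0 hI
  have HU := A5G_coreHypU (isFF_FN M₁) (gaussSetting A M₁ hN) hc hp.pos huV
    (by rw [← A5G_rd]; exact hrd) hD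
  obtain ⟨w, hw⟩ := hfix
  obtain ⟨hτA, hth, -, hgood, -⟩ := G1b_pack (A5G_core (gaussSetting A M₁ hN)) hp hp2 hA hτ₀
    (τ₀ : Kb →+* Kb) (fun _ => rfl)
  obtain ⟨n, c, h1, h2, e1, e2, hc0, hc1, hlt, O, hres⟩ :=
    F2b_exact (A5G_core (gaussSetting A M₁ hN)) H hp hp.pos HU
      (fun a b r h => A5G_hroot hp.pos h) (A4b_root hp) (galF M₁ τ₀ : FN M₁ →+* FN M₁)
      (τ₀ : Kb →+* Kb)
      (fun c => by
        apply Subtype.ext
        show ((galF M₁ τ₀ (algebraMap Kb (FN M₁) c) : FN M₁) : LaurentSeries Kb) = _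
        rw [coe_galF, gs_coe_algebraMap, gs_coe_algebraMap, coeffMap_C])
      (galF_t2 M₁ _ τ₀)
      (fun f hf => by
        have := F1T_gal A M₁ hN hτ₀.1 hf
        refine ⟨this.1, ?_⟩
        rw [A5G_rd, A5G_rd]
        exact this.2)
      hτA hth hw (fun h hh c hc => hnt ⟨h, hh, c, hc⟩)
  have hh2 : h2 ≠ 0 := by
    rintro rfl
    have := O.rdh2
    rw [RedCore.rd_zero] at this
    exact zero_ne_one this
  refine ⟨c ^ p, h2, e2, g1_th_one_pow hτ₀.1 (hgood c hc0 hres) p, hh2, O.eq2, hChart e2 ?_ O.e2R,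
    O.isExact2 hc1 hlt⟩
  have := (mem_Lsp.1 O.e2L).2
  rwa [pow_zero, one_mul] at this

/-- **F1** with the chart lemma as a hypothesis. -/
theorem fixM_of {p M₁ : ℕ} [NeZero p] [NeZero M₁] (hp : p.Prime) (hp2 : p ≠ 2) (h4 : 4 ∣ M₁)
    (hpM₁ : ¬ p ∣ M₁) {A : ValuationSubring Kb} (hA : A.LiesOverPrime p) (hN : (M₁ : kA A) ≠ 0)
    (hChart : ∀ e : FN M₁, e ∈ intRing Kb (t2 M₁ (Dvd.dvd.trans (by norm_num) h4))⁻¹ →
      e ∈ (gaussSetting A M₁ hN).V → F1_Reg A e)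
    {τ₀ : GQ}
    (hτ₀ : IsTau0 A p τ₀) {ζ : Kbˣ} (hζ : IsPrimitiveRoot ζ p) (y : FN M₁) (hy0 : y ≠ 0)
    (hy : ∃ v : FN M₁, v ≠ 0 ∧ Red A ((y * v ^ p : FN M₁) : LaurentSeries Kb) 1)
    (hfix : ∃ v : FN M₁, galF M₁ τ₀ y = y * v ^ p) (hfin : TpFin p M₁ ζ y) :
    ∃ v : FN M₁, y = v ^ p := by
  have : Fact p.Prime := ⟨hp⟩
  have : CharP (kA A) p := charP_kA hp hA
  have := isAlgClosed_kA A
  obtain ⟨s, hs0, hsne, hsD, hsT, hper⟩ := hfin
  subst hs0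
  have hkp : ∀ c : kA A, ∃ d : kA A, d ^ p = c := fun c => IsAlgClosed.exists_pow_nat_eq c hp.pos
  refine F1_abs hp (A5G_core (gaussSetting A M₁ hN)) hkp
    (fun b => A.valuation (τ₀ b - b) < A.valuation b) (F1_Reg A) (DvdOrd M₁ p)
    (galF M₁ τ₀ : FN M₁ →+* FN M₁) (F1_T hp hpM₁ hζ) (F1_T_gal hp hpM₁ hζ τ₀)
    (F1_exact hp hp2 h4 hpM₁ hA hN hτ₀ hChart)
    (fun u v hu _ => hu.mul (dvdOrd_pow_self p v)) ?_ ?_ s hsne hsD ?_ hper ?_ hfix
  · intro b e hb he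
    obtain ⟨h', g, m1, m2, m3, m4⟩ := F1_lead hp hpM₁ A hA hN hζ hb e he
    refine ⟨h', g, m1, m2, ?_, Subtype.ext m4⟩
    rw [A5G_rd, A5G_rd]; exact m3
  · rintro b e hG ⟨Y, hY⟩ hE a f hT
    refine hτ₀.false_of_tpLocal hp hp2 hA hG ?_
    refine F1T_kill hp A hA hN hζ
      (fun f hf hpow => INT7_pow A (arch_of_liesOver A hp hA) hp.pos hf hpow) hE.lt_one hE.gt e Y hY
      (fun r => by rw [← A5G_rd]; exact hE.not_pow r) a f ?_
    exact congrArg (fun z : FN M₁ => (z : LaurentSeries Kb)) hT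
  · intro i
    obtain ⟨v, hv⟩ := hsT i
    exact ⟨v, Subtype.ext hv⟩
  · obtain ⟨v, hv0, Y₁, Y₂, h0, -, h1, h2⟩ := hy
    have hS := isGauss_gaussSetting A M₁ hN
    have hV : (s 0 * v ^ p : FN M₁) ∈ (gaussSetting A M₁ hN).V := (hS.mem_iff _).2 ⟨Y₁, Y₂, h0, h1⟩
    refine ⟨v, hv0, hV, ?_⟩
    rw [A5G_rd]
    apply Subtype.ext
    have h3 := hS.rd_mul _ Y₁ Y₂ h0 h1
    rw [h2] at h3
    exact mul_right_cancel₀ h0 h3

end Fermat.Agent.S33
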