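import Fermat.Agent.S33.F1HDefs
import Fermat.Agent.S33.F1T
import Fermat.Agent.S33.Int7

/-!
# S33, F1: the last step (`T_p z = 0` is impossible for an exact, `τ₀`-fixed level), from `F1T_kill`
-/

set_option autoImplicit false

namespace Fermat.Agent.S33

open ModularCurve AlgebraicCurve HahnSeries Fermat.Agent.S24 Fermat.Agent.S28 Fermat.Agent.S18
  Fermat.Agent.GR Fermat.Agent.S34 Fermat.Agent.S35

variable {p M₁ : ℕ} [NeZero p] [NeZero M₁] {A : ValuationSubring Kb}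

/-- `F1H_last` of helper6's list, with the power series expansion of `e` as a hypothesis. -/
theorem F1T_last (hp : p.Prime) (hp2 : p ≠ 2) (hpM₁ : ¬ p ∣ M₁) (hA : A.LiesOverPrime p)
    (hN : (M₁ : kA A) ≠ 0) {τ₀ : GQ} (hτ₀ : IsTau0 A p τ₀) {ζ : Kbˣ} (hζ : IsPrimitiveRoot ζ p)
    {b : Kb} {e : FN M₁} (hE : IsExact (A5G_core (gaussSetting A M₁ hN)) p b e)
    (hchart : ∃ Y : PowerSeries A,
      (e : LaurentSeries Kb) = coeffMap A.subtype (HahnSeries.ofPowerSeries ℤ A Y))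
    (hth : A.valuation (τ₀ b - b) < A.valuation b) (a : Kb) (f : FN M₁)
    (h : C3_MopH hp hpM₁ hζ (1 + algebraMap Kb (FN M₁) b * e) = algebraMap Kb (FN M₁) a * f ^ p) :
    False := by
  obtain ⟨Y, hY⟩ := hchart
  refine hτ₀.false_of_tpLocal hp hp2 hA hth ?_
  refine F1T_kill hp A hA hN hζ
    (fun f hf h => INT7_pow A (arch_of_liesOver A hp hA) hp.pos hf h) hE.lt_one hE.gt e Y hY ?_ a f ?_
  · intro r
    have := hE.not_pow r
    rwa [A5G_rd] at this
  · rw [← C3_coe_MopH hp hpM₁ hζ, h]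

end Fermat.Agent.S33
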