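import Fermat.Agent.S33.ModDefs
import Fermat.Agent.S35.TKL

/-!
# S33, F2W: the adapter F1 → F2

If `z ≡ 1` for both Gauss valuations at level `p M₁`, `[z]` is fixed by `τ₀` and the `T_p`-orbit of `[N1 z]` is finite, then
F1 (hypothesis `hF1`, the official statement `fixM`) shows that `N1 z` is a `p`-th power at level `M₁`.
-/

set_option autoImplicit false
set_option linter.unusedSectionVars false

namespace Fermat.Agent.S33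

open ModularCurve AlgebraicCurve HahnSeries Fermat.Agent.S24 Fermat.Agent.S28 Fermat.Agent.S18
  Fermat.Agent.GR Fermat.Agent.S34 Fermat.Agent.S35

variable {p M₁ : ℕ} [NeZero p] [NeZero M₁] [Fact p.Prime] {A : ValuationSubring Kb}
  [CharP (kA A) p] {w : FN (p * M₁) ≃ₐ[Kb] FN (p * M₁)}

/-- `rd z = 1` in terms of `Red`. -/
theorem F2W_red (hpM₁ : ¬ p ∣ M₁) (hw : WqSpec p M₁ w) {z : FN (p * M₁)}
    (hzV : z ∈ (gauss2 A hpM₁ hw).V) (hrd : (gauss2 A hpM₁ hw).rd z = 1) :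
    Red A (z : LaurentSeries Kb) 1 ∧ Red A ((w z : FN (p * M₁)) : LaurentSeries Kb) 1 := by
  rw [(gauss2 A hpM₁ hw).rd_of_mem hzV] at hrd
  have h1 : gr A (z : LaurentSeries Kb) = 1 :=
    congrArg (fun t : _ × _ => ((t.1 : modularFunctionFieldFullC (kA A) M₁) :
      LaurentSeries (kA A))) hrd
  have h2 : gr A ((w z : FN (p * M₁)) : LaurentSeries Kb) = 1 :=
    congrArg (fun t : _ × _ => ((t.2 : modularFunctionFieldFullC (kA A) M₁) :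
      LaurentSeries (kA A))) hrd
  exact ⟨red_iff.mpr ⟨hzV.1, h1, one_ne_zero⟩, red_iff.mpr ⟨hzV.2, h2, one_ne_zero⟩⟩

/-- the norm of an element `≡ 1` is `≡ 1`. -/
theorem F2W_red_N1 {ζ : Kbˣ} (hζ : IsPrimitiveRoot ζ p) {z : FN (p * M₁)}
    (h1 : Red A (z : LaurentSeries Kb) 1)
    (h2 : Red A ((w z : FN (p * M₁)) : LaurentSeries Kb) 1) : Red A (N1 w ζ z) 1 := by
  have h3 := h1.mul (h2.UU hζ)
  rw [map_one, mul_one] at h3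
  exact h3

theorem F2W_core (hp : p.Prime) (hpM₁ : ¬ p ∣ M₁) {τ₀ : GQ} {ζ : Kbˣ} (hζ : IsPrimitiveRoot ζ p)
    (hw : S35.IsWq p M₁ w)
    (hF1 : ∀ y : FN M₁, y ≠ 0 →
      (∃ v : FN M₁, v ≠ 0 ∧ Red A ((y * v ^ p : FN M₁) : LaurentSeries Kb) 1) →
      (∃ v : FN M₁, galF M₁ τ₀ y = y * v ^ p) → TpFin p M₁ ζ y → ∃ v : FN M₁, y = v ^ p)
    (z : FN (p * M₁)) (h1 : Red A (z : LaurentSeries Kb) 1)
    (h2 : Red A ((w z : FN (p * M₁)) : LaurentSeries Kb) 1)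
    (hfix : ∃ g : FN (p * M₁), galF (p * M₁) τ₀ z = z * g ^ p)
    (hfin : TpFin p M₁ ζ ⟨N1 w ζ z, N1_mem hw hζ hp hpM₁ z⟩) :
    ∃ y : FN M₁, N1 w ζ z = (y : LaurentSeries Kb) ^ p := by
  have hz0 : z ≠ 0 := fun h => h1.ne_zero (by rw [h]; rfl)
  obtain ⟨g, hg⟩ := hfix
  obtain ⟨v, hv⟩ := hF1 ⟨N1 w ζ z, N1_mem hw hζ hp hpM₁ z⟩
    (fun h => N1_ne_zero hζ hz0 (congrArg Subtype.val h))
    ⟨1, one_ne_zero, by
      rw [one_pow, mul_one]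
      exact F2W_red_N1 hζ h1 h2⟩
    ⟨⟨N1 w ζ g, N1_mem hw hζ hp hpM₁ g⟩, by
      apply Subtype.ext
      rw [coe_galF]
      show coeffMap (τ₀ : Kb →+* Kb) (N1 w ζ z) = N1 w ζ z * (N1 w ζ g) ^ p
      rw [← N1_galF hw hζ, hg, N1_mul hζ, N1_pow hζ]⟩
    hfin
  exact ⟨v, congrArg Subtype.val hv⟩

/-- **F2W**: `N1 z` is a `p`-th power. -/
theorem F2W_norm (hp : p.Prime) (hpM₁ : ¬ p ∣ M₁) {τ₀ : GQ} {ζ : Kbˣ} (hζ : IsPrimitiveRoot ζ p)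
    (hw : S35.IsWq p M₁ w)
    (hF1 : ∀ y : FN M₁, y ≠ 0 →
      (∃ v : FN M₁, v ≠ 0 ∧ Red A ((y * v ^ p : FN M₁) : LaurentSeries Kb) 1) →
      (∃ v : FN M₁, galF M₁ τ₀ y = y * v ^ p) → TpFin p M₁ ζ y → ∃ v : FN M₁, y = v ^ p)
    (z : FN (p * M₁)) (hzV : z ∈ (gauss2 A hpM₁ hw.spec).V)
    (hrd : (gauss2 A hpM₁ hw.spec).rd z = 1)
    (hfix : ∃ g : FN (p * M₁), galF (p * M₁) τ₀ z = z * g ^ p)
    (hfin : TpFin p M₁ ζ ⟨N1 w ζ z, N1_mem hw hζ hp hpM₁ z⟩) :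
    ∃ y : FN M₁, N1 w ζ z = (y : LaurentSeries Kb) ^ p := by
  obtain ⟨h1, h2⟩ := F2W_red hpM₁ hw.spec hzV hrd
  exact F2W_core hp hpM₁ hζ hw hF1 z h1 h2 hfix hfin

/-- **F2W**: `N1 (w z)` is a `p`-th power. -/
theorem F2W_norm_w (hp : p.Prime) (hpM₁ : ¬ p ∣ M₁) {τ₀ : GQ} {ζ : Kbˣ}
    (hζ : IsPrimitiveRoot ζ p) (hw : S35.IsWq p M₁ w)
    (hF1 : ∀ y : FN M₁, y ≠ 0 →
      (∃ v : FN M₁, v ≠ 0 ∧ Red A ((y * v ^ p : FN M₁) : LaurentSeries Kb) 1) →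
      (∃ v : FN M₁, galF M₁ τ₀ y = y * v ^ p) → TpFin p M₁ ζ y → ∃ v : FN M₁, y = v ^ p)
    (z : FN (p * M₁)) (hzV : z ∈ (gauss2 A hpM₁ hw.spec).V)
    (hrd : (gauss2 A hpM₁ hw.spec).rd z = 1)
    (hfix : ∃ g : FN (p * M₁), galF (p * M₁) τ₀ z = z * g ^ p)
    (hfin : TpFin p M₁ ζ ⟨N1 w ζ (w z), N1_mem hw hζ hp hpM₁ (w z)⟩) :
    ∃ y : FN M₁, N1 w ζ (w z) = (y : LaurentSeries Kb) ^ p := by
  obtain ⟨h1, h2⟩ := F2W_red hpM₁ hw.spec hzV hrd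
  obtain ⟨g, hg⟩ := hfix
  refine F2W_core hp hpM₁ hζ hw hF1 (w z) h2 (by rw [hw.invol]; exact h1) ⟨w g, ?_⟩ hfin
  rw [← hw.gal, hg, map_mul, map_pow]

end Fermat.Agent.S33
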