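import Fermat.Agent.S33.F2b
import Fermat.Agent.S33.A5
import Fermat.Agent.S33.A5G
import Fermat.Agent.S33.G1b
import Fermat.Agent.S33.L1g
import Fermat.Agent.S33.A4b
import Fermat.Agent.S33.F2W
import Fermat.Agent.S35.CoordF

/-!
# S33, F2 (hedge): `fixN` from the landed pieces, with F1 as a hypothesis
-/

set_option autoImplicit false
set_option linter.unusedSectionVars false

namespace Fermat.Agent.S33

open ModularCurve AlgebraicCurve HahnSeries Fermat.Agent.S24 Fermat.Agent.S28 Fermat.Agent.S18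
  Fermat.Agent.GR Fermat.Agent.S34 Fermat.Agent.S35

variable {p M₁ : ℕ} [NeZero p] [NeZero M₁] [Fact p.Prime] {A : ValuationSubring Kb}
  [CharP (kA A) p]

/-- level `M₁`: if `1 + b h'` is a `p`-th power and `|λ|^p < |b| < 1` then `gr h'` is a `p`-th power. -/
theorem F2H_down (hp : p.Prime) (hpM₁ : ¬ p ∣ M₁) {b : Kb} (hb1 : A.valuation b < 1)
    (hgt : A.valuation (p : Kb) ^ p < A.valuation b ^ (p - 1)) {h' : LaurentSeries Kb}
    (hg : gsMem A h') (Y : FN M₁) (heq : 1 + C b * h' = (Y : LaurentSeries Kb) ^ p) :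
    ∃ r : modularFunctionFieldFullC (kA A) M₁, gr A h' = (r : LaurentSeries (kA A)) ^ p := by
  have := isAlgClosed_kA A
  have hN : (M₁ : kA A) ≠ 0 := g2_natCast_ne_zero A hpM₁
  have hb0 : b ≠ 0 := by
    rintro rfl
    rw [map_zero, zero_pow (Nat.sub_ne_zero_of_lt hp.one_lt)] at hgt
    exact not_lt_zero hgt
  set S' := A5G_core (gaussSetting A M₁ hN) with hS'
  set h2 : FN M₁ := (Y ^ p - 1) * (algebraMap Kb (FN M₁) b)⁻¹ with hh2
  have hC : (C b : LaurentSeries Kb) ≠ 0 := by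
    rw [Ne, map_eq_zero_iff _ HahnSeries.C_injective]; exact hb0
  have hcoe : ((h2 : FN M₁) : LaurentSeries Kb) = h' := by
    have e1 : ((h2 : FN M₁) : LaurentSeries Kb) = ((Y : LaurentSeries Kb) ^ p - 1) * (C b)⁻¹ := by
      rw [hh2, MulMemClass.coe_mul, IntermediateField.coe_inv, gs_coe_algebraMap]
      rfl
    rw [e1, ← heq]
    field_simp
    ring
  have hV : h2 ∈ (gaussSetting A M₁ hN).V := by
    show gsMem A ((h2 : FN M₁) : LaurentSeries Kb)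
    rw [hcoe]; exact hg
  have hrd : (((gaussSetting A M₁ hN).rd h2 : modularFunctionFieldFullC (kA A) M₁) :
      LaurentSeries (kA A)) = gr A h' := by
    rw [(gaussSetting A M₁ hN).rd_of_mem hV, ← hcoe]; rfl
  by_contra hcon
  have hex : IsExact S' p b h2 :=
    { lt_one := hb1
      gt := hgt
      mem := hV
      not_pow := fun r hr => hcon ⟨r, by
        rw [← hrd, ← A5G_rd, hr]; rfl⟩ }
  refine hex.ne_mul_pow S' hp (fun c => IsAlgClosed.exists_pow_nat_eq c hp.pos) 1 Y ?_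
  rw [map_one, one_mul, hh2]
  have : algebraMap Kb (FN M₁) b ≠ 0 := by rw [Ne, map_eq_zero]; exact hb0
  field_simp
  ring


theorem F2H_coe_one_add {N : ℕ} [NeZero N] (b : Kb) (e : FN N) :
    ((1 + algebraMap Kb (FN N) b * e : FN N) : LaurentSeries Kb) =
      1 + C b * (e : LaurentSeries Kb) := by
  rw [AddMemClass.coe_add, MulMemClass.coe_mul, gs_coe_algebraMap]
  rfl

/-- one component: `gr e` is a `p`-th power if `N1 (1 + b e)` is one. -/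
theorem F2H_comp (hp : p.Prime) (hpM₁ : ¬ p ∣ M₁) {w : FN (p * M₁) ≃ₐ[Kb] FN (p * M₁)}
    {ζ : Kbˣ} (hζ : IsPrimitiveRoot ζ p) {b : Kb} (hb1 : A.valuation b < 1)
    (hgt : A.valuation (p : Kb) ^ p < A.valuation b ^ (p - 1)) (e : FN (p * M₁))
    (he : gsMem A (e : LaurentSeries Kb)) (he' : gsMem A ((w e : FN (p * M₁)) : LaurentSeries Kb))
    (Y : FN M₁)
    (hY : N1 w ζ (1 + algebraMap Kb (FN (p * M₁)) b * e) = (Y : LaurentSeries Kb) ^ p) :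
    ∃ r : modularFunctionFieldFullC (kA A) M₁,
      gr A (e : LaurentSeries Kb) = (r : LaurentSeries (kA A)) ^ p := by
  obtain ⟨h', hg, hgr, heq⟩ := one_add_mul_UU_gs hp.two_le hζ hb1 he he'
  rw [← hgr]
  refine F2H_down hp hpM₁ hb1 hgt hg Y ?_
  rw [← heq, ← hY, N1, map_add, map_one, map_mul, AlgEquiv.commutes, F2H_coe_one_add,
    F2H_coe_one_add]

/-- **F2** (hedge), with F1 as a hypothesis. -/
theorem F2H_fixN (hp : p.Prime) (hp2 : p ≠ 2) (h4 : 4 ∣ M₁) (hpM₁ : ¬ p ∣ M₁)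
    (hA : A.LiesOverPrime p) {τ₀ : GQ} (hτ₀ : IsTau0 A p τ₀) {ζ : Kbˣ}
    (hζ : IsPrimitiveRoot ζ p) {w : FN (p * M₁) ≃ₐ[Kb] FN (p * M₁)} (hw : S35.IsWq p M₁ w)
    (hF1 : ∀ y : FN M₁, y ≠ 0 →
      (∃ v : FN M₁, v ≠ 0 ∧ Red A ((y * v ^ p : FN M₁) : LaurentSeries Kb) 1) →
      (∃ v : FN M₁, galF M₁ τ₀ y = y * v ^ p) → TpFin p M₁ ζ y → ∃ v : FN M₁, y = v ^ p)
    (z : FN (p * M₁)) (hzV : z ∈ (gauss2 A hpM₁ hw.spec).V)
    (hrd : (gauss2 A hpM₁ hw.spec).rd z = 1) (hord : DvdOrd (p * M₁) p z)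
    (hfix : ∃ g : FN (p * M₁), galF (p * M₁) τ₀ z = z * g ^ p)
    (h1 : TpFin p M₁ ζ ⟨N1 w ζ z, N1_mem hw hζ hp hpM₁ z⟩)
    (h2 : TpFin p M₁ ζ ⟨N1 w ζ (w z), N1_mem hw hζ hp hpM₁ (w z)⟩) :
    ∃ g : FN (p * M₁), z = g ^ p := by
  have := isAlgClosed_kA A
  have iN : NeZero (p * M₁) := ⟨mul_ne_zero (NeZero.ne p) (NeZero.ne M₁)⟩
  by_contra hnp
  set S := gauss2 A hpM₁ hw.spec with hS
  obtain ⟨x, y, Z, hx, hG, -⟩ := coordF_odd hp2 h4 hpM₁ A hA w hw.spec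
  have H := A5_coreHyp S hx (arch_of_liesOver A hp hA)
  have HU := A5_coreHypU (isFF_FN (p * M₁)) hx Z hzV hrd hord
  obtain ⟨pk1, pk2, -⟩ := G1b_pack S.core hp hp2 hA hτ₀ (τ₀ : Kb →+* Kb) (fun _ => rfl)
  obtain ⟨g, hg⟩ := hfix
  have hcon : ∀ h : FN (p * M₁), h ≠ 0 → ∀ c : Kb, z * h ^ p ≠ algebraMap Kb (FN (p * M₁)) c := by
    intro h hh c hc
    obtain ⟨d, hd⟩ := IsAlgClosed.exists_pow_nat_eq c hp.pos
    apply hnp
    refine ⟨algebraMap Kb (FN (p * M₁)) d * h⁻¹, ?_⟩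
    rw [mul_pow, ← map_pow, hd, ← hc, inv_pow]
    have := pow_ne_zero p hh
    field_simp
  obtain ⟨n, c, k1, k2, e1, e2, hc0, hc1, hcp, T, -⟩ :=
    F2b_exact S.core H hp hp.pos HU (fun a b r h => A5_hroot Z a b h)
      (fun a => IsAlgClosed.exists_pow_nat_eq a hp.pos)
      ((galF (p * M₁) τ₀ : FN (p * M₁) ≃+* FN (p * M₁)) : FN (p * M₁) →+* FN (p * M₁))
      (τ₀ : Kb →+* Kb) (fun c => galF_algebraMap _ _ _) (hG τ₀)
      (fun f hf => gauss2_inertiaIn A hpM₁ hw.spec hτ₀.1 hf) pk1 pk2 hg hcon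
  have hb1 : A.valuation (c ^ p) < 1 := by
    rw [map_pow]; exact pow_lt_one₀ zero_le hc1 hp.ne_zero
  have hgt : A.valuation (p : Kb) ^ p < A.valuation (c ^ p) ^ (p - 1) := by
    rw [map_pow, ← pow_mul, mul_comm, pow_mul]
    exact pow_lt_pow_left₀ hcp zero_le hp.ne_zero
  have he1 : e1 ∈ S.V := T.e1R
  have hk1 : k1 ≠ 0 := by
    rintro rfl
    have := T.rdh1
    rw [S.core.rd_zero] at this
    exact zero_ne_one this
  obtain ⟨y1, hy1⟩ := F2W_norm hp hpM₁ hζ hw hF1 z hzV hrd ⟨g, hg⟩ h1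
  obtain ⟨y2, hy2⟩ := F2W_norm_w hp hpM₁ hζ hw hF1 z hzV hrd ⟨g, hg⟩ h2
  obtain ⟨r1, hr1⟩ := F2H_comp hp hpM₁ (w := w) hζ hb1 hgt e1 he1.1 he1.2
    (y1 * ⟨N1 w ζ k1, N1_mem hw hζ hp hpM₁ k1⟩) (by
      rw [← T.eq1, N1_mul hζ, N1_pow hζ, hy1, MulMemClass.coe_mul, mul_pow])
  obtain ⟨r2, hr2⟩ := F2H_comp hp hpM₁ (w := w) hζ hb1 hgt (w e1) he1.2
    (by rw [hw.invol]; exact he1.1)
    (y2 * ⟨N1 w ζ (w k1), N1_mem hw hζ hp hpM₁ (w k1)⟩) (by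
      have e : (1 + algebraMap Kb (FN (p * M₁)) (c ^ p) * w e1) = w (z * k1 ^ p) := by
        rw [T.eq1, map_add, map_one, map_mul, AlgEquiv.commutes]
      rw [e, map_mul, map_pow, N1_mul hζ, N1_pow hζ, hy2, MulMemClass.coe_mul, mul_pow])
  refine T.np1 (r1, r2) ?_
  exact gauss2_rd_eq A hpM₁ hw.spec he1 _ hr1 hr2

end Fermat.Agent.S33
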