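import Fermat.Agent.S33.A4b
import Fermat.Agent.S33.A5G
import Fermat.Agent.S33.L1g
import Fermat.Agent.S33.ModDefs
import Fermat.Agent.S34.Gauss2Gal

/-!
# S33, piece F2N: the second half of F2

`S = gauss2 A` at level `p M₁`.  If `1 + b e` is an exact representative at level `p M₁`, then the two norms
`N1 (1 + b e)`, `N1 (w (1 + b e))` cannot both be `p`-th powers (up to constants) at level `M₁`.
-/

set_option autoImplicit false

namespace Fermat.Agent.S33

open ModularCurve AlgebraicCurve HahnSeries Fermat.Agent.S24 Fermat.Agent.S28 Fermat.Agent.S18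
  Fermat.Agent.GR Fermat.Agent.S34 Fermat.Agent.S35

variable {A : ValuationSubring Kb} {p M₁ : ℕ} [NeZero p] [NeZero M₁] [Fact p.Prime] [CharP (kA A) p]
  {w : FN (p * M₁) ≃ₐ[Kb] FN (p * M₁)}

/-- the norm of `1 + b e` is `1 + b h'` with `h'` of level `M₁`, Gauss integral, `gr h' = gr e`. -/
theorem F2N_norm (hpM₁ : ¬ p ∣ M₁) (hw : S35.IsWq p M₁ w) {ζ : Kbˣ} (hζ : IsPrimitiveRoot ζ p)
    {b : Kb} (hb0 : b ≠ 0) (hb : A.valuation b < 1) {e : FN (p * M₁)}
    (he : gsMem A (e : LaurentSeries Kb)) (hwe : gsMem A ((w e : FN (p * M₁)) : LaurentSeries Kb)) :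
    ∃ h' : FN M₁, gsMem A (h' : LaurentSeries Kb) ∧
      gr A (h' : LaurentSeries Kb) = gr A (e : LaurentSeries Kb) ∧
      N1 w ζ (1 + algebraMap Kb (FN (p * M₁)) b * e) =
        ((1 + algebraMap Kb (FN M₁) b * h' : FN M₁) : LaurentSeries Kb) := by
  have hp : p.Prime := Fact.out
  obtain ⟨h', h1, h2, h3⟩ := one_add_mul_UU_gs (A := A) hp.two_le hζ hb he hwe
  have hN : N1 w ζ (1 + algebraMap Kb (FN (p * M₁)) b * e) = 1 + C b * h' := by
    rw [← h3, N1, map_add, map_one, map_mul, AlgEquiv.commutes]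
    simp only [AddMemClass.coe_add, MulMemClass.coe_mul, OneMemClass.coe_one, gs_coe_algebraMap]
  have hmem := N1_mem hw hζ hp hpM₁ (1 + algebraMap Kb (FN (p * M₁)) b * e)
  have hC : (C b : LaurentSeries Kb) ≠ 0 := by
    rw [Ne, map_eq_zero_iff _ HahnSeries.C_injective]; exact hb0
  have hh' : h' = C b⁻¹ * (N1 w ζ (1 + algebraMap Kb (FN (p * M₁)) b * e) - 1) := by
    rw [hN, map_inv₀]
    field_simp
    ring
  have hh'm : h' ∈ FN M₁ := by
    rw [hh', ← Fermat.Agent.S28.algebraMap_eq_C]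
    exact mul_mem (IntermediateField.algebraMap_mem _ _) (sub_mem hmem (one_mem _))
  refine ⟨⟨h', hh'm⟩, h1, h2, ?_⟩
  rw [hN]
  simp only [AddMemClass.coe_add, MulMemClass.coe_mul, OneMemClass.coe_one, gs_coe_algebraMap]

/-- if the norm of `1 + b e` is a `p`-th power (up to a constant) at level `M₁` and `|λ|^p < |b| < 1`, then the reduction
of `e` at `V_∞` is a `p`-th power. -/
theorem F2N_fst (hpM₁ : ¬ p ∣ M₁) (hw : S35.IsWq p M₁ w) {ζ : Kbˣ} (hζ : IsPrimitiveRoot ζ p)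
    {b : Kb} (hb : A.valuation b < 1) (hgt : A.valuation (p : Kb) ^ p < A.valuation b ^ (p - 1))
    {e : FN (p * M₁)}
    (he : gsMem A (e : LaurentSeries Kb)) (hwe : gsMem A ((w e : FN (p * M₁)) : LaurentSeries Kb))
    {c : Kb} {y : FN M₁}
    (hN : N1 w ζ (1 + algebraMap Kb (FN (p * M₁)) b * e) = C c * (y : LaurentSeries Kb) ^ p) :
    ∃ r : modularFunctionFieldFullC (kA A) M₁,
      gr A (e : LaurentSeries Kb) = (r : LaurentSeries (kA A)) ^ p := by
  have hp : p.Prime := Fact.out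
  have hb0 : b ≠ 0 := by
    rintro rfl
    rw [map_zero, zero_pow (Nat.sub_ne_zero_of_lt hp.one_lt)] at hgt
    exact not_lt_zero hgt
  by_contra hne
  obtain ⟨h', h1, h2, h3⟩ := F2N_norm hpM₁ hw hζ hb0 hb he hwe
  have hk := isAlgClosed_kA A
  have hkp : ∀ c : kA A, ∃ d : kA A, d ^ p = c := fun c => IsAlgClosed.exists_pow_nat_eq c hp.pos
  set S' := gaussSetting A M₁ (g2_natCast_ne_zero A hpM₁) with hS'
  have hV : h' ∈ S'.V := h1
  have H : IsExact (A5G_core S') p b h' :=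
    { lt_one := hb
      gt := hgt
      mem := hV
      not_pow := by
        intro r hr
        apply hne
        refine ⟨r, ?_⟩
        rw [A5G_rd, S'.rd_of_mem hV] at hr
        have := congrArg (fun t : modularFunctionFieldFullC (kA A) M₁ => (t : LaurentSeries (kA A))) hr
        rw [← h2]
        exact this }
  apply H.ne_mul_pow (A5G_core S') hp hkp c y
  apply Subtype.ext
  rw [← h3, hN]
  simp only [MulMemClass.coe_mul, SubmonoidClass.coe_pow, gs_coe_algebraMap]

/-- **F2N.**  An exact representative `1 + b e` at level `p M₁` cannot have both norms `p`-th powers. -/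
theorem F2N_false (hpM₁ : ¬ p ∣ M₁) (hw : S35.IsWq p M₁ w) {ζ : Kbˣ} (hζ : IsPrimitiveRoot ζ p)
    {b : Kb} {e : FN (p * M₁)} (H : IsExact (gauss2 A hpM₁ hw.spec).core p b e)
    {c c' : Kb} {y y' : FN M₁}
    (hN : N1 w ζ (1 + algebraMap Kb (FN (p * M₁)) b * e) = C c * (y : LaurentSeries Kb) ^ p)
    (hN' : N1 w ζ (w (1 + algebraMap Kb (FN (p * M₁)) b * e)) = C c' * (y' : LaurentSeries Kb) ^ p) :
    False := by
  have heV : e ∈ (gauss2 A hpM₁ hw.spec).V := H.mem
  have he : gsMem A (e : LaurentSeries Kb) := heV.1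
  have hwe : gsMem A ((w e : FN (p * M₁)) : LaurentSeries Kb) := heV.2
  have hb : A.valuation b < 1 := H.lt_one
  have hgt : A.valuation (p : Kb) ^ p < A.valuation b ^ (p - 1) := H.gt
  obtain ⟨r, hr⟩ := F2N_fst hpM₁ hw hζ hb hgt he hwe hN
  have hwz : w (1 + algebraMap Kb (FN (p * M₁)) b * e) = 1 + algebraMap Kb (FN (p * M₁)) b * w e := by
    rw [map_add, map_one, map_mul, AlgEquiv.commutes]
  rw [hwz] at hN'
  obtain ⟨r', hr'⟩ := F2N_fst hpM₁ hw hζ hb hgt hwe (by rw [hw.invol]; exact he) hN'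
  apply H.not_pow (r, r')
  rw [NSetting.core_rd]
  exact gauss2_rd_eq A hpM₁ hw.spec heV _ hr hr'

end Fermat.Agent.S33
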