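import Fermat.Agent.S35.RedU
import Fermat.Agent.S35.N1

/-!
# S33, piece F2a: `UU ζ p (1 + b h) = 1 + b G` with `G` small, for `h` Gauss-integral and `b ∈ 𝔪_A`
-/

set_option autoImplicit false

namespace Fermat.Agent.S33

open ModularCurve AlgebraicCurve HahnSeries Fermat.Agent.S24 Fermat.Agent.S28 Fermat.Agent.S18
open Fermat.Agent.GR Fermat.Agent.S35

/-- a product of `a_i + β c_i`, where all `a_i` (resp. `c_i`) have the same image under `φ` and `φ β = 0`. -/
theorem F2a_prod_add_small {𝓡 𝓢 ι : Type*} [CommRing 𝓡] [CommRing 𝓢] (φ : 𝓡 →+* 𝓢) (β : 𝓡)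
    (hβ : φ β = 0) (s : Finset ι) (a c : ι → 𝓡) (ab cb : 𝓢) (ha : ∀ i ∈ s, φ (a i) = ab)
    (hc : ∀ i ∈ s, φ (c i) = cb) :
    ∃ G : 𝓡, ∏ i ∈ s, (a i + β * c i) = ∏ i ∈ s, a i + β * G ∧
      φ G = (s.card : 𝓢) * (cb * ab ^ (s.card - 1)) := by
  classical
  induction s using Finset.induction_on with
  | empty => exact ⟨0, by simp, by simp⟩
  | insert i s hi ih =>
    obtain ⟨G, hG, hφ⟩ := ih (fun j hj => ha j (Finset.mem_insert_of_mem hj))
      (fun j hj => hc j (Finset.mem_insert_of_mem hj))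
    refine ⟨c i * ∏ j ∈ s, a j + a i * G + β * (c i * G), ?_, ?_⟩
    · rw [Finset.prod_insert hi, Finset.prod_insert hi, hG]; ring
    · have hP : φ (∏ j ∈ s, a j) = ab ^ s.card := by
        rw [map_prod, Finset.prod_congr rfl (fun j hj => ha j (Finset.mem_insert_of_mem hj)),
          Finset.prod_const]
      rw [map_add, map_add, map_mul, map_mul, map_mul, hβ, zero_mul, add_zero, hP, hφ,
        ha i (Finset.mem_insert_self i s), hc i (Finset.mem_insert_self i s),
        Finset.card_insert_of_notMem hi, Nat.add_sub_cancel]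
      rcases Nat.eq_zero_or_pos s.card with h0 | h0
      · rw [h0]; simp
      · obtain ⟨n, hn⟩ : ∃ n, s.card = n + 1 := ⟨s.card - 1, by omega⟩
        rw [hn, Nat.add_sub_cancel]
        push_cast
        ring

theorem F2a_Uop_add {R : Type*} [CommRing R] (ℓ : ℕ) [NeZero ℓ] (X Y : LaurentSeries R) :
    Uop ℓ (X + Y) = Uop ℓ X + Uop ℓ Y := by
  ext n
  simp only [Uop_coeff, HahnSeries.coeff_add]

theorem F2a_Uop_C_mul {R : Type*} [CommRing R] (ℓ : ℕ) [NeZero ℓ] (c : R) (Y : LaurentSeries R) :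
    Uop ℓ (C c * Y) = C c * Uop ℓ Y := by
  ext n
  simp only [Uop_coeff, HahnSeries.C_mul_eq_smul, HahnSeries.coeff_smul]

variable {A : ValuationSubring Kb}

/-- **F2a.** -/
theorem F2a_UU_small {p : ℕ} [NeZero p] [Fact p.Prime] [CharP (kA A) p] {ζ : Kbˣ}
    (hζ : IsPrimitiveRoot ζ p) {b : Kb} (hb : A.valuation b < 1) {h : LaurentSeries Kb}
    (hh : gsMem A h) :
    ∃ G : LaurentSeries Kb, gsMem A G ∧ gr A G = 0 ∧ UU ζ p (1 + C b * h) = 1 + C b * G := by
  obtain ⟨Y₁, Y₂, h0, hY⟩ := hh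
  obtain ⟨z, hz, hz1⟩ := exists_unit_of_pow_eq_one (A := A) (NeZero.ne p) ζ hζ.pow_eq_one
  have hbA : b ∈ A := (A.valuation_le_one_iff b).1 hb.le
  set β : A := ⟨b, hbA⟩ with hβ
  have hβ0 : IsLocalRing.residue A β = 0 := by
    rw [IsLocalRing.residue_eq_zero_iff, IsLocalRing.mem_maximalIdeal, mem_nonunits_iff]
    intro hu
    have := (A.valuation_eq_one_iff β).1 hu
    exact absurd this hb.ne
  set φ := coeffMap (IsLocalRing.residue A) with hφ
  have hzφ : Units.map ((IsLocalRing.residue A : A →+* kA A) : A →* kA A) z = 1 := by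
    apply Units.ext
    apply frobenius_inj (kA A) p
    rw [frobenius_def, frobenius_def, Units.val_one, one_pow, ← Units.val_pow_eq_pow_val, ← map_pow,
      hz1, map_one, Units.val_one]
  have hsc : ∀ (i : ℕ) (Y : LaurentSeries A), φ (scale (z ^ i) Y) = φ Y := by
    intro i Y
    rw [hφ, coeffMap_scale, map_pow, hzφ, one_pow, scale_one_apply]
  obtain ⟨G₀, hG₀, hG₀φ⟩ := F2a_prod_add_small φ (C β) (by rw [hφ, coeffMap_C, hβ0, map_zero])
    (Finset.range p) (fun i => scale (z ^ i) Y₂) (fun i => scale (z ^ i) Y₁) (φ Y₂) (φ Y₁)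
    (fun i _ => hsc i Y₂) (fun i _ => hsc i Y₁)
  have hp0 : ((p : ℕ) : LaurentSeries (kA A)) = 0 := by
    rw [← map_natCast (C : kA A →+* LaurentSeries (kA A)), CharP.cast_eq_zero, map_zero]
  rw [Finset.card_range, hp0, zero_mul] at hG₀φ
  have hPop : Pop z p (Y₂ + C β * Y₁) = Pop z p Y₂ + C β * G₀ := by
    rw [Pop, Pop, ← hG₀]
    refine Finset.prod_congr rfl fun i _ => ?_
    rw [map_add, map_mul, scale_C]
  have hUU : UU z p (Y₂ + C β * Y₁) = UU z p Y₂ + C β * Uop p G₀ := by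
    rw [UU, UU, hPop, F2a_Uop_add, F2a_Uop_C_mul]
  have hsub : ∀ Y : LaurentSeries A, coeffMap A.subtype (UU z p Y) =
      UU ζ p (coeffMap A.subtype Y) := by
    intro Y
    rw [coeffMap_UU]
    congr 1
  have hU0 : φ (UU z p Y₂) ≠ 0 := by
    rw [hφ, UU, coeffMap_Uop_Pop_char p _ z hz1]
    intro hh
    exact h0 (coeffMap_injective (frobenius (kA A) p) (frobenius (kA A) p).injective
      (by rw [hh, map_zero]))
  have hU0' : coeffMap A.subtype (UU z p Y₂) ≠ 0 := by
    intro hh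
    apply hU0
    have : UU z p Y₂ = 0 := coeffMap_injective A.subtype A.subtype_injective (by rw [hh, map_zero])
    rw [this, map_zero]
  set G : LaurentSeries Kb := coeffMap A.subtype (Uop p G₀) / coeffMap A.subtype (UU z p Y₂) with hG
  have hGrel : G * coeffMap A.subtype (UU z p Y₂) = coeffMap A.subtype (Uop p G₀) :=
    div_mul_cancel₀ _ hU0'
  refine ⟨G, ⟨Uop p G₀, UU z p Y₂, hU0, hGrel⟩, ?_, ?_⟩
  · have h1 := gr_mul_eq hU0 hGrel
    rw [coeffMap_Uop, ← hφ, hG₀φ] at h1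
    have h2 : Uop p (0 : LaurentSeries (kA A)) = 0 := by ext n; simp
    rw [h2] at h1
    exact (mul_eq_zero.mp h1).resolve_right hU0
  · have h1 : (1 + C b * h) * coeffMap A.subtype Y₂ = coeffMap A.subtype (Y₂ + C β * Y₁) := by
      rw [map_add, map_mul, coeffMap_C, ← hY]
      show _ = _ + C b * _
      ring
    have h2 := congrArg (UU ζ p) h1
    rw [UU_mul hζ, ← hsub, ← hsub, hUU, map_add, map_mul, coeffMap_C] at h2
    apply mul_right_cancel₀ hU0'
    rw [h2, add_mul, one_mul, mul_assoc, hGrel]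
    rfl

end Fermat.Agent.S33
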