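import Fermat.Agent.S33.TH
import Fermat.Agent.S33.A3
import Fermat.Agent.S33.A4b

/-!
# S33, piece FX: the common first half of F1 and F2

Over an abstract `RedCore S` whose constant field is `Kb`: a `τ₀`-fixed class `u ≡ 1`, `p ∣ div u`, which is
not trivial has exact representatives `u h_i ^ p = 1 + c ^ p e_i` with `th(τ₀, c) = 1`.
-/

set_option autoImplicit false

namespace Fermat.Agent.S33

open Polynomial IntermediateField Fermat.Agent.S24 Fermat.Agent.S18 Fermat.Agent.S18.CoreDim Module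
open Fermat.Agent.S34 Fermat.Agent.GR

variable {F k E : Type*} [Field F] [Algebra Kb F] [Field k] [CommRing E] [Algebra k E]

/-- **FX.** -/
theorem FX_exact [Nontrivial E] (S : RedCore Kb F k E) {x : F} {Lb : ℕ → ℕ → Submodule k E}
    (H : CoreHyp S x Lb) {p : ℕ} (hpp : p.Prime) [CharP k p] (hp : 0 < p) {u : F}
    (HU : CoreHypU S x Lb p hp u)
    (hroot : ∀ (a b : ℕ) (r : E), r ^ p ∈ Lb (p * a) (p * b) → r ∈ Lb a b)
    (hcon : ¬ Triv Kb u p)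
    (hA : S.A.LiesOverPrime p) {τ₀ : GQ} (hτ₀ : IsTau0 S.A p τ₀)
    (Th : F →+ F)
    (hsemi : ∀ (a : Kb) (f : F), Th (algebraMap Kb F a * f) = algebraMap Kb F (τ₀ a) * Th f)
    (hThX : ∀ (a b : ℕ) (f : F), f ∈ Xsp Kb x u p hp a b → Th f ∈ Xsp Kb x u p hp a b)
    (hThR : ∀ f ∈ S.R, Th f ∈ S.R ∧ S.rd (Th f) = S.rd f) :
    ∃ (n : ℕ) (c : Kb) (h1 h2 e1 e2 : F), c ≠ 0 ∧ S.A.valuation c < 1 ∧
      S.A.valuation (p : Kb) < S.A.valuation c ^ (p - 1) ∧ Th1 S.A τ₀ c ∧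
      TriOut S x p hp u n c h1 h2 e1 e2 ∧ IsExact S p (c ^ p) e1 ∧ IsExact S p (c ^ p) e2 := by
  classical
  have hcon' : ∀ h : F, h ≠ 0 → ∀ c : Kb, u * h ^ p ≠ algebraMap Kb F c :=
    fun h hh c hc => hcon ⟨h, hh, c, hc⟩
  obtain ⟨N₀, hN₀⟩ := coreP S H hp HU hcon'
  obtain ⟨c, u1, u2, ps, O⟩ := hN₀ N₀ le_rfl
  have := O.finX1
  have := O.finX2
  have hth : Th1 S.A τ₀ c := by
    have hτc : (τ₀ : Kb →+* Kb) c / c ∈ S.A := TH_div_mem hτ₀.1 c
    refine (TH_resA S hτc).1 (A3_inv S (Xsp Kb x u p hp 0 N₀) (Xsp Kb x u p hp N₀ 0)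
      (by rw [O.red1]; exact H.finb _ _) (by rw [O.red2]; exact H.finb _ _)
      (H.dimRed _ O.finX1).ge (H.dimRed _ O.finX2).ge O.inf ?_ O.c0 O.cA O.u1X O.u2X O.u1R O.rd1
      O.psR O.diff (by rw [O.red1, O.red2]; exact O.psn) (τ₀ : Kb →+* Kb) hτc Th hsemi
      (hThX _ _) (hThX _ _) hThR)
    intro r hr
    rw [O.red1, O.red2] at hr
    exact H.constb r (H.inf_le _ hr)
  have hvc : S.A.valuation c < 1 := by
    refine lt_of_le_of_ne ((S.A.valuation_le_one_iff _).mpr O.cA) fun h1 => O.cinv ?_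
    exact (S.A.valuation_le_one_iff _).mp (by rw [map_inv₀, h1, inv_one])
  rcases tri S H hpp hp HU hroot (A4b_root hpp) O with hB | ⟨hlt, h1, h2, e1, e2, T⟩
  · exact absurd hth (TH_caseB hpp hA hτ₀ hB)
  · have hp1 : p - 1 ≠ 0 := by have := hpp.two_le; omega
    have hb1 : S.A.valuation (c ^ p) < 1 := by
      rw [map_pow]; exact pow_lt_one₀ zero_le hvc hpp.ne_zero
    have hgt : S.A.valuation (p : Kb) ^ p < S.A.valuation (c ^ p) ^ (p - 1) := by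
      rw [map_pow, ← pow_mul, mul_comm, pow_mul]
      exact pow_lt_pow_left₀ hlt zero_le hpp.ne_zero
    exact ⟨N₀, c, h1, h2, e1, e2, O.c0, hvc, hlt, hth, T, ⟨hb1, hgt, T.e1R, T.np1⟩,
      ⟨hb1, hgt, T.e2R, T.np2⟩⟩

end Fermat.Agent.S33
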