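import Fermat.Agent.S35.AN

/-!
# S33, piece FAM: the family of analytic data of `S35.exists_anFamily`, with one more clause:
the classes `u n h` are stable under the multiplicative Hecke operator `Mop ζ ℓ` for EVERY prime `ℓ ∤ N`
(`ℓ = p` allowed; `AnData.u_T` excludes it).
-/

set_option autoImplicit false

namespace Fermat.Agent.S33

open ModularCurve AlgebraicCurve HahnSeries Fermat.Agent.S24 Fermat.Agent.S18 Fermat.Agent.GR
open Fermat.Agent.S29 Fermat.Agent.S35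

theorem exists_anFamilyAll (p : ℕ) [Fact p.Prime] :
    ∃ D : ∀ (N : ℕ) [NeZero N], AnData p N,
      (∀ (q M : ℕ) [NeZero q] [NeZero M] [NeZero (q * M)], q.Prime → ¬ q ∣ M →
        ∀ w : FN (q * M) ≃ₐ[Kb] FN (q * M), IsWq q M w →
          Nonempty (AnData2 p q M w (D (q * M)) (D M))) ∧
      (∀ (N : ℕ) [NeZero N] (ℓ : ℕ) [NeZero ℓ], ℓ.Prime → ¬ ℓ ∣ N → ∀ (n : ℕ) (h : (D N).H),
        ∃ (ζ : Kbˣ) (h' : (D N).H) (x : FN N), IsPrimitiveRoot ζ ℓ ∧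
          Mop ζ ℓ ((D N).u n h : LaurentSeries Kb) =
            (((D N).u n h' * x ^ (p ^ n) : FN N) : LaurentSeries Kb)) := by
  classical
  have hp : 0 < p := (Fact.out : p.Prime).pos
  have hpn : ∀ n : ℕ, 0 < p ^ n := fun n => pow_pos hp n
  choose U hU using fun (N : ℕ) (hN : NeZero N) (n : ℕ) (h : HLat N) => exists_isKumL (hpn n) h
  refine ⟨fun N hN => anDataOf p N (U N hN) (hU N hN), ?_, ?_⟩
  swap
  · intro N iN ℓ iℓ hℓ hℓN n h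
    have : Fact ℓ.Prime := ⟨hℓ⟩
    obtain ⟨ζ₀, hζ₀⟩ := HasEnoughRootsOfUnity.exists_primitiveRoot Kb ℓ
    set ζ : Kbˣ := hζ₀.isUnit (NeZero.ne ℓ) |>.unit with hζ
    have hζp : IsPrimitiveRoot ζ ℓ := by
      rw [← IsPrimitiveRoot.coe_units_iff]; exact hζ₀
    obtain ⟨hs, hk⟩ := (hU N iN n h).hecke hℓN (hpn n)
      (fun χ ψ hχ hψ => hχ.isHeckeChar hℓ hℓN hψ) hζp
    obtain ⟨w, -, hw⟩ := (hU N iN n _).unique (hpn n) hk
    exact ⟨ζ, _, w, hζp, congrArg Subtype.val hw⟩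
  intro q M iq iM iqM hq hqM w hw
  have : Fact q.Prime := ⟨hq⟩
  obtain ⟨B⟩ := exists_bez hq hqM
  obtain ⟨wH, hwH⟩ := (famW B).exists_H
  obtain ⟨trH, htrH⟩ := (famTr B hqM).exists_H
  have hw' := hw.toS34
  obtain ⟨ζ₀, hζ₀⟩ := HasEnoughRootsOfUnity.exists_primitiveRoot Kb q
  set ζ : Kbˣ := hζ₀.isUnit (NeZero.ne q) |>.unit with hζdef
  have hζ : IsPrimitiveRoot ζ q := by
    rw [← IsPrimitiveRoot.coe_units_iff]; exact hζ₀
  have key1 : ∀ n (h : HLat (q * M)), ∃ v : FN (q * M),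
      w (U (q * M) iqM n h) = U (q * M) iqM n (wH h) * v ^ (p ^ n) := by
    intro n h
    obtain ⟨χ, hχ, hu⟩ := hU (q * M) iqM n h
    obtain ⟨ψ, hψ⟩ := exists_isChiOf (p ^ n) (wH h)
    have h1 : IsKumL (p ^ n) (wH h) (w.toAlgHom (U (q * M) iqM n h)) :=
      ⟨ψ, hψ, isKumChi_w B hw' (hpn n) (hwH _ _ _ _ hχ hψ) (hψ.pow_eq_one (hpn n)) hψ.isPar hu⟩
    obtain ⟨v, -, hv⟩ := (hU (q * M) iqM n (wH h)).unique (hpn n) h1
    exact ⟨v, hv⟩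
  have key2 : ∀ n (h : HLat (q * M)), ∃ v : FN M,
      N1 w ζ (U (q * M) iqM n h) = ((U M iM n (trH h) * v ^ (p ^ n) : FN M) : LaurentSeries Kb) := by
    intro n h
    obtain ⟨χ, hχ, hu⟩ := hU (q * M) iqM n h
    obtain ⟨χ', hχ'⟩ := exists_isChiOf (p ^ n) (wH h)
    obtain ⟨ψ, hψ⟩ := exists_isChiOf (p ^ n) (trH h)
    obtain ⟨hs, hk⟩ := isKumChi_norm B hqM hw' (hpn n) (hwH _ _ _ _ hχ hχ') hχ'.isPar
      (htrH _ _ _ _ hχ hψ) (hψ.pow_eq_one (hpn n)) hψ.isPar hu hζ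
    obtain ⟨v, -, hv⟩ := (hU M iM n (trH h)).unique (hpn n) ⟨ψ, hψ, hk⟩
    exact ⟨v, congrArg Subtype.val hv⟩
  refine ⟨{ trH := trH.toAddMonoidHom, trH' := (trH.comp wH).toAddMonoidHom, u_tr := ?_, u_tr' := ?_ }⟩
  · intro n h
    obtain ⟨v, hv⟩ := key2 n h
    exact ⟨ζ, v, hζ, hv⟩
  · intro n h
    obtain ⟨v, hv⟩ := key1 n h
    obtain ⟨x, hx⟩ := key2 n (wH h)
    refine ⟨ζ, x * ⟨N1 w ζ v, N1_mem hw hζ hq hqM v⟩, hζ, ?_⟩
    show N1 w ζ (w (U (q * M) iqM n h)) = _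
    rw [hv, N1_mul hζ, N1_pow hζ, hx]
    show _ = ((U M iM n (trH (wH h)) * (x * ⟨N1 w ζ v, N1_mem hw hζ hq hqM v⟩) ^ (p ^ n) : FN M) :
      LaurentSeries Kb)
    rw [mul_pow, ← mul_assoc]
    rfl


end Fermat.Agent.S33
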