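import Fermat.Agent.S33.P3Abs
import Fermat.Agent.S37.NormMop
import Fermat.Agent.S18.KLModular

/-!
# S33, piece P3: a `p`-th root at level `4 N` of a function of level `N` has level `N` (`p` odd)
-/

set_option autoImplicit false
set_option linter.style.haveILetI false

namespace Fermat.Agent.S33.P3

open AlgebraicCurve ModularCurve IntermediateField Fermat.Agent.S24 Fermat.Agent.S18
  Fermat.Agent.GR Fermat.Agent.S28 Fermat.Agent.S37

section along

variable {K F F' : Type*} [Field K] [Field F] [Field F'] [Algebra K F] [Algebra K F']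

theorem dvd_finrankAlong_of_pow (φ : F →ₐ[K] F') (hfin : FiniteAlong K φ) {p : ℕ} (hp : p.Prime)
    (v : F') (u : F) (h : φ u = v ^ p) (hne : ∀ b : F, b ^ p ≠ u) : p ∣ finrankAlong K φ := by
  letI := algebraAlong φ
  haveI : Module.Finite F F' := hfin
  exact dvd_finrank_of_pow hp v u h hne

theorem exists_of_unique_root_along (φ : F →ₐ[K] F') (hfin : FiniteAlong K φ) {p : ℕ}
    (hp : p.Prime) (hd : finrankAlong K φ = p) (ω : F) (hω : ω ^ p = 1) (hω1 : ω ≠ 1) (v : F')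
    (u : F) (h : φ u = v ^ p) (hne : ∀ b : F, b ^ p ≠ u) (P : Polynomial F) (y : F')
    (hy : (P.map φ.toRingHom).eval y = 0)
    (huniq : ∀ y' : F', (P.map φ.toRingHom).eval y' = 0 → y' = y) : ∃ a : F, φ a = y := by
  letI := algebraAlong φ
  haveI : Module.Finite F F' := hfin
  refine exists_of_unique_root hp hd ω hω hω1 v u h hne P y ?_ fun y' hy' => huniq y' ?_
  · rw [Polynomial.aeval_def, ← Polynomial.eval_map]; exact hy
  · rw [Polynomial.aeval_def, ← Polynomial.eval_map] at hy'; exact hy'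

end along

theorem psi_mul_two_odd {N : ℕ} (hN : ¬ 2 ∣ N) : dedekindPsi (N * 2) = dedekindPsi N * 3 := by
  have hcop : N.Coprime 2 := ((Nat.Prime.coprime_iff_not_dvd Nat.prime_two).mpr hN).symm
  have h3 : dedekindPsi 2 = 3 := by
    have := Fermat.Agent.S20.dedekindPsi_prime_pow Nat.prime_two 0
    simpa using this
  rw [Fermat.Agent.S20.dedekindPsi_mul hcop, h3]

theorem psi_mul_two_even {N : ℕ} (hN0 : N ≠ 0) (hN : 2 ∣ N) :
    dedekindPsi (N * 2) = dedekindPsi N * 2 := by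
  obtain ⟨a, n, hn, rfl⟩ := Nat.exists_eq_pow_mul_and_not_dvd hN0 2 (by norm_num)
  obtain ⟨b, rfl⟩ : ∃ b, a = b + 1 := by
    rcases a with _ | b
    · exfalso; apply hn; simpa using hN
    · exact ⟨b, rfl⟩
  have hcop : ∀ k : ℕ, (2 ^ k).Coprime n := fun k =>
    Nat.Coprime.pow_left k ((Nat.Prime.coprime_iff_not_dvd Nat.prime_two).mpr hn)
  have e : 2 ^ (b + 1) * n * 2 = 2 ^ (b + 1 + 1) * n := by ring
  rw [e, Fermat.Agent.S20.dedekindPsi_mul (hcop _), Fermat.Agent.S20.dedekindPsi_mul (hcop _),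
    Fermat.Agent.S20.dedekindPsi_prime_pow Nat.prime_two,
    Fermat.Agent.S20.dedekindPsi_prime_pow Nat.prime_two]
  ring

variable {N : ℕ} [NeZero N]

theorem psi_eq_mul_finrankAlong :
    dedekindPsi (N * 2) = dedekindPsi N * finrankAlong Kb (heckeAlphaBar Kb N 2) := by
  haveI : NeZero (N * 2) := ⟨mul_ne_zero (NeZero.ne N) two_ne_zero⟩
  have h1 := D1.finrank_adjoin_along (heckeAlphaBar Kb N 2) (isFF_FN N)
    (isFF_FN (N * 2)) (transcendental_jBar N)
  have h2 : heckeAlphaBar Kb N 2 (jBar N) = jBar (N * 2) := Subtype.ext rfl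
  rw [h2] at h1
  have e1 := (finrank_modularFunctionFieldBar (N * 2)).2
  have e2 := (finrank_modularFunctionFieldBar N).2
  rw [e1, e2] at h1
  exact h1

theorem psi_ne_zero : dedekindPsi N ≠ 0 := by
  intro h0
  have e2 := (finrank_modularFunctionFieldBar N).2
  rw [h0] at e2
  haveI := (finrank_modularFunctionFieldBar N).1
  exact (Module.finrank_pos (R := Kb⟮jBar N⟯) (M := modularFunctionFieldBar N)).ne' e2

theorem finrankAlong_two_odd (hN : ¬ 2 ∣ N) : finrankAlong Kb (heckeAlphaBar Kb N 2) = 3 := by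
  have h := psi_eq_mul_finrankAlong (N := N)
  rw [psi_mul_two_odd hN] at h
  exact (Nat.eq_of_mul_eq_mul_left (Nat.pos_of_ne_zero psi_ne_zero) h).symm

theorem finrankAlong_two_even (hN : 2 ∣ N) : finrankAlong Kb (heckeAlphaBar Kb N 2) = 2 := by
  have h := psi_eq_mul_finrankAlong (N := N)
  rw [psi_mul_two_even (NeZero.ne N) hN] at h
  exact (Nat.eq_of_mul_eq_mul_left (Nat.pos_of_ne_zero psi_ne_zero) h).symm

theorem C_mem_FN (M : ℕ) (c : Kb) : (HahnSeries.C c : LaurentSeries Kb) ∈ FN M := by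
  have := (FN M).algebraMap_mem c
  rwa [S28.algebraMap_eq_C] at this

/-- the polynomial `P_g` with its factorisation over `ℚ̄((t))`, `q = t²`. -/
theorem exists_P (hN : ¬ 2 ∣ N) {ζ : Kbˣ} (hζ : IsPrimitiveRoot ζ 2) (g : FN N) :
    ∃ P : Polynomial (FN N), P.map (NMPx.phi N 2) = NMPx.QQ ζ 2 (g : LaurentSeries Kb) := by
  let M : Kb → FN N := fun c =>
    ⟨Mop ζ 2 (HahnSeries.C c - (g : LaurentSeries Kb)),
      Mop_mem_FN Nat.prime_two hN hζ (sub_mem (C_mem_FN N c) g.2)⟩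
  let x : ℕ → FN N := fun i => ⟨HahnSeries.C (i : Kb), C_mem_FN N _⟩
  have hx : Set.InjOn x (Finset.range (2 + 1 + 1)) := by
    intro i _ j _ h
    have h1 : HahnSeries.C (i : Kb) = (HahnSeries.C (j : Kb) : LaurentSeries Kb) :=
      congrArg Subtype.val h
    have h2 := HahnSeries.C_injective h1
    exact_mod_cast h2
  have hphix : ∀ i, NMPx.phi N 2 (x i) = HahnSeries.C (i : Kb) := fun i => by
    rw [NMPx.phi_apply]; exact qExpand_C (R := Kb) (N := 2) _
  exact NMPx.exists_map_eq (NMPx.phi N 2) (NMPx.QQ ζ 2 (g : LaurentSeries Kb)) (2 + 1)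
    (NMPx.QQ_natDegree ζ _).le x hx (fun i => M (i : Kb)) (fun i _ => by
      rw [hphix, NMPx.QQ_eval_C hζ]; rfl)

theorem coeff_jTop : ((D2.jTop N : FN N) : LaurentSeries Kb).coeff (-(N : ℤ)) = 1 := by
  show (qExpand Kb N (jqModC Kb)).coeff (-(N : ℤ)) = 1
  have : (-(N : ℤ)) = (N : ℤ) * (-1) := by ring
  rw [this, qExpand_coeff_mul, coeff_jqModC_neg_one]

theorem root_unique (hN : ¬ 2 ∣ N) {ζ : Kbˣ} (P : Polynomial (FN N))
    (hP : P.map (NMPx.phi N 2) = NMPx.QQ ζ 2 ((D2.jTop N : FN N) : LaurentSeries Kb))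
    (y' : FN (N * 2)) (hy' : (P.map (heckeAlphaBar Kb N 2).toRingHom).eval y' = 0) :
    y' = heckeBetaBar Kb N 2 (D2.jTop N) := by
  have hcomp : (NMPx.phi (N * 2) 2).comp (heckeAlphaBar Kb N 2).toRingHom = NMPx.phi N 2 :=
    RingHom.ext fun a => by
      rw [RingHom.comp_apply, NMPx.phi_apply, NMPx.phi_apply]
      exact congrArg _ (coe_heckeAlphaBar N 2 a)
  have h1 : (NMPx.QQ ζ 2 ((D2.jTop N : FN N) : LaurentSeries Kb)).eval
      (NMPx.phi (N * 2) 2 y') = 0 := by
    rw [← hP, ← hcomp, ← Polynomial.map_map, Polynomial.eval_map, Polynomial.eval₂_hom, hy',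
      map_zero]
  rw [NMPx.QQ, Polynomial.eval_mul, Polynomial.eval_prod] at h1
  simp only [Polynomial.eval_sub, Polynomial.eval_X, Polynomial.eval_C] at h1
  rcases mul_eq_zero.mp h1 with h2 | h2
  · apply Subtype.ext
    rw [coe_heckeBetaBar]
    have h3 := sub_eq_zero.mp h2
    rw [NMPx.phi_apply] at h3
    exact (qExpand Kb 2).injective h3
  · exfalso
    obtain ⟨i, -, hi⟩ := Finset.prod_eq_zero_iff.mp h2
    have h3 := sub_eq_zero.mp hi
    have h4 : (NMPx.phi (N * 2) 2 y').coeff (-(N : ℤ)) =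
        (scale (ζ ^ i) ((D2.jTop N : FN N) : LaurentSeries Kb)).coeff (-(N : ℤ)) := by rw [h3]
    rw [NMPx.phi_apply, qExpand_coeff_of_not_dvd, scale_coeff, coeff_jTop, mul_one] at h4
    · exact (Units.ne_zero _) h4.symm
    · intro hdvd
      apply hN
      have : ((2 : ℕ) : ℤ) ∣ (N : ℤ) := (dvd_neg.mp hdvd)
      exact_mod_cast this

/-- **one step**: `v ∈ F_{2N}`, `v ^ p ∈ F_N`, `p` odd `⟹ v ∈ F_N`. -/
theorem mem_FN_of_pow_mem_two {p : ℕ} (hp : p.Prime) (hp2 : p ≠ 2) {v : LaurentSeries Kb}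
    (hv : v ∈ FN (N * 2)) (h : v ^ p ∈ FN N) : v ∈ FN N := by
  by_cases hb : ∃ b : FN N, b ^ p = (⟨v ^ p, h⟩ : FN N)
  · obtain ⟨b, hb⟩ := hb
    have hb' : (b : LaurentSeries Kb) ^ p = v ^ p := congrArg Subtype.val hb
    by_cases hb0 : (b : LaurentSeries Kb) = 0
    · rw [hb0, zero_pow hp.ne_zero] at hb'
      rw [pow_eq_zero_iff hp.ne_zero |>.mp hb'.symm]
      exact zero_mem _
    · obtain ⟨c, hc⟩ := exists_algebraMap_eq_of_pow_eq_one (K := Kb) hp.pos
        (v / (b : LaurentSeries Kb)) (by rw [div_pow, hb', div_self]; rw [← hb']; exact pow_ne_zero _ hb0)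
      have : v = algebraMap Kb (LaurentSeries Kb) c * b := by rw [hc]; field_simp
      rw [this]
      exact mul_mem ((FN N).algebraMap_mem c) b.2
  · push Not at hb
    have hφ : heckeAlphaBar Kb N 2 (⟨v ^ p, h⟩ : FN N) = (⟨v, hv⟩ : FN (N * 2)) ^ p :=
      Subtype.ext (coe_heckeAlphaBar N 2 _)
    have hdvd := dvd_finrankAlong_of_pow (heckeAlphaBar Kb N 2) (HI1.finiteAlong_alpha N 2) hp
      (⟨v, hv⟩ : FN (N * 2)) (⟨v ^ p, h⟩ : FN N) hφ hb
    by_cases hN : 2 ∣ N
    · exfalso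
      rw [finrankAlong_two_even hN] at hdvd
      exact hp2 ((Nat.prime_dvd_prime_iff_eq hp Nat.prime_two).mp hdvd)
    · have hd := finrankAlong_two_odd hN
      rw [hd] at hdvd
      have hp3 : p = 3 := (Nat.prime_dvd_prime_iff_eq hp Nat.prime_three).mp hdvd
      subst hp3
      -- a primitive cube root of unity and a primitive square root of unity in `ℚ̄`
      obtain ⟨ω₀, hω₀⟩ := HasEnoughRootsOfUnity.exists_primitiveRoot Kb 3
      obtain ⟨ζ₀, hζ₀⟩ := HasEnoughRootsOfUnity.exists_primitiveRoot Kb 2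
      set ζ : Kbˣ := hζ₀.isUnit two_ne_zero |>.unit with hζdef
      have hζ : IsPrimitiveRoot ζ 2 := by
        rw [← IsPrimitiveRoot.coe_units_iff]; exact hζ₀
      obtain ⟨P, hP⟩ := exists_P hN hζ (D2.jTop N)
      let ω : FN N := algebraMap Kb (FN N) ω₀
      have hω : ω ^ 3 = 1 := by
        rw [← map_pow, hω₀.pow_eq_one, map_one]
      have hω1 : ω ≠ 1 := by
        intro h1
        have : ω₀ = 1 := (algebraMap Kb (FN N)).injective (by rw [map_one]; exact h1)
        exact hω₀.ne_one (by norm_num) this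
      have hroot : (P.map (heckeAlphaBar Kb N 2).toRingHom).eval
          (heckeBetaBar Kb N 2 (D2.jTop N)) = 0 := by
        have hcomp : (NMPx.phi (N * 2) 2).comp (heckeAlphaBar Kb N 2).toRingHom = NMPx.phi N 2 :=
          RingHom.ext fun a => by
            rw [RingHom.comp_apply, NMPx.phi_apply, NMPx.phi_apply]
            exact congrArg _ (coe_heckeAlphaBar N 2 a)
        apply (NMPx.phi (N * 2) 2).injective
        rw [map_zero, ← Polynomial.eval₂_hom, ← Polynomial.eval_map, Polynomial.map_map, hcomp, hP,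
          NMPx.phi_apply, coe_heckeBetaBar]
        exact NMPx.QQ_eval_root ζ _
      obtain ⟨a, ha⟩ := exists_of_unique_root_along (heckeAlphaBar Kb N 2)
        (HI1.finiteAlong_alpha N 2) Nat.prime_three hd ω hω hω1 (⟨v, hv⟩ : FN (N * 2))
        (⟨v ^ 3, h⟩ : FN N) hφ hb P (heckeBetaBar Kb N 2 (D2.jTop N)) hroot
        (fun y' hy' => root_unique hN P hP y' hy')
      have hj : qExpand Kb (N * 2) (jqModC Kb) ∈ FN N := by
        have h1 : ((heckeBetaBar Kb N 2 (D2.jTop N) : FN (N * 2)) : LaurentSeries Kb) =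
            qExpand Kb (N * 2) (jqModC Kb) := by
          show qExpand Kb 2 (qExpand Kb N (jqModC Kb)) = _
          rw [qExpand_qExpand, ← qE_apply, ← qE_apply, mul_comm]
        rw [← h1, ← ha, coe_heckeAlphaBar]
        exact a.2
      exact D2.FN_mul_le_of Nat.prime_two (FN N) le_rfl hj hv

/-- **P3.** `v ∈ F_{4N}`, `v ^ p ∈ F_N`, `p` odd `⟹ v ∈ F_N`. -/
theorem mem_FN_of_pow_mem_four {p : ℕ} (hp : p.Prime) (hp2 : p ≠ 2) {v : LaurentSeries Kb}
    (hv : v ∈ FN (4 * N)) (h : v ^ p ∈ FN N) : v ∈ FN N := by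
  haveI : NeZero (N * 2) := ⟨mul_ne_zero (NeZero.ne N) two_ne_zero⟩
  have e : 4 * N = N * 2 * 2 := by ring
  rw [e] at hv
  have h1 : v ∈ FN (N * 2) :=
    mem_FN_of_pow_mem_two hp hp2 hv (FN_le_of_dvd (Dvd.intro 2 rfl) h)
  exact mem_FN_of_pow_mem_two hp hp2 h1 h

/-- **P3**, `inclFN` form: the pull back `KQ N p → KQ (4N) p` is injective. -/
theorem exists_pow_eq_of_inclFN_eq_pow {p N' : ℕ} (hp : p.Prime) (hp2 : p ≠ 2) (hN' : N' = 4 * N)
    (h : N ∣ N') (x : FN N) (w' : FN N') (hw : inclFN h x = w' ^ p) : ∃ w : FN N, x = w ^ p := by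
  subst hN'
  have h1 : (w' : LaurentSeries Kb) ^ p = x := by
    have := congrArg Subtype.val hw
    rw [coe_inclFN] at this
    exact this.symm
  have h2 : (w' : LaurentSeries Kb) ∈ FN N :=
    mem_FN_of_pow_mem_four hp hp2 w'.2 (by rw [h1]; exact x.2)
  exact ⟨⟨w', h2⟩, Subtype.ext h1.symm⟩

end Fermat.Agent.S33.P3
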