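import Fermat.Agent.S33.TPQ
import Fermat.Agent.S33.P3

/-!
# S33: `fix` for all `n` (official shape of C2), with F2 as a hypothesis
-/

set_option autoImplicit false
set_option linter.unusedSectionVars false

namespace Fermat.Agent.S33

open ModularCurve AlgebraicCurve HahnSeries Fermat.Agent.S24 Fermat.Agent.S28 Fermat.Agent.S18
  Fermat.Agent.GR Fermat.Agent.S34 Fermat.Agent.S35

variable {p M : ℕ} [NeZero p] [NeZero M] [NeZero (p * M)] [Fact p.Prime]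

/-- **C2** `fix` for all `n`, from F2 (`hF2`), P3 and the conclusion `HD` of C3. -/
theorem fix_all_of (hp : p.Prime) (hp2 : p ≠ 2) {A : ValuationSubring Kb}
    (hA : A.LiesOverPrime p) {τ₀ : GQ} [NeZero (4 * M)]
    {w₁ : FN (p * (4 * M)) ≃ₐ[Kb] FN (p * (4 * M))} (hw₁ : S35.IsWq p (4 * M) w₁)
    (hpM₁ : ¬ p ∣ 4 * M) [CharP (kA A) p]
    (hF2 : ∀ (ζ : Kbˣ) (hζ : IsPrimitiveRoot ζ p) (z : FN (p * (4 * M))),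
      z ∈ (gauss2 A hpM₁ hw₁.spec).V → (gauss2 A hpM₁ hw₁.spec).rd z = 1 →
      DvdOrd (p * (4 * M)) p z → (∃ g : FN (p * (4 * M)), galF (p * (4 * M)) τ₀ z = z * g ^ p) →
      TpFin p (4 * M) ζ ⟨N1 w₁ ζ z, N1_mem hw₁ hζ hp hpM₁ z⟩ →
      TpFin p (4 * M) ζ ⟨N1 w₁ ζ (w₁ z), N1_mem hw₁ hζ hp hpM₁ (w₁ z)⟩ →
      ∃ g : FN (p * (4 * M)), z = g ^ p)
    (D : AnData p (p * M))
    (HD : ∀ (ζ : Kbˣ) (hζ : IsPrimitiveRoot ζ p) (n : ℕ) (v : FN (p * M)), v ≠ 0 →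
      cls (p ^ (n + 1)) (v ^ p ^ n) ∈ AS D (n + 1) →
      TpFin p (4 * M) ζ ⟨N1 w₁ ζ (inclFN (mul_dvd_mul_left p (Dvd.intro_left 4 rfl)) v),
        N1_mem hw₁ hζ hp hpM₁ _⟩ ∧
      TpFin p (4 * M) ζ ⟨N1 w₁ ζ (w₁ (inclFN (mul_dvd_mul_left p (Dvd.intro_left 4 rfl)) v)),
        N1_mem hw₁ hζ hp hpM₁ _⟩)
    (n : ℕ) {x : KQ (p * M) (p ^ n)} (hx : x ∈ AS D n)
    (hT : IsTorCls A (Dvd.intro_left 4 rfl : M ∣ 4 * M) w₁ (p ^ n) x)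
    (hfix : actQ (p ^ n) τ₀ x = x) : x = 0 := by
  have i1 : NeZero (p * (4 * M)) := ⟨mul_ne_zero (NeZero.ne p) (NeZero.ne (4 * M))⟩
  obtain ⟨ζ₀, hζ₀⟩ := HasEnoughRootsOfUnity.exists_primitiveRoot Kb p
  set ζ : Kbˣ := hζ₀.isUnit (NeZero.ne p) |>.unit with hζdef
  have hζ : IsPrimitiveRoot ζ p := by
    rw [← IsPrimitiveRoot.coe_units_iff]; exact hζ₀
  rcases n with _ | n
  · have h1 : (p ^ 0) • x = 0 := nsmul_KQ x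
    have h2 : (p ^ 0) • x = x := by
      have : (p ^ 0 : ℕ) = 1 := pow_zero p
      simp only [this, one_nsmul]
    rw [← h2, h1]
  obtain ⟨u, hu0, rfl, htor⟩ := hT
  refine C2_fix (Dvd.intro_left 4 rfl : M ∣ 4 * M) hpM₁ A hA hw₁ τ₀
    (fun z => TpFin p (4 * M) ζ ⟨N1 w₁ ζ z, N1_mem hw₁ hζ hp hpM₁ z⟩ ∧
      TpFin p (4 * M) ζ ⟨N1 w₁ ζ (w₁ z), N1_mem hw₁ hζ hp hpM₁ (w₁ z)⟩)
    (fun z g hg h => TPQ_hQ hp hpM₁ hw₁ hζ z g hg h)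
    (fun z h1 h2 h3 h4 h5 => hF2 ζ hζ z h1 h2 h3 h4 h5.1 h5.2)
    (fun a ⟨v, hv⟩ => P3.exists_pow_eq_of_inclFN_eq_pow hp hp2 (by ring) _ a v hv)
    (n + 1) (AS D (n + 1)) ?_ u hx htor hfix
  intro v hv0 hv
  rw [Nat.add_sub_cancel] at hv
  exact HD ζ hζ n v hv0 hv

end Fermat.Agent.S33
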