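import Fermat.Agent.S33.Int
import Fermat.Agent.S34.InstA
import Fermat.Agent.S34.Arch

/-!
# S33, piece INT (chart): `e ∈ V` integral over `K[1/t₂]` has its `t`-expansion in `A[[t]]`
-/

set_option autoImplicit false

namespace Fermat.Agent.S33

open Polynomial IntermediateField ModularCurve HahnSeries Fermat.Agent.S18 Fermat.Agent.S24
  Fermat.Agent.S28 Fermat.Agent.S34

/-- `1 / t₂ = t U⁻¹ ∈ t ℤ[[t]]`. -/
theorem IntT2_inv (N : ℕ) (hN : 2 ∣ N) : ∃ W : PowerSeries ℤ,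
    (((t2 N hN)⁻¹ : FN N) : LaurentSeries Kb) =
      coeffMap (Int.castRingHom Kb) (HahnSeries.ofPowerSeries ℤ ℤ W) := by
  obtain ⟨U, hU, hT⟩ := tZ2_eq
  have hUU : U * PowerSeries.invOfUnit U 1 = 1 := PowerSeries.mul_invOfUnit U 1 (by rw [hU]; rfl)
  refine ⟨PowerSeries.X * PowerSeries.invOfUnit U 1, ?_⟩
  have h1 : tZ2 * HahnSeries.ofPowerSeries ℤ ℤ (PowerSeries.X * PowerSeries.invOfUnit U 1) = 1 := by
    rw [hT, map_mul, HahnSeries.ofPowerSeries_X]
    have h2 : HahnSeries.ofPowerSeries ℤ ℤ U * HahnSeries.ofPowerSeries ℤ ℤ (PowerSeries.invOfUnit U 1)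
        = 1 := by rw [← map_mul, hUU, map_one]
    have h3 : (HahnSeries.single (-1 : ℤ) (1 : ℤ)) * HahnSeries.single (1 : ℤ) (1 : ℤ) = 1 := by
      rw [HahnSeries.single_mul_single]
      norm_num
    calc _ = (HahnSeries.single (-1 : ℤ) (1 : ℤ) * HahnSeries.single (1 : ℤ) (1 : ℤ)) *
        (HahnSeries.ofPowerSeries ℤ ℤ U * HahnSeries.ofPowerSeries ℤ ℤ (PowerSeries.invOfUnit U 1)) := by
          ring
      _ = 1 := by rw [h2, h3, one_mul]
  have h4 := congrArg (coeffMap (Int.castRingHom Kb)) h1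
  rw [map_mul, map_one, ← instA_coe_t2 N hN] at h4
  show ((t2 N hN : FN N) : LaurentSeries Kb)⁻¹ = _
  exact inv_eq_of_mul_eq_one_right h4

theorem IntT2_mem_intSub (A : ValuationSubring Kb) (W : PowerSeries ℤ) :
    coeffMap (Int.castRingHom Kb) (HahnSeries.ofPowerSeries ℤ ℤ W) ∈ intSub A := by
  rw [mem_intSub_iff]
  intro m
  rw [coeffMap_coeff]
  exact intCast_mem A _

theorem IntT2_mem_geSub (W : PowerSeries ℤ) :
    coeffMap (Int.castRingHom Kb) (HahnSeries.ofPowerSeries ℤ ℤ W) ∈ geSub Kb 0 := by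
  intro m hm
  rw [coeffMap_coeff]
  have h1 := PowerSeries.coeff_coe W m
  rw [if_pos hm] at h1
  have h2 : (HahnSeries.ofPowerSeries ℤ ℤ W).coeff m = 0 := h1
  rw [h2, map_zero]

/-- a series in `A((t))` without negative terms comes from `A[[t]]`. -/
theorem IntT2_exists_powerSeries (A : ValuationSubring Kb) {f : LaurentSeries Kb}
    (h1 : f ∈ intSub A) (h2 : f ∈ geSub Kb 0) :
    ∃ Y : PowerSeries A, f = coeffMap A.subtype (HahnSeries.ofPowerSeries ℤ A Y) := by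
  have hA := mem_intSub_iff.mp h1
  refine ⟨PowerSeries.mk fun n => ⟨f.coeff n, hA n⟩, ?_⟩
  ext m
  rw [coeffMap_coeff]
  have h3 := PowerSeries.coeff_coe (PowerSeries.mk fun n : ℕ => (⟨f.coeff n, hA n⟩ : A)) m
  have h4 : (HahnSeries.ofPowerSeries ℤ A (PowerSeries.mk fun n : ℕ => (⟨f.coeff n, hA n⟩ : A))).coeff m
      = _ := h3
  rw [h4]
  split_ifs with hm
  · rw [h2 m hm, map_zero]
  · rw [PowerSeries.coeff_mk]
    show f.coeff m = f.coeff (m.natAbs : ℤ)
    congr 1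
    omega

/-- **INT_chart.** -/
theorem INT_chart (A : ValuationSubring Kb) {p : ℕ} (hp : p.Prime) (hA : A.LiesOverPrime p)
    (hodd : p ≠ 2) (N : ℕ) [NeZero N] (h4 : 4 ∣ N) (hpN : ¬ p ∣ N) (hN : (N : kA A) ≠ 0) (e : FN N)
    (he : e ∈ intRing Kb (t2 N (Dvd.dvd.trans (by norm_num) h4))⁻¹)
    (heV : e ∈ (gaussSetting A N hN).V) :
    ∃ Y : PowerSeries A, (e : LaurentSeries Kb) =
      coeffMap A.subtype (HahnSeries.ofPowerSeries ℤ A Y) := by
  have hS := isGauss_gaussSetting A N hN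
  have hc := (instA_odd A hp hA hodd N h4 hpN (gaussSetting A N hN) hS).1.inv
  obtain ⟨W, hW⟩ := IntT2_inv N (Dvd.dvd.trans (by norm_num) h4)
  have arch := arch_of_liesOver A hp hA
  exact IntT2_exists_powerSeries A
    (int_of_mem_intRing _ arch hS hc (by rw [hW]; exact IntT2_mem_intSub A W) heV he)
    (ge_of_mem_intRing _ hS hc (by rw [hW]; exact IntT2_mem_geSub W) heV he)

end Fermat.Agent.S33
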