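import Fermat.Agent.GR.TraceInv

/-!
# S33, piece K1 (TR): the operators `t_g = g + χ(g) g⁻¹` on the `ℤ[G_ℚ]`-span of `ι_m(H)`
-/

set_option autoImplicit false

namespace Fermat.Agent.S33

open IsLocalRing Fermat.Agent.GR

section span

variable {p N : ℕ} [NeZero N] (𝔗 : Tower p N) (m : ℕ)

/-- the `ℤ[G_ℚ]`-span of `ι_m(H)`. -/
def K1_span : AddSubgroup (𝔗.A m) :=
  AddSubgroup.closure {y | ∃ (g : GQ) (h : 𝔗.H), y = 𝔗.act m g (𝔗.ι m h)}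

theorem K1_gen_mem (g : GQ) (h : 𝔗.H) : 𝔗.act m g (𝔗.ι m h) ∈ K1_span 𝔗 m :=
  AddSubgroup.subset_closure ⟨g, h, rfl⟩

theorem K1_ι_mem (h : 𝔗.H) : 𝔗.ι m h ∈ K1_span 𝔗 m := by
  have := K1_gen_mem 𝔗 m 1 h
  rwa [map_one] at this

theorem K1_act_mem (g : GQ) {x : 𝔗.A m} (hx : x ∈ K1_span 𝔗 m) :
    𝔗.act m g x ∈ K1_span 𝔗 m := by
  induction hx using AddSubgroup.closure_induction with
  | mem y hy =>
    obtain ⟨g', h, rfl⟩ := hy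
    rw [← end_mul_apply, ← map_mul]
    exact K1_gen_mem 𝔗 m _ h
  | zero => rw [map_zero]; exact zero_mem _
  | add a b _ _ ha hb => rw [map_add]; exact add_mem ha hb
  | neg a _ ha => rw [map_neg]; exact neg_mem ha

/-- the Galois action on the span. -/
noncomputable def K1_a : GQ →* AddMonoid.End ↥(K1_span 𝔗 m) where
  toFun g := AddMonoidHom.mk' (fun x => ⟨𝔗.act m g x, K1_act_mem 𝔗 m g x.2⟩) (by
    intro x y
    apply Subtype.ext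
    simp)
  map_one' := by
    ext x
    show 𝔗.act m 1 (x : 𝔗.A m) = x
    rw [map_one]
    rfl
  map_mul' g g' := by
    ext x
    show 𝔗.act m (g * g') (x : 𝔗.A m) = 𝔗.act m g (𝔗.act m g' x)
    rw [map_mul]
    rfl

@[simp] theorem K1_a_coe (g : GQ) (x : ↥(K1_span 𝔗 m)) :
    ((K1_a 𝔗 m g x : ↥(K1_span 𝔗 m)) : 𝔗.A m) = 𝔗.act m g x := rfl

/-- endomorphisms of the span are determined on the generators. -/
theorem K1_end_ext {f f' : AddMonoid.End ↥(K1_span 𝔗 m)}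
    (h : ∀ (g : GQ) (h : 𝔗.H), f ⟨𝔗.act m g (𝔗.ι m h), K1_gen_mem 𝔗 m g h⟩ =
      f' ⟨𝔗.act m g (𝔗.ι m h), K1_gen_mem 𝔗 m g h⟩) : f = f' := by
  ext ⟨x, hx⟩
  congr 1
  induction hx using AddSubgroup.closure_induction with
  | mem y hy =>
    obtain ⟨g, h', rfl⟩ := hy
    exact h g h'
  | zero =>
    have : (⟨0, zero_mem _⟩ : ↥(K1_span 𝔗 m)) = 0 := rfl
    rw [this, map_zero, map_zero]
  | add a b ha hb iha ihb =>
    have : (⟨a + b, add_mem ha hb⟩ : ↥(K1_span 𝔗 m)) = ⟨a, ha⟩ + ⟨b, hb⟩ := rfl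
    rw [this, map_add, map_add, iha, ihb]
  | neg a ha iha =>
    have : (⟨-a, neg_mem ha⟩ : ↥(K1_span 𝔗 m)) = -⟨a, ha⟩ := rfl
    rw [this, map_neg, map_neg, iha]

theorem K1_smul_congr {a b : ℕ} (h : a ≡ b [MOD p ^ m]) (y : 𝔗.A m) :
    a • y = b • y := by
  obtain ⟨d, hd⟩ := (Nat.modEq_iff_dvd.mp h)
  have h1 : ((b : ℤ) - a) • y = 0 := by
    rw [hd, mul_comm, mul_smul]
    have := 𝔗.pow_smul m y
    rw [show ((p ^ m : ℕ) : ℤ) • y = (p ^ m) • y from natCast_zsmul _ _, this, smul_zero]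
  rw [sub_smul, natCast_zsmul, natCast_zsmul, sub_eq_zero] at h1
  exact h1.symm

/-- a normal number field fixing the image of `ι`. -/
theorem K1_exists_field0 :
    ∃ L : IntermediateField ℚ Qb, FiniteDimensional ℚ L ∧ (∀ (g : GQ), ∀ y ∈ L, g y ∈ L) ∧
      ∀ ε : GQ, (∀ y ∈ L, ε y = y) → ∀ h, 𝔗.act m ε (𝔗.ι m h) = 𝔗.ι m h := by
  obtain ⟨L₂, hL₂, hb⟩ := 𝔗.exists_field_fixing_hom m (𝔗.ι m)
  have : IsAlgClosure ℚ Qb := @AlgebraicClosure.instIsAlgClosure ℚ _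
  have : Normal ℚ Qb := IsAlgClosure.normal ℚ Qb
  refine ⟨IntermediateField.normalClosure ℚ L₂ Qb, inferInstance, fun g y hy => ?_, fun ε hε h => ?_⟩
  · have : Algebra.IsAlgebraic ℚ L₂ := Algebra.IsAlgebraic.of_finite ℚ L₂
    have h1 : Normal ℚ (IntermediateField.normalClosure ℚ L₂ Qb) := normalClosure.normal ℚ L₂ Qb
    have h2 := IntermediateField.normal_iff_forall_map_le'.mp h1 g
    exact h2 ((IntermediateField.mem_map _).mpr ⟨y, hy, rfl⟩)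
  · exact hb ε (fun y hy => hε y (IntermediateField.le_normalClosure L₂ hy)) h

/-- a number field fixing the whole span. -/
theorem K1_exists_field :
    ∃ L : IntermediateField ℚ Qb, FiniteDimensional ℚ L ∧
      ∀ ε : GQ, (∀ y ∈ L, ε y = y) → ∀ x ∈ K1_span 𝔗 m, 𝔗.act m ε x = x := by
  obtain ⟨L, hL, hn, hb⟩ := K1_exists_field0 𝔗 m
  refine ⟨L, hL, fun ε hε x hx => ?_⟩
  induction hx using AddSubgroup.closure_induction with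
  | mem y hy =>
    obtain ⟨g, h, rfl⟩ := hy
    have h1 : 𝔗.act m (g⁻¹ * ε * g) (𝔗.ι m h) = 𝔗.ι m h := hb _ (fun y hy => by
      show g⁻¹ (ε (g y)) = y
      rw [hε _ (hn g y hy)]
      exact g.symm_apply_apply y) h
    have h2 : ε * g = g * (g⁻¹ * ε * g) := by group
    rw [← end_mul_apply, ← map_mul, h2, map_mul, end_mul_apply, h1]
  | zero => exact map_zero _
  | add a b _ _ ha hb => rw [map_add, ha, hb]
  | neg a _ ha => rw [map_neg, ha]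

theorem K1_aeval_act (g : GQ) (ℓ : ℕ) (Q : Polynomial ℤ) (y : 𝔗.A m) :
    Polynomial.aeval (𝔗.T m ℓ) Q (𝔗.act m g y) =
      𝔗.act m g (Polynomial.aeval (𝔗.T m ℓ) Q y) := by
  induction Q using Polynomial.induction_on generalizing y with
  | C a =>
    rw [Polynomial.aeval_C, eq_intCast, AddMonoid.End.intCast_apply, AddMonoid.End.intCast_apply,
      map_zsmul]
  | add P Q hP hQ =>
    rw [map_add, end_add_apply, end_add_apply, map_add, hP, hQ]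
  | monomial k a ih =>
    rw [pow_succ, ← mul_assoc, map_mul _ _ Polynomial.X, Polynomial.aeval_X,
      end_mul_apply, end_mul_apply, 𝔗.T_act, ih]

end span

theorem K1_exists_chi {p : ℕ} (hp : p.Prime) (m : ℕ) (g : GQ) :
    ∃ a : ℕ, ∀ ζ : Qb, ζ ^ (p ^ m) = 1 → g ζ = ζ ^ a := by
  have : NeZero p := ⟨hp.ne_zero⟩
  obtain ⟨ζ₀, hζ₀⟩ := HasEnoughRootsOfUnity.exists_primitiveRoot Qb (p ^ m)
  have h1 : (g ζ₀) ^ (p ^ m) = 1 := by rw [← map_pow, hζ₀.pow_eq_one, map_one]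
  obtain ⟨a, -, ha⟩ := hζ₀.eq_pow_of_pow_eq_one h1
  refine ⟨a, fun ζ hζ => ?_⟩
  obtain ⟨i, -, rfl⟩ := hζ₀.eq_pow_of_pow_eq_one hζ
  rw [map_pow, ← ha, ← pow_mul, ← pow_mul, mul_comm]

theorem K1_modEq_of_pow_eq {p m : ℕ} (hp : p.Prime) {ζ : Qb} (hζ : IsPrimitiveRoot ζ (p ^ m))
    {a b : ℕ} (h : ζ ^ b = ζ ^ a) : a ≡ b [MOD p ^ m] := by
  have hζ0 : ζ ≠ 0 := hζ.ne_zero (pow_ne_zero _ hp.ne_zero)
  rw [Nat.modEq_iff_dvd, ← hζ.zpow_eq_one_iff_dvd, zpow_sub₀ hζ0, zpow_natCast, zpow_natCast, h,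
    div_self (pow_ne_zero _ hζ0)]

/-- `χ_m(g)`: `g ζ = ζ ^ χ_m(g)` on `μ_{p^m}`. -/
noncomputable def K1_chi (p m : ℕ) (g : GQ) : ℕ :=
  open Classical in
  if h : ∃ a : ℕ, ∀ ζ : Qb, ζ ^ (p ^ m) = 1 → g ζ = ζ ^ a then h.choose else 0

theorem K1_chi_spec {p : ℕ} (hp : p.Prime) (m : ℕ) (g : GQ) {ζ : Qb} (hζ : ζ ^ (p ^ m) = 1) :
    g ζ = ζ ^ K1_chi p m g := by
  have h := K1_exists_chi hp m g
  rw [K1_chi, dif_pos h]
  exact h.choose_spec ζ hζ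

variable {p : ℕ} {N : ℕ} [NeZero N] {S : Finset ℕ}

theorem K1_chi_mul (hp : p.Prime) (𝔗 : Tower p N) (m : ℕ) (g h : GQ) (x : 𝔗.A m) :
    K1_chi p m (g * h) • x = (K1_chi p m g * K1_chi p m h) • x := by
  have : NeZero p := ⟨hp.ne_zero⟩
  obtain ⟨ζ, hζ⟩ := HasEnoughRootsOfUnity.exists_primitiveRoot Qb (p ^ m)
  refine K1_smul_congr 𝔗 m (K1_modEq_of_pow_eq hp hζ ?_) x
  rw [← K1_chi_spec hp m (g * h) hζ.pow_eq_one, AlgEquiv.mul_apply,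
    K1_chi_spec hp m h hζ.pow_eq_one, map_pow, K1_chi_spec hp m g hζ.pow_eq_one, ← pow_mul]

theorem K1_finite (hp : p.Prime) (𝔗 : Tower p N) (m : ℕ) : Finite ↥(K1_span 𝔗 m) := by
  classical
  obtain ⟨L, hL, hfix⟩ := K1_exists_field 𝔗 m
  let b := Module.Free.chooseBasis ℤ 𝔗.H
  let rep : (L →ₐ[ℚ] Qb) → GQ := fun f =>
    if h : ∃ g : GQ, ∀ y : L, g y = f y then h.choose else 1
  let Gen : Set (𝔗.A m) := Set.range
    (fun fi : (L →ₐ[ℚ] Qb) × (Module.Free.ChooseBasisIndex ℤ 𝔗.H) =>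
      𝔗.act m (rep fi.1) (𝔗.ι m (b fi.2)))
  have hGenfin : Gen.Finite := Set.finite_range _
  have hspan : K1_span 𝔗 m = AddSubgroup.closure Gen := by
    apply le_antisymm
    · rw [K1_span, AddSubgroup.closure_le]
      rintro _ ⟨g, h, rfl⟩
      let f : L →ₐ[ℚ] Qb := (g : Qb →ₐ[ℚ] Qb).comp L.val
      have hex : ∃ g' : GQ, ∀ y : L, g' y = f y := ⟨g, fun y => rfl⟩
      have hrep : ∀ y : L, rep f y = g y := by
        intro y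
        have := hex.choose_spec y
        simp only [rep, dif_pos hex]
        exact this
      have hε : ∀ y ∈ L, ((rep f)⁻¹ * g) y = y := by
        intro y hy
        show (rep f)⁻¹ (g y) = y
        rw [← hrep ⟨y, hy⟩]
        exact (rep f).symm_apply_apply y
      have h1 : 𝔗.act m g (𝔗.ι m h) = 𝔗.act m (rep f) (𝔗.ι m h) := by
        have h2 : g = rep f * ((rep f)⁻¹ * g) := by group
        conv_lhs => rw [h2, map_mul, end_mul_apply, hfix _ hε _ (K1_ι_mem 𝔗 m h)]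
      rw [h1, ← b.sum_repr h, map_sum, map_sum]
      refine sum_mem fun i _ => ?_
      rw [map_zsmul, map_zsmul]
      exact zsmul_mem (AddSubgroup.subset_closure (Set.mem_range.mpr ⟨(f, i), rfl⟩)) _
    · rw [AddSubgroup.closure_le]
      rintro _ ⟨fi, rfl⟩
      exact K1_gen_mem 𝔗 m _ _
  have hfg : AddGroup.FG ↥(K1_span 𝔗 m) := by
    rw [AddGroup.fg_iff_addSubgroup_fg]
    exact ⟨hGenfin.toFinset, by rw [Set.Finite.coe_toFinset]; exact hspan.symm⟩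
  have htor : IsAddTorsion ↥(K1_span 𝔗 m) := fun x =>
    isOfFinAddOrder_iff_nsmul_eq_zero.mpr ⟨p ^ m, pow_pos hp.pos m,
      Subtype.ext (𝔗.pow_smul m x)⟩
  exact AddCommGroup.finite_of_fg_isAddTorsion _ htor

/-- `D` represents `t_{g₀}` on the span. -/
def K1_IsRep (𝔗 : Tower p N) (m : ℕ) (S : Finset ℕ) (g₀ : GQ)
    (D : CuspForm.heckeAlgebra N 2 (↑S : Set ℕ)) : Prop :=
  ∀ (g : GQ) (h : 𝔗.H),
    𝔗.act m g₀ (𝔗.act m g (𝔗.ι m h)) + K1_chi p m g₀ • 𝔗.act m g₀⁻¹ (𝔗.act m g (𝔗.ι m h)) =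
      𝔗.act m g (𝔗.ι m (𝔗.actH (heckeInc N S D) h))

/-- Chebotarev + Eichler-Shimura: `t_{g₀}` is a Hecke operator on the span. -/
theorem K1_rep (hp : p.Prime) (𝔗 : Tower p N) (m : ℕ) (hpS : p ∈ S)
    (hNS : ∀ q : ℕ, q.Prime → q ∣ N → q ∈ S)
    (L₀ : IntermediateField ℚ Qb) [FiniteDimensional ℚ L₀] (g₀ : GQ) :
    ∃ (ℓ : ℕ) (hℓ : ℓ.Prime) (hℓN : ¬ ℓ ∣ N) (hℓS : ℓ ∉ (↑S : Set ℕ))
      (P : ValuationSubring Qb) (_ : P.LiesOverPrime ℓ) (σ : GQ) (_ : P.IsFrobeniusAt σ ℓ) (k : ℕ),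
      (∀ x ∈ L₀, (σ ^ k) x = g₀ x) ∧
      K1_IsRep 𝔗 m S g₀ (luc (CuspForm.heckeAlgebra.T hℓ hℓN hℓS)
        (ℓ : CuspForm.heckeAlgebra N 2 (↑S : Set ℕ)) k) := by
  obtain ⟨L₂, hL₂, hfix⟩ := K1_exists_field 𝔗 m
  have : NeZero p := ⟨hp.ne_zero⟩
  obtain ⟨ζ, hζ⟩ := HasEnoughRootsOfUnity.exists_primitiveRoot Qb (p ^ m)
  have hζi : IsIntegral ℚ ζ := ((AlgebraicClosure.isAlgebraic ℚ).isAlgebraic ζ).isIntegral
  have : FiniteDimensional ℚ (IntermediateField.adjoin ℚ {ζ}) :=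
    IntermediateField.adjoin.finiteDimensional hζi
  let L : IntermediateField ℚ Qb := L₀ ⊔ L₂ ⊔ IntermediateField.adjoin ℚ {ζ}
  have : FiniteDimensional ℚ L := inferInstance
  have hL0 : L₀ ≤ L := le_sup_left.trans le_sup_left
  have hL2 : L₂ ≤ L := le_sup_right.trans le_sup_left
  have hζL : ζ ∈ L :=
    (le_sup_right : IntermediateField.adjoin ℚ {ζ} ≤ L) (IntermediateField.mem_adjoin_simple_self ℚ ζ)
  obtain ⟨ℓ, hℓ, hℓS, P, hP, σ, hσ, k, hk⟩ := frobenius_density L g₀ S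
  have hℓN : ¬ ℓ ∣ N := fun h => hℓS (hNS ℓ hℓ h)
  have hℓp : ℓ ≠ p := fun h => hℓS (h ▸ hpS)
  have hℓS' : ℓ ∉ (↑S : Set ℕ) := by simpa using hℓS
  refine ⟨ℓ, hℓ, hℓN, hℓS', P, hP, σ, hσ, k, fun x hx => hk x (hL0 hx), fun g h => ?_⟩
  obtain ⟨ε, hε⟩ : ∃ ε : GQ, ε = g₀⁻¹ * σ ^ k := ⟨_, rfl⟩
  have hεL : ∀ x ∈ L, ε x = x := by
    intro x hx
    rw [hε, AlgEquiv.mul_apply, hk x hx]
    exact g₀.symm_apply_apply x
  have hεL' : ∀ x ∈ L, ε⁻¹ x = x := by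
    intro x hx
    conv_lhs => rw [← hεL x hx]
    exact ε.symm_apply_apply x
  have hσk : σ ^ k = g₀ * ε := by rw [hε, mul_inv_cancel_left]
  have hσk' : (σ ^ k)⁻¹ = ε⁻¹ * g₀⁻¹ := by rw [hσk, mul_inv_rev]
  have hx : 𝔗.act m g (𝔗.ι m h) ∈ K1_span 𝔗 m := K1_gen_mem 𝔗 m g h
  have key := 𝔗.frob_pow_rel m hℓ hℓN hℓp hP hσ k (𝔗.act m g (𝔗.ι m h))
  rw [K1_aeval_act, 𝔗.aeval_T_ι m hℓ hℓN hℓp, hσk', hσk, map_mul, map_mul, end_mul_apply,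
    end_mul_apply, hfix ε (fun y hy => hεL y (hL2 hy)) _ hx,
    hfix ε⁻¹ (fun y hy => hεL' y (hL2 hy)) _ (K1_act_mem 𝔗 m g₀⁻¹ hx)] at key
  have hmod : ℓ ^ k ≡ K1_chi p m g₀ [MOD p ^ m] := by
    refine K1_modEq_of_pow_eq hp hζ ?_
    rw [← K1_chi_spec hp m g₀ hζ.pow_eq_one, ← hk ζ hζL]
    refine frob_pow_root hℓ hP hσ (fun hd => hℓp ?_) k hζ.pow_eq_one
    exact (Nat.prime_dvd_prime_iff_eq hℓ hp).mp (hℓ.dvd_of_dvd_pow hd)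
  rw [K1_smul_congr 𝔗 m hmod] at key
  rw [map_luc, heckeInc_T, map_natCast]
  have h3 : Polynomial.aeval (CuspForm.heckeAlgebra.T hℓ hℓN (Set.notMem_empty ℓ) :
        CuspForm.heckeAlgebra N 2 (∅ : Set ℕ))
      (luc (Polynomial.X : Polynomial ℤ) (Polynomial.C (ℓ : ℤ)) k) =
      luc (CuspForm.heckeAlgebra.T hℓ hℓN (Set.notMem_empty ℓ))
        (ℓ : CuspForm.heckeAlgebra N 2 (∅ : Set ℕ)) k := by
    have := map_luc (Polynomial.aeval (CuspForm.heckeAlgebra.T hℓ hℓN (Set.notMem_empty ℓ) :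
        CuspForm.heckeAlgebra N 2 (∅ : Set ℕ))).toRingHom
        (Polynomial.X : Polynomial ℤ) (Polynomial.C (ℓ : ℤ)) k
    simpa using this
  rw [← h3]
  rw [sub_add_eq_add_sub, sub_eq_zero] at key
  exact key

theorem K1_exists_rep (hp : p.Prime) (𝔗 : Tower p N) (m : ℕ) (hpS : p ∈ S)
    (hNS : ∀ q : ℕ, q.Prime → q ∣ N → q ∈ S) (g₀ : GQ) :
    ∃ D : CuspForm.heckeAlgebra N 2 (↑S : Set ℕ), K1_IsRep 𝔗 m S g₀ D := by
  obtain ⟨ℓ, hℓ, hℓN, hℓS, P, hP, σ, hσ, k, -, h⟩ := K1_rep hp 𝔗 m hpS hNS ⊥ g₀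
  exact ⟨_, h⟩

section module

variable (𝔗 : Tower p N) (m : ℕ)

/-- `t_g = g + χ(g) g⁻¹` on the span. -/
noncomputable def K1_tE (g : GQ) : AddMonoid.End ↥(K1_span 𝔗 m) :=
  K1_a 𝔗 m g + (K1_chi p m g : AddMonoid.End ↥(K1_span 𝔗 m)) * K1_a 𝔗 m g⁻¹

theorem K1_tE_apply (g : GQ) (x : ↥(K1_span 𝔗 m)) :
    K1_tE 𝔗 m g x = K1_a 𝔗 m g x + K1_chi p m g • K1_a 𝔗 m g⁻¹ x := by
  rw [K1_tE, end_add_apply, end_mul_apply, AddMonoid.End.natCast_apply]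

variable {𝔗 m}

theorem K1_tE_gen {g₀ : GQ} {D : CuspForm.heckeAlgebra N 2 (↑S : Set ℕ)}
    (hD : K1_IsRep 𝔗 m S g₀ D) (g : GQ) (h : 𝔗.H) :
    K1_tE 𝔗 m g₀ ⟨𝔗.act m g (𝔗.ι m h), K1_gen_mem 𝔗 m g h⟩ =
      ⟨𝔗.act m g (𝔗.ι m (𝔗.actH (heckeInc N S D) h)), K1_gen_mem 𝔗 m g _⟩ := by
  rw [K1_tE_apply]
  apply Subtype.ext
  exact hD g h

theorem K1_a_gen (σ g : GQ) (h : 𝔗.H) :
    K1_a 𝔗 m σ ⟨𝔗.act m g (𝔗.ι m h), K1_gen_mem 𝔗 m g h⟩ =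
      ⟨𝔗.act m (σ * g) (𝔗.ι m h), K1_gen_mem 𝔗 m _ h⟩ := by
  apply Subtype.ext
  show 𝔗.act m σ (𝔗.act m g (𝔗.ι m h)) = 𝔗.act m (σ * g) (𝔗.ι m h)
  rw [map_mul]
  rfl

variable (𝔗 m)

theorem K1_tE_comm (hp : p.Prime) (hpS : p ∈ S) (hNS : ∀ q : ℕ, q.Prime → q ∣ N → q ∈ S)
    (g g' : GQ) : K1_tE 𝔗 m g * K1_tE 𝔗 m g' = K1_tE 𝔗 m g' * K1_tE 𝔗 m g := by
  obtain ⟨D, hD⟩ := K1_exists_rep hp 𝔗 m hpS hNS g
  obtain ⟨D', hD'⟩ := K1_exists_rep hp 𝔗 m hpS hNS g'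
  apply K1_end_ext
  intro σ h
  rw [end_mul_apply, end_mul_apply, K1_tE_gen hD', K1_tE_gen hD, K1_tE_gen hD, K1_tE_gen hD']
  apply Subtype.ext
  show 𝔗.act m σ (𝔗.ι m _) = 𝔗.act m σ (𝔗.ι m _)
  rw [← Module.End.mul_apply, ← Module.End.mul_apply, ← map_mul, ← map_mul, ← map_mul, ← map_mul,
    mul_comm]

theorem K1_tE_a (hp : p.Prime) (hpS : p ∈ S) (hNS : ∀ q : ℕ, q.Prime → q ∣ N → q ∈ S)
    (g σ : GQ) : K1_a 𝔗 m σ * K1_tE 𝔗 m g = K1_tE 𝔗 m g * K1_a 𝔗 m σ := by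
  obtain ⟨D, hD⟩ := K1_exists_rep hp 𝔗 m hpS hNS g
  apply K1_end_ext
  intro g' h
  rw [end_mul_apply, end_mul_apply, K1_tE_gen hD, K1_a_gen, K1_a_gen, K1_tE_gen hD]

/-- the action of `ℤ[X_g]`. -/
noncomputable def K1_hom
    (hc : ∀ g g', K1_tE 𝔗 m g * K1_tE 𝔗 m g' = K1_tE 𝔗 m g' * K1_tE 𝔗 m g) :
    MvPolynomial GQ ℤ →+* AddMonoid.End ↥(K1_span 𝔗 m) :=
  letI : CommRing (Algebra.adjoin ℤ (Set.range (K1_tE 𝔗 m))) :=
    Algebra.adjoinCommRingOfComm ℤ (by rintro _ ⟨g, rfl⟩ _ ⟨g', rfl⟩; exact hc g g')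
  (Algebra.adjoin ℤ (Set.range (K1_tE 𝔗 m))).val.toRingHom.comp
    (MvPolynomial.aeval (R := ℤ) (fun g => (⟨K1_tE 𝔗 m g, Algebra.subset_adjoin ⟨g, rfl⟩⟩ :
      Algebra.adjoin ℤ (Set.range (K1_tE 𝔗 m))))).toRingHom

theorem K1_hom_X (hc : ∀ g g', K1_tE 𝔗 m g * K1_tE 𝔗 m g' = K1_tE 𝔗 m g' * K1_tE 𝔗 m g)
    (g : GQ) : K1_hom 𝔗 m hc (MvPolynomial.X g) = K1_tE 𝔗 m g := by
  simp [K1_hom]

theorem K1_hom_C (hc : ∀ g g', K1_tE 𝔗 m g * K1_tE 𝔗 m g' = K1_tE 𝔗 m g' * K1_tE 𝔗 m g)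
    (z : ℤ) : K1_hom 𝔗 m hc (MvPolynomial.C z) = (z : AddMonoid.End ↥(K1_span 𝔗 m)) := by
  rw [eq_intCast (MvPolynomial.C : ℤ →+* MvPolynomial GQ ℤ) z, map_intCast]

theorem K1_hom_a (hp : p.Prime) (hpS : p ∈ S) (hNS : ∀ q : ℕ, q.Prime → q ∣ N → q ∈ S)
    (hc : ∀ g g', K1_tE 𝔗 m g * K1_tE 𝔗 m g' = K1_tE 𝔗 m g' * K1_tE 𝔗 m g)
    (σ : GQ) (r : MvPolynomial GQ ℤ) : Commute (K1_a 𝔗 m σ) (K1_hom 𝔗 m hc r) := by
  induction r using MvPolynomial.induction_on with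
  | C z =>
    rw [K1_hom_C]
    exact (Int.cast_commute z _).symm
  | add P Q hP hQ =>
    rw [map_add]
    exact hP.add_right hQ
  | mul_X P g hP =>
    rw [map_mul, K1_hom_X]
    exact hP.mul_right (K1_tE_a 𝔗 m hp hpS hNS g σ)

theorem K1_hom_gen (hc : ∀ g g', K1_tE 𝔗 m g * K1_tE 𝔗 m g' = K1_tE 𝔗 m g' * K1_tE 𝔗 m g)
    (Dfun : GQ → CuspForm.heckeAlgebra N 2 (↑S : Set ℕ))
    (hD : ∀ g, K1_IsRep 𝔗 m S g (Dfun g)) (Pol : MvPolynomial GQ ℤ) :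
    ∀ (g : GQ) (h : 𝔗.H), K1_hom 𝔗 m hc Pol ⟨𝔗.act m g (𝔗.ι m h), K1_gen_mem 𝔗 m g h⟩ =
      ⟨𝔗.act m g (𝔗.ι m (𝔗.actH (heckeInc N S (MvPolynomial.aeval Dfun Pol)) h)),
        K1_gen_mem 𝔗 m g _⟩ := by
  induction Pol using MvPolynomial.induction_on with
  | C z =>
    intro g h
    rw [K1_hom_C, AddMonoid.End.intCast_apply]
    apply Subtype.ext
    show z • 𝔗.act m g (𝔗.ι m h) = 𝔗.act m g (𝔗.ι m
      (𝔗.actH (heckeInc N S (MvPolynomial.aeval Dfun (MvPolynomial.C z))) h))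
    rw [MvPolynomial.aeval_C, eq_intCast, map_intCast, map_intCast, Module.End.intCast_apply,
      map_zsmul, map_zsmul]
  | add P Q hP hQ =>
    intro g h
    rw [map_add, end_add_apply, hP, hQ]
    apply Subtype.ext
    show 𝔗.act m g (𝔗.ι m (𝔗.actH (heckeInc N S (MvPolynomial.aeval Dfun P)) h)) +
      𝔗.act m g (𝔗.ι m (𝔗.actH (heckeInc N S (MvPolynomial.aeval Dfun Q)) h)) =
      𝔗.act m g (𝔗.ι m (𝔗.actH (heckeInc N S (MvPolynomial.aeval Dfun (P + Q))) h))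
    rw [map_add, map_add, map_add, LinearMap.add_apply, map_add, map_add]
  | mul_X P g₀ hP =>
    intro g h
    rw [map_mul, K1_hom_X, end_mul_apply, K1_tE_gen (hD g₀), hP]
    apply Subtype.ext
    show 𝔗.act m g (𝔗.ι m (𝔗.actH (heckeInc N S (MvPolynomial.aeval Dfun P))
        (𝔗.actH (heckeInc N S (Dfun g₀)) h))) =
      𝔗.act m g (𝔗.ι m (𝔗.actH (heckeInc N S (MvPolynomial.aeval Dfun (P * MvPolynomial.X g₀))) h))
    rw [map_mul, MvPolynomial.aeval_X, map_mul, map_mul, Module.End.mul_apply]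

end module

theorem K1_ringHom_sub_mem {R σ : Type*} [CommRing R] (I : Ideal R)
    (φ₁ φ₂ : MvPolynomial σ ℤ →+* R)
    (h : ∀ i, φ₁ (MvPolynomial.X i) - φ₂ (MvPolynomial.X i) ∈ I) (P : MvPolynomial σ ℤ) :
    φ₁ P - φ₂ P ∈ I := by
  rw [← Ideal.Quotient.eq]
  have : (Ideal.Quotient.mk I).comp φ₁ = (Ideal.Quotient.mk I).comp φ₂ := by
    apply MvPolynomial.ringHom_ext
    · intro z
      exact DFunLike.congr_fun (Subsingleton.elim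
        (((Ideal.Quotient.mk I).comp φ₁).comp MvPolynomial.C)
        (((Ideal.Quotient.mk I).comp φ₂).comp MvPolynomial.C)) z
    · intro i
      exact Ideal.Quotient.eq.mpr (h i)
  exact DFunLike.congr_fun this P

variable
  {𝒪 : Type} [CommRing 𝒪] [IsDomain 𝒪] [IsDiscreteValuationRing 𝒪]
  [IsAdicComplete (IsLocalRing.maximalIdeal 𝒪) 𝒪]
  {θ : CuspForm.heckeAlgebra N 2 (↑S : Set ℕ) →+* IsLocalRing.ResidueField 𝒪}
  {T : Type} [CommRing T] [IsLocalRing T] [IsNoetherianRing T]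
  [IsAdicComplete (IsLocalRing.maximalIdeal T) T] [Algebra 𝒪 T] [IsLocalHom (algebraMap 𝒪 T)]
  [Module.Finite 𝒪 T] [Module.Free 𝒪 T]

theorem K1_exists_rep_trace (hp : p.Prime) (𝔗 : Tower p N) (m n : ℕ) (hpS : p ∈ S)
    (hNS : ∀ q : ℕ, q.Prime → q ∣ N → q ∈ S)
    (H : CuspForm.HeckeGaloisRepDatum N (↑S : Set ℕ) 𝒪 θ T) (g₀ : GQ) :
    ∃ D : CuspForm.heckeAlgebra N 2 (↑S : Set ℕ), K1_IsRep 𝔗 m S g₀ D ∧
      LinearMap.trace T H.ρ.V (H.ρ.ρ g₀) - H.π D ∈ maximalIdeal T ^ n := by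
  obtain ⟨L₁, hL₁, ha⟩ := H.ρ.isAdicContinuous n
  obtain ⟨ℓ, hℓ, hℓN, hℓS, P, hP, σ, hσ, k, hk, h⟩ := K1_rep hp 𝔗 m hpS hNS L₁ g₀
  refine ⟨_, h, ?_⟩
  obtain ⟨ε, hε⟩ : ∃ ε : GQ, ε = g₀⁻¹ * σ ^ k := ⟨_, rfl⟩
  have hεL : ∀ x ∈ L₁, ε x = x := by
    intro x hx
    rw [hε, AlgEquiv.mul_apply, hk x hx]
    exact g₀.symm_apply_apply x
  have hσk : σ ^ k = g₀ * ε := by rw [hε, mul_inv_cancel_left]
  have h1 : LinearMap.trace T H.ρ.V (H.ρ.ρ (σ ^ k)) =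
      H.π (luc (CuspForm.heckeAlgebra.T hℓ hℓN hℓS)
        (ℓ : CuspForm.heckeAlgebra N 2 (↑S : Set ℕ)) k) := by
    rw [map_pow, trace_pow_eq_luc H.ρ.finrank_eq _ _ _ (H.charpoly_frob ℓ hℓ hℓN hℓS P hP σ hσ),
      map_luc, map_natCast]
  rw [← h1, hσk, map_mul, ← map_sub]
  have h2 : H.ρ.ρ g₀ - H.ρ.ρ g₀ * H.ρ.ρ ε = -(H.ρ.ρ g₀ * (H.ρ.ρ ε - 1)) := by
    rw [mul_sub, mul_one, neg_sub]
  rw [h2, map_neg, LinearMap.trace_mul_comm]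
  refine neg_mem (trace_mem_of_forall_mem _ _ fun v => ?_)
  exact ha ε hεL _

/-- **K1.** -/
theorem K1_pack (hp : p.Prime) (𝔗 : Tower p N)
    (hp𝒪 : (p : 𝒪) ∈ IsLocalRing.maximalIdeal 𝒪) (hpS : p ∈ S)
    (hNS : ∀ q : ℕ, q.Prime → q ∣ N → q ∈ S)
    (H : CuspForm.HeckeGaloisRepDatum N (↑S : Set ℕ) 𝒪 θ T) :
    ∃ c : ℕ, ∀ n : ℕ, ∃ _inst : Module (MvPolynomial GQ ℤ) ↥(K1_span 𝔗 (n + c)),
      (∀ (g : GQ) (x : ↥(K1_span 𝔗 (n + c))),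
        (MvPolynomial.X g : MvPolynomial GQ ℤ) • x =
          K1_a 𝔗 (n + c) g x + K1_chi p (n + c) g • K1_a 𝔗 (n + c) g⁻¹ x) ∧
      (∀ (z : ℤ) (x : ↥(K1_span 𝔗 (n + c))), (MvPolynomial.C z : MvPolynomial GQ ℤ) • x = z • x) ∧
      (∀ (g : GQ) (r : MvPolynomial GQ ℤ) (x : ↥(K1_span 𝔗 (n + c))),
        K1_a 𝔗 (n + c) g (r • x) = r • K1_a 𝔗 (n + c) g x) ∧
      ∀ Pol : MvPolynomial GQ ℤ, (∀ x : ↥(K1_span 𝔗 (n + c)), Pol • x = 0) →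
        MvPolynomial.aeval (fun g : GQ => LinearMap.trace T H.ρ.V (H.ρ.ρ g)) Pol
          ∈ maximalIdeal T ^ n := by
  classical
  obtain ⟨c, e, he, hsat⟩ := exists_saturation_bound (𝔗.actH.comp (heckeInc N S))
    (𝔗.actH_inj.comp (heckeInc_injective N S)) p hp
  refine ⟨c, fun n => ?_⟩
  have hc := K1_tE_comm 𝔗 (n + c) hp hpS hNS
  refine ⟨Module.compHom _ (K1_hom 𝔗 (n + c) hc), ?_, ?_, ?_, ?_⟩
  · intro g x
    show K1_hom 𝔗 (n + c) hc (MvPolynomial.X g) x = _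
    rw [K1_hom_X, K1_tE_apply]
  · intro z x
    show K1_hom 𝔗 (n + c) hc (MvPolynomial.C z) x = _
    rw [K1_hom_C, AddMonoid.End.intCast_apply]
  · intro g r x
    show K1_a 𝔗 (n + c) g (K1_hom 𝔗 (n + c) hc r x) =
      K1_hom 𝔗 (n + c) hc r (K1_a 𝔗 (n + c) g x)
    exact DFunLike.congr_fun (K1_hom_a 𝔗 (n + c) hp hpS hNS hc g r).eq x
  · intro Pol hPol
    choose Dfun hD htr using fun g => K1_exists_rep_trace hp 𝔗 (n + c) n hpS hNS H g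
    obtain ⟨r', hr'⟩ := hsat n (MvPolynomial.aeval Dfun Pol) (fun h => by
      apply 𝔗.ι_ker (n + c)
      have h1 : K1_hom 𝔗 (n + c) hc Pol
          ⟨𝔗.act (n + c) 1 (𝔗.ι (n + c) h), K1_gen_mem 𝔗 (n + c) 1 h⟩ = 0 := hPol _
      rw [K1_hom_gen 𝔗 (n + c) hc Dfun hD] at h1
      have h2 := congrArg Subtype.val h1
      simpa using h2)
    have hpT : (p : T) ∈ maximalIdeal T := by
      rw [← map_natCast (algebraMap 𝒪 T)]
      exact map_nonunit (algebraMap 𝒪 T) _ hp𝒪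
    have heT : IsUnit (e : T) := by
      have hpp : Prime (p : ℤ) := Nat.prime_iff_prime_int.mp hp
      obtain ⟨u, v, huv⟩ := (Prime.coprime_iff_not_dvd hpp).mpr he
      have h1 : (v : T) * (e : T) = 1 - (u : T) * (p : T) := by
        have := congrArg (Int.cast : ℤ → T) huv
        push_cast at this
        linear_combination this
      have h2 : IsUnit ((v : T) * (e : T)) := by
        rw [h1]
        exact IsLocalRing.isUnit_one_sub_self_of_mem_nonunits _ (Ideal.mul_mem_left _ _ hpT)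
      exact isUnit_of_mul_isUnit_right h2
    have hπ : H.π (MvPolynomial.aeval Dfun Pol) ∈ maximalIdeal T ^ n := by
      have h1 := congrArg H.π hr'
      rw [map_zsmul, map_zsmul, zsmul_eq_mul, zsmul_eq_mul] at h1
      rw [← Ideal.unit_mul_mem_iff_mem _ heT, h1]
      push_cast
      exact Ideal.mul_mem_right _ _ (Ideal.pow_mem_pow hpT n)
    have h3 := K1_ringHom_sub_mem (maximalIdeal T ^ n)
      (MvPolynomial.aeval (fun g : GQ => LinearMap.trace T H.ρ.V (H.ρ.ρ g))).toRingHom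
      (H.π.comp (MvPolynomial.aeval Dfun).toRingHom) (fun g => by
        simpa using htr g) Pol
    have h4 := add_mem h3 hπ
    simpa using h4

end Fermat.Agent.S33
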