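import Fermat.Agent.GR.TraceInv

/-!
# S33: the three small lemmas of K1 (for helper5), stated without the K1 definitions
-/

set_option autoImplicit false

namespace Fermat.Agent.S33

open IsLocalRing Fermat.Agent.GR

/-- existence of the cyclotomic exponent. -/
theorem K1s_exists_chi {p : ℕ} (hp : p.Prime) (m : ℕ) (g : GQ) :
    ∃ a : ℕ, ∀ ζ : Qb, ζ ^ (p ^ m) = 1 → g ζ = ζ ^ a := by
  have : NeZero p := ⟨hp.ne_zero⟩
  obtain ⟨ζm, hζm⟩ := HasEnoughRootsOfUnity.exists_primitiveRoot Qb (p ^ m)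
  have hpos : 0 < p ^ m := pow_pos hp.pos m
  have h1 : (g ζm) ^ (p ^ m) = 1 := by rw [← map_pow, hζm.pow_eq_one, map_one]
  obtain ⟨a, _, ha⟩ := hζm.eq_pow_of_pow_eq_one h1
  refine ⟨a, fun ζ hζ => ?_⟩
  obtain ⟨i, _, rfl⟩ := hζm.eq_pow_of_pow_eq_one hζ
  rw [map_pow, ← ha, ← pow_mul, ← pow_mul, mul_comm]

/-- two exponents which agree on `μ_{p^m}` act in the same way on a group killed by `p ^ m`. -/
theorem K1s_smul_eq {p : ℕ} (hp : p.Prime) (m : ℕ) {A : Type*} [AddCommGroup A]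
    (hA : ∀ x : A, (p ^ m) • x = 0) {a b : ℕ}
    (h : ∀ ζ : Qb, ζ ^ (p ^ m) = 1 → ζ ^ a = ζ ^ b) (x : A) : a • x = b • x := by
  have : NeZero p := ⟨hp.ne_zero⟩
  obtain ⟨ζm, hζm⟩ := HasEnoughRootsOfUnity.exists_primitiveRoot Qb (p ^ m)
  have hζ0 : ζm ≠ 0 := hζm.ne_zero (pow_ne_zero _ hp.ne_zero)
  have hd : ((p ^ m : ℕ) : ℤ) ∣ (a : ℤ) - b := by
    rw [← hζm.zpow_eq_one_iff_dvd, zpow_sub₀ hζ0, zpow_natCast, zpow_natCast,
      h ζm hζm.pow_eq_one, div_self (pow_ne_zero _ hζ0)]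
  obtain ⟨d, hd⟩ := hd
  have h1 : ((a : ℤ) - b) • x = 0 := by
    rw [hd, mul_comm, mul_smul, natCast_zsmul, hA x, smul_zero]
  rw [sub_smul, natCast_zsmul, natCast_zsmul, sub_eq_zero] at h1
  exact h1

/-- the `ℤ[G_ℚ]`-span of `ι_m(H)` is finite. -/
theorem K1s_finite {p N : ℕ} [NeZero N] (hp : p.Prime) (𝔗 : Tower p N) (m : ℕ) :
    Finite ↥(AddSubgroup.closure {y | ∃ (g : GQ) (h : 𝔗.H), y = 𝔗.act m g (𝔗.ι m h)}) := by
  classical
  obtain ⟨s, hs⟩ := (Module.Finite.fg_top : (⊤ : Submodule ℤ 𝔗.H).FG)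
  obtain ⟨L, hL, hfix⟩ := 𝔗.exists_field_fixing_hom m (𝔗.ι m)
  let r : GQ → (L →ₐ[ℚ] Qb) := fun g => (g : Qb →ₐ[ℚ] Qb).comp L.val
  have hfac : ∀ h : 𝔗.H, ∀ g g' : GQ, r g = r g' → 𝔗.act m g (𝔗.ι m h) = 𝔗.act m g' (𝔗.ι m h) := by
    intro h g g' hr
    have h1 : ∀ y ∈ L, (g⁻¹ * g') y = y := by
      intro y hy
      have h2 : g y = g' y := congrArg (fun e : L →ₐ[ℚ] Qb => e ⟨y, hy⟩) hr
      rw [AlgEquiv.mul_apply, ← h2]
      exact g.symm_apply_apply y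
    have h3 := hfix _ h1 h
    rw [map_mul, end_mul_apply] at h3
    have h4 := congrArg (𝔗.act m g) h3
    rw [← end_mul_apply, ← map_mul, mul_inv_cancel, map_one] at h4
    exact h4.symm
  have hfinorb : ∀ h : 𝔗.H, (Set.range fun g : GQ => 𝔗.act m g (𝔗.ι m h)).Finite := by
    intro h
    have hF : Function.FactorsThrough (fun g : GQ => 𝔗.act m g (𝔗.ι m h)) r :=
      fun g g' hr => hfac h g g' hr
    have : (fun g : GQ => 𝔗.act m g (𝔗.ι m h)) =
        (Function.extend r (fun g : GQ => 𝔗.act m g (𝔗.ι m h)) fun _ => 0) ∘ r :=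
      (hF.extend_comp _).symm
    rw [this]
    exact (Set.finite_range _).subset (Set.range_comp_subset_range _ _)
  let Gen : Set (𝔗.A m) := ⋃ h ∈ s, Set.range fun g : GQ => 𝔗.act m g (𝔗.ι m h)
  have hGen : Gen.Finite := Set.Finite.biUnion s.finite_toSet fun h _ => hfinorb h
  have hle : AddSubgroup.closure {y | ∃ (g : GQ) (h : 𝔗.H), y = 𝔗.act m g (𝔗.ι m h)} ≤
      AddSubgroup.closure Gen := by
    rw [AddSubgroup.closure_le]
    rintro _ ⟨g, h, rfl⟩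
    have hh : h ∈ Submodule.span ℤ (s : Set 𝔗.H) := by rw [hs]; exact Submodule.mem_top
    show 𝔗.act m g (𝔗.ι m h) ∈ AddSubgroup.closure Gen
    induction hh using Submodule.span_induction with
    | mem x hx =>
      exact AddSubgroup.subset_closure (Set.mem_biUnion hx ⟨g, rfl⟩)
    | zero => rw [map_zero, map_zero]; exact zero_mem _
    | add x y _ _ hx hy => rw [map_add, map_add]; exact add_mem hx hy
    | smul a x _ hx => rw [map_zsmul, map_zsmul]; exact zsmul_mem hx a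
  have hfg : AddGroup.FG ↥(AddSubgroup.closure Gen) :=
    (AddGroup.fg_iff_addSubgroup_fg _).mpr ⟨hGen.toFinset, by rw [hGen.coe_toFinset]⟩
  have htor : AddMonoid.IsTorsion ↥(AddSubgroup.closure Gen) := fun x =>
    isOfFinAddOrder_iff_nsmul_eq_zero.mpr
      ⟨p ^ m, pow_pos hp.pos m, Subtype.ext (𝔗.pow_smul m x)⟩
  have hfin : Finite ↥(AddSubgroup.closure Gen) := AddCommGroup.finite_of_fg_torsion _ htor
  exact Finite.of_injective _ (AddSubgroup.inclusion_injective hle)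

end Fermat.Agent.S33
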