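import Mathlib

/-!
# S33, piece K2: the `𝔪₀`-primary part of a finite module, Nakayama, and the transfer of K1 to it

Abstract form.  `R0` a commutative ring (in the application `MvPolynomial GQ ℤ`, `X_g` acting by
`t_g = g + χ(g) g⁻¹`), `𝒜` a FINITE `R0`-module, `m0` an ideal of `R0`.

* `K2_X m0 𝒜` : the submodule `{x : ∃ j, m0 ^ j • x = 0}`;
* `K2_exists_E` : `∃ E ∈ 1 + m0`, `E • 𝒜 ⊆ X`;
* `K2_transfer` : if `φ : R0 → T` (`T` local), `m0 = φ⁻¹ 𝔪_T` and `J` is an ideal of `T` such that every `Pol` killing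
  `𝒜` has `φ Pol ∈ J`, then every `Pol` killing `X` has `φ Pol ∈ J`;
* `K2_X_stable` : `X` is stable under every additive endomorphism commuting with `R0`.
-/

set_option autoImplicit false

namespace Fermat.Agent.S33

variable {R0 : Type*} [CommRing R0] (m0 : Ideal R0) (𝒜 : Type*) [AddCommGroup 𝒜] [Module R0 𝒜]

/-- the `m0`-primary part. -/
def K2_X : Submodule R0 𝒜 where
  carrier := {x | ∃ j : ℕ, ∀ r ∈ m0 ^ j, r • x = 0}
  add_mem' := by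
    rintro a b ⟨j, hj⟩ ⟨j', hj'⟩
    refine ⟨max j j', fun r hr => ?_⟩
    rw [smul_add, hj r (Ideal.pow_le_pow_right (le_max_left _ _) hr),
      hj' r (Ideal.pow_le_pow_right (le_max_right _ _) hr), add_zero]
  zero_mem' := ⟨0, fun r _ => smul_zero r⟩
  smul_mem' := by
    rintro c a ⟨j, hj⟩
    exact ⟨j, fun r hr => by rw [smul_comm, hj r hr, smul_zero]⟩

variable {m0 𝒜}

theorem mem_K2_X {x : 𝒜} : x ∈ K2_X m0 𝒜 ↔ ∃ j : ℕ, ∀ r ∈ m0 ^ j, r • x = 0 := Iff.rfl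

/-- `X` is stable under every additive map commuting with the `R0`-action. -/
theorem K2_X_stable (f : 𝒜 →+ 𝒜) (hf : ∀ (r : R0) (a : 𝒜), f (r • a) = r • f a) {x : 𝒜}
    (hx : x ∈ K2_X m0 𝒜) : f x ∈ K2_X m0 𝒜 := by
  obtain ⟨j, hj⟩ := hx
  exact ⟨j, fun r hr => by rw [← hf, hj r hr, map_zero]⟩

/-- on a finite module, one exponent `j` works for all of `X`. -/
theorem K2_exists_uniform [Finite 𝒜] : ∃ j : ℕ, ∀ x ∈ K2_X m0 𝒜, ∀ r ∈ m0 ^ j, r • x = 0 := by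
  classical
  cases nonempty_fintype 𝒜
  have h : ∀ x : 𝒜, ∃ j : ℕ, x ∈ K2_X m0 𝒜 → ∀ r ∈ m0 ^ j, r • x = 0 := by
    intro x
    by_cases hx : x ∈ K2_X m0 𝒜
    · obtain ⟨j, hj⟩ := hx
      exact ⟨j, fun _ => hj⟩
    · exact ⟨0, fun h => absurd h hx⟩
  choose J hJ using h
  refine ⟨Finset.univ.sup J, fun x hx r hr => ?_⟩
  exact hJ x hx r (Ideal.pow_le_pow_right (Finset.le_sup (Finset.mem_univ x)) hr)

/-- **Nakayama.**  `∃ E ∈ 1 + m0` with `E • 𝒜 ⊆ X`. -/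
theorem K2_exists_E [Finite 𝒜] : ∃ E : R0, E - 1 ∈ m0 ∧ ∀ a : 𝒜, E • a ∈ K2_X m0 𝒜 := by
  classical
  let f : ℕ →o (Submodule R0 𝒜)ᵒᵈ :=
    { toFun := fun j => OrderDual.toDual (m0 ^ j • (⊤ : Submodule R0 𝒜))
      monotone' := fun a b hab => by
        show m0 ^ b • (⊤ : Submodule R0 𝒜) ≤ m0 ^ a • ⊤
        exact Submodule.smul_mono_left (Ideal.pow_le_pow_right hab) }
  obtain ⟨j, hj⟩ := IsArtinian.monotone_stabilizes f
  have hst : m0 ^ j • (⊤ : Submodule R0 𝒜) = m0 ^ (j + 1) • ⊤ := hj (j + 1) (Nat.le_succ j)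
  have hle : m0 ^ j • (⊤ : Submodule R0 𝒜) ≤ m0 • (m0 ^ j • (⊤ : Submodule R0 𝒜)) := by
    rw [← Submodule.mul_smul, ← pow_succ', ← hst]
  have hfg : (m0 ^ j • (⊤ : Submodule R0 𝒜)).FG := IsNoetherian.noetherian _
  obtain ⟨E, hE, hk⟩ := Submodule.exists_sub_one_mem_and_smul_eq_zero_of_fg_of_le_smul m0 _ hfg hle
  refine ⟨E, hE, fun a => ⟨j, fun r hr => ?_⟩⟩
  rw [smul_comm]
  exact hk _ (Submodule.smul_mem_smul hr Submodule.mem_top)

/-- **Transfer.**  A polynomial killing `X` is as good as a polynomial killing `𝒜`. -/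
theorem K2_transfer [Finite 𝒜] {T : Type*} [CommRing T] [IsLocalRing T] (φ : R0 →+* T)
    (hm0 : ∀ r ∈ m0, φ r ∈ IsLocalRing.maximalIdeal T) (J : Ideal T)
    (hK1 : ∀ Pol : R0, (∀ a : 𝒜, Pol • a = 0) → φ Pol ∈ J)
    (Pol : R0) (h : ∀ x ∈ K2_X m0 𝒜, Pol • x = 0) : φ Pol ∈ J := by
  obtain ⟨E, hE, hEX⟩ := K2_exists_E (m0 := m0) (𝒜 := 𝒜)
  have h1 : φ (Pol * E) ∈ J := hK1 _ fun a => by rw [mul_smul]; exact h _ (hEX a)
  have hu : IsUnit (φ E) := by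
    have h2 : φ E = 1 - φ (1 - E) := by rw [map_sub, map_one]; ring
    rw [h2]
    refine IsLocalRing.isUnit_one_sub_self_of_mem_nonunits _ ?_
    have : φ (1 - E) = -φ (E - 1) := by rw [← map_neg]; congr 1; ring
    rw [this]
    exact neg_mem (hm0 _ hE)
  rw [map_mul] at h1
  exact (Ideal.mul_unit_mem_iff_mem J hu).mp h1

end Fermat.Agent.S33
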