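import Mathlib

/-!
# S33, consumer, pieces K4 + K5 (with the parts of K3 they need): the abstract algebra

`X` a finite abelian group with an action `a` of a group `G`, `χ : G → ℤ` ("cyclotomic character" on `X`), a commutative ring
`R` acting on `X`, commuting with `G`, with elements `T g` acting as `t_g = g + χ(g) g⁻¹`; `φ : R → k` with maximal kernel `𝔪`,
`𝔪^j X = 0`.  `Y ⊆ X` the "toric" part.
-/

set_option autoImplicit false

namespace Fermat.Agent.S33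

section fin

variable {X : Type*} [AddCommGroup X] [Finite X]

/-- an additive endomorphism which is injective on a stable subgroup of a finite group is surjective on it. -/
theorem K45_surj_on (f : X →+ X) (S : AddSubgroup X) (hS : ∀ s ∈ S, f s ∈ S)
    (hinj : ∀ s ∈ S, f s = 0 → s = 0) : ∀ s ∈ S, ∃ s' ∈ S, f s' = s := by
  let F : S → S := fun s => ⟨f s, hS s s.2⟩
  have hF : Function.Injective F := by
    intro s t hst
    have h1 : f (s : X) = f (t : X) := congrArg Subtype.val hst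
    have h2 : f ((s : X) - t) = 0 := by rw [map_sub, h1, sub_self]
    have h3 := hinj _ (S.sub_mem s.2 t.2) h2
    exact Subtype.ext (sub_eq_zero.mp h3)
  have hsurj := Finite.injective_iff_surjective.mp hF
  intro s hs
  obtain ⟨s', hs'⟩ := hsurj ⟨s, hs⟩
  exact ⟨s', s'.2, congrArg Subtype.val hs'⟩

end fin

section main

variable {X G R k : Type*} [AddCommGroup X] [Group G] [CommRing R] [Module R X] [Field k]

theorem K45_mul (a : G →* AddMonoid.End X) (g h : G) (x : X) : a (g * h) x = a g (a h x) := by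
  rw [map_mul]; rfl

theorem K45_one (a : G →* AddMonoid.End X) (x : X) : a 1 x = x := by rw [map_one]; rfl

theorem K45_inv_l (a : G →* AddMonoid.End X) (g : G) (x : X) : a g⁻¹ (a g x) = x := by
  rw [← K45_mul, inv_mul_cancel, K45_one]

theorem K45_inv_r (a : G →* AddMonoid.End X) (g : G) (x : X) : a g (a g⁻¹ x) = x := by
  rw [← K45_mul, mul_inv_cancel, K45_one]

/-- the hypotheses of the abstract consumer. -/
structure K45Hyp (a : G →* AddMonoid.End X) (χ : G → ℤ) (T : G → R) (φ : R →+* k)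
    (I D : Subgroup G) (Y : AddSubgroup X) (τ₀ : G) (e e' : ℤ) : Prop where
  hφ : (RingHom.ker φ).IsMaximal
  hT : ∀ g x, T g • x = a g x + χ g • a g⁻¹ x
  hlin : ∀ g (r : R) x, a g (r • x) = r • a g x
  hχ : ∀ g h (x : X), χ (g * h) • x = (χ g * χ h) • x
  hnil : ∃ j, ∀ r ∈ (RingHom.ker φ) ^ j, ∀ x : X, r • x = 0
  hID : I ≤ D
  hYD : ∀ σ ∈ D, ∀ y ∈ Y, a σ y ∈ Y
  hYI : ∀ τ ∈ I, ∀ x, a τ x - x ∈ Y
  hτ₀ : τ₀ ∈ I
  hfix : ∀ y ∈ Y, a τ₀ y = y → y = 0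
  he : ∀ x : X, (e * (χ τ₀ - 1)) • x = x
  he' : ∀ x : X, (e' * χ τ₀) • x = x
  hν : φ (T τ₀) = 1 + (χ τ₀ : k)
  hirr : ∀ c : G →* k, ¬ ∀ g, φ (T g) = c g + (χ g : k) * c g⁻¹

variable {a : G →* AddMonoid.End X} {χ : G → ℤ} {T : G → R} {φ : R →+* k}
  {I D : Subgroup G} {Y : AddSubgroup X} {τ₀ : G} {e e' : ℤ}

namespace K45Hyp

/-- `X = X₁ + Y`. -/
theorem decomp [Finite X] (H : K45Hyp a χ T φ I D Y τ₀ e e') (x : X) :
    ∃ x₁ y, a τ₀ x₁ = x₁ ∧ y ∈ Y ∧ x = x₁ + y := by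
  let f : X →+ X :=
    { toFun := fun z => a τ₀ z - z
      map_zero' := by simp
      map_add' := by intro x y; rw [map_add]; abel }
  have hf : ∀ z, f z = a τ₀ z - z := fun z => rfl
  obtain ⟨y, hy, hfy⟩ := K45_surj_on f Y (fun s _ => by rw [hf]; exact H.hYI τ₀ H.hτ₀ s)
    (fun s hs h => H.hfix s hs (by rw [hf] at h; exact sub_eq_zero.mp h)) (f x)
    (by rw [hf]; exact H.hYI τ₀ H.hτ₀ x)
  refine ⟨x - y, y, ?_, hy, by abel⟩
  rw [hf, hf] at hfy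
  rw [map_sub]
  have : a τ₀ x = a τ₀ y - y + x := by rw [hfy]; abel
  rw [this]; abel

/-- the `R[G]`-span of `X₁`. -/
def Xp (_H : K45Hyp a χ T φ I D Y τ₀ e e') : Submodule R X :=
  Submodule.span R {z | ∃ g x, a τ₀ x = x ∧ z = a g x}

/-- `U = R[G] X₁ + 𝔪 X`. -/
def U (H : K45Hyp a χ T φ I D Y τ₀ e e') : Submodule R X :=
  H.Xp ⊔ (RingHom.ker φ) • (⊤ : Submodule R X)

theorem stab_Xp (H : K45Hyp a χ T φ I D Y τ₀ e e') (g : G) {z : X} (hz : z ∈ H.Xp) :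
    a g z ∈ H.Xp := by
  unfold Xp at hz ⊢
  induction hz using Submodule.span_induction with
  | mem z h =>
    obtain ⟨h', x, hx, rfl⟩ := h
    exact Submodule.subset_span ⟨g * h', x, hx, by rw [K45_mul]⟩
  | zero => rw [map_zero]; exact zero_mem _
  | add x y _ _ ihx ihy => rw [map_add]; exact add_mem ihx ihy
  | smul r x _ ih => rw [H.hlin]; exact Submodule.smul_mem _ _ ih

theorem stab_mX (H : K45Hyp a χ T φ I D Y τ₀ e e') (g : G) {z : X}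
    (hz : z ∈ (RingHom.ker φ) • (⊤ : Submodule R X)) :
    a g z ∈ (RingHom.ker φ) • (⊤ : Submodule R X) := by
  induction hz using Submodule.smul_induction_on' with
  | smul r hr n _ => rw [H.hlin]; exact Submodule.smul_mem_smul hr trivial
  | add x _ y _ ihx ihy => rw [map_add]; exact add_mem ihx ihy

theorem stab_U (H : K45Hyp a χ T φ I D Y τ₀ e e') (g : G) {z : X} (hz : z ∈ H.U) :
    a g z ∈ H.U := by
  obtain ⟨z₁, h₁, z₂, h₂, rfl⟩ := Submodule.mem_sup.mp hz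
  rw [map_add]
  exact add_mem (Submodule.mem_sup_left (H.stab_Xp g h₁)) (Submodule.mem_sup_right (H.stab_mX g h₂))

theorem nak (H : K45Hyp a χ T φ I D Y τ₀ e e') (hU : H.U = ⊤) : H.Xp = ⊤ := by
  obtain ⟨j, hj⟩ := H.hnil
  have key : ∀ i : ℕ, H.Xp ⊔ ((RingHom.ker φ) ^ i) • (⊤ : Submodule R X) = ⊤ := by
    intro i
    induction i with
    | zero => rw [pow_zero, Ideal.one_eq_top, Submodule.top_smul, sup_top_eq]
    | succ i ih =>
      have h1 : ((RingHom.ker φ) ^ i) • (⊤ : Submodule R X) ≤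
          H.Xp ⊔ ((RingHom.ker φ) ^ (i + 1)) • (⊤ : Submodule R X) := by
        calc ((RingHom.ker φ) ^ i) • (⊤ : Submodule R X)
            = ((RingHom.ker φ) ^ i) • (H.Xp ⊔ (RingHom.ker φ) • (⊤ : Submodule R X)) := by
              rw [show H.Xp ⊔ (RingHom.ker φ) • (⊤ : Submodule R X) = ⊤ from hU]
          _ = ((RingHom.ker φ) ^ i) • H.Xp ⊔
                ((RingHom.ker φ) ^ i) • ((RingHom.ker φ) • (⊤ : Submodule R X)) :=
              Submodule.smul_sup _ _ _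
          _ ≤ _ := by
              refine sup_le (Submodule.smul_le_right.trans le_sup_left) ?_
              rw [← Submodule.mul_smul, ← pow_succ]
              exact le_sup_right
      rw [eq_top_iff]
      calc (⊤ : Submodule R X) = H.Xp ⊔ ((RingHom.ker φ) ^ i) • (⊤ : Submodule R X) := ih.symm
        _ ≤ _ := sup_le le_sup_left h1
  have h0 : ((RingHom.ker φ) ^ j) • (⊤ : Submodule R X) = ⊥ := by
    rw [eq_bot_iff, Submodule.smul_le]
    intro r hr n _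
    rw [Submodule.mem_bot]
    exact hj r hr n
  have := key j
  rwa [h0, sup_bot_eq] at this

end K45Hyp

/-- `τ₀ - 1` as an additive map. -/
def K45_N1 (a : G →* AddMonoid.End X) (τ₀ : G) : X →+ X where
  toFun := fun z => a τ₀ z - z
  map_zero' := by simp
  map_add' := by intro x y; rw [map_add]; abel

theorem K45_N1_apply (a : G →* AddMonoid.End X) (τ₀ : G) (z : X) : K45_N1 a τ₀ z = a τ₀ z - z := rfl

namespace K45Hyp

theorem faith (H : K45Hyp a χ T φ I D Y τ₀ e e') (hU : H.U ≠ ⊤) {r : R}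
    (h : ∀ x : X, r • x ∈ H.U) : φ r = 0 := by
  by_contra hr
  have hr' : r ∉ RingHom.ker φ := hr
  obtain ⟨y, i, hi, hy⟩ := H.hφ.exists_inv hr'
  apply hU
  rw [eq_top_iff]
  intro x _
  have : x = y • (r • x) + i • x := by rw [smul_smul, ← add_smul, hy, one_smul]
  rw [this]
  exact add_mem (Submodule.smul_mem _ _ (h x))
    (Submodule.mem_sup_right (Submodule.smul_mem_smul hi trivial))

theorem quad (H : K45Hyp a χ T φ I D Y τ₀ e e') (g : G) (x : X) :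
    (T g - 1 - (χ g : R)) • a g x = a g (a g x) - a g x - χ g • a g x + χ g • x := by
  rw [sub_smul, sub_smul, one_smul, Int.cast_smul_eq_zsmul, H.hT, K45_inv_l]
  abel

theorem nu_mem (H : K45Hyp a χ T φ I D Y τ₀ e e') : T τ₀ - 1 - (χ τ₀ : R) ∈ RingHom.ker φ := by
  rw [RingHom.mem_ker, map_sub, map_sub, map_one, map_intCast, H.hν]
  ring

theorem fix_mem_U (H : K45Hyp a χ T φ I D Y τ₀ e e') {x : X} (hx : a τ₀ x = x) : x ∈ H.U :=
  Submodule.mem_sup_left (Submodule.subset_span ⟨1, x, hx, by rw [K45_one]⟩)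

theorem S1_Y [Finite X] (H : K45Hyp a χ T φ I D Y τ₀ e e') {y : X} (hy : y ∈ Y) :
    a τ₀ y - χ τ₀ • y ∈ H.U := by
  have hD := H.hID H.hτ₀
  set z := a τ₀ y - χ τ₀ • y with hz
  have hzY : z ∈ Y := sub_mem (H.hYD τ₀ hD y hy) (zsmul_mem hy _)
  have hN : K45_N1 a τ₀ z = (T τ₀ - 1 - (χ τ₀ : R)) • a τ₀ y := by
    rw [H.quad, K45_N1_apply, hz, map_sub, map_zsmul]
    abel
  have hNU : K45_N1 a τ₀ z ∈ H.U.toAddSubgroup ⊓ Y := by
    refine AddSubgroup.mem_inf.mpr ⟨?_, H.hYI τ₀ H.hτ₀ z⟩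
    rw [hN, Submodule.mem_toAddSubgroup]
    exact Submodule.mem_sup_right (Submodule.smul_mem_smul H.nu_mem trivial)
  obtain ⟨z', hz', hzz⟩ := K45_surj_on (K45_N1 a τ₀) (H.U.toAddSubgroup ⊓ Y)
    (fun s hs => AddSubgroup.mem_inf.mpr
      ⟨(H.U.mem_toAddSubgroup).mpr (H.U.sub_mem (H.stab_U τ₀ (AddSubgroup.mem_inf.mp hs).1)
        (AddSubgroup.mem_inf.mp hs).1), H.hYI τ₀ H.hτ₀ s⟩)
    (fun s hs h => H.hfix s (AddSubgroup.mem_inf.mp hs).2 (sub_eq_zero.mp h)) _ hNU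
  have hz' := AddSubgroup.mem_inf.mp hz'
  have h0 : z - z' = 0 := by
    apply H.hfix _ (sub_mem hzY hz'.2)
    have : K45_N1 a τ₀ (z - z') = 0 := by rw [map_sub, hzz, sub_self]
    exact sub_eq_zero.mp this
  rw [sub_eq_zero.mp h0]
  exact hz'.1

theorem S1 [Finite X] (H : K45Hyp a χ T φ I D Y τ₀ e e') (x : X) :
    a τ₀ x - χ τ₀ • x ∈ H.U := by
  obtain ⟨x₁, y, hx₁, hy, rfl⟩ := H.decomp x
  have h1 : a τ₀ (x₁ + y) - χ τ₀ • (x₁ + y) = (x₁ - χ τ₀ • x₁) + (a τ₀ y - χ τ₀ • y) := by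
    rw [map_add, hx₁, smul_add]; abel
  rw [h1]
  exact add_mem (sub_mem (H.fix_mem_U hx₁) (zsmul_mem (H.fix_mem_U hx₁) _)) (H.S1_Y hy)

/-- the scalar by which `g` acts modulo `U`. -/
def cc (_H : K45Hyp a χ T φ I D Y τ₀ e e') (g : G) : R := (e : R) * (T (τ₀ * g) - T g)

theorem cong [Finite X] (H : K45Hyp a χ T φ I D Y τ₀ e e') (g : G) (x : X) :
    a g x - H.cc g • x ∈ H.U := by
  have h1 := H.S1 (a g x)
  have h2 := H.S1 (a τ₀⁻¹ x)
  rw [K45_inv_r] at h2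
  have h3 := H.stab_U g⁻¹ h2
  rw [map_sub, map_zsmul] at h3
  have h4 : H.cc g • x - a g x = e • ((a τ₀ (a g x) - χ τ₀ • a g x)
      - χ g • (a g⁻¹ x - χ τ₀ • a g⁻¹ (a τ₀⁻¹ x))) := by
    have e1 : H.cc g • x = e • (T (τ₀ * g) • x - T g • x) := by
      rw [cc, mul_smul, Int.cast_smul_eq_zsmul, sub_smul]
    have e2 : T (τ₀ * g) • x = a τ₀ (a g x) + (χ τ₀ * χ g) • a g⁻¹ (a τ₀⁻¹ x) := by
      rw [H.hT, H.hχ, mul_inv_rev, K45_mul, K45_mul]
    have e4 : H.cc g • x - a g x = H.cc g • x - (e * (χ τ₀ - 1)) • a g x := by rw [H.he]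
    rw [e4, e1, e2, H.hT g x]
    module
  have h5 : a g x - H.cc g • x = -(H.cc g • x - a g x) := by abel
  rw [h5, h4]
  exact neg_mem (zsmul_mem (sub_mem h1 (zsmul_mem h3 _)) _)

theorem Xp_eq_top [Finite X] (H : K45Hyp a χ T φ I D Y τ₀ e e') : H.Xp = ⊤ := by
  by_contra hX
  have hU : H.U ≠ ⊤ := fun h => hX (H.nak h)
  have hone : φ (H.cc 1) = 1 := by
    have : φ (1 - H.cc 1) = 0 := H.faith hU fun x => by
      have := H.cong 1 x
      rwa [K45_one, ← one_smul R x, smul_smul, mul_one, ← sub_smul] at this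
    rw [map_sub, map_one, sub_eq_zero] at this
    exact this.symm
  have hmul : ∀ g h, φ (H.cc (g * h)) = φ (H.cc g) * φ (H.cc h) := by
    intro g h
    have : φ (H.cc g * H.cc h - H.cc (g * h)) = 0 := H.faith hU fun x => by
      have h1 := H.cong (g * h) x
      have h2 := H.cong g (a h x)
      have h3 := Submodule.smul_mem _ (H.cc g) (H.cong h x)
      rw [K45_mul] at h1
      have : (H.cc g * H.cc h - H.cc (g * h)) • x = (a g (a h x) - H.cc (g * h) • x)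
          - (a g (a h x) - H.cc g • a h x) - H.cc g • (a h x - H.cc h • x) := by
        rw [sub_smul, mul_smul, smul_sub]; abel
      rw [this]
      exact sub_mem (sub_mem h1 h2) h3
    rw [map_sub, map_mul, sub_eq_zero] at this
    exact this.symm
  let c : G →* k := { toFun := fun g => φ (H.cc g), map_one' := hone, map_mul' := hmul }
  apply H.hirr c
  intro g
  have : φ (T g - H.cc g - (χ g : R) * H.cc g⁻¹) = 0 := H.faith hU fun x => by
    have h1 := H.cong g x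
    have h2 := H.cong g⁻¹ x
    have : (T g - H.cc g - (χ g : R) * H.cc g⁻¹) • x = (a g x - H.cc g • x)
        + χ g • (a g⁻¹ x - H.cc g⁻¹ • x) := by
      rw [sub_smul, sub_smul, mul_smul, Int.cast_smul_eq_zsmul, H.hT, smul_sub]; abel
    rw [this]
    exact add_mem h1 (zsmul_mem h2 _)
  rw [map_sub, map_sub, map_mul, map_intCast] at this
  show φ (T g) = φ (H.cc g) + (χ g : k) * φ (H.cc g⁻¹)
  linear_combination this

end K45Hyp

namespace K45Hyp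

theorem kill [Finite X] (H : K45Hyp a χ T φ I D Y τ₀ e e') {r : R}
    (h : ∀ x, a τ₀ x = x → r • x = 0) (x : X) : r • x = 0 := by
  have hx : x ∈ H.Xp := by rw [H.Xp_eq_top]; trivial
  unfold Xp at hx
  induction hx using Submodule.span_induction with
  | mem z hz =>
    obtain ⟨g, x, hx, rfl⟩ := hz
    rw [← H.hlin, h x hx, map_zero]
  | zero => rw [smul_zero]
  | add x y _ _ ihx ihy => rw [smul_add, ihx, ihy, add_zero]
  | smul s x _ ih => rw [smul_comm, ih, smul_zero]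

theorem nu_zero [Finite X] (H : K45Hyp a χ T φ I D Y τ₀ e e') (x : X) :
    (T τ₀ - 1 - (χ τ₀ : R)) • x = 0 :=
  H.kill (fun x hx => by
    have := H.quad τ₀ x
    simp only [hx] at this
    rw [this]; abel) x

theorem N2_Y [Finite X] (H : K45Hyp a χ T φ I D Y τ₀ e e') {y : X} (hy : y ∈ Y) :
    a τ₀ y = χ τ₀ • y := by
  have hD := H.hID H.hτ₀
  have hz : a τ₀ y - χ τ₀ • y ∈ Y := sub_mem (H.hYD τ₀ hD y hy) (zsmul_mem hy _)
  have h1 := H.quad τ₀ y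
  rw [H.nu_zero] at h1
  have h2 := H.hfix _ hz (by
    rw [map_sub, map_zsmul]
    linear_combination (norm := module) -h1)
  exact sub_eq_zero.mp h2

theorem nuI_zero [Finite X] (H : K45Hyp a χ T φ I D Y τ₀ e e') {τ : G} (hτ : τ ∈ I) (x : X) :
    (T τ - 1 - (χ τ : R)) • x = 0 :=
  H.kill (fun x hx => by
    apply H.hfix
    · have h1 := H.quad τ (a τ⁻¹ x)
      rw [K45_inv_r] at h1
      have h2 := H.hYI τ hτ (x - χ τ • a τ⁻¹ x)
      rw [map_sub, map_zsmul, K45_inv_r] at h2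
      have h3 : (T τ - 1 - (χ τ : R)) • x = a τ x - χ τ • x - (x - χ τ • a τ⁻¹ x) := by
        rw [h1]; abel
      rw [h3]; exact h2
    · rw [H.hlin, hx]) x

theorem quadI [Finite X] (H : K45Hyp a χ T φ I D Y τ₀ e e') {τ : G} (hτ : τ ∈ I) (x : X) :
    a τ (a τ x) - a τ x - χ τ • a τ x + χ τ • x = 0 := by
  rw [← H.quad, H.nuI_zero hτ]

theorem I_Y [Finite X] (H : K45Hyp a χ T φ I D Y τ₀ e e') {τ : G} (hτ : τ ∈ I) {y : X}
    (hy : y ∈ Y) : a τ y = χ τ • y := by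
  have hτy : a τ y ∈ Y := H.hYD τ (H.hID hτ) y hy
  have E1 := H.quadI hτ y
  have E2 := H.quadI (I.mul_mem hτ H.hτ₀) y
  have h1 : a (τ * τ₀) y = χ τ₀ • a τ y := by rw [K45_mul, H.N2_Y hy, map_zsmul]
  have h2 : a (τ * τ₀) (a τ y) = χ τ₀ • a τ (a τ y) := by rw [K45_mul, H.N2_Y hτy, map_zsmul]
  rw [h1, map_zsmul, h2, H.hχ, H.hχ] at E2
  have h3 : (χ τ₀ * (χ τ₀ - 1)) • (a τ y - χ τ • y) = 0 := by
    linear_combination (norm := module) E2 - (χ τ₀ * χ τ₀) • E1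
  have h4 : a τ y - χ τ • y = 0 := by
    have h5 := H.he (a τ y - χ τ • y)
    have h6 := H.he' (a τ y - χ τ • y)
    calc a τ y - χ τ • y = (e' * χ τ₀) • (a τ y - χ τ • y) := h6.symm
      _ = (e' * χ τ₀) • ((e * (χ τ₀ - 1)) • (a τ y - χ τ • y)) := by rw [h5]
      _ = (e' * e) • ((χ τ₀ * (χ τ₀ - 1)) • (a τ y - χ τ • y)) := by module
      _ = 0 := by rw [h3, smul_zero]
  exact sub_eq_zero.mp h4

theorem T2 (H : K45Hyp a χ T φ I D Y τ₀ e e') (g₁ g₂ : G) (x : X) :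
    T (g₁ * g₂) • x = a g₁ (a g₂ x) + (χ g₁ * χ g₂) • a g₂⁻¹ (a g₁⁻¹ x) := by
  rw [H.hT, H.hχ, mul_inv_rev, K45_mul, K45_mul]

theorem T3 (H : K45Hyp a χ T φ I D Y τ₀ e e') (g₁ g₂ g₃ : G) (x : X) :
    T (g₁ * g₂ * g₃) • x = a g₁ (a g₂ (a g₃ x))
      + (χ g₁ * χ g₂ * χ g₃) • a g₃⁻¹ (a g₂⁻¹ (a g₁⁻¹ x)) := by
  rw [H.T2, K45_mul, mul_inv_rev, K45_mul, mul_smul, H.hχ, ← mul_smul]

theorem T4 (H : K45Hyp a χ T φ I D Y τ₀ e e') (g₁ g₂ g₃ g₄ : G) (x : X) :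
    T (g₁ * g₂ * g₃ * g₄) • x = a g₁ (a g₂ (a g₃ (a g₄ x)))
      + (χ g₁ * χ g₂ * χ g₃ * χ g₄) • a g₄⁻¹ (a g₃⁻¹ (a g₂⁻¹ (a g₁⁻¹ x))) := by
  rw [H.T2, K45_mul, K45_mul, mul_inv_rev, mul_inv_rev, K45_mul, K45_mul, mul_smul, H.hχ, mul_smul,
    H.hχ, ← mul_smul, ← mul_smul]

/-- for `s ∈ Y`, `τ ∈ I`: `s = χ(τ) τ⁻¹ s`. -/
theorem inv_Y [Finite X] (H : K45Hyp a χ T φ I D Y τ₀ e e') {τ : G} (hτ : τ ∈ I) {s : X}
    (hs : s ∈ Y) : χ τ • a τ⁻¹ s = s := by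
  have h1 : a τ⁻¹ s ∈ Y := H.hYD τ⁻¹ (H.hID (I.inv_mem hτ)) s hs
  rw [← H.I_Y hτ h1, K45_inv_r]

theorem z1 [Finite X] (H : K45Hyp a χ T φ I D Y τ₀ e e') {τ : G} (hτ : τ ∈ I) (g : G) (x : X) :
    (T (τ₀ * τ * g) - T (τ₀ * g) - (χ τ₀ : R) * T (τ * g) + (χ τ₀ : R) * T g) • x = 0 := by
  have hw := H.N2_Y (H.hYI τ hτ (a g x))
  rw [map_sub] at hw
  have hs : a τ₀⁻¹ x - x ∈ Y := H.hYI τ₀⁻¹ (I.inv_mem H.hτ₀) x
  have hs' := congrArg (a g⁻¹) (H.inv_Y hτ hs)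
  rw [map_zsmul, map_sub, map_sub, map_sub] at hs'
  rw [add_smul, sub_smul, sub_smul, mul_smul, mul_smul, Int.cast_smul_eq_zsmul,
    Int.cast_smul_eq_zsmul, H.T3, H.T2, H.T2, H.hT]
  linear_combination (norm := module) hw + (χ τ₀ * χ g) • hs'

theorem z2 [Finite X] (H : K45Hyp a χ T φ I D Y τ₀ e e') {σ : G} (hσ : σ ∈ D) (g : G) (x : X) :
    (T (τ₀ * σ * τ₀ * g) - T (τ₀ * σ * g) - (χ τ₀ : R) * T (σ * τ₀ * g)
      + (χ τ₀ : R) * T (σ * g)) • x = 0 := by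
  have hw := H.N2_Y (H.hYD σ hσ _ (H.hYI τ₀ H.hτ₀ (a g x)))
  rw [map_sub, map_sub] at hw
  have hs : a τ₀⁻¹ x - x ∈ Y := H.hYI τ₀⁻¹ (I.inv_mem H.hτ₀) x
  have hr : a σ⁻¹ (a τ₀⁻¹ x - x) ∈ Y := H.hYD σ⁻¹ (D.inv_mem hσ) _ hs
  have hs' := congrArg (a g⁻¹) (H.inv_Y H.hτ₀ hr)
  rw [map_zsmul, map_sub, map_sub, map_sub, map_sub] at hs'
  rw [add_smul, sub_smul, sub_smul, mul_smul, mul_smul, Int.cast_smul_eq_zsmul,
    Int.cast_smul_eq_zsmul, H.T4, H.T3, H.T3, H.T2]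
  linear_combination (norm := module) hw + (χ τ₀ * χ σ * χ g) • hs'

end K45Hyp

/-- **The abstract consumer (K3 + K4 + K5).** -/
theorem consumer_abs [Finite X]
    (a : G →* AddMonoid.End X) (χ : G → ℤ) (T : G → R) (φ : R →+* k)
    (hφ : (RingHom.ker φ).IsMaximal)
    (hT : ∀ g x, T g • x = a g x + χ g • a g⁻¹ x)
    (hlin : ∀ g (r : R) x, a g (r • x) = r • a g x)
    (hχ : ∀ g h (x : X), χ (g * h) • x = (χ g * χ h) • x)
    (hnil : ∃ j, ∀ r ∈ (RingHom.ker φ) ^ j, ∀ x : X, r • x = 0)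
    (I D : Subgroup G) (hID : I ≤ D) (Y : AddSubgroup X) (hYD : ∀ σ ∈ D, ∀ y ∈ Y, a σ y ∈ Y)
    (hYI : ∀ τ ∈ I, ∀ x, a τ x - x ∈ Y) (τ₀ : G) (hτ₀ : τ₀ ∈ I)
    (hfix : ∀ y ∈ Y, a τ₀ y = y → y = 0)
    (e e' : ℤ) (he : ∀ x : X, (e * (χ τ₀ - 1)) • x = x) (he' : ∀ x : X, (e' * χ τ₀) • x = x)
    (hν : φ (T τ₀) = 1 + (χ τ₀ : k))
    (hirr : ∀ c : G →* k, ¬ ∀ g, φ (T g) = c g + (χ g : k) * c g⁻¹) :
    (∀ x : X, (T τ₀ - 1 - (χ τ₀ : R)) • x = 0) ∧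
    (∀ τ ∈ I, ∀ g (x : X),
      (T (τ₀ * τ * g) - T (τ₀ * g) - (χ τ₀ : R) * T (τ * g) + (χ τ₀ : R) * T g) • x = 0) ∧
    (∀ σ ∈ D, ∀ g (x : X),
      (T (τ₀ * σ * τ₀ * g) - T (τ₀ * σ * g) - (χ τ₀ : R) * T (σ * τ₀ * g)
        + (χ τ₀ : R) * T (σ * g)) • x = 0) := by
  have H : K45Hyp a χ T φ I D Y τ₀ e e' :=
    ⟨hφ, hT, hlin, hχ, hnil, hID, hYD, hYI, hτ₀, hfix, he, he', hν, hirr⟩
  exact ⟨H.nu_zero, fun τ hτ g x => H.z1 hτ g x, fun σ hσ g x => H.z2 hσ g x⟩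

end main

end Fermat.Agent.S33
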