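import Fermat.Agent.S33.K1
import Fermat.Agent.S33.K2
import Fermat.Agent.S33.K45
import Fermat.Agent.S33.CFin
import Fermat.Agent.S33.CRepB
import Fermat.Agent.S33.CRepA
import Fermat.Agent.S33.CDet

/-!
# S33, piece KAsm: assembly of the consumer, design (A): K1 + K2 + K45 + CFin + CDet + CRep ⟹ `ordinary_of_tor_A`
-/

set_option autoImplicit false
set_option linter.unusedSectionVars false

namespace Fermat.Agent.S33

open IsLocalRing Fermat.Agent.GR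

/-- an integer prime to `p` is invertible on a group killed by `p ^ m`. -/
theorem KAsm_inv {A : Type*} [AddCommGroup A] {p m : ℕ} (hp : p.Prime)
    (hA : ∀ x : A, (p ^ m) • x = 0) (z : ℤ) (hz : ¬ (p : ℤ) ∣ z) :
    ∃ e : ℤ, ∀ x : A, (e * z) • x = x := by
  have hpp : Prime (p : ℤ) := Nat.prime_iff_prime_int.mp hp
  have hc : IsCoprime z ((p : ℤ) ^ m) :=
    (((Prime.coprime_iff_not_dvd hpp).mpr hz).symm).pow_right
  obtain ⟨u, v, huv⟩ := hc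
  refine ⟨u, fun x => ?_⟩
  have h1 : u * z = 1 - v * (p : ℤ) ^ m := by linear_combination huv
  rw [h1, sub_smul, one_smul, mul_smul]
  have h2 : ((p : ℤ) ^ m) • x = 0 := by
    have := hA x
    rw [← natCast_zsmul] at this
    push_cast at this
    exact this
  rw [h2, smul_zero, sub_zero]

/-- exponents of a primitive root. -/
theorem KAsm_dvd_of_pow_eq {ζ : Qb} {k : ℕ} (hζ : IsPrimitiveRoot ζ k) (hk : 0 < k) {a b : ℕ}
    (h : ζ ^ a = ζ ^ b) : (k : ℤ) ∣ (a : ℤ) - b := by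
  have hζ0 : ζ ≠ 0 := hζ.ne_zero hk.ne'
  rw [← hζ.zpow_eq_one_iff_dvd, zpow_sub₀ hζ0, zpow_natCast, zpow_natCast, h,
    div_self (pow_ne_zero _ hζ0)]

variable {p : ℕ} {N : ℕ} [NeZero N] {S : Finset ℕ}
  {𝒪 : Type} [CommRing 𝒪] [IsDomain 𝒪] [IsDiscreteValuationRing 𝒪]
  [IsAdicComplete (IsLocalRing.maximalIdeal 𝒪) 𝒪]
  {θ : CuspForm.heckeAlgebra N 2 (↑S : Set ℕ) →+* IsLocalRing.ResidueField 𝒪}
  {T : Type} [CommRing T] [IsLocalRing T] [IsNoetherianRing T]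
  [IsAdicComplete (IsLocalRing.maximalIdeal T) T] [Algebra 𝒪 T] [IsLocalHom (algebraMap 𝒪 T)]
  [Module.Finite 𝒪 T] [Module.Free 𝒪 T]

theorem KAsm_finite_residue [Finite (IsLocalRing.ResidueField 𝒪)]
    (H : CuspForm.HeckeGaloisRepDatum N (↑S : Set ℕ) 𝒪 θ T) : Finite (ResidueField T) := by
  refine Finite.of_surjective (ResidueField.map (algebraMap 𝒪 T)) fun y => ?_
  obtain ⟨x, hx⟩ := H.residue_surjective y
  exact ⟨residue 𝒪 x, hx⟩

theorem KAsm_p_mem (hp𝒪 : (p : 𝒪) ∈ IsLocalRing.maximalIdeal 𝒪) : (p : T) ∈ maximalIdeal T := by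
  rw [← map_natCast (algebraMap 𝒪 T)]
  exact map_nonunit (algebraMap 𝒪 T) _ hp𝒪

/-- the estimates at level `n`. -/
theorem KAsm_level [Finite (IsLocalRing.ResidueField 𝒪)] (hp : p.Prime) (𝔗 : Tower p N)
    (hp𝒪 : (p : 𝒪) ∈ IsLocalRing.maximalIdeal 𝒪) (hpS : p ∈ S)
    (hNS : ∀ q : ℕ, q.Prime → q ∣ N → q ∈ S)
    (H : CuspForm.HeckeGaloisRepDatum N (↑S : Set ℕ) 𝒪 θ T)
    (hres : (GaloisRepAdic.ofResidualGaloisRep H.ρ.residual).IsOrdinaryAt p)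
    (P : ValuationSubring Qb) (hP : P.LiesOverPrime p)
    (L : ∀ n, AddSubgroup (𝔗.A n)) (τ0 : GQ) (hτ0 : τ0 ∈ P.inertiaSubgroupIn ℚ)
    (hζ0 : ∀ ζ : Qb, ζ ^ p = 1 → ζ ≠ 1 → τ0 ζ ≠ ζ)
    (hLD : ∀ n, ∀ σ ∈ P.decompositionSubgroup ℚ, ∀ x ∈ L n, 𝔗.act n σ x ∈ L n)
    (hLI : ∀ n, ∀ τ ∈ P.inertiaSubgroupIn ℚ, ∀ x, 𝔗.act n τ x - x ∈ L n)
    (hfix : ∀ n, ∀ x ∈ L n, 𝔗.act n τ0 x = x → x = 0) (n : ℕ) :
    (LinearMap.trace T H.ρ.V (H.ρ.ρ τ0) - (1 + LinearMap.det (H.ρ.ρ τ0)) ∈ maximalIdeal T ^ n) ∧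
    (∀ τ ∈ P.inertiaSubgroupIn ℚ, ∀ g : GQ,
      LinearMap.trace T H.ρ.V (H.ρ.ρ (τ0 * τ * g)) - LinearMap.trace T H.ρ.V (H.ρ.ρ (τ0 * g))
        - LinearMap.det (H.ρ.ρ τ0) * LinearMap.trace T H.ρ.V (H.ρ.ρ (τ * g))
        + LinearMap.det (H.ρ.ρ τ0) * LinearMap.trace T H.ρ.V (H.ρ.ρ g) ∈ maximalIdeal T ^ n) ∧
    (∀ σ ∈ P.decompositionSubgroup ℚ, ∀ g : GQ,
      LinearMap.trace T H.ρ.V (H.ρ.ρ (τ0 * σ * τ0 * g))
        - LinearMap.trace T H.ρ.V (H.ρ.ρ (τ0 * σ * g))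
        - LinearMap.det (H.ρ.ρ τ0) * LinearMap.trace T H.ρ.V (H.ρ.ρ (σ * τ0 * g))
        + LinearMap.det (H.ρ.ρ τ0) * LinearMap.trace T H.ρ.V (H.ρ.ρ (σ * g))
          ∈ maximalIdeal T ^ n) := by
  classical
  rcases Nat.eq_zero_or_pos n with rfl | hn
  · simp only [pow_zero, Ideal.one_eq_top, Submodule.mem_top, implies_true, and_self]
  obtain ⟨c, hc⟩ := K1_pack hp 𝔗 hp𝒪 hpS hNS H
  have hcn := hc n
  generalize hm : n + c = m at hcn
  obtain ⟨inst, h1, _h2, h3, h4⟩ := hcn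
  have hm1 : 0 < m := by omega
  have hnm : n ≤ m := by omega
  have hfinA : Finite ↥(K1_span 𝔗 m) := K1_finite hp 𝔗 m
  have hfink : Finite (ResidueField T) := KAsm_finite_residue H
  have hpT : (p : T) ∈ maximalIdeal T := KAsm_p_mem hp𝒪
  have hpk : ((p : ℕ) : ResidueField T) = 0 := by
    rw [← map_natCast (residue T)]
    exact (residue_eq_zero_iff _).mpr hpT
  set tr : GQ → T := fun g => LinearMap.trace T H.ρ.V (H.ρ.ρ g) with htr
  let φT : MvPolynomial GQ ℤ →+* T := (MvPolynomial.aeval tr : MvPolynomial GQ ℤ →ₐ[ℤ] T)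
  have hφTX : ∀ g, φT (MvPolynomial.X g) = tr g := fun g => MvPolynomial.aeval_X tr g
  let φ : MvPolynomial GQ ℤ →+* ResidueField T := (residue T).comp φT
  have hφX : ∀ g, φ (MvPolynomial.X g) = residue T (tr g) := fun g => by
    show residue T (φT _) = _
    rw [hφTX]
  let m0 : Ideal (MvPolynomial GQ ℤ) := RingHom.ker φ
  have hm0 : ∀ r ∈ m0, φT r ∈ maximalIdeal T := fun r hr =>
    (residue_eq_zero_iff _).mp (show residue T (φT r) = 0 from hr)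
  have hmax : (RingHom.ker φ).IsMaximal := by
    have : Finite (MvPolynomial GQ ℤ ⧸ RingHom.ker φ) :=
      Finite.of_injective _ (RingHom.kerLift_injective φ)
    have hprime : (RingHom.ker φ).IsPrime := RingHom.ker_isPrime φ
    exact Ideal.Quotient.maximal_of_isField _ (Finite.isField_of_domain _)
  -- roots of unity
  have : NeZero p := ⟨hp.ne_zero⟩
  obtain ⟨ζ1, hζ1⟩ := HasEnoughRootsOfUnity.exists_primitiveRoot Qb p
  obtain ⟨ζm, hζm⟩ := HasEnoughRootsOfUnity.exists_primitiveRoot Qb (p ^ m)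
  have hζ1m : ζ1 ^ (p ^ m) = 1 := by
    obtain ⟨m', rfl⟩ : ∃ m', m = m' + 1 := ⟨m - 1, by omega⟩
    rw [pow_succ', pow_mul, hζ1.pow_eq_one, one_pow]
  have hζ1ne : ζ1 ≠ 1 := hζ1.ne_one hp.one_lt
  set χ : GQ → ℕ := fun g => K1_chi p m g with hχdef
  have hspec1 : ∀ g : GQ, g ζ1 = ζ1 ^ χ g := fun g => K1_chi_spec hp m g hζ1m
  have hχ0a : ¬ (p : ℤ) ∣ ((χ τ0 : ℕ) : ℤ) - 1 := by
    intro hd
    apply hζ0 ζ1 hζ1.pow_eq_one hζ1ne
    rw [hspec1]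
    have h5 := (hζ1.zpow_eq_one_iff_dvd _).mpr hd
    have hζ10 : ζ1 ≠ 0 := hζ1.ne_zero hp.ne_zero
    rw [zpow_sub₀ hζ10, zpow_natCast, zpow_one, div_eq_one_iff_eq hζ10] at h5
    exact h5
  have hχ0b : ¬ (p : ℤ) ∣ ((χ τ0 : ℕ) : ℤ) := by
    intro hd
    have h5 := (hζ1.zpow_eq_one_iff_dvd _).mpr hd
    rw [zpow_natCast, ← hspec1] at h5
    apply hζ1ne
    have : τ0 ζ1 = τ0 1 := by rw [h5, map_one]
    exact τ0.injective this
  have hχk : ∀ g h : GQ, ((χ (g * h) : ℕ) : ResidueField T) = (χ g : ResidueField T) * χ h := by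
    intro g h
    have h5 : ζ1 ^ χ (g * h) = ζ1 ^ (χ g * χ h) := by
      rw [← hspec1, AlgEquiv.mul_apply, hspec1 h, map_pow, hspec1 g, ← pow_mul]
    obtain ⟨d, hd⟩ := KAsm_dvd_of_pow_eq hζ1 hp.pos h5
    have h6 := congrArg (Int.cast : ℤ → ResidueField T) hd
    push_cast at h6
    rw [hpk, zero_mul, sub_eq_zero] at h6
    exact h6
  -- the determinant
  have hdet : LinearMap.det (H.ρ.ρ τ0) - ((χ τ0 : ℕ) : T) ∈ maximalIdeal T ^ m :=
    det_sub_natCast_mem hp hp𝒪 hpS hNS H τ0 m ζm hζm (χ τ0) (K1_chi_spec hp m τ0 hζm.pow_eq_one)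
  have hdetn : LinearMap.det (H.ρ.ρ τ0) - ((χ τ0 : ℕ) : T) ∈ maximalIdeal T ^ n :=
    Ideal.pow_le_pow_right hnm hdet
  have hdet1 : LinearMap.det (H.ρ.ρ τ0) - ((χ τ0 : ℕ) : T) ∈ maximalIdeal T :=
    Ideal.pow_le_self hm1.ne' hdet
  -- the module `X`
  let XX : Submodule (MvPolynomial GQ ℤ) ↥(K1_span 𝔗 m) := K2_X m0 ↥(K1_span 𝔗 m)
  let aX : GQ →* AddMonoid.End ↥XX :=
    { toFun := fun g => AddMonoidHom.mk'
        (fun x => ⟨K1_a 𝔗 m g x.1, K2_X_stable (K1_a 𝔗 m g) (fun r a => h3 g r a) x.2⟩)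
        (by intro x y; apply Subtype.ext; exact map_add (K1_a 𝔗 m g) x.1 y.1)
      map_one' := by
        ext x
        show ((K1_a 𝔗 m 1 x.1 : ↥(K1_span 𝔗 m)) : 𝔗.A m) = _
        rw [map_one]; rfl
      map_mul' := fun g g' => by
        ext x
        show ((K1_a 𝔗 m (g * g') x.1 : ↥(K1_span 𝔗 m)) : 𝔗.A m) = _
        rw [map_mul]; rfl }
  have haX : ∀ (g : GQ) (x : ↥XX), ((aX g x : ↥XX) : ↥(K1_span 𝔗 m)) = K1_a 𝔗 m g x.1 :=
    fun _ _ => rfl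
  have hkill : ∀ x : ↥XX, (p ^ m) • x = 0 := fun x => by
    apply Subtype.ext; apply Subtype.ext
    exact 𝔗.pow_smul m _
  obtain ⟨e, he⟩ := KAsm_inv hp hkill _ hχ0a
  obtain ⟨e', he'⟩ := KAsm_inv hp hkill _ hχ0b
  let Y : AddSubgroup ↥XX :=
    AddSubgroup.comap ((K1_span 𝔗 m).subtype.comp XX.subtype.toAddMonoidHom) (L m)
  have hID : P.inertiaSubgroupIn ℚ ≤ P.decompositionSubgroup ℚ := by
    rintro _ ⟨x, _, rfl⟩
    exact x.2
  obtain ⟨j, hj⟩ := K2_exists_uniform (m0 := m0) (𝒜 := ↥(K1_span 𝔗 m))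
  obtain ⟨r1, r2, r3⟩ := consumer_abs (X := ↥XX) (G := GQ) (R := MvPolynomial GQ ℤ)
    (k := ResidueField T) aX (fun g => ((χ g : ℕ) : ℤ)) (fun g => MvPolynomial.X g) φ hmax
    (fun g x => by
      apply Subtype.ext
      rw [Submodule.coe_smul, h1 g x.1, natCast_zsmul]
      rfl)
    (fun g r x => by
      apply Subtype.ext
      exact h3 g r x.1)
    (fun g h x => by
      apply Subtype.ext; apply Subtype.ext
      have := K1_chi_mul hp 𝔗 m g h ((x : ↥(K1_span 𝔗 m)) : 𝔗.A m)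
      rw [← Nat.cast_mul, natCast_zsmul, natCast_zsmul]
      exact this)
    ⟨j, fun r hr x => Subtype.ext (hj x.1 x.2 r hr)⟩
    (P.inertiaSubgroupIn ℚ) (P.decompositionSubgroup ℚ) hID Y
    (fun σ hσ y hy => hLD m σ hσ _ hy)
    (fun τ hτ x => hLI m τ hτ _)
    τ0 hτ0
    (fun y hy hfy => by
      apply Subtype.ext; apply Subtype.ext
      exact hfix m _ hy (congrArg (fun z : ↥XX => ((z : ↥(K1_span 𝔗 m)) : 𝔗.A m)) hfy))
    e e' he he'
    (by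
      rw [hφX]
      have h5 := trace_sub_one_sub_det_mem H.ρ p hres P hP τ0 hτ0
      have h6 : tr τ0 - (1 + ((χ τ0 : ℕ) : T)) ∈ maximalIdeal T := by
        have := add_mem h5 hdet1
        convert this using 1
        ring
      have h7 := (residue_eq_zero_iff _).mpr h6
      rw [map_sub, sub_eq_zero, map_add, map_one, map_natCast] at h7
      rw [h7, Int.cast_natCast])
    (fun cc hcc => no_char_decomp H.ρ.residual H.residual_absIrr (fun g => cc g)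
      (fun g => ((χ g : ℕ) : ResidueField T)) (fun g h => map_mul cc g h) hχk
      (fun g => by
        rw [trace_residual, ← hφX, hcc g, Int.cast_natCast]))
  -- transfer
  have htrans : ∀ Pol : MvPolynomial GQ ℤ, (∀ x : ↥XX, Pol • x = 0) → φT Pol ∈ maximalIdeal T ^ n :=
    fun Pol hPol => K2_transfer (m0 := m0) (𝒜 := ↥(K1_span 𝔗 m)) φT hm0 _ h4 Pol
      (fun x hx => congrArg Subtype.val (hPol ⟨x, hx⟩))
  refine ⟨?_, fun τ hτ g => ?_, fun σ hσ g => ?_⟩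
  · have h5 := htrans _ r1
    rw [map_sub, map_sub, hφTX, map_one, map_intCast, Int.cast_natCast] at h5
    have := sub_mem h5 hdetn
    convert this using 1
    ring
  · have h5 := htrans _ (r2 τ hτ g)
    rw [map_add, map_sub, map_sub, map_mul, map_mul, hφTX, hφTX, hφTX, hφTX, map_intCast,
      Int.cast_natCast] at h5
    have h6 := Ideal.mul_mem_right (tr g - tr (τ * g)) _ hdetn
    have := add_mem h5 h6
    convert this using 1
    ring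
  · have h5 := htrans _ (r3 σ hσ g)
    rw [map_add, map_sub, map_sub, map_mul, map_mul, hφTX, hφTX, hφTX, hφTX, map_intCast,
      Int.cast_natCast] at h5
    have h6 := Ideal.mul_mem_right (tr (σ * g) - tr (σ * τ0 * g)) _ hdetn
    have := add_mem h5 h6
    convert this using 1
    ring

/-- **The consumer, design (A).** -/
theorem ordinary_of_tor_A [Finite (IsLocalRing.ResidueField 𝒪)] (hp : p.Prime) (𝔗 : Tower p N)
    (hp𝒪 : (p : 𝒪) ∈ IsLocalRing.maximalIdeal 𝒪) (hpS : p ∈ S)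
    (hNS : ∀ q : ℕ, q.Prime → q ∣ N → q ∈ S)
    (H : CuspForm.HeckeGaloisRepDatum N (↑S : Set ℕ) 𝒪 θ T)
    (hres : (GaloisRepAdic.ofResidualGaloisRep H.ρ.residual).IsOrdinaryAt p)
    (htor : ∀ P : ValuationSubring Qb, P.LiesOverPrime p →
      ∃ (L : ∀ n, AddSubgroup (𝔗.A n)) (τ0 : GQ), τ0 ∈ P.inertiaSubgroupIn ℚ ∧
        (∀ ζ : Qb, ζ ^ p = 1 → ζ ≠ 1 → τ0 ζ ≠ ζ) ∧
        (∀ n, ∀ σ ∈ P.decompositionSubgroup ℚ, ∀ x ∈ L n, 𝔗.act n σ x ∈ L n) ∧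
        (∀ n, ∀ τ ∈ P.inertiaSubgroupIn ℚ, ∀ x, 𝔗.act n τ x - x ∈ L n) ∧
        (∀ n, ∀ x ∈ L n, 𝔗.act n τ0 x = x → x = 0)) :
    H.ρ.IsOrdinaryAt p := by
  intro P hP
  obtain ⟨L, τ0, hτ0, hζ0, hLD, hLI, hfix⟩ := htor P hP
  have key := KAsm_level hp 𝔗 hp𝒪 hpS hNS H hres P hP L τ0 hτ0 hζ0 hLD hLI hfix
  have haus : ∀ t : T, (∀ n, t ∈ maximalIdeal T ^ n) → t = 0 := fun t ht =>
    IsHausdorff.haus (inferInstance : IsHausdorff (maximalIdeal T) T) _ fun n => by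
      rw [SModEq.zero, smul_eq_mul, Ideal.mul_top]
      exact ht n
  -- `det ρ(τ0) - 1` is a unit
  have hunit : IsUnit (LinearMap.det (H.ρ.ρ τ0) - 1) := by
    have : NeZero p := ⟨hp.ne_zero⟩
    obtain ⟨ζ1, hζ1⟩ := HasEnoughRootsOfUnity.exists_primitiveRoot Qb p
    have hζ1' : IsPrimitiveRoot ζ1 (p ^ 1) := by rwa [pow_one]
    have hsp := K1_chi_spec hp 1 τ0 hζ1'.pow_eq_one
    have hdet := det_sub_natCast_mem hp hp𝒪 hpS hNS H τ0 1 ζ1 hζ1' _ hsp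
    rw [pow_one] at hdet
    have hnd : ¬ (p : ℤ) ∣ ((K1_chi p 1 τ0 : ℕ) : ℤ) - 1 := by
      intro hd
      apply hζ0 ζ1 hζ1.pow_eq_one (hζ1.ne_one hp.one_lt)
      rw [hsp]
      have h5 := (hζ1.zpow_eq_one_iff_dvd _).mpr hd
      have hζ10 : ζ1 ≠ 0 := hζ1.ne_zero hp.ne_zero
      rw [zpow_sub₀ hζ10, zpow_natCast, zpow_one, div_eq_one_iff_eq hζ10] at h5
      exact h5
    have hpp : Prime (p : ℤ) := Nat.prime_iff_prime_int.mp hp
    obtain ⟨u, v, huv⟩ := (Prime.coprime_iff_not_dvd hpp).mpr hnd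
    have hpT : (p : T) ∈ maximalIdeal T := KAsm_p_mem hp𝒪
    -- `v * (det - 1) = 1 - (u p - v (det - χ))`
    have h1 : (v : T) * (LinearMap.det (H.ρ.ρ τ0) - 1) =
        1 - ((u : T) * (p : T) - (v : T) * (LinearMap.det (H.ρ.ρ τ0) - ((K1_chi p 1 τ0 : ℕ) : T))) := by
      have := congrArg (Int.cast : ℤ → T) huv
      push_cast at this
      linear_combination this
    have h2 : IsUnit ((v : T) * (LinearMap.det (H.ρ.ρ τ0) - 1)) := by
      rw [h1]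
      exact IsLocalRing.isUnit_one_sub_self_of_mem_nonunits _
        (sub_mem (Ideal.mul_mem_left _ _ hpT) (Ideal.mul_mem_left _ _ hdet))
    exact isUnit_of_mul_isUnit_right h2
  exact ordinary_of_trace_identities H.ρ H.residual_absIrr P τ0 _ rfl hunit
    (sub_eq_zero.mp (haus _ fun n => (key n).1))
    (fun τ hτ g => haus _ fun n => (key n).2.1 τ hτ g)
    (fun σ hσ g => haus _ fun n => (key n).2.2 σ hσ g)

end Fermat.Agent.S33
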