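import Fermat.Agent.S35.RedU
import Fermat.Agent.S35.Defs

/-!
# S33:L1 — Newton: `UU z p (1 + b h) = 1 + b^p UU z p h + p b X`
-/

set_option autoImplicit false

namespace Fermat.Agent.S33

open HahnSeries Fermat.Agent.S28 Fermat.Agent.GR Fermat.Agent.S35 Finset ModularCurve

section Alg

variable {L : Type*} [CommRing L] {σ : Type*} [Fintype σ]

/-- the `j`-th elementary symmetric function of a finite family. -/
noncomputable def esy (H : σ → L) (j : ℕ) : L := ∑ t ∈ powersetCard j (univ : Finset σ), ∏ i ∈ t, H i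

theorem esy_eq_aeval (H : σ → L) (j : ℕ) :
    esy H j = MvPolynomial.aeval H (MvPolynomial.esymm σ ℤ j) := by
  simp only [esy, MvPolynomial.esymm, map_sum, map_prod, MvPolynomial.aeval_X]

theorem prod_one_add_mul (c : L) (H : σ → L) :
    ∏ i, (1 + c * H i) = ∑ j ∈ range (Fintype.card σ + 1), c ^ j * esy H j := by
  classical
  rw [Finset.prod_one_add, ← Finset.card_univ, Finset.powerset_card_disjiUnion,
    Finset.sum_disjiUnion]
  refine Finset.sum_congr rfl fun j _ => ?_
  rw [esy, Finset.mul_sum]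
  refine Finset.sum_congr rfl fun t ht => ?_
  rw [Finset.prod_mul_distrib, Finset.prod_const, (Finset.mem_powersetCard.1 ht).2]

theorem esy_zero (H : σ → L) : esy H 0 = 1 := by
  simp [esy]

theorem esy_card (H : σ → L) : esy H (Fintype.card σ) = ∏ i, H i := by
  rw [esy, ← Finset.card_univ, Finset.powersetCard_self, Finset.sum_singleton]

/-- Newton: if all power sums are divisible by the prime `p`, so are `e_j`, `0 < j < p`. -/
theorem dvd_esy {p : ℕ} (hp : p.Prime) (H : σ → L)
    (hps : ∀ j, 0 < j → (p : L) ∣ ∑ i, H i ^ j) {j : ℕ} (h0 : 0 < j) (hj : j < p) :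
    (p : L) ∣ esy H j := by
  have N := congrArg (MvPolynomial.aeval H) (MvPolynomial.mul_esymm_eq_sum σ ℤ j)
  simp only [map_mul, map_natCast, map_pow, map_neg, map_one, map_sum, ← esy_eq_aeval] at N
  have h1 : (p : L) ∣ (j : L) * esy H j := by
    rw [N]
    refine Dvd.dvd.mul_left (Finset.dvd_sum fun a ha => ?_) _
    refine Dvd.dvd.mul_left ?_ _
    have ha' := Finset.mem_filter.1 ha
    have hsum : a.1 + a.2 = j := Finset.HasAntidiagonal.mem_antidiagonal.1 ha'.1
    have := hps a.2 (by have := ha'.2; omega)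
    simpa [MvPolynomial.psum] using this
  have hc : IsCoprime (p : L) (j : L) := by
    have : IsCoprime (p : ℤ) (j : ℤ) := by
      rw [Nat.isCoprime_iff_coprime]
      exact (Nat.Prime.coprime_iff_not_dvd hp).2 (Nat.not_dvd_of_pos_of_lt h0 hj)
    simpa using this.map (Int.castRingHom L)
  exact hc.dvd_of_dvd_mul_left h1

end Alg

section Series

variable {B : Type*} [CommRing B]

theorem Uop_add1 (ℓ : ℕ) [NeZero ℓ] (X Y : LaurentSeries B) :
    Uop ℓ (X + Y) = Uop ℓ X + Uop ℓ Y := by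
  ext n; simp

theorem Uop_zero1 (ℓ : ℕ) [NeZero ℓ] : Uop ℓ (0 : LaurentSeries B) = 0 := by
  ext n; simp

theorem Uop_C_mul1 (ℓ : ℕ) [NeZero ℓ] (c : B) (Y : LaurentSeries B) :
    Uop ℓ (C c * Y) = C c * Uop ℓ Y := by
  ext n; simp

theorem Uop_sum1 (ℓ : ℕ) [NeZero ℓ] {ι : Type*} (s : Finset ι) (f : ι → LaurentSeries B) :
    Uop ℓ (∑ i ∈ s, f i) = ∑ i ∈ s, Uop ℓ (f i) := by
  classical
  induction s using Finset.induction_on with
  | empty => simp [Uop_zero1]
  | insert a s ha ih => rw [Finset.sum_insert ha, Finset.sum_insert ha, Uop_add1, ih]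

theorem natCast_mul_coeff (m : ℕ) (Y : LaurentSeries B) (n : ℤ) :
    ((m : LaurentSeries B) * Y).coeff n = (m : B) * Y.coeff n := by
  rw [← map_natCast (C : B →+* LaurentSeries B), HahnSeries.C_mul_eq_smul, HahnSeries.coeff_smul,
    smul_eq_mul]

/-- the sum of the conjugates `Y(z^i t)` is `p (U_p Y)(t^p)`. -/
theorem sum_scale_eq [IsDomain B] {p : ℕ} [NeZero p] {z : Bˣ} (hz : IsPrimitiveRoot z p)
    (Y : LaurentSeries B) :
    ∑ i : Fin p, scale (z ^ (i : ℕ)) Y = (p : LaurentSeries B) * qExpand B p (Uop p Y) := by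
  ext n
  rw [natCast_mul_coeff, HahnSeries.coeff_sum]
  simp only [scale_coeff]
  rw [← Finset.sum_mul, Fin.sum_univ_eq_sum_range (fun i => (((z ^ i) ^ n : Bˣ) : B)) p]
  by_cases hn : (p : ℤ) ∣ n
  · obtain ⟨k, rfl⟩ := hn
    rw [qExpand_coeff_mul, Uop_coeff]
    congr 1
    have : ∀ i ∈ Finset.range p, (((z ^ i) ^ ((p : ℤ) * k) : Bˣ) : B) = 1 := by
      intro i _
      rw [zpow_mul, zpow_natCast, ← pow_mul, mul_comm, pow_mul, hz.pow_eq_one, one_pow, one_zpow,
        Units.val_one]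
    rw [Finset.sum_congr rfl this]
    simp
  · rw [qExpand_coeff_of_not_dvd p _ hn, mul_zero]
    set w : Bˣ := z ^ n with hw
    have hw1 : w ≠ 1 := by
      intro h
      exact hn ((hz.zpow_eq_one_iff_dvd n).1 h)
    have hwp : w ^ p = 1 := by
      rw [hw, ← zpow_natCast, ← zpow_mul, mul_comm, zpow_mul, zpow_natCast, hz.pow_eq_one, one_zpow]
    have e : ∀ i ∈ Finset.range p, (((z ^ i) ^ n : Bˣ) : B) = (w : B) ^ i := by
      intro i _
      rw [hw, ← Units.val_pow_eq_pow_val, ← zpow_natCast z i, ← zpow_mul, mul_comm, zpow_mul,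
        zpow_natCast]
    rw [Finset.sum_congr rfl e]
    have hg : (∑ i ∈ Finset.range p, (w : B) ^ i) * ((w : B) - 1) = 0 := by
      rw [geom_sum_mul, ← Units.val_pow_eq_pow_val, hwp, Units.val_one, sub_self]
    have hne : (w : B) - 1 ≠ 0 := by
      intro h
      apply hw1
      apply Units.ext
      rw [Units.val_one]
      exact sub_eq_zero.1 h
    rw [(mul_eq_zero.1 hg).resolve_right hne, zero_mul]

/-- **L1 (Newton).** -/
theorem UU_one_add [IsDomain B] {p : ℕ} [NeZero p] (hp : p.Prime) {z : Bˣ}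
    (hz : IsPrimitiveRoot z p) (b : B) (h : LaurentSeries B) :
    ∃ X : LaurentSeries B,
      UU z p (1 + C b * h) = 1 + C (b ^ p) * UU z p h + C ((p : B) * b) * X := by
  classical
  set H : Fin p → LaurentSeries B := fun i => scale (z ^ (i : ℕ)) h with hH
  have hps : ∀ j, 0 < j → (p : LaurentSeries B) ∣ ∑ i, H i ^ j := by
    intro j _
    have : ∑ i, H i ^ j = ∑ i : Fin p, scale (z ^ (i : ℕ)) (h ^ j) := by
      simp only [hH, map_pow]
    rw [this, sum_scale_eq hz]
    exact Dvd.intro _ rfl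
  have hd : ∀ j, 0 < j → j < p → ∃ Xj, esy H j = (p : LaurentSeries B) * Xj :=
    fun j h0 hj => dvd_esy hp H hps h0 hj
  choose! Xf hXf using hd
  have hPop : Pop z p (1 + C b * h) = ∑ j ∈ range (p + 1), C b ^ j * esy H j := by
    have := prod_one_add_mul (C b) H
    rw [Fintype.card_fin] at this
    rw [← this, Pop, ← Fin.prod_univ_eq_prod_range (fun i => scale (z ^ i) (1 + C b * h)) p]
    refine Finset.prod_congr rfl fun i _ => ?_
    rw [map_add, map_one, map_mul, scale_C]
  obtain ⟨r, rfl⟩ : ∃ r, p = r + 1 := ⟨p - 1, by have := hp.pos; omega⟩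
  refine ⟨∑ j ∈ range r, C (b ^ j) * Uop (r + 1) (Xf (j + 1)), ?_⟩
  rw [UU, hPop, Finset.sum_range_succ, Finset.sum_range_succ', Uop_add1, Uop_add1, Uop_sum1]
  have e0 : Uop (r + 1) (C b ^ 0 * esy H 0) = 1 := by
    rw [pow_zero, one_mul, esy_zero, ← map_one (C : B →+* LaurentSeries B), Uop_C]
  have e1 : Uop (r + 1) (C b ^ (r + 1) * esy H (r + 1)) = C (b ^ (r + 1)) * UU z (r + 1) h := by
    have : esy H (r + 1) = Pop z (r + 1) h := by
      have h1 := esy_card H
      rw [Fintype.card_fin] at h1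
      rw [h1, Pop, ← Fin.prod_univ_eq_prod_range (fun i => scale (z ^ i) h) (r + 1)]
    rw [this, ← map_pow, Uop_C_mul1, UU]
  have e2 : ∑ j ∈ range r, Uop (r + 1) (C b ^ (j + 1) * esy H (j + 1)) =
      C (((r + 1 : ℕ) : B) * b) * ∑ j ∈ range r, C (b ^ j) * Uop (r + 1) (Xf (j + 1)) := by
    rw [Finset.mul_sum]
    refine Finset.sum_congr rfl fun j hj => ?_
    have hj' : j + 1 < r + 1 := by have := Finset.mem_range.1 hj; omega
    rw [hXf (j + 1) (Nat.succ_pos j) hj', ← map_pow, ← map_natCast (C : B →+* LaurentSeries B),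
      ← mul_assoc, ← map_mul, Uop_C_mul1, ← mul_assoc, ← map_mul]
    congr 2
    ring
  rw [e0, e1, e2]
  ring

end Series

end Fermat.Agent.S33
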