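import Fermat.Agent.S33.L1b

/-!
# S33:L1PS — `newtonPS` (the form of L1 used in the plumbing of L3)
-/

set_option autoImplicit false

namespace Fermat.Agent.S33

open Fermat.Agent.S24 Fermat.Agent.S35

theorem newtonPS (A : ValuationSubring Kb) {p : ℕ} [NeZero p] (hp : p.Prime)
    (hA : A.LiesOverPrime p) (ζ : Kbˣ) (hζ : IsPrimitiveRoot ζ p) {b : Kb} (hb : b ∈ A)
    {h : PowerSeries Kb} (hh : ∀ n, PowerSeries.coeff n h ∈ A) :
    ∃ (H E1 : PowerSeries Kb), (∀ n, PowerSeries.coeff n H ∈ A) ∧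
      (∀ n, PowerSeries.coeff n E1 ∈ A) ∧
      (∀ n, A.valuation (PowerSeries.coeff n H - PowerSeries.coeff n h ^ p) < 1) ∧
      UU ζ p (HahnSeries.ofPowerSeries ℤ Kb (1 + PowerSeries.C b * h)) =
        HahnSeries.ofPowerSeries ℤ Kb (1 + PowerSeries.C (b ^ p) * H
          + PowerSeries.C ((p : Kb) * b) * E1) := by
  obtain ⟨E1, E2, μ, hE1, hE2, hμ, heq⟩ := newton A hp hA ζ hζ hb hh
  have hμA : μ ∈ A := (A.valuation_le_one_iff μ).1 hμ.le
  refine ⟨PowerSeries.mk (fun n => PowerSeries.coeff n h ^ p) + PowerSeries.C μ * E2, E1, ?_, hE1,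
    ?_, heq⟩
  · intro n
    rw [map_add, PowerSeries.coeff_mk, PowerSeries.coeff_C_mul]
    exact add_mem (pow_mem (hh n) p) (mul_mem hμA (hE2 n))
  · intro n
    rw [map_add, PowerSeries.coeff_mk, PowerSeries.coeff_C_mul, add_sub_cancel_left, map_mul]
    calc A.valuation μ * A.valuation (PowerSeries.coeff n E2) ≤ A.valuation μ * 1 := by
          gcongr
          exact (A.valuation_le_one_iff _).2 (hE2 n)
      _ < 1 := by rw [mul_one]; exact hμ

end Fermat.Agent.S33
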