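import Mathlib

/-!
# S33, formal series, piece L2 (FormalP)

`g ^ p = 1 + β Y` over a rank one valuation ring `R` of residue characteristic `p`, `λ ^ (p-1) ∼ p`,
`|β| > |λ| ^ p`  ⟹  `Ȳ ∈ k[[t ^ p]]`.
-/

set_option autoImplicit false

namespace Fermat.Agent.S33

open PowerSeries

section abs

variable {R : Type*} [CommRing R]

/-- power series with all coefficients in the ideal `I`. -/
noncomputable def coeffIdeal (I : Ideal R) : Ideal (PowerSeries R) :=
  RingHom.ker (PowerSeries.map (Ideal.Quotient.mk I))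

theorem mem_coeffIdeal {I : Ideal R} {f : PowerSeries R} :
    f ∈ coeffIdeal I ↔ ∀ n, coeff n f ∈ I := by
  rw [coeffIdeal, RingHom.mem_ker, PowerSeries.ext_iff]
  simp only [coeff_map, map_zero, Ideal.Quotient.eq_zero_iff_mem]

theorem split_trunc (G : PowerSeries R) (n : ℕ) :
    G = (trunc n G : PowerSeries R) + X ^ n * PowerSeries.mk (fun i => coeff (i + n) G) := by
  ext k
  rw [map_add, Polynomial.coeff_coe, coeff_trunc, coeff_X_pow_mul']
  by_cases h : k < n
  · rw [if_pos h, if_neg (by omega), add_zero]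
  · rw [if_neg h, if_pos (by omega), zero_add, coeff_mk, Nat.sub_add_cancel (by omega)]

/-- (F2) -/
theorem coeff_mul_pow_prime {p : ℕ} (hp : p.Prime) (I : Ideal R) (G : PowerSeries R)
    (hG : ∀ n, coeff n G ∈ I) (n : ℕ) :
    ∃ a ∈ I, coeff (p * n) ((1 + G) ^ p - 1) = coeff n G ^ p + p * a := by
  set Xp : PowerSeries R := (trunc n G : PowerSeries R) with hXp
  set W' : PowerSeries R := PowerSeries.mk (fun i => coeff (i + n) G) with hW'
  have hsplit : G = Xp + X ^ n * W' := split_trunc G n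
  obtain ⟨r₁, h1⟩ := exists_add_pow_prime_eq hp (1 : PowerSeries R) G
  obtain ⟨r₂, h2⟩ := exists_add_pow_prime_eq hp Xp (X ^ n * W')
  have hGI : G ∈ coeffIdeal I := mem_coeffIdeal.mpr hG
  have hXI : Xp ∈ coeffIdeal I := by
    rw [mem_coeffIdeal]
    intro k
    rw [hXp, Polynomial.coeff_coe, coeff_trunc]
    split_ifs
    · exact hG k
    · exact I.zero_mem
  have e1 : coeff (p * n) (Xp ^ p) = 0 := by
    rw [hXp, ← Polynomial.coe_pow, Polynomial.coeff_coe]
    rcases Nat.eq_zero_or_pos n with rfl | hn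
    · have : trunc 0 G = 0 := by
        ext k; rw [coeff_trunc]; simp
      rw [this, zero_pow hp.ne_zero]; simp
    · apply Polynomial.coeff_eq_zero_of_natDegree_lt
      obtain ⟨n', rfl⟩ : ∃ n', n = n' + 1 := ⟨n - 1, by omega⟩
      have h3 : (trunc (n' + 1) G).natDegree < n' + 1 := natDegree_trunc_lt G n'
      calc ((trunc (n' + 1) G) ^ p).natDegree ≤ p * (trunc (n' + 1) G).natDegree :=
            Polynomial.natDegree_pow_le
        _ ≤ p * n' := Nat.mul_le_mul_left p (by omega)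
        _ < p * (n' + 1) := by
            have := hp.pos
            nlinarith
  have e2 : coeff (p * n) ((X ^ n * W') ^ p) = coeff n G ^ p := by
    rw [mul_pow, ← pow_mul, mul_comm n p, coeff_X_pow_mul', if_pos le_rfl, Nat.sub_self,
      coeff_zero_eq_constantCoeff_apply, map_pow, ← coeff_zero_eq_constantCoeff_apply, hW', coeff_mk,
      zero_add]
  have hm1 : G * r₁ ∈ coeffIdeal I := Ideal.mul_mem_right _ _ hGI
  have hm2 : Xp * (X ^ n * W') * r₂ ∈ coeffIdeal I :=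
    Ideal.mul_mem_right _ _ (Ideal.mul_mem_right _ _ hXI)
  refine ⟨coeff (p * n) (G * r₁) + coeff (p * n) (Xp * (X ^ n * W') * r₂),
    I.add_mem (mem_coeffIdeal.mp hm1 _) (mem_coeffIdeal.mp hm2 _), ?_⟩
  have h3 : (1 + G) ^ p - 1 = Xp ^ p + (X ^ n * W') ^ p + (p : PowerSeries R) * (G * r₁)
      + (p : PowerSeries R) * (Xp * (X ^ n * W') * r₂) := by
    rw [h1, one_pow]
    conv_lhs => rw [hsplit]
    rw [h2, ← hsplit]
    ring
  have hnat : ∀ f : PowerSeries R, coeff (p * n) ((p : PowerSeries R) * f) = p * coeff (p * n) f := by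
    intro f
    rw [← nsmul_eq_mul, map_nsmul, nsmul_eq_mul]
  rw [h3, map_add, map_add, map_add, e1, e2, hnat, hnat]
  ring

/-- (F1) -/
theorem coeff_pow_prime_of_not_dvd {p : ℕ} (I : Ideal R) (G : PowerSeries R)
    (hG : ∀ n, coeff n G ∈ I) (m : ℕ) :
    ∃ a ∈ I, coeff (m + 1) ((1 + G) ^ p) * ((m : R) + 1) = p * a := by
  have h1 : d⁄dX R ((1 + G) ^ p) = p • (1 + G) ^ (p - 1) • d⁄dX R (1 + G) :=
    Derivation.leibniz_pow _ _ _
  have h2 : d⁄dX R (1 + G) = d⁄dX R G := by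
    rw [map_add, derivative_one, zero_add]
  have h3 : d⁄dX R G ∈ coeffIdeal I := by
    rw [mem_coeffIdeal]
    intro n
    rw [coeff_derivative]
    exact I.mul_mem_right _ (hG _)
  have h4 : (1 + G) ^ (p - 1) * d⁄dX R G ∈ coeffIdeal I := Ideal.mul_mem_left _ _ h3
  refine ⟨coeff m ((1 + G) ^ (p - 1) * d⁄dX R G), mem_coeffIdeal.mp h4 _, ?_⟩
  rw [← coeff_derivative, h1, h2, map_nsmul, nsmul_eq_mul, smul_eq_mul]

end abs

section val

variable {R : Type*} [CommRing R] [IsDomain R] [ValuationRing R]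

/-- the ideal generated by a sequence in a valuation ring. -/
def seqIdeal (G : ℕ → R) : Ideal R where
  carrier := {x | ∃ n, G n ∣ x}
  add_mem' := by
    rintro x y ⟨n, hn⟩ ⟨n', hn'⟩
    rcases ValuationRing.dvd_total (G n) (G n') with h | h
    · exact ⟨n, dvd_add hn (h.trans hn')⟩
    · exact ⟨n', dvd_add (h.trans hn) hn'⟩
  zero_mem' := ⟨0, dvd_zero _⟩
  smul_mem' := by
    rintro c x ⟨n, hn⟩
    exact ⟨n, Dvd.dvd.mul_left hn c⟩

theorem mem_seqIdeal {G : ℕ → R} {x : R} : x ∈ seqIdeal G ↔ ∃ n, G n ∣ x := Iff.rfl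

/-- **L2 (FormalP), abstract form.** -/
theorem formalP_abs {p : ℕ} (hp : p.Prime) (hpR : ¬ IsUnit (p : R)) {lam : R} (hlam0 : lam ≠ 0)
    (hlam : Associated (p : R) (lam ^ (p - 1)))
    (arch : ∀ c d : R, ¬ IsUnit c → d ≠ 0 → ∃ n : ℕ, d ∣ c ^ n)
    {g Y : PowerSeries R} {β : R} (h : g ^ p = 1 + C β * Y) (hβ : ¬ lam ^ p ∣ β) :
    ∀ m : ℕ, ¬ p ∣ m → ¬ IsUnit (coeff m Y) := by
  intro m hm hY
  set G : PowerSeries R := g - 1 with hGdef
  have hg : g = 1 + G := by rw [hGdef]; ring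
  set I : Ideal R := seqIdeal (fun n => coeff n G) with hI
  have hGI : ∀ n, coeff n G ∈ I := fun n => ⟨n, dvd_rfl⟩
  have hp0 : (p : R) ≠ 0 := hlam.ne_zero_iff.mpr (pow_ne_zero _ hlam0)
  have hlp : lam ^ p = lam ^ (p - 1) * lam := by
    rw [← pow_succ, Nat.sub_add_cancel hp.one_le]
  obtain ⟨m', rfl⟩ : ∃ m', m = m' + 1 := by
    rcases m with _ | m'
    · exact absurd (dvd_zero p) hm
    · exact ⟨m', rfl⟩
  have hmu : IsUnit (((m' : R) + 1)) := by
    have hc : Nat.Coprime (m' + 1) p := ((Nat.Prime.coprime_iff_not_dvd hp).mpr hm).symm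
    have hc' : IsCoprime ((m' + 1 : ℕ) : ℤ) (p : ℤ) := Nat.isCoprime_iff_coprime.mpr hc
    obtain ⟨a, b, hab⟩ := hc'
    have hab' : (a : R) * ((m' : R) + 1) + (b : R) * (p : R) = 1 := by
      have := congrArg (Int.cast : ℤ → R) hab
      push_cast at this
      exact this
    rcases IsLocalRing.isUnit_or_isUnit_of_add_one hab' with h1 | h1
    · exact isUnit_of_mul_isUnit_right h1
    · exact absurd (isUnit_of_mul_isUnit_right h1) hpR
  have hcoeff : ∀ k, coeff k ((1 + G) ^ p - 1) = β * coeff k Y := by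
    intro k
    rw [← hg, h, add_sub_cancel_left, coeff_C_mul]
  -- β ∈ p I
  obtain ⟨a₀, ha₀, hβa⟩ : ∃ a ∈ I, β = p * a := by
    obtain ⟨a, ha, h1⟩ := coeff_pow_prime_of_not_dvd (p := p) I G hGI m'
    have h2 : coeff (m' + 1) ((1 + G) ^ p) = β * coeff (m' + 1) Y := by
      rw [← hcoeff, map_sub, coeff_one, if_neg (Nat.succ_ne_zero m'), sub_zero]
    rw [h2] at h1
    obtain ⟨u, hu⟩ := hY.mul hmu
    refine ⟨a * ((u⁻¹ : Rˣ) : R), I.mul_mem_right _ ha, ?_⟩
    rw [← mul_assoc, ← h1, mul_assoc β, ← hu, mul_assoc, Units.mul_inv, mul_one]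
  have hstep : ∀ n, ∃ n', (p : R) * coeff n' G ∣ coeff n G ^ p := by
    intro n
    obtain ⟨a, ha, h1⟩ := coeff_mul_pow_prime hp I G hGI n
    rw [hcoeff, hβa] at h1
    have h2 : coeff n G ^ p = p * (a₀ * coeff (p * n) Y - a) := by linear_combination -h1
    obtain ⟨n', hn'⟩ : a₀ * coeff (p * n) Y - a ∈ I := I.sub_mem (I.mul_mem_right _ ha₀) ha
    exact ⟨n', h2 ▸ mul_dvd_mul_left _ hn'⟩
  have hall : ∀ n, lam ∣ coeff n G := by
    intro n
    by_contra hn
    obtain ⟨c, hc⟩ := (ValuationRing.dvd_total (coeff n G) lam).resolve_right hn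
    have hcu : ¬ IsUnit c := by
      intro hcu
      obtain ⟨u, rfl⟩ := hcu
      exact hn ⟨((u⁻¹ : Rˣ) : R), by rw [hc, mul_assoc, Units.mul_inv, mul_one]⟩
    have hc0 : c ≠ 0 := by
      rintro rfl
      exact hlam0 (by rw [hc, mul_zero])
    have hind : ∀ k : ℕ, ∃ nk, c ^ (p ^ k) * coeff nk G ∣ lam := by
      intro k
      induction k with
      | zero => exact ⟨n, by rw [pow_zero, pow_one, hc, mul_comm]⟩
      | succ k ih =>
        obtain ⟨nk, hnk⟩ := ih
        obtain ⟨n', hn'⟩ := hstep nk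
        refine ⟨n', ?_⟩
        have h1 : (c ^ (p ^ k)) ^ p * ((p : R) * coeff n' G) ∣ lam ^ p := by
          refine dvd_trans ?_ (pow_dvd_pow_of_dvd hnk p)
          rw [mul_pow]
          exact mul_dvd_mul_left _ hn'
        have h2 : lam ^ (p - 1) * (c ^ (p ^ (k + 1)) * coeff n' G) ∣ lam ^ (p - 1) * lam := by
          rw [← hlp]
          refine dvd_trans ?_ h1
          rw [pow_succ, pow_mul]
          have h3 : lam ^ (p - 1) ∣ (p : R) := hlam.symm.dvd
          obtain ⟨e, he⟩ := h3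
          exact ⟨e, by rw [he]; ring⟩
        exact (mul_dvd_mul_iff_left (pow_ne_zero _ hlam0)).mp h2
    obtain ⟨j, hj⟩ := arch c lam hcu hlam0
    obtain ⟨nk, hnk⟩ := hind (j + 1)
    have h1 : c ^ (j + 1) ∣ c ^ (p ^ (j + 1)) :=
      pow_dvd_pow c (Nat.lt_pow_self hp.one_lt).le
    have h2 : c ^ j * c ∣ c ^ j * 1 := by
      rw [← pow_succ, mul_one]
      exact h1.trans ((Dvd.intro _ rfl).trans (hnk.trans hj))
    exact hcu (isUnit_of_dvd_one ((mul_dvd_mul_iff_left (pow_ne_zero _ hc0)).mp h2))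
  apply hβ
  obtain ⟨n₀, hn₀⟩ := ha₀
  rw [hlp, hβa]
  exact mul_dvd_mul hlam.symm.dvd ((hall n₀).trans hn₀)

end val

end Fermat.Agent.S33
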