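import Fermat.Agent.S33.L2

/-!
# S33, formal series, piece L3 (TpLocal), abstract part
-/

set_option autoImplicit false

namespace Fermat.Agent.S33

open PowerSeries

section abs

variable {R : Type*} [CommRing R]

/-- `h(t^p)`. -/
noncomputable def L3_V (p : ℕ) (h : PowerSeries R) : PowerSeries R :=
  PowerSeries.mk (fun n => if p ∣ n then coeff (n / p) h else 0)

/-- `∑ a_n^p t^(pn)`. -/
noncomputable def L3_Phi (p : ℕ) (h : PowerSeries R) : PowerSeries R :=
  PowerSeries.mk (fun n => if p ∣ n then coeff (n / p) h ^ p else 0)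

theorem L3_coeff_mul_pow {p : ℕ} (hp : p.Prime) (G : PowerSeries R) (n : ℕ) :
    ∃ a, coeff (p * n) (G ^ p) = coeff n G ^ p + p * a := by
  set Xp : PowerSeries R := (trunc n G : PowerSeries R) with hXp
  set W' : PowerSeries R := PowerSeries.mk (fun i => coeff (i + n) G) with hW'
  have hsplit : G = Xp + X ^ n * W' := split_trunc G n
  obtain ⟨r₂, h2⟩ := exists_add_pow_prime_eq hp Xp (X ^ n * W')
  have e1 : coeff (p * n) (Xp ^ p) = 0 := by
    rw [hXp, ← Polynomial.coe_pow, Polynomial.coeff_coe]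
    rcases Nat.eq_zero_or_pos n with rfl | hn
    · have : trunc 0 G = 0 := by
        ext k; rw [coeff_trunc]; simp
      rw [this, zero_pow hp.ne_zero]; simp
    · apply Polynomial.coeff_eq_zero_of_natDegree_lt
      obtain ⟨n', rfl⟩ : ∃ n', n = n' + 1 := ⟨n - 1, by omega⟩
      have h3 : (trunc (n' + 1) G).natDegree < n' + 1 := natDegree_trunc_lt G n'
      calc ((trunc (n' + 1) G) ^ p).natDegree ≤ p * (trunc (n' + 1) G).natDegree :=
            Polynomial.natDegree_pow_le
        _ ≤ p * n' := Nat.mul_le_mul_left p (by omega)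
        _ < p * (n' + 1) := by
            have := hp.pos
            nlinarith
  have e2 : coeff (p * n) ((X ^ n * W') ^ p) = coeff n G ^ p := by
    rw [mul_pow, ← pow_mul, mul_comm n p, coeff_X_pow_mul', if_pos le_rfl, Nat.sub_self,
      coeff_zero_eq_constantCoeff_apply, map_pow, ← coeff_zero_eq_constantCoeff_apply, hW', coeff_mk,
      zero_add]
  refine ⟨coeff (p * n) (Xp * (X ^ n * W') * r₂), ?_⟩
  have h3 : G ^ p = Xp ^ p + (X ^ n * W') ^ p + (p : PowerSeries R) * (Xp * (X ^ n * W') * r₂) := by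
    conv_lhs => rw [hsplit]
    rw [h2]
    ring
  have hnat : ∀ f : PowerSeries R, coeff (p * n) ((p : PowerSeries R) * f) = p * coeff (p * n) f := by
    intro f
    rw [← nsmul_eq_mul, map_nsmul, nsmul_eq_mul]
  rw [h3, map_add, map_add, e1, e2, hnat]
  ring

theorem L3_coeff_succ_pow {p : ℕ} (G : PowerSeries R) (m : ℕ) :
    ∃ a, coeff (m + 1) (G ^ p) * ((m : R) + 1) = p * a := by
  have h1 : d⁄dX R (G ^ p) = p • G ^ (p - 1) • d⁄dX R G := Derivation.leibniz_pow _ _ _
  refine ⟨coeff m (G ^ (p - 1) * d⁄dX R G), ?_⟩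
  rw [← coeff_derivative, h1, map_nsmul, nsmul_eq_mul, smul_eq_mul]

/-- the freshman's dream for power series. -/
theorem L3_freshman {p : ℕ} (hp : p.Prime) (hunit : ∀ m : ℕ, ¬ p ∣ m → IsUnit (m : R))
    (G : PowerSeries R) : ∃ E : PowerSeries R, G ^ p = L3_Phi p G + (p : PowerSeries R) * E := by
  have key : ∀ n, ∃ e, coeff n (G ^ p) = coeff n (L3_Phi p G) + p * e := by
    intro n
    rw [L3_Phi, coeff_mk]
    by_cases hn : p ∣ n
    · obtain ⟨k, rfl⟩ := hn
      rw [if_pos (Dvd.intro _ rfl), Nat.mul_div_cancel_left _ hp.pos]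
      exact L3_coeff_mul_pow hp G k
    · rw [if_neg hn]
      simp only [zero_add]
      obtain ⟨m, rfl⟩ : ∃ m, n = m + 1 := by
        rcases n with _ | m
        · exact absurd (dvd_zero p) hn
        · exact ⟨m, rfl⟩
      obtain ⟨a, ha⟩ := L3_coeff_succ_pow (p := p) G m
      obtain ⟨u, hu⟩ := hunit _ hn
      have hu' : (u : R) = (m : R) + 1 := by rw [hu]; push_cast; rfl
      refine ⟨a * ((u⁻¹ : Rˣ) : R), ?_⟩
      rw [← mul_assoc, ← ha, ← hu', mul_assoc, Units.mul_inv, mul_one]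
  choose e he using key
  refine ⟨PowerSeries.mk e, ?_⟩
  ext n
  have hnat : coeff n ((p : PowerSeries R) * PowerSeries.mk e) = p * e n := by
    rw [← nsmul_eq_mul, map_nsmul, nsmul_eq_mul, coeff_mk]
  rw [he, map_add, hnat]

theorem L3_binom {S : Type*} [CommRing S] {p : ℕ} (hp : p.Prime) (x : S) :
    ∃ r, (1 + x) ^ p = 1 + x ^ p + p * x + p * x ^ 2 * r := by
  have h := add_pow_prime_eq' hp x (1 : S)
  have hI : Finset.Ioo 0 p = insert 1 (Finset.Ioo 1 p) := by
    ext k
    simp only [Finset.mem_insert, Finset.mem_Ioo]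
    have := hp.two_le
    omega
  rw [hI, Finset.sum_insert (by simp)] at h
  refine ⟨∑ k ∈ Finset.Ioo 1 p, x ^ (k - 2) * ((p.choose k / p : ℕ) : S), ?_⟩
  have h2 : ∑ k ∈ Finset.Ioo 1 p, x ^ k * 1 ^ (p - k) * ((p.choose k / p : ℕ) : S) =
      x ^ 2 * ∑ k ∈ Finset.Ioo 1 p, x ^ (k - 2) * ((p.choose k / p : ℕ) : S) := by
    rw [Finset.mul_sum]
    apply Finset.sum_congr rfl
    intro k hk
    rw [Finset.mem_Ioo] at hk
    rw [one_pow, mul_one, ← mul_assoc, ← pow_add, Nat.add_sub_cancel' (by omega)]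
  rw [h2, Nat.choose_one_right, Nat.div_self hp.pos] at h
  rw [add_comm 1 x, h]
  simp only [one_pow, pow_one, Nat.cast_one, mul_one]
  ring

end abs

section val

variable {R : Type*} [CommRing R] [IsDomain R] [ValuationRing R]

theorem L3_isUnit_add {a x : R} (ha : IsUnit a) (hx : ¬ IsUnit x) : IsUnit (a + x) := by
  by_contra h
  have h1 : a + x ∈ IsLocalRing.maximalIdeal R := h
  have h2 : x ∈ IsLocalRing.maximalIdeal R := hx
  have h3 : a ∈ IsLocalRing.maximalIdeal R := by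
    have := Ideal.sub_mem _ h1 h2
    rwa [add_sub_cancel_right] at this
  exact h3 ha

omit [IsDomain R] [ValuationRing R] in
theorem L3_not_isUnit_mul {a : R} (x : R) (ha : ¬ IsUnit a) : ¬ IsUnit (a * x) :=
  fun h => ha (isUnit_of_mul_isUnit_left h)

theorem L3_not_isUnit_add {a x : R} (ha : ¬ IsUnit a) (hx : ¬ IsUnit x) : ¬ IsUnit (a + x) := by
  have h1 : a ∈ IsLocalRing.maximalIdeal R := ha
  have h2 : x ∈ IsLocalRing.maximalIdeal R := hx
  exact Ideal.add_mem _ h1 h2

/-- **L3 (TpLocal), abstract form.** -/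
theorem tpLocal_abs {p : ℕ} (hp : p.Prime) (hpR : ¬ IsUnit (p : R)) {lam : R} (hlam0 : lam ≠ 0)
    (hlam : Associated (p : R) (lam ^ (p - 1)))
    (arch : ∀ c d : R, ¬ IsUnit c → d ≠ 0 → ∃ n : ℕ, d ∣ c ^ n)
    {h H gf f E1 : PowerSeries R} {b b1 : R} (hb1 : b1 ^ p = b) (hb : ¬ IsUnit b)
    (hbl : ¬ lam ^ p ∣ b) (hgf : ∀ n, coeff n gf ^ p = coeff n h)
    (hm : ∃ m, ¬ p ∣ m ∧ IsUnit (coeff m h) ∧ IsUnit (coeff m H))
    (hf : f ^ p = (1 + C b * L3_V p h) * (1 + C (b ^ p) * H + C ((p : R) * b) * E1)) :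
    Associated (b ^ p) ((p : R) * b1) := by
  obtain ⟨m, hmp, hmu, hmH⟩ := hm
  have hb1u : ¬ IsUnit b1 := fun hu => hb (hb1 ▸ hu.pow p)
  have hunit : ∀ m : ℕ, ¬ p ∣ m → IsUnit (m : R) := by
    intro m hm
    have hc : Nat.Coprime m p := ((Nat.Prime.coprime_iff_not_dvd hp).mpr hm).symm
    have hc' : IsCoprime (m : ℤ) (p : ℤ) := Nat.isCoprime_iff_coprime.mpr hc
    obtain ⟨a, b, hab⟩ := hc'
    have hab' : (a : R) * (m : R) + (b : R) * (p : R) = 1 := by
      have := congrArg (Int.cast : ℤ → R) hab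
      push_cast at this
      exact this
    rcases IsLocalRing.isUnit_or_isUnit_of_add_one hab' with h1 | h1
    · exact isUnit_of_mul_isUnit_right h1
    · exact absurd (isUnit_of_mul_isUnit_right h1) hpR
  have hp2 : p = (p - 2) + 2 := by have := hp.two_le; omega
  obtain ⟨E, hE⟩ := L3_freshman hp hunit gf
  have hPhi : L3_Phi p gf = L3_V p h := by
    ext n
    rw [L3_Phi, L3_V, coeff_mk, coeff_mk]
    split_ifs
    · exact hgf _
    · rfl
  rw [hPhi] at hE
  set B1 : PowerSeries R := C b1 with hB1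
  set Pp : PowerSeries R := (p : PowerSeries R) with hPp
  set x : PowerSeries R := B1 * gf with hx
  obtain ⟨r, hr⟩ := L3_binom hp x
  have hCb : (C b : PowerSeries R) = B1 * B1 * B1 ^ (p - 2) := by
    rw [hB1, ← map_pow, ← map_mul, ← map_mul, ← hb1]
    congr 1
    conv_lhs => rw [hp2]
    ring
  have hCp : (C (p : R) : PowerSeries R) = Pp := by rw [hPp]; exact map_natCast _ p
  -- the unit `1 + x`
  have hux : IsUnit (1 + x) := by
    rw [PowerSeries.isUnit_iff_constantCoeff, map_add, map_one, hx, map_mul, hB1, constantCoeff_C]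
    exact L3_isUnit_add isUnit_one (L3_not_isUnit_mul _ hb1u)
  obtain ⟨w, hw⟩ := hux.exists_right_inv
  set P : PowerSeries R := (1 + x) ^ p with hP
  set wp : PowerSeries R := w ^ p with hwp
  have e3 : wp * P = 1 := by rw [hwp, hP, ← mul_pow, mul_comm w, hw, one_pow]
  set L : PowerSeries R := 1 + C b * L3_V p h with hL
  set U : PowerSeries R := 1 + C (b ^ p) * H + C ((p : R) * b) * E1 with hU
  set Bp : PowerSeries R := C (b ^ p) with hBp
  set T1 : PowerSeries R := gf ^ 2 * r + B1 ^ (p - 2) * E with hT1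
  have hxp : x ^ p = C b * (L3_V p h + Pp * E) := by
    rw [hx, mul_pow, hE, hB1, ← map_pow, hb1]
  have e2 : L = P - Pp * B1 * gf - Pp * B1 * B1 * T1 := by
    rw [hL, hr, hxp, hT1, hx, hCb]
    ring
  -- `P = 1 + B1 * P'`
  set P' : PowerSeries R := gf * (x ^ (p - 2) * x + Pp + Pp * x * r) with hP'
  have hPP : P = 1 + B1 * P' := by
    have : x ^ p = x ^ (p - 2) * x * x := by
      conv_lhs => rw [hp2]
      ring
    rw [hr, this, hP']
    conv_lhs => rw [hx]
    rw [hx]
    ring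
  set Q : PowerSeries R := - (P' * wp) with hQ
  have e4 : wp = 1 + B1 * Q := by
    rw [hQ]
    linear_combination (1 : PowerSeries R) * e3 - wp * hPP
  set T2 : PowerSeries R := B1 ^ (p - 2) * E1 with hT2
  have e5 : U = 1 + Bp * H + Pp * B1 * B1 * T2 := by
    rw [hU, map_mul, hCp, hCb, hT2]
    ring
  have hBpB : Bp = B1 * (B1 * B1 ^ (p - 2) * (C b) ^ (p - 1)) := by
    have : (C b : PowerSeries R) ^ p = C b * (C b) ^ (p - 1) := by
      rw [← pow_succ', Nat.sub_add_cancel hp.one_le]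
    rw [hBp, map_pow, this]
    nth_rewrite 1 [hCb]
    ring
  set U' : PowerSeries R := B1 * B1 ^ (p - 2) * (C b) ^ (p - 1) * H + Pp * B1 * T2 with hU'
  have e6 : U = 1 + B1 * U' := by
    rw [e5, hU']
    conv_lhs => rw [hBpB]
    ring
  set g : PowerSeries R := f * w with hg
  set T' : PowerSeries R := T2 - gf * (Q + U' + B1 * Q * U') - T1 * wp * U with hT'
  have e7 : wp * U = (1 + B1 * Q) * (1 + B1 * U') := by
    conv_lhs => rw [e4, e6]
  have main : g ^ p = 1 + Bp * H + Pp * B1 * (-gf + B1 * T') := by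
    calc g ^ p = wp * L * U := by rw [hg, mul_pow, hf]; ring
      _ = (wp * P) * U - Pp * B1 * gf * (wp * U) - Pp * B1 * B1 * T1 * wp * U := by rw [e2]; ring
      _ = U - Pp * B1 * gf * ((1 + B1 * Q) * (1 + B1 * U')) - Pp * B1 * B1 * T1 * wp * U := by
          rw [e3, e7, one_mul]
      _ = 1 + Bp * H + Pp * B1 * (-gf + B1 * T') := by
          rw [hT']
          linear_combination e5
  have hlp : lam ^ p = lam ^ (p - 1) * lam := by
    rw [← pow_succ, Nat.sub_add_cancel hp.one_le]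
  have hnl : ¬ lam ^ p ∣ (p : R) * b1 := by
    intro hd
    obtain ⟨ε, hε⟩ := hlam
    have h1 : lam ^ (p - 1) * lam ∣ lam ^ (p - 1) * b1 := by
      rw [← hlp, ← hε]
      exact hd.trans ⟨(ε : R), by ring⟩
    have h2 : lam ∣ b1 := (mul_dvd_mul_iff_left (pow_ne_zero _ hlam0)).mp h1
    exact hbl (hb1 ▸ pow_dvd_pow_of_dvd h2 p)
  have hcm : IsUnit (coeff m gf) := by
    have : IsUnit (coeff m gf ^ p) := by rw [hgf]; exact hmu
    exact (isUnit_pow_iff hp.ne_zero).mp this
  have hPB : Pp * B1 = C ((p : R) * b1) := by rw [map_mul, hCp]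
  rcases ValuationRing.dvd_total (b ^ p) ((p : R) * b1) with ⟨ν, hν⟩ | ⟨ν, hν⟩
  · by_cases hνu : IsUnit ν
    · obtain ⟨u, rfl⟩ := hνu
      exact ⟨u, hν.symm⟩
    · exfalso
      have hY : g ^ p = 1 + C (b ^ p) * (H + C ν * (-gf + B1 * T')) := by
        rw [main, hPB, hν, map_mul]
        ring
      have hnl' : ¬ lam ^ p ∣ b ^ p := fun hd => hnl (hd.trans ⟨ν, hν⟩)
      apply formalP_abs hp hpR hlam0 hlam arch hY hnl' m hmp
      rw [map_add, coeff_C_mul]
      exact L3_isUnit_add hmH (L3_not_isUnit_mul _ hνu)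
  · by_cases hνu : IsUnit ν
    · obtain ⟨u, rfl⟩ := hνu
      exact (Associated.symm ⟨u, hν.symm⟩)
    · exfalso
      have hY : g ^ p = 1 + C ((p : R) * b1) * (-gf + (B1 * T' + C ν * H)) := by
        rw [main, hPB, hBp, hν, map_mul ((C : R →+* PowerSeries R)) ((p : R) * b1) ν]
        ring
      apply formalP_abs hp hpR hlam0 hlam arch hY hnl m hmp
      rw [map_add, map_add, map_neg, hB1, coeff_C_mul, coeff_C_mul]
      exact L3_isUnit_add hcm.neg
        (L3_not_isUnit_add (L3_not_isUnit_mul _ hb1u) (L3_not_isUnit_mul _ hνu))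

end val

end Fermat.Agent.S33
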