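import Mathlib

/-!
# S33, piece P3 (abstract half): Kummer extensions of prime degree
-/

set_option autoImplicit false

namespace Fermat.Agent.S33.P3

open Polynomial IntermediateField

section abs

variable {E E' : Type*} [Field E] [Field E'] [Algebra E E']

theorem minpoly_eq_of_pow {p : ℕ} (hp : p.Prime) (v : E') (u : E)
    (h : algebraMap E E' u = v ^ p) (hne : ∀ b : E, b ^ p ≠ u) :
    minpoly E v = X ^ p - C u := by
  have hirr : Irreducible (X ^ p - C u : E[X]) := X_pow_sub_C_irreducible_of_prime hp hne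
  have hmon : (X ^ p - C u : E[X]).Monic := monic_X_pow_sub_C u hp.ne_zero
  refine (minpoly.eq_of_irreducible_of_monic hirr ?_ hmon).symm
  simp [h]

theorem dvd_finrank_of_pow [FiniteDimensional E E'] {p : ℕ} (hp : p.Prime) (v : E') (u : E)
    (h : algebraMap E E' u = v ^ p) (hne : ∀ b : E, b ^ p ≠ u) : p ∣ Module.finrank E E' := by
  have hm := minpoly_eq_of_pow hp v u h hne
  have hint : IsIntegral E v := Algebra.IsIntegral.isIntegral v
  have h1 : Module.finrank E E⟮v⟯ = p := by
    rw [IntermediateField.adjoin.finrank hint, hm, natDegree_X_pow_sub_C]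
  rw [← Module.finrank_mul_finrank E E⟮v⟯ E', h1]
  exact dvd_mul_right _ _

theorem exists_of_unique_root [FiniteDimensional E E'] {p : ℕ} (hp : p.Prime)
    (hd : Module.finrank E E' = p) (ω : E) (hω : ω ^ p = 1) (hω1 : ω ≠ 1) (v : E') (u : E)
    (h : algebraMap E E' u = v ^ p) (hne : ∀ b : E, b ^ p ≠ u) (P : E[X]) (y : E')
    (hy : aeval y P = 0) (huniq : ∀ y' : E', aeval y' P = 0 → y' = y) :
    ∃ a : E, algebraMap E E' a = y := by
  have hm := minpoly_eq_of_pow hp v u h hne
  have hmon : (X ^ p - C u : E[X]).Monic := monic_X_pow_sub_C u hp.ne_zero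
  have hint : IsIntegral E v := Algebra.IsIntegral.isIntegral v
  have htop : E⟮v⟯ = ⊤ := (Field.primitive_element_iff_minpoly_natDegree_eq E v).mpr (by
    rw [hm, natDegree_X_pow_sub_C, hd])
  have hy1 : y ∈ Algebra.adjoin E {v} := by
    rw [← IntermediateField.adjoin_simple_toSubalgebra_of_isAlgebraic hint.isAlgebraic, htop]
    trivial
  rw [Algebra.adjoin_singleton_eq_range_aeval] at hy1
  obtain ⟨g0, hg0⟩ := hy1
  replace hg0 : aeval v g0 = y := hg0
  have hvm : aeval v (X ^ p - C u : E[X]) = 0 := by simp [h]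
  set g := g0 %ₘ (X ^ p - C u) with hg
  have hgy : aeval v g = y := by
    have := modByMonic_add_div g0 (X ^ p - C u)
    rw [← hg0, ← this, map_add, map_mul, hvm, zero_mul, add_zero]
  have hgdeg : g.degree < (p : WithBot ℕ) := by
    have := degree_modByMonic_lt g0 hmon
    rwa [degree_X_pow_sub_C hp.pos] at this
  have hωv : aeval (algebraMap E E' ω * v) (X ^ p - C u : E[X]) = 0 := by
    rw [map_sub, map_pow, aeval_X, aeval_C, mul_pow, ← map_pow, hω, map_one, one_mul, h, sub_self]
  have h1 : aeval v (P.comp g) = 0 := by rw [aeval_comp, hgy, hy]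
  have h2 : (X ^ p - C u : E[X]) ∣ P.comp g := by rw [← hm]; exact minpoly.dvd E v h1
  have h3 : aeval (algebraMap E E' ω * v) (P.comp g) = 0 := by
    obtain ⟨c, hc⟩ := h2
    rw [hc, map_mul, hωv, zero_mul]
  rw [aeval_comp] at h3
  have h4 := huniq _ h3
  have h5 : aeval v (g.comp (C ω * X)) = y := by
    rw [aeval_comp, map_mul, aeval_C, aeval_X, h4]
  have h6 : g.comp (C ω * X) - g = 0 := by
    by_contra hne0
    have hle := minpoly.degree_le_of_ne_zero E v hne0 (by rw [map_sub, h5, hgy, sub_self])
    rw [hm, degree_X_pow_sub_C hp.pos] at hle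
    have hlt : (g.comp (C ω * X) - g).degree < (p : WithBot ℕ) := by
      refine lt_of_le_of_lt (degree_sub_le _ _) (max_lt ?_ hgdeg)
      by_cases hg0' : g = 0
      · rw [hg0', zero_comp, degree_zero]; exact WithBot.bot_lt_coe _
      · refine lt_of_le_of_lt degree_le_natDegree ?_
        have hn : g.natDegree < p := (natDegree_lt_iff_degree_lt hg0').mpr hgdeg
        have hc : (g.comp (C ω * X)).natDegree ≤ g.natDegree := by
          refine natDegree_comp_le.trans ?_
          have : (C ω * X : E[X]).natDegree ≤ 1 :=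
            (natDegree_C_mul_le ω X).trans natDegree_X_le
          nlinarith
        exact_mod_cast lt_of_le_of_lt hc hn
    exact absurd hle (not_le.mpr hlt)
  haveI : Fact p.Prime := ⟨hp⟩
  have hord : orderOf ω = p := orderOf_eq_prime hω hω1
  have hcoeff : ∀ i, i ≠ 0 → g.coeff i = 0 := by
    intro i hi
    by_cases hip : i < p
    · have h7 := congrArg (fun q => q.coeff i) h6
      simp only [coeff_sub, comp_C_mul_X_coeff, coeff_zero] at h7
      have h8 : g.coeff i * (ω ^ i - 1) = 0 := by rw [mul_sub, mul_one]; exact h7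
      rcases mul_eq_zero.mp h8 with h9 | h9
      · exact h9
      · exfalso
        have : p ∣ i := by
          rw [← hord]; exact orderOf_dvd_of_pow_eq_one (sub_eq_zero.mp h9)
        exact absurd (Nat.le_of_dvd (Nat.pos_of_ne_zero hi) this) (not_le.mpr hip)
    · exact coeff_eq_zero_of_degree_lt (lt_of_lt_of_le hgdeg (by exact_mod_cast not_lt.mp hip))
  refine ⟨g.coeff 0, ?_⟩
  have hgC : g = C (g.coeff 0) := by
    ext i
    rcases eq_or_ne i 0 with rfl | hi
    · simp
    · rw [hcoeff i hi, coeff_C, if_neg hi]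
  rw [← hgy, hgC, aeval_C, coeff_C_zero]

/-- an element algebraic over an algebraically closed subfield is a constant -/
theorem exists_algebraMap_eq_of_pow_eq_one {K L : Type*} [Field K] [IsAlgClosed K] [Field L]
    [Algebra K L] {n : ℕ} (hn : 0 < n) (y : L) (hy : y ^ n = 1) : ∃ c : K, algebraMap K L c = y := by
  have hint : IsIntegral K y := ⟨X ^ n - 1, monic_X_pow_sub_C 1 hn.ne', by simp [hy]⟩
  have := minpoly.mem_range_of_degree_eq_one K y
    (IsAlgClosed.degree_eq_one_of_irreducible K (minpoly.irreducible hint))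
  exact this

end abs

end Fermat.Agent.S33.P3
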