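import Fermat.Agent.S33.P3

/-!
# S33, piece P3, adapter: the hypothesis `P3` of `C2_fix` for `M₁ = 4 * M`
-/

set_option autoImplicit false

namespace Fermat.Agent.S33

open Fermat.Agent.S18 Fermat.Agent.S28 Fermat.Agent.S24

/-- The pull back `F_{pM}^× / p → F_{pM₁}^× / p`, `M₁ = 4 M`, is injective (`p` odd). -/
theorem P3_inj {p M M₁ : ℕ} [NeZero p] [NeZero M] (hp : p.Prime) (hp2 : p ≠ 2)
    (hM₁ : M₁ = 4 * M) (hMM₁ : M ∣ M₁) :
    ∀ u : FN (p * M), (∃ v : FN (p * M₁), inclFN (mul_dvd_mul_left p hMM₁) u = v ^ p) →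
      ∃ v : FN (p * M), u = v ^ p := by
  rintro u ⟨v, hv⟩
  exact P3.exists_pow_eq_of_inclFN_eq_pow hp hp2 (by rw [hM₁]; ring) (mul_dvd_mul_left p hMM₁) u v hv

end Fermat.Agent.S33
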