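import Fermat.Agent.S33.C1
import Fermat.Agent.S33.C3b
import Fermat.Agent.S33.FixAll
import Fermat.Agent.S33.G1

/-!
# S33: the assembly PROV (`TorData` for the tower of the analytic data), with F2 as the only hypothesis
-/

set_option autoImplicit false
set_option linter.unusedSectionVars false

namespace Fermat.Agent.S33

open ModularCurve AlgebraicCurve HahnSeries Fermat.Agent.S24 Fermat.Agent.S28 Fermat.Agent.S18
  Fermat.Agent.GR Fermat.Agent.S34 Fermat.Agent.S35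

variable {p M : ℕ} [NeZero p] [NeZero M] [NeZero (p * M)] [Fact p.Prime]

/-- **PROV** (assembly of G1, C1, C2, C3, P3), F2 (`fixN`) being a hypothesis. -/
theorem exists_torData_of (hp : p.Prime) (hp2 : p ≠ 2) (hpM : ¬ p ∣ M) [NeZero (4 * M)]
    (hpM₁ : ¬ p ∣ 4 * M)
    (hF2 : ∀ (A : ValuationSubring Kb) (_ : A.LiesOverPrime p) [CharP (kA A) p] (τ₀ : GQ)
      (_ : IsTau0 A p τ₀) (w₁ : FN (p * (4 * M)) ≃ₐ[Kb] FN (p * (4 * M)))
      (hw₁ : S35.IsWq p (4 * M) w₁) (ζ : Kbˣ) (hζ : IsPrimitiveRoot ζ p) (z : FN (p * (4 * M))),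
      z ∈ (gauss2 A hpM₁ hw₁.spec).V → (gauss2 A hpM₁ hw₁.spec).rd z = 1 →
      DvdOrd (p * (4 * M)) p z → (∃ g : FN (p * (4 * M)), galF (p * (4 * M)) τ₀ z = z * g ^ p) →
      TpFin p (4 * M) ζ ⟨N1 w₁ ζ z, N1_mem hw₁ hζ hp hpM₁ z⟩ →
      TpFin p (4 * M) ζ ⟨N1 w₁ ζ (w₁ z), N1_mem hw₁ hζ hp hpM₁ (w₁ z)⟩ →
      ∃ g : FN (p * (4 * M)), z = g ^ p) :
    ∃ D : AnData p (p * M), ∀ P : ValuationSubring Qb, P.LiesOverPrime p →
      Nonempty (TorData (towerOfAnData D) P) := by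
  have i1 : NeZero (p * (4 * M)) := ⟨mul_ne_zero (NeZero.ne p) (NeZero.ne (4 * M))⟩
  obtain ⟨D, HD⟩ := exists_anData_tpFin (p := p) (M := M) hp hpM
  obtain ⟨w₁, hw₁⟩ := exists_isWq (q := p) (M := 4 * M) hp hpM₁
  refine ⟨D, fun P hP => ?_⟩
  obtain ⟨τ₀, hτ₀⟩ := exists_isTau0 hp hp2 P hP
  have hdv : M ∣ 4 * M := Dvd.intro_left 4 rfl
  have := charP_kA hp hP
  exact ⟨{ L := C1_torL P hdv w₁ D
           L_dec := fun n σ hσ x hx => C1_torL_dec hdv hpM₁ hP hw₁ n σ hσ x hx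
           L_in := fun n τ hτ x => C1_torL_in hdv hpM₁ hP hw₁ n τ hτ x
           τ₀ := τ₀
           τ₀_mem := hτ₀.1
           τ₀_ne := hτ₀.2
           fix := fun n x hx hfix => Subtype.ext
              (fix_all_of hp hp2 hP hw₁ hpM₁
                (fun ζ hζ z a b c d e f => hF2 P hP τ₀ hτ₀ w₁ hw₁ ζ hζ z a b c d e f) D
                (fun ζ hζ n v hv hm => HD (4 * M) hdv hpM₁ w₁ hw₁ ζ hζ n v hv hm) n
                (show AS D n from x).2 hx (congrArg Subtype.val hfix)) }⟩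

end Fermat.Agent.S33
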