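import Fermat.Agent.S34.Gauss2Gal
import Fermat.Agent.GR.Cyclo
import Fermat.Agent.S33.ModDefs
import Fermat.Agent.S33.A2

/-!
# S33, piece TH: the tame character `th(τ, c) = residue of τ c / c` of an inertia element

`Th1 A τ c` means `th(τ, c) = 1`, i.e. `|τ c / c - 1| < 1`.

* `TH_val`, `TH_div_mem` : `|τ c| = |c|`, `τ c / c ∈ A`;
* `Th1.mul`, `Th1.pow`, `Th1.of_mul_left`, `Th1.congr` (depends only on `|c|`), `Th1.of_pow_p`;
* `TH_val_lam` : `|ζ - 1|^(p-1) = |p|`;  `TH_not_lam` : `¬ Th1 A τ₀ (ζ - 1)` for `IsTau0 A p τ₀`;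
* `TH_caseB`  : `|p| = |c|^(p-1) → ¬ Th1 A τ₀ c`;
* `TH_final`  : `|b|^(p p) = |p|^p |b|` (output of L3) `→ ¬ Th1 A τ₀ b`;
* `TH_resA`   : bridge `S.resA ⟨y, _⟩ = 1 ↔ |y - 1| < 1` for a `RedCore`.
-/

set_option autoImplicit false

namespace Fermat.Agent.S33

open Fermat.Agent.S24 Fermat.Agent.S18 Fermat.Agent.GR Fermat.Agent.S34

/-- `th(τ, c) = 1`. -/
def Th1 (A : ValuationSubring Kb) (τ : GQ) (c : Kb) : Prop := A.valuation (τ c / c - 1) < 1

variable {A : ValuationSubring Kb} {τ : GQ}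

theorem TH_mem_dec (hτ : τ ∈ A.inertiaSubgroupIn ℚ) : τ ∈ A.decompositionSubgroup ℚ := by
  obtain ⟨g, -, rfl⟩ := hτ
  exact g.2

theorem TH_val (hτ : τ ∈ A.inertiaSubgroupIn ℚ) (c : Kb) : A.valuation (τ c) = A.valuation c :=
  g2_valuation_gal A (TH_mem_dec hτ) c

theorem TH_val_div (hτ : τ ∈ A.inertiaSubgroupIn ℚ) {c : Kb} (hc : c ≠ 0) :
    A.valuation (τ c / c) = 1 := by
  rw [map_div₀, TH_val hτ, div_self ((A.valuation.ne_zero_iff).mpr hc)]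

theorem TH_div_mem (hτ : τ ∈ A.inertiaSubgroupIn ℚ) (c : Kb) : τ c / c ∈ A := by
  by_cases hc : c = 0
  · subst hc; simp
  · exact (A.valuation_le_one_iff _).mp (TH_val_div hτ hc).le

theorem Th1.of_unit (hτ : τ ∈ A.inertiaSubgroupIn ℚ) {ε : Kb} (hε : A.valuation ε = 1) :
    Th1 A τ ε := by
  have h0 : ε ≠ 0 := by
    rintro rfl
    rw [map_zero] at hε
    exact zero_ne_one hε
  have h1 := cyc_inertia_spec A hτ ε hε.le
  have e : τ ε / ε - 1 = (τ ε - ε) / ε := by field_simp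
  rw [Th1, e, map_div₀, hε, div_one]
  exact h1

theorem Th1.mul (hτ : τ ∈ A.inertiaSubgroupIn ℚ) {c d : Kb} (hc : c ≠ 0) (hd : d ≠ 0)
    (h1 : Th1 A τ c) (h2 : Th1 A τ d) : Th1 A τ (c * d) := by
  have e : τ (c * d) / (c * d) - 1 = (τ c / c - 1) * (τ d / d) + (τ d / d - 1) := by
    rw [map_mul]; field_simp; ring
  rw [Th1, e]
  refine lt_of_le_of_lt (A.valuation.map_add _ _) (max_lt ?_ h2)
  rw [map_mul, TH_val_div hτ hd, mul_one]
  exact h1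

theorem Th1.one : Th1 A τ 1 := by
  rw [Th1, map_one, div_one, sub_self, map_zero]; exact zero_lt_one

theorem Th1.pow (hτ : τ ∈ A.inertiaSubgroupIn ℚ) {c : Kb} (hc : c ≠ 0) (h1 : Th1 A τ c) (n : ℕ) :
    Th1 A τ (c ^ n) := by
  induction n with
  | zero => rw [pow_zero]; exact Th1.one
  | succ n ih => rw [pow_succ]; exact Th1.mul hτ (pow_ne_zero _ hc) hc ih h1

theorem Th1.of_mul_left (hτ : τ ∈ A.inertiaSubgroupIn ℚ) {c d : Kb} (hc : c ≠ 0) (hd : d ≠ 0)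
    (h : Th1 A τ (c * d)) (h1 : Th1 A τ c) : Th1 A τ d := by
  have e : τ d / d - 1 = (τ (c * d) / (c * d) - 1) - (τ c / c - 1) * (τ d / d) := by
    rw [map_mul]; field_simp; ring
  rw [Th1, e]
  refine lt_of_le_of_lt (A.valuation.map_sub _ _) (max_lt h ?_)
  rw [map_mul, TH_val_div hτ hd, mul_one]
  exact h1

/-- `th(τ, c)` depends only on `|c|`. -/
theorem Th1.congr (hτ : τ ∈ A.inertiaSubgroupIn ℚ) {c d : Kb} (hc : c ≠ 0)
    (hv : A.valuation c = A.valuation d) (h : Th1 A τ c) : Th1 A τ d := by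
  have hd : d ≠ 0 := by
    rintro rfl
    rw [map_zero] at hv
    exact hc ((A.valuation.zero_iff).mp hv)
  have hε : A.valuation (d / c) = 1 := by
    rw [map_div₀, hv, div_self ((A.valuation.ne_zero_iff).mpr hd)]
  have e : d = c * (d / c) := by field_simp
  rw [e]
  exact Th1.mul hτ hc (div_ne_zero hd hc) h (Th1.of_unit hτ hε)

/-- in residue characteristic `p`: `|x^p - 1| < 1 → |x - 1| < 1`. -/
theorem TH_sub_one_of_pow {p : ℕ} (hp : p.Prime) (hA : A.LiesOverPrime p) {x : Kb} (hx : x ∈ A)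
    (h : A.valuation (x ^ p - 1) < 1) : A.valuation (x - 1) < 1 := by
  have := Fact.mk hp
  have := charP_kA hp hA
  have h1 : IsLocalRing.residue A ((⟨x, hx⟩ : A) ^ p - 1) = 0 := by
    rw [IsLocalRing.residue_eq_zero_iff, A.valuation_lt_one_iff]
    exact h
  have h2 : (IsLocalRing.residue A (⟨x, hx⟩ : A) - 1) ^ p = 0 := by
    rw [sub_pow_char, one_pow, ← map_pow, ← map_one (IsLocalRing.residue A), ← map_sub]
    exact h1
  have h3 : IsLocalRing.residue A ((⟨x, hx⟩ : A) - 1) = 0 := by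
    rw [map_sub, map_one]
    exact pow_eq_zero_iff hp.ne_zero |>.1 h2
  rw [IsLocalRing.residue_eq_zero_iff, A.valuation_lt_one_iff] at h3
  exact h3

theorem Th1.of_pow_p (hτ : τ ∈ A.inertiaSubgroupIn ℚ) {p : ℕ} (hp : p.Prime)
    (hA : A.LiesOverPrime p) {c : Kb} (h : Th1 A τ (c ^ p)) : Th1 A τ c := by
  apply TH_sub_one_of_pow hp hA (TH_div_mem hτ c)
  rw [div_pow, ← map_pow]
  exact h

/-- `|n| = 1` for an integer prime to `p`. -/
theorem TH_val_natCast {p : ℕ} (hp : p.Prime) (hA : A.LiesOverPrime p) {n : ℕ} (hn : ¬ p ∣ n) :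
    A.valuation (n : Kb) = 1 := by
  have hle : A.valuation (n : Kb) ≤ 1 := (A.valuation_le_one_iff _).mpr (natCast_mem A n)
  refine le_antisymm hle (not_lt.1 fun hlt => ?_)
  have hcop : IsCoprime (n : ℤ) (p : ℤ) :=
    (Nat.isCoprime_iff_coprime.2 ((Nat.Prime.coprime_iff_not_dvd hp).2 hn)).symm
  obtain ⟨a, b, hab⟩ := hcop
  have hab' : (a : Kb) * (n : Kb) + (b : Kb) * (p : Kb) = 1 := by exact_mod_cast congrArg (Int.cast : ℤ → Kb) hab
  have hpv : A.valuation (p : Kb) < 1 := A.mem_nonunits_iff.mp hA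
  have h1 : A.valuation ((a : Kb) * (n : Kb) + (b : Kb) * (p : Kb)) < 1 := by
    refine lt_of_le_of_lt (A.valuation.map_add _ _) (max_lt ?_ ?_)
    · rw [map_mul]
      exact lt_of_le_of_lt (mul_le_of_le_one_left zero_le (cyc_val_int A a)) hlt
    · rw [map_mul]
      exact lt_of_le_of_lt (mul_le_of_le_one_left zero_le (cyc_val_int A b)) hpv
  rw [hab', map_one] at h1
  exact lt_irrefl _ h1

/-- `|ζ - 1| < 1` for `ζ ^ p = 1`. -/
theorem TH_val_sub_one_lt {p : ℕ} (hp : p.Prime) (hA : A.LiesOverPrime p) {ζ : Kb}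
    (hζ : ζ ^ p = 1) : A.valuation (ζ - 1) < 1 := by
  have hζA : ζ ∈ A := (A.valuation_le_one_iff _).mp (cyc_val_root A hp.ne_zero hζ).le
  apply TH_sub_one_of_pow hp hA hζA
  rw [hζ, sub_self, map_zero]
  exact zero_lt_one

/-- `(ζ^a - 1)/(ζ - 1) ≡ a`. -/
theorem TH_geom {p : ℕ} (hp : p.Prime) (hA : A.LiesOverPrime p) {ζ : Kb} (hζ : ζ ^ p = 1)
    (hζ1 : ζ ≠ 1) (a : ℕ) : A.valuation ((ζ ^ a - 1) / (ζ - 1) - (a : Kb)) < 1 := by
  have h0 : ζ - 1 ≠ 0 := sub_ne_zero.2 hζ1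
  have hlt := TH_val_sub_one_lt hp hA hζ
  have hζv : A.valuation ζ = 1 := cyc_val_root A hp.ne_zero hζ
  induction a with
  | zero => simp
  | succ a ih =>
    have e : (ζ ^ (a + 1) - 1) / (ζ - 1) - ((a + 1 : ℕ) : Kb) =
        ((ζ ^ a - 1) / (ζ - 1) - (a : Kb)) + (ζ ^ a - 1) := by
      push_cast
      field_simp
      ring
    rw [e]
    refine lt_of_le_of_lt (A.valuation.map_add _ _) (max_lt ih ?_)
    apply TH_sub_one_of_pow hp hA
      ((A.valuation_le_one_iff _).mp (by rw [map_pow, hζv, one_pow]))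
    rw [← pow_mul, mul_comm, pow_mul, hζ, one_pow, sub_self, map_zero]
    exact zero_lt_one

/-- `|ζ^a - 1| = |ζ - 1|` for `p ∤ a`. -/
theorem TH_val_pow_sub_one {p : ℕ} (hp : p.Prime) (hA : A.LiesOverPrime p) {ζ : Kb} (hζ : ζ ^ p = 1)
    (hζ1 : ζ ≠ 1) {a : ℕ} (ha : ¬ p ∣ a) : A.valuation (ζ ^ a - 1) = A.valuation (ζ - 1) := by
  have h0 : ζ - 1 ≠ 0 := sub_ne_zero.2 hζ1
  have h1 := TH_geom hp hA hζ hζ1 a
  have h2 := TH_val_natCast hp hA ha
  have h3 : A.valuation ((ζ ^ a - 1) / (ζ - 1)) = 1 := by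
    have e : (ζ ^ a - 1) / (ζ - 1) = ((ζ ^ a - 1) / (ζ - 1) - (a : Kb)) + (a : Kb) := by ring
    rw [e, A.valuation.map_add_eq_of_lt_right (by rw [h2]; exact h1), h2]
  rw [map_div₀] at h3
  exact (div_eq_one_iff_eq ((A.valuation.ne_zero_iff).mpr h0)).1 h3

/-- `|ζ - 1|^(p-1) = |p|`. -/
theorem TH_val_lam {p : ℕ} (hp : p.Prime) (hA : A.LiesOverPrime p) {ζ : Kb}
    (hζ : ζ ^ p = 1) (hζ1 : ζ ≠ 1) : A.valuation (ζ - 1) ^ (p - 1) = A.valuation (p : Kb) := by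
  have h0 : ζ - 1 ≠ 0 := sub_ne_zero.2 hζ1
  have hlt := TH_val_sub_one_lt hp hA hζ
  have hlA : ζ - 1 ∈ A := (A.valuation_le_one_iff _).mp hlt.le
  obtain ⟨r, hr⟩ := a2_add_pow_prime hp (1 : A) ⟨ζ - 1, hlA⟩
  have hr' : (1 + (ζ - 1)) ^ p = 1 ^ p + (ζ - 1) ^ p + (p : Kb) * (ζ - 1) * (1 ^ (p - 1) + (ζ - 1) * (r : Kb)) := by
    have := congrArg (Subtype.val) hr
    simpa using this
  have e1 : (ζ - 1) ^ (p - 1) = - ((p : Kb) * (1 + (ζ - 1) * (r : Kb))) := by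
    have e2 : (ζ - 1) ^ p = (ζ - 1) ^ (p - 1) * (ζ - 1) := by
      rw [← pow_succ, Nat.sub_add_cancel hp.one_le]
    rw [add_sub_cancel, hζ, one_pow, one_pow, e2] at hr'
    apply mul_right_cancel₀ h0
    linear_combination -hr'
  have e3 : A.valuation (1 + (ζ - 1) * (r : Kb)) = 1 := by
    rw [A.valuation.map_add_eq_of_lt_left, map_one]
    rw [map_one, map_mul]
    exact lt_of_le_of_lt (mul_le_of_le_one_right zero_le ((A.valuation_le_one_iff _).mpr r.2)) hlt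
  rw [← map_pow, e1, Valuation.map_neg, map_mul, e3, mul_one]

/-- **`th(τ₀, ζ - 1) ≠ 1`.** -/
theorem TH_not_lam {p : ℕ} (hp : p.Prime) (hA : A.LiesOverPrime p) {τ₀ : GQ}
    (hτ₀ : IsTau0 A p τ₀) {ζ : Kb} (hζ : IsPrimitiveRoot ζ p) : ¬ Th1 A τ₀ (ζ - 1) := by
  intro h
  have hζ1 : ζ ≠ 1 := hζ.ne_one hp.one_lt
  have h0 : ζ - 1 ≠ 0 := sub_ne_zero.2 hζ1
  have hτζ : (τ₀ ζ) ^ p = 1 := by rw [← map_pow, hζ.pow_eq_one, map_one]
  have := NeZero.mk hp.ne_zero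
  obtain ⟨a, hap, ha⟩ := hζ.eq_pow_of_pow_eq_one hτζ
  have hne := hτ₀.2 ζ hζ.pow_eq_one hζ1
  have h1 := TH_geom hp hA hζ.pow_eq_one hζ1 a
  have e : τ₀ (ζ - 1) / (ζ - 1) = (ζ ^ a - 1) / (ζ - 1) := by
    rw [map_sub, map_one, ← ha]
  rw [Th1, e] at h
  -- `|a - 1| < 1`
  have h2 : A.valuation ((a : Kb) - 1) < 1 := by
    have e2 : (a : Kb) - 1 = ((ζ ^ a - 1) / (ζ - 1) - 1) - ((ζ ^ a - 1) / (ζ - 1) - (a : Kb)) := by ring
    rw [e2]
    exact lt_of_le_of_lt (A.valuation.map_sub _ _) (max_lt h h1)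
  have ha0 : a ≠ 0 := by
    rintro rfl
    rw [pow_zero] at ha
    have : τ₀ ζ = τ₀ 1 := by rw [← ha, map_one]
    exact hζ1 (τ₀.injective this)
  have ha1 : a ≠ 1 := by
    rintro rfl
    rw [pow_one] at ha
    exact hne ha.symm
  have hnd : ¬ p ∣ a - 1 := fun hd => by
    have := Nat.le_of_dvd (by omega) hd
    omega
  have h3 := TH_val_natCast hp hA hnd
  rw [Nat.cast_sub (by omega), Nat.cast_one] at h3
  rw [h3] at h2
  exact lt_irrefl _ h2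

/-- **case B is impossible**: `|p| = |c|^(p-1)` forces `th(τ₀, c) ≠ 1`. -/
theorem TH_caseB {p : ℕ} (hp : p.Prime) (hA : A.LiesOverPrime p) {τ₀ : GQ}
    (hτ₀ : IsTau0 A p τ₀) {c : Kb} (hc : A.valuation (p : Kb) = A.valuation c ^ (p - 1)) :
    ¬ Th1 A τ₀ c := by
  intro h
  have := NeZero.mk hp.ne_zero
  obtain ⟨ζ, hζ⟩ := HasEnoughRootsOfUnity.exists_primitiveRoot Kb p
  have hζ1 : ζ ≠ 1 := hζ.ne_one hp.one_lt
  have hp1 : p - 1 ≠ 0 := by have := hp.two_le; omega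
  have hc0 : c ≠ 0 := by
    rintro rfl
    rw [map_zero, zero_pow hp1] at hc
    exact (Nat.cast_ne_zero.2 hp.ne_zero) ((A.valuation.zero_iff).mp hc)
  have hv : A.valuation c = A.valuation (ζ - 1) := by
    have h1 := TH_val_lam hp hA hζ.pow_eq_one hζ1
    rw [hc] at h1
    exact ((pow_left_inj₀ zero_le zero_le hp1).1 h1).symm
  exact TH_not_lam hp hA hτ₀ hζ (h.congr hτ₀.1 hc0 hv)

/-- **the final contradiction of F1**: the output `|b|^(p p) = |p|^p |b|` of L3 forces `th(τ₀, b) ≠ 1`. -/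
theorem TH_final {p : ℕ} (hp : p.Prime) (hA : A.LiesOverPrime p) {τ₀ : GQ}
    (hτ₀ : IsTau0 A p τ₀) {b : Kb} (hb0 : b ≠ 0)
    (hb : A.valuation b ^ (p * p) = A.valuation (p : Kb) ^ p * A.valuation b) :
    ¬ Th1 A τ₀ b := by
  intro h
  have := NeZero.mk hp.ne_zero
  obtain ⟨ζ, hζ⟩ := HasEnoughRootsOfUnity.exists_primitiveRoot Kb p
  have hζ1 : ζ ≠ 1 := hζ.ne_one hp.one_lt
  have h0 : ζ - 1 ≠ 0 := sub_ne_zero.2 hζ1
  have hp1 : p - 1 ≠ 0 := by have := hp.two_le; omega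
  have hvb : A.valuation b ≠ 0 := (A.valuation.ne_zero_iff).mpr hb0
  have h1 := TH_val_lam hp hA hζ.pow_eq_one hζ1
  have h2 : (A.valuation b ^ (p + 1)) ^ (p - 1) = (A.valuation (ζ - 1) ^ p) ^ (p - 1) := by
    apply mul_right_cancel₀ hvb
    rw [← pow_mul, ← pow_succ, ← pow_mul, mul_comm p (p - 1), pow_mul, h1, ← hb]
    congr 1
    obtain ⟨s, rfl⟩ : ∃ s, p = s + 1 := ⟨p - 1, by omega⟩
    simp only [Nat.add_sub_cancel]
    ring
  have h3 : A.valuation (b ^ (p + 1)) = A.valuation ((ζ - 1) ^ p) := by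
    rw [map_pow, map_pow]
    exact (pow_left_inj₀ zero_le zero_le hp1).1 h2
  have h4 : Th1 A τ₀ ((ζ - 1) ^ p) := (h.pow hτ₀.1 hb0 (p + 1)).congr hτ₀.1 (pow_ne_zero _ hb0) h3
  exact TH_not_lam hp hA hτ₀ hζ (h4.of_pow_p hτ₀.1 hp hA)

section bridge
variable {K F k E : Type*} [Field K] [Field F] [Algebra K F] [Field k] [CommRing E] [Algebra k E]

/-- bridge to the form of `A3_inv`. -/
theorem TH_resA (S : RedCore K F k E) {y : K} (hy : y ∈ S.A) :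
    S.resA ⟨y, hy⟩ = 1 ↔ S.A.valuation (y - 1) < 1 := by
  have hy1 : y - 1 ∈ S.A := sub_mem hy (one_mem _)
  have e : S.resA ⟨y, hy⟩ - 1 = S.resA ⟨y - 1, hy1⟩ := by
    rw [← map_one S.resA, ← map_sub]; rfl
  rw [← sub_eq_zero, e]
  constructor
  · intro h
    by_contra hlt
    have h1 : S.A.valuation (y - 1) = 1 :=
      le_antisymm ((S.A.valuation_le_one_iff _).mpr hy1) (not_lt.1 hlt)
    have h0 : y - 1 ≠ 0 := by
      intro h0
      rw [h0, map_zero] at h1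
      exact zero_ne_one h1
    have hinv : (y - 1)⁻¹ ∈ S.A := (S.A.valuation_le_one_iff _).mp (by rw [map_inv₀, h1, inv_one])
    have h2 : (⟨y - 1, hy1⟩ : S.A) * ⟨(y - 1)⁻¹, hinv⟩ = 1 := Subtype.ext (mul_inv_cancel₀ h0)
    have h3 := congrArg S.resA h2
    rw [map_mul, h, zero_mul, map_one] at h3
    exact zero_ne_one h3
  · intro h
    obtain ⟨h', h2⟩ := a2_res_zero S h
    exact h2

end bridge

end Fermat.Agent.S33
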