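import Fermat.Agent.S33.G1b

/-!
# S33, piece THb: the two statements asked by F1T (`F1T_th`, `F1T_div_mem`)
-/

set_option autoImplicit false

namespace Fermat.Agent.S33

open Fermat.Agent.S24 (Kb)
open Fermat.Agent.GR (GQ)

theorem F1T_div_mem (A : ValuationSubring Kb) {τ : GQ} (hτ : τ ∈ A.inertiaSubgroupIn ℚ) (c : Kb) :
    τ c / c ∈ A := by
  by_cases hc : c = 0
  · rw [hc, div_zero]; exact zero_mem _
  · exact G1b_div_mem hτ hc

/-- `residue (τ c / c) = 1` as an inequality of valuations. -/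
theorem TH_residue_iff (A : ValuationSubring Kb) {τ : GQ} {c : Kb} (hc : c ≠ 0)
    (h : τ c / c ∈ A) :
    IsLocalRing.residue A ⟨τ c / c, h⟩ = 1 ↔ A.valuation (τ c - c) < A.valuation c := by
  rw [← G1b_val_div_sub_one A hc]
  have e : A.valuation (τ c / c - 1) = A.valuation (((⟨τ c / c, h⟩ - 1 : A) : A) : Kb) := rfl
  rw [e, ← A.valuation_lt_one_iff, ← IsLocalRing.residue_eq_zero_iff, map_sub, map_one, sub_eq_zero]

theorem F1T_th {p : ℕ} (hp : p.Prime) (hp2 : p ≠ 2) (A : ValuationSubring Kb)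
    (hA : A.LiesOverPrime p) {τ₀ : GQ} (hτ₀ : IsTau0 A p τ₀) {c : Kb} (hc0 : c ≠ 0)
    (hτc : τ₀ c / c ∈ A) (hth : IsLocalRing.residue A ⟨τ₀ c / c, hτc⟩ = 1)
    (hv : A.valuation (c ^ p) ^ (p * p) = A.valuation (p : Kb) ^ p * A.valuation (c ^ p)) :
    False := by
  rw [TH_residue_iff A hc0] at hth
  exact hτ₀.false_of_tpLocal hp hp2 hA (g1_th_one_pow hτ₀.1 hth p) hv

end Fermat.Agent.S33
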