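import Fermat.Agent.S33.C2
import Fermat.Agent.S33.ModDefs
import Fermat.Agent.S37.MopMem

/-!
# S33, TPQ: `TpFin` is a class property; `exists_rep_AS`
-/

set_option autoImplicit false
set_option linter.unusedSectionVars false

namespace Fermat.Agent.S33

open ModularCurve AlgebraicCurve HahnSeries Fermat.Agent.S24 Fermat.Agent.S28 Fermat.Agent.S18
  Fermat.Agent.GR Fermat.Agent.S34 Fermat.Agent.S35

theorem TPQ_Mop_ne_zero {p : ℕ} [NeZero p] {ζ : Kbˣ} (hζ : IsPrimitiveRoot ζ p)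
    {f : LaurentSeries Kb} (hf : f ≠ 0) : Mop ζ p f ≠ 0 := by
  intro h0
  have h2 : Mop ζ p f * Mop ζ p f⁻¹ = 1 := by
    rw [← Mop_mul hζ, mul_inv_cancel₀ hf, Mop_one]
  rw [h0, zero_mul] at h2
  exact zero_ne_one h2

theorem TpFin.mul_pow {p M : ℕ} [NeZero p] [NeZero M] (hp : p.Prime) (hpM : ¬ p ∣ M) {ζ : Kbˣ}
    (hζ : IsPrimitiveRoot ζ p) {y v : FN M} (hv : v ≠ 0) (h : TpFin p M ζ y) :
    TpFin p M ζ (y * v ^ p) := by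
  classical
  obtain ⟨s, h0, hne, hord, hstep, i, j, hij, v2, hv2⟩ := h
  set mv : FN M := ⟨Mop ζ p (v : LaurentSeries Kb), S37.Mop_mem_FN hp hpM hζ v.2⟩ with hmv
  have hmv0 : mv ≠ 0 := fun h => TPQ_Mop_ne_zero hζ (fun h' => hv (Subtype.ext h'))
    (congrArg Subtype.val h)
  refine ⟨Function.update s 0 (y * v ^ p), Function.update_self _ _ _, ?_, ?_, ?_, i, j, hij, ?_⟩
  · intro a
    by_cases ha : a = 0
    · subst ha
      rw [Function.update_self]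
      exact mul_ne_zero (h0 ▸ hne 0) (pow_ne_zero _ hv)
    · rw [Function.update_of_ne ha]; exact hne a
  · intro a
    by_cases ha : a = 0
    · subst ha
      rw [Function.update_self]
      exact (h0 ▸ hord 0).mul (dvdOrd_pow_self p v)
    · rw [Function.update_of_ne ha]; exact hord a
  · intro a
    rw [Function.update_of_ne (Nat.succ_ne_zero a)]
    obtain ⟨v1, hv1⟩ := hstep a
    by_cases ha : a = 0
    · subst ha
      rw [Function.update_self]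
      refine ⟨v1 * mv⁻¹, ?_⟩
      rw [hv1, h0, MulMemClass.coe_mul, SubmonoidClass.coe_pow, Mop_mul hζ, Mop_pow hζ,
        MulMemClass.coe_mul, IntermediateField.coe_inv, _root_.mul_pow, inv_pow]
      have e : ((mv : FN M) : LaurentSeries Kb) = Mop ζ p (v : LaurentSeries Kb) := rfl
      rw [e]
      have e2 := pow_ne_zero p (TPQ_Mop_ne_zero hζ (fun h' => hv (Subtype.ext h')))
      field_simp
    · rw [Function.update_of_ne ha]; exact ⟨v1, hv1⟩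
  · have hj : j ≠ 0 := by omega
    rw [Function.update_of_ne hj]
    by_cases hi : i = 0
    · subst hi
      rw [Function.update_self]
      refine ⟨v2 * v⁻¹, ?_⟩
      rw [hv2, h0, _root_.mul_pow, inv_pow]
      have e2 := pow_ne_zero p hv
      field_simp
    · rw [Function.update_of_ne hi]; exact ⟨v2, hv2⟩


/-- `hQ` of `C2_fix` for the two norms. -/
theorem TPQ_hQ {p M₁ : ℕ} [NeZero p] [NeZero M₁] (hp : p.Prime) (hpM₁ : ¬ p ∣ M₁)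
    {w₁ : FN (p * M₁) ≃ₐ[Kb] FN (p * M₁)} (hw₁ : S35.IsWq p M₁ w₁) {ζ : Kbˣ}
    (hζ : IsPrimitiveRoot ζ p) (z g : FN (p * M₁)) (hg : g ≠ 0)
    (h : TpFin p M₁ ζ ⟨N1 w₁ ζ z, N1_mem hw₁ hζ hp hpM₁ z⟩ ∧
      TpFin p M₁ ζ ⟨N1 w₁ ζ (w₁ z), N1_mem hw₁ hζ hp hpM₁ (w₁ z)⟩) :
    TpFin p M₁ ζ ⟨N1 w₁ ζ (z * g ^ p), N1_mem hw₁ hζ hp hpM₁ (z * g ^ p)⟩ ∧
      TpFin p M₁ ζ ⟨N1 w₁ ζ (w₁ (z * g ^ p)), N1_mem hw₁ hζ hp hpM₁ (w₁ (z * g ^ p))⟩ := by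
  obtain ⟨h1, h2⟩ := h
  have hwg : w₁ g ≠ 0 := by rwa [Ne, map_eq_zero_iff w₁ w₁.injective]
  set a : FN M₁ := ⟨S35.N1 w₁ ζ g, N1_mem hw₁ hζ hp hpM₁ g⟩ with ha
  set a' : FN M₁ := ⟨S35.N1 w₁ ζ (w₁ g), N1_mem hw₁ hζ hp hpM₁ (w₁ g)⟩ with ha'
  have ha0 : a ≠ 0 := fun h => N1_ne_zero hζ hg (congrArg Subtype.val h)
  have ha0' : a' ≠ 0 := fun h => N1_ne_zero hζ hwg (congrArg Subtype.val h)
  have e1 : (⟨N1 w₁ ζ (z * g ^ p), N1_mem hw₁ hζ hp hpM₁ (z * g ^ p)⟩ : FN M₁) =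
      ⟨N1 w₁ ζ z, N1_mem hw₁ hζ hp hpM₁ z⟩ * a ^ p := by
    apply Subtype.ext
    show N1 w₁ ζ (z * g ^ p) = N1 w₁ ζ z * (N1 w₁ ζ g) ^ p
    rw [N1_mul hζ, N1_pow hζ]
  have e2 : (⟨N1 w₁ ζ (w₁ (z * g ^ p)), N1_mem hw₁ hζ hp hpM₁ (w₁ (z * g ^ p))⟩ : FN M₁) =
      ⟨N1 w₁ ζ (w₁ z), N1_mem hw₁ hζ hp hpM₁ (w₁ z)⟩ * a' ^ p := by
    apply Subtype.ext
    show N1 w₁ ζ (w₁ (z * g ^ p)) = N1 w₁ ζ (w₁ z) * (N1 w₁ ζ (w₁ g)) ^ p
    rw [map_mul, map_pow, N1_mul hζ, N1_pow hζ]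
  rw [e1, e2]
  exact ⟨h1.mul_pow hp hpM₁ hζ ha0, h2.mul_pow hp hpM₁ hζ ha0'⟩

/-- every element of `AS D n` has a representative with `p ^ n ∣ div`. -/
theorem exists_rep_AS {p N : ℕ} [NeZero N] (D : AnData p N) (n : ℕ) {x : KQ N (p ^ n)}
    (hx : x ∈ AS D n) : ∃ u : FN N, u ≠ 0 ∧ DvdOrd N (p ^ n) u ∧ cls (p ^ n) u = x := by
  induction hx using AddSubgroup.closure_induction with
  | mem x hx =>
    obtain ⟨⟨g, h⟩, rfl⟩ := hx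
    exact ⟨_, galF_u_ne D n g h, (dvdOrd_u D n h).galF g, rfl⟩
  | zero => exact ⟨1, one_ne_zero, DvdOrd.one, cls_one⟩
  | add x y _ _ hx hy =>
    obtain ⟨u, hu0, hu, rfl⟩ := hx
    obtain ⟨v, hv0, hv, rfl⟩ := hy
    exact ⟨u * v, mul_ne_zero hu0 hv0, hu.mul hv, cls_mul hu0 hv0⟩
  | neg x _ hx =>
    obtain ⟨u, hu0, hu, rfl⟩ := hx
    refine ⟨u⁻¹, inv_ne_zero hu0, hu.inv, ?_⟩
    have h2 : cls (p ^ n) (u * u⁻¹) = 0 := by rw [mul_inv_cancel₀ hu0, cls_one]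
    rw [cls_mul hu0 (inv_ne_zero hu0)] at h2
    exact eq_neg_of_add_eq_zero_right h2

end Fermat.Agent.S33
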