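import Fermat.Agent.S33.KAsm
import Fermat.Agent.S33.ProvOf

/-!
# S33: the statement of S33 from F2 (`fixN`) alone: consumer (KAsm) + provider (ProvOf)
-/

set_option autoImplicit false
set_option linter.unusedSectionVars false

namespace Fermat.Agent.S33

open ModularCurve AlgebraicCurve HahnSeries Fermat.Agent.S24 Fermat.Agent.S28 Fermat.Agent.S18
  Fermat.Agent.GR Fermat.Agent.S34 Fermat.Agent.S35

variable {p : ℕ} {N : ℕ} [NeZero N] {S : Finset ℕ}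
  {𝒪 : Type} [CommRing 𝒪] [IsDomain 𝒪] [IsDiscreteValuationRing 𝒪]
  [IsAdicComplete (IsLocalRing.maximalIdeal 𝒪) 𝒪]
  {θ : CuspForm.heckeAlgebra N 2 (↑S : Set ℕ) →+* IsLocalRing.ResidueField 𝒪}
  {T : Type} [CommRing T] [IsLocalRing T] [IsNoetherianRing T]
  [IsAdicComplete (IsLocalRing.maximalIdeal T) T] [Algebra 𝒪 T] [IsLocalHom (algebraMap 𝒪 T)]
  [Module.Finite 𝒪 T] [Module.Free 𝒪 T]

/-- the statement of F2 (`fixN`) at the level `p M₁`. -/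
def F2Stmt (p M₁ : ℕ) : Prop :=
  ∀ (_ : NeZero p) (_ : NeZero M₁) (_ : Fact p.Prime) (hp : p.Prime) (hpM₁ : ¬ p ∣ M₁)
    (A : ValuationSubring Kb) (_ : A.LiesOverPrime p) (_ : CharP (kA A) p) (τ₀ : GQ)
    (_ : IsTau0 A p τ₀) (w₁ : FN (p * M₁) ≃ₐ[Kb] FN (p * M₁))
    (hw₁ : S35.IsWq p M₁ w₁) (ζ : Kbˣ) (hζ : IsPrimitiveRoot ζ p) (z : FN (p * M₁)),
    z ∈ (gauss2 A hpM₁ hw₁.spec).V → (gauss2 A hpM₁ hw₁.spec).rd z = 1 →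
    DvdOrd (p * M₁) p z → (∃ g : FN (p * M₁), galF (p * M₁) τ₀ z = z * g ^ p) →
    TpFin p M₁ ζ ⟨N1 w₁ ζ z, N1_mem hw₁ hζ hp hpM₁ z⟩ →
    TpFin p M₁ ζ ⟨N1 w₁ ζ (w₁ z), N1_mem hw₁ hζ hp hpM₁ (w₁ z)⟩ →
    ∃ g : FN (p * M₁), z = g ^ p

/-- **S33 from F2.** -/
theorem ordinary_of_F2 [Finite (IsLocalRing.ResidueField 𝒪)]
    (hF2 : ∀ M₁ : ℕ, 4 ∣ M₁ → F2Stmt p M₁)
    (hp : p.Prime) (hp2 : p ≠ 2) (hp𝒪 : (p : 𝒪) ∈ IsLocalRing.maximalIdeal 𝒪)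
    (hN : p ∣ N ∧ ¬ p ^ 2 ∣ N)
    (hNS : ∀ q : ℕ, q.Prime → q ∣ N → q ∈ S)
    (H : CuspForm.HeckeGaloisRepDatum N (↑S : Set ℕ) 𝒪 θ T)
    (hres : (GaloisRepAdic.ofResidualGaloisRep H.ρ.residual).IsOrdinaryAt p) :
    H.ρ.IsOrdinaryAt p := by
  obtain ⟨⟨M, rfl⟩, hN2⟩ := hN
  have i0 : Fact p.Prime := ⟨hp⟩
  have i1 : NeZero p := ⟨hp.ne_zero⟩
  have i2 : NeZero M := ⟨fun h0 => NeZero.ne (p * M) (by rw [h0, mul_zero])⟩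
  have i4 : NeZero (4 * M) := ⟨mul_ne_zero (by norm_num) (NeZero.ne M)⟩
  have hpM : ¬ p ∣ M := by
    rintro ⟨k, rfl⟩
    exact hN2 ⟨k, by ring⟩
  have hpM₁ : ¬ p ∣ 4 * M := by
    intro h
    rcases (Nat.Prime.dvd_mul hp).mp h with h | h
    · have : p ∣ 2 ^ 2 := by simpa using h
      exact hp2 ((Nat.prime_dvd_prime_iff_eq hp Nat.prime_two).mp (hp.dvd_of_dvd_pow this))
    · exact hpM h
  obtain ⟨D, hD⟩ := exists_torData_of (p := p) (M := M) hp hp2 hpM hpM₁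
    (fun A hA iA τ₀ hτ₀ w₁ hw₁ ζ hζ z a b c d e f =>
      hF2 (4 * M) (Dvd.intro M rfl) i1 i4 i0 hp hpM₁ A hA iA τ₀ hτ₀ w₁ hw₁ ζ hζ z a b c d e f)
  refine ordinary_of_tor_A hp (GR.towerOfAnData D) hp𝒪 (hNS p hp (Dvd.intro M rfl)) hNS H hres ?_
  intro P hP
  obtain ⟨t⟩ := hD P hP
  exact ⟨t.L, t.τ₀, t.τ₀_mem, t.τ₀_ne, t.L_dec, t.L_in, t.fix⟩

end Fermat.Agent.S33
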